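import Fermat.Agent.Gal.Basic
import Fermat.Agent.ResidualThree.Automorphic.Tame
import Fermat.Agent.ResidualThree.Automorphic.ThetaInterface
import Fermat.Agent.ResidualThree.Interfaces

/-!
# The cubic descent in two halves

`CubicTransfer`: the twisted trace identity yields an eigenform over `K = ℚ(√-3)`.
`KFormToDatum`: such a form yields a `BianchiDatum` at a level that is cube-free away from `3`.
-/

noncomputable section

open NumberField

namespace Fermat.Agent.ResidualThree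

local notation "Qbar" => AlgebraicClosure ℚ
local notation "Γℚ" => (AlgebraicClosure ℚ ≃ₐ[ℚ] AlgebraicClosure ℚ)

/-- A cusp form over `K` attached to `ρ|K`: spherical with the known eigenvalues where `ρ|K` is
unramified, of tame level at the other places prime to `3`. -/
structure IsKForm (ρ : Γℚ →* GL (Fin 2) (ZMod 3)) (K : IntermediateField ℚ Qbar) [NumberField K]
    (U : Level K) (φ : Gf K → Hyp K → ℂ) : Prop where
  automorphic : IsAutomorphic U φ
  cuspidal : IsCuspidal φ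
  spectral : IsSpectralZero φ
  nonzero : ∃ x p, φ x p ≠ 0
  bounded : ∃ C, ∀ x p, ‖φ x p‖ ≤ C
  level_tame : ∀ (v : FPlace K) (A : ValuationSubring Qbar), LiesOverPlace A v →
    ¬ A.LiesOverPrime 3 → tameSubgroup v ≤ U.J v
  good : ∀ v : FPlace K,
    (∀ A : ValuationSubring Qbar, LiesOverPlace A v →
      ∀ σ ∈ A.inertiaSubgroupIn ℚ, σ ∈ K.fixingSubgroup → ρ σ = 1) →
    U.J v = maxSubgroup v ∧ ∃ a : ℤ, a.natAbs ≤ 2 ∧ HasEigenvalue v (a : ℂ) φ ∧
      ∀ A : ValuationSubring Qbar, LiesOverPlace A v → ∀ σ ∈ K.fixingSubgroup,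
        A.IsFrobeniusAt σ (Ideal.absNorm v.asIdeal) →
          ((a : ℤ) : ZMod 3) = (ρ σ : Matrix (Fin 2) (Fin 2) (ZMod 3)).trace ∧
          (ρ σ ^ 4 = 1 → a = quatTrace (ρ σ)) ∧ (ρ σ ^ 4 ≠ 1 → a ≠ 0)

/-- First half of the cubic descent. -/
def CubicTransfer : Prop :=
  ∀ (ρ : Γℚ →* GL (Fin 2) (ZMod 3)), Continuous ρ → Function.Surjective ρ →
    (∀ σ : Γℚ, Matrix.GeneralLinearGroup.det (ρ σ) =
        WeierstrassCurve.modThreeCyclotomicChar σ) →
    IsUnipotentAwayThree ρ →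
    ∀ (K : IntermediateField ℚ Qbar) [NumberField K],
      (∀ σ : Γℚ, σ ∈ K.fixingSubgroup ↔ WeierstrassCurve.modThreeCyclotomicChar σ = 1) →
      ∃ (U : Level K) (φ : Gf K → Hyp K → ℂ), IsKForm ρ K U φ

/-- Second half of the cubic descent. -/
def KFormToDatum : Prop :=
  ∀ (ρ : Γℚ →* GL (Fin 2) (ZMod 3)), Continuous ρ → Function.Surjective ρ →
    (∀ σ : Γℚ, Matrix.GeneralLinearGroup.det (ρ σ) =
        WeierstrassCurve.modThreeCyclotomicChar σ) →
    IsUnipotentAwayThree ρ →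
    ∀ (K : IntermediateField ℚ Qbar) [NumberField K],
      (∀ σ : Γℚ, σ ∈ K.fixingSubgroup ↔ WeierstrassCurve.modThreeCyclotomicChar σ = 1) →
      ∀ (U : Level K) (φ : Gf K → Hyp K → ℂ), IsKForm ρ K U φ →
        ∃ n₀ : ℕ, 0 < n₀ ∧ (∀ q : ℕ, q.Prime → q ≠ 3 → ¬ q ^ 3 ∣ n₀) ∧
          (IsUnramifiedThreeOverK ρ → ¬ 3 ∣ n₀) ∧ Nonempty (BianchiDatum ρ n₀)

/-- The field cut out by the mod three cyclotomic character. -/
theorem exists_cycloField {ρ : Γℚ →* GL (Fin 2) (ZMod 3)} (hc : Continuous ρ)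
    (hd : ∀ σ : Γℚ, Matrix.GeneralLinearGroup.det (ρ σ) =
      WeierstrassCurve.modThreeCyclotomicChar σ) :
    ∃ (K : IntermediateField ℚ Qbar) (_ : NumberField K),
      ∀ σ : Γℚ, σ ∈ K.fixingSubgroup ↔ WeierstrassCurve.modThreeCyclotomicChar σ = 1 := by
  set K : IntermediateField ℚ Qbar :=
    IntermediateField.fixedField
      ((WeierstrassCurve.modThreeCyclotomicChar : Γℚ →* (ZMod 3)ˣ).ker) with hK
  have hopen : IsOpen (((WeierstrassCurve.modThreeCyclotomicChar : Γℚ →* (ZMod 3)ˣ).ker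
      : Subgroup Γℚ) : Set Γℚ) := by
    have e :
        (((WeierstrassCurve.modThreeCyclotomicChar : Γℚ →* (ZMod 3)ˣ).ker : Subgroup Γℚ) : Set Γℚ) =
        ρ ⁻¹' {g | Matrix.GeneralLinearGroup.det g = 1} := by
      ext σ
      simp [MonoidHom.mem_ker, ← hd]
    rw [e]
    exact (isOpen_discrete _).preimage hc
  have hfix : K.fixingSubgroup = (WeierstrassCurve.modThreeCyclotomicChar : Γℚ →* (ZMod 3)ˣ).ker :=
    InfiniteGalois.fixingSubgroup_fixedField ⟨_, Subgroup.isClosed_of_isOpen _ hopen⟩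
  have : FiniteDimensional ℚ K :=
    (InfiniteGalois.isOpen_iff_finite K).mp (by rw [hfix]; exact hopen)
  have hnf : NumberField K := NumberField.mk
  have hK' : ∀ σ : Γℚ, σ ∈ K.fixingSubgroup ↔ WeierstrassCurve.modThreeCyclotomicChar σ = 1 :=
    fun σ => by rw [hfix, MonoidHom.mem_ker]
  exact ⟨K, hnf, hK'⟩

/-- The two halves give the cubic descent. -/
theorem cubicDescent_of (h₁ : CubicTransfer) (h₂ : KFormToDatum) : CubicDescent := by
  intro ρ hc hs hd hu
  obtain ⟨K, _, hK'⟩ := exists_cycloField hc hd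
  obtain ⟨U, φ, hφ⟩ := h₁ ρ hc hs hd hu K hK'
  exact h₂ ρ hc hs hd hu K hK' U φ hφ

end Fermat.Agent.ResidualThree
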