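import Fermat.Agent.ResidualThree.CubicDescent.GaloisStatement
import Fermat.Agent.ResidualThree.Galois.SplitPrimes
import Fermat.Agent.ResidualThree.Galois.ThreeAdic
import Fermat.Agent.ResidualThree.Orbital.AutHeight

/-!
# Ramified and unramified places of the cubic extension

The places where `ρ|K` ramifies, the two cases at `3`, and the decomposition elsewhere.
-/

noncomputable section

open NumberField IsDedekindDomain
open scoped Pointwise

namespace Fermat.Agent.ResidualThree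

local notation "Qbar" => AlgebraicClosure ℚ
local notation "Γℚ" => (AlgebraicClosure ℚ ≃ₐ[ℚ] AlgebraicClosure ℚ)
local notation "G48" => GL (Fin 2) (ZMod 3)
local notation "M2" => Matrix (Fin 2) (Fin 2) (ZMod 3)

variable {ρ : Γℚ →* G48}

section Generic

variable {F : IntermediateField ℚ Qbar} [NumberField F]

theorem unram_of_not_ramifies {v : FPlace F} (h : ¬ RamifiesAt ρ F v)
    (B : ValuationSubring Qbar) (hB : LiesOverPlace B v) (σ : Γℚ)
    (hσ : σ ∈ B.inertiaSubgroupIn ℚ) (hσF : σ ∈ F.fixingSubgroup) : ρ σ = 1 := by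
  by_contra hne
  exact h ⟨B, hB, σ, hσ, hσF, hne⟩

theorem not_ramifies_of_unram {v : FPlace F}
    (h : ∀ B : ValuationSubring Qbar, LiesOverPlace B v →
      ∀ σ ∈ B.inertiaSubgroupIn ℚ, σ ∈ F.fixingSubgroup → ρ σ = 1) : ¬ RamifiesAt ρ F v :=
  fun ⟨B, hB, σ, hσ, hσF, hne⟩ => hne (h B hB σ hσ hσF)

theorem liesOverPrime_iff_mem {A : ValuationSubring Qbar} {v : FPlace F} (h : LiesOverPlace A v)
    (q : ℕ) : A.LiesOverPrime q ↔ (q : 𝓞 F) ∈ v.asIdeal := by
  rw [← mem_nonunits_ringOfIntegers h]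
  simp [ValuationSubring.LiesOverPrime]

theorem three_iff_mem {A : ValuationSubring Qbar} {v : FPlace F} (h : LiesOverPlace A v) :
    A.LiesOverPrime 3 ↔ (3 : 𝓞 F) ∈ v.asIdeal := by
  rw [liesOverPrime_iff_mem h]
  norm_num

theorem finite_three_mem : {v : FPlace F | (3 : 𝓞 F) ∈ v.asIdeal}.Finite := by
  refine (Ideal.finite_factors (I := Ideal.span {(3 : 𝓞 F)}) ?_).subset fun v hv => ?_
  · simp
  · exact Ideal.dvd_iff_le.mpr ((Ideal.span_singleton_le_iff_mem _).mpr hv)

/-- Almost all places are unramified. -/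
theorem finite_ramifies (hρ : Continuous ρ) : {v : FPlace F | RamifiesAt ρ F v}.Finite := by
  obtain ⟨S, hS⟩ := Gal.exists_finset_unramified ρ (BianchiForm.factors_of_continuous ρ hρ)
  refine ((S.filter Nat.Prime).finite_toSet.biUnion
    fun q hq => Ideal.finite_factors (I := Ideal.span {(q : 𝓞 F)}) ?_).subset ?_
  · rw [Finset.mem_coe, Finset.mem_filter] at hq
    simp [hq.2.ne_zero]
  · rintro v ⟨B, hB, σ, hσ, hσF, hne⟩
    obtain ⟨q, -, hq, hqB, -, -⟩ := exists_prime_absNorm hB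
    have hqS : q ∈ S := by
      by_contra h
      exact hne (hS q hq h B hqB σ hσ)
    refine Set.mem_biUnion (x := q) (by simp [hqS, hq]) ?_
    exact Ideal.dvd_iff_le.mpr
      ((Ideal.span_singleton_le_iff_mem _).mpr ((liesOverPrime_iff_mem hB q).mp hqB))

end Generic

variable (hdet : ∀ σ : Γℚ, Matrix.GeneralLinearGroup.det (ρ σ) =
    WeierstrassCurve.modThreeCyclotomicChar σ)
  {K L : IntermediateField ℚ Qbar} [NumberField K] [NumberField L] [Algebra K L]
  (hcoe : ∀ x : K, ((algebraMap K L x : L) : Qbar) = x)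
  (hK : ∀ σ : Γℚ, σ ∈ K.fixingSubgroup ↔ WeierstrassCurve.modThreeCyclotomicChar σ = 1)
  (hL : ∀ σ : Γℚ, σ ∈ L.fixingSubgroup ↔
    Matrix.GeneralLinearGroup.det (ρ σ) = 1 ∧ ρ σ ^ 4 = 1)

include hdet hcoe hK hL

omit hdet hcoe hK [NumberField L] in
theorem conj_mem_cubicField {h : Γℚ} (hh : h ∈ L.fixingSubgroup) (g : Γℚ) :
    g * h * g⁻¹ ∈ L.fixingSubgroup := by
  rw [mem_cubicField_iff hL] at hh ⊢
  rw [map_mul, map_mul, map_inv]
  exact quatSubgroup_normal.conj_mem _ hh _

omit hdet hcoe hK [NumberField L] in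
theorem apply_mem_cubicField (g : Γℚ) {x : Qbar} (hx : x ∈ L) : g x ∈ L := by
  rw [← InfiniteGalois.fixedField_fixingSubgroup L, IntermediateField.mem_fixedField_iff]
  intro h hh
  have h1 := (IntermediateField.mem_fixingSubgroup_iff _ _).mp
    (conj_mem_cubicField hL hh g⁻¹) x hx
  rw [inv_inv, AlgEquiv.mul_apply, AlgEquiv.mul_apply] at h1
  have h2 := congrArg g h1
  rwa [← AlgEquiv.mul_apply g g⁻¹, mul_inv_cancel, AlgEquiv.one_apply] at h2

/-! ### Tame ramification -/

/-- An element of inertia over `K` outside the quaternion subgroup: the residue fields at a place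
above `v` prime to `3` agree. -/
theorem absNorm_eq_of_inertia {v : FPlace K} {w : Orbital.Over L v} {B : ValuationSubring Qbar}
    (hw : LiesOverPlace B w.1) (h3 : (3 : 𝓞 K) ∉ v.asIdeal) {s : Γℚ}
    (hs : s ∈ B.inertiaSubgroupIn ℚ) (hsK : s ∈ K.fixingSubgroup) (hsq : ρ s ∉ quatSubgroup) :
    Ideal.absNorm w.1.asIdeal = Ideal.absNorm v.asIdeal := by
  have hlo : w.1.asIdeal.LiesOver v.asIdeal :=
    ⟨(congrArg HeightOneSpectrum.asIdeal w.2).symm⟩
  have hs3 : s ^ 3 ∈ L.fixingSubgroup := by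
    rw [mem_cubicField_iff hL, map_pow]
    exact cube_mem_quat (rho_mem_slThree_of_quadField hdet hK hsK)
  have hsurj : Function.Surjective
      (algebraMap (𝓞 K ⧸ v.asIdeal) (𝓞 L ⧸ w.1.asIdeal)) := by
    intro y
    obtain ⟨a, rfl⟩ := Ideal.Quotient.mk_surjective y
    set x : Qbar := ((a : L) : Qbar) with hx
    have hxi : IsIntegral ℤ x := isIntegral_coe_ringOfIntegers a
    have hxA : x ∈ B := Gal.mem_of_isIntegral hxi
    set t : Qbar := x + s x + (s ^ 2) x with ht
    have hti : IsIntegral ℤ t :=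
      (hxi.add (hxi.map (s : Qbar →ₐ[ℚ] Qbar).toRingHom.toIntAlgHom)).add
        (hxi.map ((s ^ 2 : Γℚ) : Qbar →ₐ[ℚ] Qbar).toRingHom.toIntAlgHom)
    have htL : t ∈ L := add_mem (add_mem (a : L).2 (apply_mem_cubicField hL s (a : L).2))
      (apply_mem_cubicField hL (s ^ 2) (a : L).2)
    have hst : s ∈ MulAction.stabilizer Γℚ t := by
      show s t = t
      have h1 : (s ^ 3) x = x :=
        (IntermediateField.mem_fixingSubgroup_iff _ _).mp hs3 _ (a : L).2
      rw [ht, map_add, map_add, ← AlgEquiv.mul_apply s (s ^ 2), ← pow_succ' s 2, h1, pow_two,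
        AlgEquiv.mul_apply]
      ring
    have htK : t ∈ K := by
      rw [← InfiniteGalois.fixedField_fixingSubgroup K, IntermediateField.mem_fixedField_iff]
      intro g hg
      obtain ⟨i, hi⟩ := exists_mul_pow_mem_quat (rho_mem_slThree_of_quadField hdet hK hg)
        (rho_mem_slThree_of_quadField hdet hK hsK) hsq
      have h1 : (g * s ^ i) t = t := (IntermediateField.mem_fixingSubgroup_iff _ _).mp
        ((mem_cubicField_iff hL).mpr (by rw [map_mul, map_pow]; exact hi)) t htL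
      rwa [AlgEquiv.mul_apply, show (s ^ i) t = t from pow_mem hst i] at h1
    obtain ⟨c, hc⟩ := exists_ringOfIntegers (L := K) hti htK
    have hmem : (algebraMap (𝓞 K) (𝓞 L) c - 3 * a : 𝓞 L) ∈ w.1.asIdeal := by
      rw [← mem_nonunits_ringOfIntegers hw]
      have h1 := (Gal.mem_inertia_iff.mp hs).2 x hxA
      have h2 := (Gal.mem_inertia_iff.mp (pow_mem hs 2)).2 x hxA
      have h3' := add_mem h1 h2
      convert h3' using 1
      have e : (((algebraMap (𝓞 K) (𝓞 L) c : 𝓞 L) : L) : Qbar) = t := by rw [← hc, ← hcoe]; rfl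
      simp only [map_sub, map_mul, map_ofNat]
      push_cast
      rw [e, ht, hx, show (((3 : L)) : Qbar) = 3 from map_ofNat L.val 3]
      ring
    obtain ⟨b, i, hi, hb⟩ := v.isMaximal.exists_inv h3
    refine ⟨Ideal.Quotient.mk _ (b * c), ?_⟩
    rw [Ideal.Quotient.algebraMap_mk_of_liesOver, Ideal.Quotient.eq]
    have hiw : algebraMap (𝓞 K) (𝓞 L) i ∈ w.1.asIdeal :=
      (Ideal.mem_of_liesOver w.1.asIdeal v.asIdeal i).mp hi
    have e := congrArg (algebraMap (𝓞 K) (𝓞 L)) hb
    simp only [map_add, map_mul, map_ofNat, map_one] at e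
    have : algebraMap (𝓞 K) (𝓞 L) (b * c) - a =
        algebraMap (𝓞 K) (𝓞 L) b * (algebraMap (𝓞 K) (𝓞 L) c - 3 * a) -
          algebraMap (𝓞 K) (𝓞 L) i * a := by
      rw [map_mul]
      linear_combination a * e
    rw [this]
    exact sub_mem (Ideal.mul_mem_left _ _ hmem) (Ideal.mul_mem_right _ _ hiw)
  have := v.isMaximal
  have hbij : Function.Bijective (algebraMap (𝓞 K ⧸ v.asIdeal) (𝓞 L ⧸ w.1.asIdeal)) :=
    ⟨FaithfulSMul.algebraMap_injective _ _, hsurj⟩
  rw [Ideal.absNorm_apply, Ideal.absNorm_apply, Submodule.cardQuot_apply,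
    Submodule.cardQuot_apply]
  exact (Nat.card_eq_of_bijective _ hbij).symm

/-- At a ramified place prime to `3`: one place of the same norm. -/
theorem tame_place (hu : IsUnipotentAwayThree ρ) {v : FPlace K} (hr : RamifiesAt ρ K v)
    (h3 : (3 : 𝓞 K) ∉ v.asIdeal) :
    ∃ w : Orbital.Over L v, (∀ w' : Orbital.Over L v, w' = w) ∧
      Ideal.absNorm w.1.asIdeal = Ideal.absNorm v.asIdeal ∧
      valv w.1 (3 : w.1.adicCompletion L) = 1 := by
  obtain ⟨B, hB, s, hs, hsK, hne⟩ := hr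
  obtain ⟨q, -, hq, hqB, -, -⟩ := exists_prime_absNorm hB
  have hq3 : q ≠ 3 := fun e => h3 ((three_iff_mem hB).mp (e ▸ hqB))
  have hs3 : ρ s ^ 3 = 1 := hu q hq hq3 B hqB s hs
  have hcard := card_over_eq_one_of_inertia (L := L) hdet hcoe hK hL hB hs hsK hne hs3
  obtain ⟨w, hw⟩ := exists_over (L := L) hcoe hB
  have := (Nat.card_eq_one_iff_unique.mp hcard).1
  refine ⟨w, fun w' => Subsingleton.elim _ _, absNorm_eq_of_inertia hdet hcoe hK hL hw h3 hs hsK
    fun h => hne (eq_one_of_cube_of_quat hs3 h), ?_⟩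
  have h3w : (3 : 𝓞 L) ∉ w.1.asIdeal := fun h =>
    h3 ((three_iff_mem hB).mp ((three_iff_mem hw).mpr h))
  rw [← map_ofNat (algebraMap L (w.1.adicCompletion L)) 3, valv_algebraMap,
    ← map_ofNat (algebraMap (𝓞 L) L) 3]
  exact (w.1.valuation_eq_one_iff_notMem).mpr h3w

/-! ### The places over `3` -/

/-- Either the ramified places of `K` above `3` have one place above and `ρ|L` is unramified
everywhere, or the places above `3` split completely and `ρ|L` ramifies only above `3`. -/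
theorem three_cases (hρ : Continuous ρ) (hsurj : Function.Surjective ρ)
    (hu : IsUnipotentAwayThree ρ) :
    ((∀ v : FPlace K, (3 : 𝓞 K) ∈ v.asIdeal → RamifiesAt ρ K v →
        ∃ w : Orbital.Over L v, ∀ w' : Orbital.Over L v, w' = w) ∧
      ∀ w : FPlace L, ¬ RamifiesAt ρ L w) ∨
    ((∀ v : FPlace K, (3 : 𝓞 K) ∈ v.asIdeal → Nat.card (Orbital.Over L v) = 3) ∧
      ∀ w : FPlace L, (3 : 𝓞 L) ∉ w.asIdeal → ¬ RamifiesAt ρ L w) := by
  have haway : ∀ w : FPlace L, (3 : 𝓞 L) ∉ w.asIdeal → ¬ RamifiesAt ρ L w := fun w hw =>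
    not_ramifies_of_unram fun B hB σ hσ hσL =>
      rho_inertia_away_three hL hu hB (fun h => hw ((three_iff_mem hB).mp h)) hσ hσL
  rcases rho_dichotomy_three hdet hρ with h | h
  · refine Or.inl ⟨fun v hv hr => ?_, fun w => not_ramifies_of_unram fun B hB σ hσ hσL => ?_⟩
    · obtain ⟨B, hB, s, hs, hsK, hne⟩ := hr
      have hcard := card_over_eq_one_of_inertia (L := L) hdet hcoe hK hL hB hs hsK hne
        (h B ((three_iff_mem hB).mpr hv) s hs ((hK s).mp hsK))
      obtain ⟨hsub, ⟨w⟩⟩ := Nat.card_eq_one_iff_unique.mp hcard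
      exact ⟨w, fun w' => Subsingleton.elim _ _⟩
    · by_cases hB3 : B.LiesOverPrime 3
      · exact rho_eq_one_of_cube hL hσL
          (h B hB3 σ hσ ((hK σ).mp (fixingSubgroup_le_of_coe hcoe hσL)))
      · exact rho_inertia_away_three hL hu hB hB3 hσ hσL
  · refine Or.inr ⟨fun v hv => ?_, haway⟩
    obtain ⟨A, hA⟩ := exists_liesOverPlace v
    exact card_over_eq_three hdet hcoe hK hL hsurj hA fun d hd hdK =>
      h A ((three_iff_mem hA).mpr hv) d hd ((hK d).mp hdK)

/-- At an unramified place: three places or one unramified place. -/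
theorem unramified_cases (hsurj : Function.Surjective ρ) {v : FPlace K}
    (hv : ¬ RamifiesAt ρ K v) : Nat.card (Orbital.Over L v) = 3 ∨
      ∃ w : Orbital.Over L v, (∀ w' : Orbital.Over L v, w' = w) ∧ Orbital.ram K w.1 = 1 := by
  obtain ⟨A, hA⟩ := exists_liesOverPlace v
  obtain ⟨s, hsK, hs⟩ := exists_isFrobeniusAt_absNorm hA
  by_cases h4 : ρ s ^ 4 = 1
  · exact Or.inl
      (split_of_frobenius hdet hcoe hK hL hsurj (unram_of_not_ramifies hv) hA hsK hs h4).1
  · obtain ⟨w, hw, hr, -⟩ :=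
      inert_of_frobenius hdet hcoe hK hL hsurj (unram_of_not_ramifies hv) hA hsK hs h4
    exact Or.inr ⟨w, hw, hr⟩

end Fermat.Agent.ResidualThree
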