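import Fermat.Agent.ResidualThree.BianchiForm.Galois
import Fermat.Agent.ResidualThree.CubicDescent.GaloisPlaces

/-!
# The facts about the cubic extension

The lifted Frobenius traces over `L`, base change of the eigenvalues, split places with non-zero
traces and the primes used for killing: `cubicExtensionFacts`.
-/

noncomputable section

open NumberField IsDedekindDomain
open scoped Pointwise WithZero

namespace Fermat.Agent.ResidualThree

local notation "Qbar" => AlgebraicClosure ℚ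
local notation "Γℚ" => (AlgebraicClosure ℚ ≃ₐ[ℚ] AlgebraicClosure ℚ)
local notation "G48" => GL (Fin 2) (ZMod 3)
local notation "M2" => Matrix (Fin 2) (Fin 2) (ZMod 3)

variable {ρ : Γℚ →* G48}

/-! ### The lifted trace -/

theorem quatTrace_natAbs_le (g : G48) : (quatTrace g).natAbs ≤ 2 := by
  rw [quatTrace]
  split_ifs <;> decide

theorem quatTrace_one : quatTrace 1 = 2 := if_pos rfl

/-- On the quaternion subgroup the lifted trace reduces to the trace. -/
theorem quatTrace_cast {g : G48} (hg : g ∈ quatSubgroup) :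
    ((quatTrace g : ℤ) : ZMod 3) = (g : M2).trace := by
  rw [quatTrace]
  split_ifs with h1 h2
  · subst h1; rfl
  · rw [h2]; rfl
  · rcases (mem_quatSubgroup.1 hg).2 with h | h | h
    · rw [h]; rfl
    · exact absurd (Units.ext h) h1
    · exact absurd h h2

section Trace

variable {L : IntermediateField ℚ Qbar} [NumberField L]

/-- At an unramified place the trace does not depend on the Frobenius element. -/
theorem frobTrace_eq {w : FPlace L} (hw : ¬ RamifiesAt ρ L w) {A : ValuationSubring Qbar}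
    (hA : LiesOverPlace A w) {σ : Γℚ} (hσ : σ ∈ L.fixingSubgroup)
    (hF : A.IsFrobeniusAt σ (Ideal.absNorm w.asIdeal)) :
    frobTrace ρ L w = (quatTrace (ρ σ) : ℂ) := by
  have h : ¬ RamifiesAt ρ L w ∧ ∃ (A : ValuationSubring Qbar) (σ : Γℚ), LiesOverPlace A w ∧
      σ ∈ L.fixingSubgroup ∧ A.IsFrobeniusAt σ (Ideal.absNorm w.asIdeal) :=
    ⟨hw, A, σ, hA, hσ, hF⟩
  rw [frobTrace, dif_pos h]
  obtain ⟨hA', hσ', hF'⟩ := h.2.choose_spec.choose_spec
  obtain ⟨t, ht, htA⟩ := exists_smul_eq_of_liesOverPlace hA' hA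
  have hF'' := Gal.isFrobeniusAt_conj hF' t
  rw [htA] at hF''
  have e := unram_of_not_ramifies hw A hA _ (Gal.inv_mul_mem_inertia hF hF'')
    (mul_mem (inv_mem hσ) (mul_mem (mul_mem ht hσ') (inv_mem ht)))
  rw [map_mul, map_inv, inv_mul_eq_one] at e
  rw [e, map_mul, map_mul, map_inv, BianchiForm.quatTrace_conj]

theorem frobTrace_eq_zero {w : FPlace L} (hw : RamifiesAt ρ L w) : frobTrace ρ L w = 0 :=
  dif_neg fun h => h.1 hw

/-- The lifted Frobenius traces are real of norm at most two. -/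
theorem frobTrace_small (w : FPlace L) :
    (frobTrace ρ L w).im = 0 ∧ ‖frobTrace ρ L w‖ ≤ 2 := by
  rw [frobTrace]
  split_ifs with h
  · refine ⟨Complex.intCast_im _, ?_⟩
    rw [Complex.norm_intCast]
    have h2 := quatTrace_natAbs_le (ρ h.2.choose_spec.choose)
    calc |((quatTrace (ρ h.2.choose_spec.choose) : ℤ) : ℝ)|
        = ((quatTrace (ρ h.2.choose_spec.choose)).natAbs : ℝ) := by
          rw [Nat.cast_natAbs, Int.cast_abs]
      _ ≤ 2 := by exact_mod_cast h2
  · simp

/-- Every place of `L` has a Frobenius element fixing `L`. -/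
theorem exists_frobenius_place (w : FPlace L) : ∃ (A : ValuationSubring Qbar) (σ : Γℚ),
    LiesOverPlace A w ∧ σ ∈ L.fixingSubgroup ∧
      A.IsFrobeniusAt σ (Ideal.absNorm w.asIdeal) := by
  obtain ⟨A, hA⟩ := exists_liesOverPlace w
  obtain ⟨σ, hσ, hF⟩ := exists_isFrobeniusAt_absNorm hA
  exact ⟨A, σ, hA, hσ, hF⟩

/-- Valuation subrings over a transported place. -/
theorem liesOverPlace_comap {f : L ≃+* L} {g : Γℚ} (hf : ∀ x : L, ((f x : L) : Qbar) = g x)
    {A : ValuationSubring Qbar} {w : FPlace L} (h : LiesOverPlace A w) :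
    LiesOverPlace (g⁻¹ • A) (Orbital.comapPlace f w) := by
  intro x
  rw [Gal.mem_smul_iff, inv_inv, ← hf, h, Orbital.valuation_comapPlace]

theorem liesOverPlace_of_comap {f : L ≃+* L} {g : Γℚ} (hf : ∀ x : L, ((f x : L) : Qbar) = g x)
    {A : ValuationSubring Qbar} {w : FPlace L} (h : LiesOverPlace A (Orbital.comapPlace f w)) :
    LiesOverPlace (g • A) w := by
  intro x
  obtain ⟨y, rfl⟩ := f.surjective x
  rw [Gal.mem_smul_iff, hf, ← AlgEquiv.mul_apply g⁻¹ g, inv_mul_cancel, AlgEquiv.one_apply, h,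
    Orbital.valuation_comapPlace]

variable (hL : ∀ σ : Γℚ, σ ∈ L.fixingSubgroup ↔
  Matrix.GeneralLinearGroup.det (ρ σ) = 1 ∧ ρ σ ^ 4 = 1)

include hL

/-- The trace is invariant under the automorphisms of `L`. -/
theorem frobTrace_comap {f : L ≃+* L} {g : Γℚ} (hf : ∀ x : L, ((f x : L) : Qbar) = g x)
    (w : FPlace L) : frobTrace ρ L (Orbital.comapPlace f w) = frobTrace ρ L w := by
  have hne : ∀ (t : Γℚ) {σ : Γℚ}, ρ σ ≠ 1 → ρ (t * σ * t⁻¹) ≠ 1 := fun t σ h => by
    rwa [map_mul, map_mul, map_inv, ne_eq, conj_eq_one_iff]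
  have hiff : RamifiesAt ρ L (Orbital.comapPlace f w) ↔ RamifiesAt ρ L w := by
    constructor
    · rintro ⟨B, hB, σ, hσ, hσL, hn⟩
      exact ⟨g • B, liesOverPlace_of_comap hf hB, g * σ * g⁻¹, Gal.conj_mem_inertia hσ g,
        conj_mem_cubicField hL hσL g, hne g hn⟩
    · rintro ⟨B, hB, σ, hσ, hσL, hn⟩
      exact ⟨g⁻¹ • B, liesOverPlace_comap hf hB, g⁻¹ * σ * g⁻¹⁻¹, Gal.conj_mem_inertia hσ g⁻¹,
        conj_mem_cubicField hL hσL g⁻¹, hne g⁻¹ hn⟩
  by_cases hr : RamifiesAt ρ L w
  · rw [frobTrace_eq_zero hr, frobTrace_eq_zero (hiff.mpr hr)]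
  · obtain ⟨A, σ, hA, hσ, hF⟩ := exists_frobenius_place w
    have hF' := Gal.isFrobeniusAt_conj hF g⁻¹
    rw [← Orbital.absNorm_comapPlace (f := f) w] at hF'
    rw [frobTrace_eq hr hA hσ hF, frobTrace_eq (mt hiff.mp hr) (liesOverPlace_comap hf hA)
      (conj_mem_cubicField hL hσ g⁻¹) hF', map_mul, map_mul, map_inv ρ g⁻¹,
      BianchiForm.quatTrace_conj]

end Trace

variable (hdet : ∀ σ : Γℚ, Matrix.GeneralLinearGroup.det (ρ σ) =
    WeierstrassCurve.modThreeCyclotomicChar σ)
  {K L : IntermediateField ℚ Qbar} [NumberField K] [NumberField L] [Algebra K L]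
  (hcoe : ∀ x : K, ((algebraMap K L x : L) : Qbar) = x)
  (hK : ∀ σ : Γℚ, σ ∈ K.fixingSubgroup ↔ WeierstrassCurve.modThreeCyclotomicChar σ = 1)
  (hL : ∀ σ : Γℚ, σ ∈ L.fixingSubgroup ↔
    Matrix.GeneralLinearGroup.det (ρ σ) = 1 ∧ ρ σ ^ 4 = 1)

include hdet hcoe hK hL

omit hdet hK hL in
theorem not_ramifies_above {v : FPlace K} (hv : ¬ RamifiesAt ρ K v) (w : Orbital.Over L v) :
    ¬ RamifiesAt ρ L w.1 :=
  not_ramifies_of_unram fun B hB σ hσ hσL =>
    unram_of_not_ramifies hv B (w.2 ▸ liesOverPlace_below hcoe hB) σ hσ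
      (fixingSubgroup_le_of_coe hcoe hσL)

omit hdet hK hL in
theorem ramifies_below {w : FPlace L} (hw : RamifiesAt ρ L w) :
    RamifiesAt ρ K (Orbital.below K w) := by
  obtain ⟨B, hB, σ, hσ, hσL, hne⟩ := hw
  exact ⟨B, liesOverPlace_below hcoe hB, σ, hσ, fixingSubgroup_le_of_coe hcoe hσL, hne⟩

omit hdet hcoe hK hL in
/-- One Frobenius element determines the condition on the eigenvalue. -/
theorem isKEigen_of_frobenius {v : FPlace K} (hv : ¬ RamifiesAt ρ K v)
    {A : ValuationSubring Qbar} (hA : LiesOverPlace A v) {s : Γℚ} (hsK : s ∈ K.fixingSubgroup)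
    (hs : A.IsFrobeniusAt s (Ideal.absNorm v.asIdeal)) {n : ℤ} (hn : n.natAbs ≤ 2)
    (h1 : ((n : ℤ) : ZMod 3) = (ρ s : M2).trace) (h2 : ρ s ^ 4 = 1 → n = quatTrace (ρ s))
    (h3 : ρ s ^ 4 ≠ 1 → n ≠ 0) : IsKEigen ρ K v n := by
  refine ⟨hn, fun A' hA' σ hσ hσF => ?_⟩
  obtain ⟨t, ht, rfl⟩ := exists_smul_eq_of_liesOverPlace hA hA'
  have e : ρ σ = ρ t * ρ s * (ρ t)⁻¹ := by
    rw [rho_eq_of_isFrobeniusAt hA' (unram_of_not_ramifies hv) hσ
      (mul_mem (mul_mem ht hsK) (inv_mem ht)) hσF (Gal.isFrobeniusAt_conj hs t), map_mul, map_mul,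
      map_inv]
  have etr : (ρ σ : M2).trace = (ρ s : M2).trace := by
    rw [e, Units.val_mul, Units.val_mul, Matrix.trace_units_conj]
  have e4 : ρ σ ^ 4 = 1 ↔ ρ s ^ 4 = 1 := by rw [e, conj_pow, conj_eq_one_iff]
  refine ⟨h1.trans etr.symm, fun h => ?_, fun h => h3 (mt e4.mpr h)⟩
  rw [e, BianchiForm.quatTrace_conj]
  exact h2 (e4.mp h)

/-- An eigenvalue with the base-changed eigenvalues of the lifted trace comes from `ρ`. -/
theorem base_change_eigen (hsurj : Function.Surjective ρ) {v : FPlace K}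
    (hv : ¬ RamifiesAt ρ K v) {a : ℂ}
    (ha : ∀ w : Orbital.Over L v, bcEigen L v a = frobTrace ρ L w.1) :
    ∃ n : ℤ, a = (n : ℂ) ∧ IsKEigen ρ K v n := by
  obtain ⟨A, hA⟩ := exists_liesOverPlace v
  obtain ⟨s, hsK, hs⟩ := exists_isFrobeniusAt_absNorm hA
  have hunr := unram_of_not_ramifies hv
  by_cases h4 : ρ s ^ 4 = 1
  · obtain ⟨hcard, hw⟩ := split_of_frobenius hdet hcoe hK hL hsurj hunr hA hsK hs h4
    obtain ⟨w, -⟩ := exists_over (L := L) hcoe hA
    obtain ⟨-, -, B, t, -, hBw, -, htL, hF⟩ := hw w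
    have h := ha w
    rw [bcEigen, if_pos hcard, frobTrace_eq (not_ramifies_above hcoe hv w) hBw htL hF, map_mul,
      map_mul, map_inv, BianchiForm.quatTrace_conj] at h
    exact ⟨_, h, isKEigen_of_frobenius hv hA hsK hs (quatTrace_natAbs_le _)
      (quatTrace_cast ((rho_pow_four_iff hdet hK hsK).mp h4)) (fun _ => rfl)
      fun h => absurd h4 h⟩
  · obtain ⟨w, huniq, -, -, hAw, hs3, hF⟩ :=
      inert_of_frobenius hdet hcoe hK hL hsurj hunr hA hsK hs h4
    have hcard : Nat.card (Orbital.Over L v) ≠ 3 := by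
      rw [Nat.card_eq_one_iff_unique.mpr
        ⟨⟨fun x y => (huniq x).trans (huniq y).symm⟩, ⟨w⟩⟩]
      norm_num
    have h := ha w
    rw [bcEigen, if_neg hcard, frobTrace_eq (not_ramifies_above hcoe hv w) hAw hs3 hF,
      map_pow] at h
    have hns : ρ s ∉ quatSubgroup := fun h' =>
      h4 ((rho_pow_four_iff hdet hK hsK).mpr h')
    have fin : ∀ n : ℤ, a = (n : ℂ) → n.natAbs ≤ 2 → n ≠ 0 →
        ((n : ℤ) : ZMod 3) = (ρ s : M2).trace → ∃ n : ℤ, a = (n : ℂ) ∧ IsKEigen ρ K v n :=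
      fun n h1 h2 h3 h5 => ⟨n, h1, isKEigen_of_frobenius hv hA hsK hs h2 h5
        (fun h' => absurd h' h4) fun _ => h3⟩
    rcases cube_trace_of_notMem_quat (rho_mem_slThree_of_quadField hdet hK hsK) hns with
      ⟨hc, htr⟩ | ⟨hc, htr⟩
    · rw [show ρ s ^ 3 = 1 from Units.ext (by rw [Units.val_pow_eq_pow_val, hc, Units.val_one]),
        quatTrace_one] at h
      push_cast at h
      have h' : (a + 1) * (a + 1) * (a - 2) = 0 := by linear_combination h
      rcases mul_eq_zero.mp h' with h'' | h''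
      · exact fin (-1) (by push_cast; linear_combination mul_self_eq_zero.mp h'') (by decide)
          (by decide) (by rw [htr]; rfl)
      · exact fin 2 (by push_cast; linear_combination h'') (by decide) (by decide)
          (by rw [htr]; rfl)
    · have e : quatTrace (ρ s ^ 3) = -2 := by
        have hm : ((ρ s ^ 3 : G48) : M2) = -1 := by rw [Units.val_pow_eq_pow_val, hc]
        rw [quatTrace, if_neg, if_pos hm]
        intro h1
        rw [h1, Units.val_one] at hm
        exact absurd hm (by decide)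
      rw [e] at h
      push_cast at h
      have h' : (a - 1) * (a - 1) * (a + 2) = 0 := by linear_combination h
      rcases mul_eq_zero.mp h' with h'' | h''
      · exact fin 1 (by push_cast; linear_combination mul_self_eq_zero.mp h'') (by decide)
          (by decide) (by rw [htr]; rfl)
      · exact fin (-2) (by push_cast; linear_combination h'') (by decide) (by decide)
          (by rw [htr]; rfl)

/-- Infinitely many split places with non-zero traces. -/
theorem infinite_split_triples (hρ : Continuous ρ) (hsurj : Function.Surjective ρ) :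
    {v : FPlace K | ¬ RamifiesAt ρ K v ∧ (3 : 𝓞 K) ∉ v.asIdeal ∧
      Nat.card (Orbital.Over L v) = 3 ∧
      ∀ w : Orbital.Over L v, frobTrace ρ L w.1 ≠ 0}.Infinite := by
  refine ((infinite_split_trivial hdet hcoe hK hL hρ hsurj).sdiff
    (finite_three_mem (F := K))).mono ?_
  rintro v ⟨⟨hcard, hunr, A, s, hA, hsK, hs, hs1⟩, h3⟩
  refine ⟨not_ramifies_of_unram hunr, h3, hcard, fun w => ?_⟩
  obtain ⟨-, -, B, t, -, hBw, -, htL, hF⟩ :=
    (split_of_frobenius hdet hcoe hK hL hsurj hunr hA hsK hs (by rw [hs1, one_pow])).2 w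
  rw [frobTrace_eq (not_ramifies_above hcoe (not_ramifies_of_unram hunr) w) hBw htL hF, map_mul,
    map_mul, map_inv, hs1, mul_one, mul_inv_cancel, quatTrace_one]
  norm_num

/-- Inert primes `p ≡ -1 (mod M)` with three places above of trace zero. -/
theorem exists_killing_prime (hρ : Continuous ρ) (hsurj : Function.Surjective ρ) {M : ℕ}
    (hM : 0 < M) (S₀ : Finset ℕ) :
    ∃ (p : ℕ) (v : FPlace K), p.Prime ∧ p ∉ S₀ ∧
      (p : ZMod M) = -1 ∧ v.asIdeal = Ideal.span {(p : 𝓞 K)} ∧ ¬ RamifiesAt ρ K v ∧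
      (3 : 𝓞 K) ∉ v.asIdeal ∧ Nat.card (Orbital.Over L v) = 3 ∧
      (∀ w : Orbital.Over L v, frobTrace ρ L w.1 = 0 ∧
        w.1.valuation L (p : L) = WithZero.exp (-1 : ℤ)) ∧
      ∀ w : FPlace L, w.valuation L (p : L) ≠ 1 → Orbital.below K w = v := by
  obtain ⟨p, v, A, σ, hp, hpS, hpM, hpA, -, h8, hspan, -, hA, hunr, hσK, hF, hcard, hq⟩ :=
    exists_inert_octic hdet hcoe hK hL hρ hsurj (M := 3 * M) (by positivity) (dvd_mul_right 3 M)
      (insert 3 S₀)
  rw [Finset.mem_insert, not_or] at hpS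
  have hpK : (p : 𝓞 K) ≠ 0 := Nat.cast_ne_zero.mpr hp.ne_zero
  have h4 : ρ (σ ^ 2) ^ 4 = 1 := by
    rw [map_pow, ← pow_mul, show 2 * 4 = orderOf (ρ σ) from h8.symm]
    exact pow_orderOf_eq_one _
  refine ⟨p, v, hp, hpS.2, ?_, hspan, not_ramifies_of_unram hunr, ?_, hcard, fun w => ?_,
    fun w hw => ?_⟩
  · have h := congrArg (ZMod.castHom (dvd_mul_left M 3) (ZMod M)) hpM
    rwa [map_natCast, map_neg, map_one] at h
  · exact fun h => hpS.1 (Gal.liesOverPrime_unique hp Nat.prime_three hpA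
      ((three_iff_mem hA).mpr h))
  · obtain ⟨hram, -, B, t, -, hBw, -, htL, hFw⟩ :=
      (split_of_frobenius hdet hcoe hK hL hsurj hunr hA hσK hF h4).2 w
    refine ⟨?_, ?_⟩
    · rw [frobTrace_eq (not_ramifies_above hcoe (not_ramifies_of_unram hunr) w) hBw htL hFw,
        map_mul, map_mul, map_inv, BianchiForm.quatTrace_conj, map_pow, hq, Int.cast_zero]
    · rw [← map_natCast (algebraMap K L) p, Orbital.valuation_algebraMap_of_below w.1 w.2, hram,
        pow_one, ← map_natCast (algebraMap (𝓞 K) K) p, HeightOneSpectrum.valuation_of_algebraMap]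
      exact v.intValuation_singleton hpK hspan
  · rw [← map_natCast (algebraMap K L) p, Orbital.valuation_algebraMap_below] at hw
    have hmem : (p : 𝓞 K) ∈ (Orbital.below K w).asIdeal := by
      by_contra hn
      refine hw ?_
      rw [← map_natCast (algebraMap (𝓞 K) K) p,
        ((Orbital.below K w).valuation_eq_one_iff_notMem).mpr hn, one_pow]
    refine HeightOneSpectrum.ext (v.isMaximal.eq_of_le (Orbital.below K w).isPrime.ne_top ?_).symm
    rw [hspan, Ideal.span_singleton_le_iff_mem]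
    exact hmem

/-- The facts about the places which hold whatever the ramification of `ρ`. -/
theorem genPlaces_of (hρ : Continuous ρ) (hsurj : Function.Surjective ρ) {τ : Orbital.CubicAut K L}
    {g : Γℚ} (hτ : ∀ x : L, ((τ.σ x : L) : Qbar) = g x) : GenPlaces ρ K L τ where
  finite_ram := finite_ramifies hρ
  three_iff _ _ hA := three_iff_mem hA
  ramifies_below _ hw := ramifies_below hcoe hw
  unramified _ hv := unramified_cases hdet hcoe hK hL hsurj hv
  exists_frobenius w := exists_frobenius_place w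
  trace_eq _ hw _ hA _ hσ hF := frobTrace_eq hw hA hσ hF
  trace_comap w := frobTrace_comap hL hτ w
  trace_small w := frobTrace_small w
  base_change _ hv _ ha := base_change_eigen hdet hcoe hK hL hsurj hv ha
  split_triples := infinite_split_triples hdet hcoe hK hL hρ hsurj
  killing _ hM S₀ := exists_killing_prime hdet hcoe hK hL hρ hsurj hM S₀

omit hdet hcoe hK hL in
/-- The cubic extension cut out by a surjective `ρ`, with the facts on its places; the finer facts
hold when inertia away from three is unipotent. -/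
theorem exists_genPlaces (hρ : Continuous ρ) (hsurj : Function.Surjective ρ)
    (hdet : ∀ σ : Γℚ, Matrix.GeneralLinearGroup.det (ρ σ) =
        WeierstrassCurve.modThreeCyclotomicChar σ)
    (K : IntermediateField ℚ Qbar) [NumberField K]
    (hK : ∀ σ : Γℚ, σ ∈ K.fixingSubgroup ↔ WeierstrassCurve.modThreeCyclotomicChar σ = 1) :
    IsTotallyComplex K ∧ Module.finrank ℚ K = 2 ∧
      ∃ (L : IntermediateField ℚ Qbar) (_ : NumberField L) (_ : Algebra K L)
        (τ : Orbital.CubicAut K L),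
        IsTotallyComplex L ∧ Module.finrank K L = 3 ∧
        (∀ σ : Γℚ, σ ∈ L.fixingSubgroup ↔
          Matrix.GeneralLinearGroup.det (ρ σ) = 1 ∧ ρ σ ^ 4 = 1) ∧
        GenPlaces ρ K L τ ∧ (IsUnipotentAwayThree ρ → CubicPlaces ρ K L τ) := by
  obtain ⟨E⟩ := BianchiForm.exists_eisField K hK
  refine ⟨⟨fun v => ?_⟩, E.finrank, ?_⟩
  · rw [← InfinitePlace.not_isReal_iff_isComplex]
    intro hr
    have h := InfinitePlace.sum_mult_eq (K := K)
    rw [Fintype.sum_eq_single v fun w hw => absurd ((E.unique w).trans (E.unique v).symm) hw,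
      hr.mult_eq_one, E.finrank] at h
    omega
  · obtain ⟨L, hnf, hL, -⟩ := exists_cubicField hρ hsurj
    let : Algebra K L :=
      (IntermediateField.inclusion (quadField_le_cubicField hdet hK hL)).toRingHom.toAlgebra
    have hcoe : ∀ x : K, ((algebraMap K L x : L) : Qbar) = x := fun _ => rfl
    obtain ⟨τ, g, -, -, hτ⟩ := exists_cubicAut hdet hsurj hK hL
    have h := genPlaces_of hdet hcoe hK hL hρ hsurj hτ
    exact ⟨L, hnf, _, τ, isTotallyComplex_cubicField hdet hL,
      finrank_quad_cubic hdet hK hL hsurj, hL, h, fun hu =>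
        { toGenPlaces := h
          tame := fun _ hr h3 => tame_place hdet hcoe hK hL hu hr h3
          three := three_cases hdet hcoe hK hL hρ hsurj hu }⟩

omit hdet hcoe hK hL in
/-- The cubic extension cut out by `ρ` and its places. -/
theorem cubicExtensionFacts : CubicExtensionFacts := by
  intro ρ hρ hsurj hdet hu K _ hK
  obtain ⟨h1, h2, L, i1, i2, τ, h3, h4, h5, -, h6⟩ := exists_genPlaces hρ hsurj hdet K hK
  exact ⟨h1, h2, L, i1, i2, τ, h3, h4, h5, h6 hu⟩

end Fermat.Agent.ResidualThree
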