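import Fermat.Agent.ResidualThree.Automorphic.SphericalStep
import Fermat.Agent.ResidualThree.Automorphic.TestFun
import Fermat.Agent.ResidualThree.Orbital.FinPart
import Fermat.Agent.ResidualThree.Spherical.SphTest

/-!
# Test data of the good algebra and systems of eigenvalues

`sphEval` is the eigenvalue of a spherical function of the distance and `sphKernel` the radial
kernel with a given horospherical transform. A `GoodDatum` is a spherical function at each place
and a test function at each infinite place; it gives a test monomial at every level that is maximal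
outside `Bad` (`GoodDatum.mono`) and a value at every `EigenSystem` (`GoodDatum.eval`).
-/

noncomputable section

open IsDedekindDomain NumberField MeasureTheory
open scoped WithZero

namespace Fermat.Agent.ResidualThree

/-- The eigenvalue of a spherical function of the distance for the neighbour eigenvalue `√Q a`. -/
def sphEval (Q : ℕ) (a : ℂ) (f : ℕ →₀ ℂ) : ℂ := f.sum fun n c => c * Tree.sphereEigen Q a n

theorem sphEval_single_zero (Q : ℕ) (a : ℂ) : sphEval Q a (Finsupp.single 0 1) = 1 := by
  simp [sphEval, Tree.sphereEigen]

/-- Every test function is the transform of a Lipschitz radial kernel. -/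
theorem exists_sphKernel {g : ℝ → ℂ} (hg : IsSphTest g) :
    ∃ k : ℝ → ℂ, H3.IsKernel k ∧ abelTransform k = g ∧
      ∃ C : ℝ, ∀ p q r : H3, ‖k (H3.coshDist p q) - k (H3.coshDist r q)‖ ≤
        C * Real.sqrt (H3.coshDist p r - 1) := by
  obtain ⟨k, h1, h2, h3, -⟩ := H3.exists_kernel_abel
    (hg.smooth.of_le (by exact WithTop.coe_le_coe.2 le_top)) hg.compact hg.even
  exact ⟨k, h1, h2, h3⟩

open Classical in
/-- The radial kernel with a given horospherical transform. -/
def sphKernel (g : ℝ → ℂ) : ℝ → ℂ := if hg : IsSphTest g then (exists_sphKernel hg).choose else 0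

/-- The defining properties of `sphKernel`. -/
theorem sphKernel_spec {g : ℝ → ℂ} (hg : IsSphTest g) :
    H3.IsKernel (sphKernel g) ∧ abelTransform (sphKernel g) = g ∧
      ∃ C : ℝ, ∀ p q r : H3, ‖sphKernel g (H3.coshDist p q) - sphKernel g (H3.coshDist r q)‖ ≤
        C * Real.sqrt (H3.coshDist p r - 1) := by
  rw [sphKernel, dif_pos hg]
  exact (exists_sphKernel hg).choose_spec

variable {F : Type} [Field F] [NumberField F]

theorem absNorm_fplace_ne_zero (v : FPlace F) : Ideal.absNorm v.asIdeal ≠ 0 := fun h =>
  v.ne_bot (Ideal.absNorm_eq_zero_iff.mp h)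

/-- The monomial of a family of local functions and radial test functions. -/
def prodMono {U : Level F} {f : ∀ v : FPlace F, GLv v → ℂ} (hf : Orbital.IsLocalFamily U f)
    (g : InfinitePlace F → ℝ → ℂ) (hg : ∀ w, IsSphTest (g w)) : TestMonomial U where
  fin := Orbital.globalFun f
  biinvariant _ _ x h₁ h₂ := hf.globalFun_biinv h₁ h₂ x
  finite_support := hf.finite_support
  arch w := sphKernel (g w)
  arch_support w := (sphKernel_spec (hg w)).1.compact
  arch_lipschitz w := (sphKernel_spec (hg w)).2.2

/-- A system of eigenvalues: normalised neighbour eigenvalues and spectral parameters. -/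
structure EigenSystem (F : Type) [Field F] [NumberField F] : Type where
  /-- the eigenvalues at the finite places -/
  a : FPlace F → ℂ
  /-- the parameters at the infinite places -/
  l : InfinitePlace F → ℂ

/-- A monomial of the good algebra: spherical functions outside `Bad`, radial test functions. -/
structure GoodDatum (F : Type) [Field F] [NumberField F] : Type where
  /-- the spherical functions of the distance -/
  loc : FPlace F → (ℕ →₀ ℂ)
  unit : ∀ᶠ v in Filter.cofinite, loc v = Finsupp.single 0 1
  /-- the radial test functions -/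
  g : InfinitePlace F → ℝ → ℂ
  test : ∀ w, IsSphTest (g w)

open Classical in
/-- The local function of a datum: spherical outside `Bad`, the indicator of the level inside. -/
def GoodDatum.fin (d : GoodDatum F) (U : Level F) (Bad : Finset (FPlace F)) (v : FPlace F)
    (x : GLv v) : ℂ :=
  if v ∈ Bad then (if x ∈ U.J v then 1 else 0) else d.loc v (cartan (valv v) x)

open Classical in
/-- The value of a datum at a system. -/
def GoodDatum.eval (d : GoodDatum F) (Bad : Finset (FPlace F)) (s : EigenSystem F) : ℂ :=
  (∏ᶠ v, if v ∈ Bad then 1 else sphEval (Ideal.absNorm v.asIdeal) (s.a v) (d.loc v)) *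
    ∏ w, coshTransform (d.g w) (s.l w)

/-- The local functions of a datum form a local family. -/
theorem GoodDatum.isLocalFamily (d : GoodDatum F) {U : Level F} {Bad : Finset (FPlace F)}
    (hU : ∀ v ∉ Bad, U.J v = maxSubgroup v) : Orbital.IsLocalFamily U (d.fin U Bad) where
  bi v j₁ h₁ j₂ h₂ x := by
    classical
    by_cases hv : v ∈ Bad
    · simp only [GoodDatum.fin, if_pos hv]
      rw [Subgroup.mul_mem_cancel_right _ h₂, Subgroup.mul_mem_cancel_left _ h₁]
    · simp only [GoodDatum.fin, if_neg hv]
      rw [Tree.cartan_mul_right (U.le_max v h₂), Tree.cartan_mul_left (U.le_max v h₁)]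
  fin v := by
    classical
    by_cases hv : v ∈ Bad
    · refine (Set.finite_singleton (QuotientGroup.mk 1 : GLv v ⧸ U.J v)).subset fun q hq => ?_
      simp only [GoodDatum.fin, if_pos hv, Set.mem_ofPred_eq] at hq
      rw [Set.mem_singleton_iff, ← QuotientGroup.out_eq' q, eq_comm, QuotientGroup.eq, inv_one,
        one_mul]
      by_contra h
      exact hq (if_neg h)
    · simp only [GoodDatum.fin, if_neg hv]
      have hJ := hU v hv
      let e : GLv v ⧸ U.J v → Tree.Vert (valv v) := fun q => Subgroup.quotientEquivOfEq hJ q
      have he : Function.Injective e := (Subgroup.quotientEquivOfEq hJ).injective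
      refine (((d.loc v).support.biUnion fun n => baseSphere v n).finite_toSet.preimage
        (f := e) he.injOn).subset fun q hq => ?_
      show e q ∈ ((d.loc v).support.biUnion fun n => baseSphere v n)
      refine Finset.mem_biUnion.2 ⟨_, Finsupp.mem_support_iff.2 hq, mem_baseSphere.2 ?_⟩
      conv_lhs => rw [← QuotientGroup.out_eq' q]
      show Tree.vdist (baseVert v) (QuotientGroup.mk q.out : Tree.Vert (valv v)) = _
      rw [baseVert, Tree.vdist_mk, inv_one, one_mul]
  unit := by
    classical
    filter_upwards [d.unit, Bad.finite_toSet.compl_mem_cofinite] with v hv hv'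
    have hvB : v ∉ Bad := by simpa using hv'
    refine ⟨hU v hvB, funext fun x => ?_⟩
    rw [GoodDatum.fin, if_neg hvB, hv, Orbital.unitFun, Finsupp.single_apply]
    refine if_congr ?_ rfl rfl
    rw [eq_comm, Tree.cartan_eq_zero_iff]
    rfl

/-- The test monomial of a datum. -/
def GoodDatum.mono (d : GoodDatum F) {U : Level F} {Bad : Finset (FPlace F)}
    (hU : ∀ v ∉ Bad, U.J v = maxSubgroup v) : TestMonomial U :=
  prodMono (d.isLocalFamily hU) d.g d.test

/-- The operator of a test monomial on functions. -/
def TestMonomial.act {U : Level F} (f : TestMonomial U) (φ : Gf F → Hyp F → ℂ) :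
    Gf F → Hyp F → ℂ :=
  fun x p => ∫ t, f.kernel ((x : Ωf U), p) t * φ t.1.out t.2 ∂volSpc U

end Fermat.Agent.ResidualThree
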