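import Fermat.Agent.ResidualThree.Automorphic.Irreducible
import Fermat.Agent.ResidualThree.CubicDescent.Systems
import Fermat.Agent.ResidualThree.Kernel.Conv

/-!
# The spectral side of the twisted trace: the statement

`SpectralTrace F`: let `E` be a self-adjoint combination of good data killing constant terms, `A`
any monomial, `T` an equivariant symmetry of the space with inverse `T'`. The twisted trace of
`(E a) (E A)` is a sum of point masses over systems of eigenvalues; the mass over a system of
parameter zero is `E²` times the trace of `A` composed with `T'` on the eigenforms of that system.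
-/

noncomputable section

open IsDedekindDomain NumberField MeasureTheory
open scoped WithZero

namespace Fermat.Agent.ResidualThree

variable (F : Type) [Field F] [NumberField F] [IsTotallyComplex F]

/-- The value of a combination of good data at a system. -/
def evalList {F : Type} [Field F] [NumberField F] (E : List (GoodDatum F))
    (Bad : Finset (FPlace F)) (s : EigenSystem F) : ℂ := (E.map fun d => d.eval Bad s).sum

/-- Eigenvalue systems that can occur: real bounded eigenvalues and admissible parameters. -/
def EigenSystem.IsAdmissible {F : Type} [Field F] [NumberField F] (s : EigenSystem F) : Prop :=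
  (∀ v, (s.a v).im = 0 ∧ ‖s.a v‖ ≤ Real.sqrt (Ideal.absNorm v.asIdeal) + 1) ∧
    ∀ w, IsSphParam (s.l w)

/-- The spectral side of the twisted trace. -/
def SpectralTrace : Prop :=
  ∀ (U : Level F) (Bad : Finset (FPlace F)) (hU : ∀ v ∉ Bad, U.J v = maxSubgroup v)
    (W : QuotientWeight U) (E : List (GoodDatum F)),
    KillsConstant (E.map fun d => d.mono hU) →
    (∀ s t, kernel (adjFun (E.map fun d => d.mono hU)) s t =
      kernel (E.map fun d => d.mono hU) s t) →
    ∀ (A : TestMonomial U) (T T' : Spc U → Spc U) (Tfn : Module.End ℂ (Gf F → Hyp F → ℂ)),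
      MeasurePreserving T (Kernel.qMeas W) (Kernel.qMeas W) →
      MeasurePreserving T' (Kernel.qMeas W) (Kernel.qMeas W) →
      (∀ s, T' (T s) = s) → (∀ s, T (T' s) = s) →
      (∀ γ : PGLF F, ∃ γ' : PGLF F, ∀ s, T (γ • s) = γ' • T s) →
      (∀ γ : PGLF F, ∃ γ' : PGLF F, ∀ s, T' (γ • s) = γ' • T' s) →
      (∀ φ, IsAutomorphic U φ → ∀ s : Spc U, onSpc U (Tfn φ) s = onSpc U φ (T' s)) →
      ∃ (κ : Type) (_ : Countable κ) (sys : κ → EigenSystem F) (M : κ → ℂ),
        (Summable fun j => ‖M j‖) ∧ (∀ j, (sys j).IsAdmissible) ∧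
        (∀ a : GoodDatum F,
          Integrable (fun s => autKernel (convFun
            (convFun (E.map fun d => d.mono hU) [a.mono hU])
            (convFun (E.map fun d => d.mono hU) [A])) s (T s)) (Kernel.qMeas W) ∧
          HasSum (fun j => M j * a.eval Bad (sys j))
            (∫ s, autKernel (convFun
              (convFun (E.map fun d => d.mono hU) [a.mono hU])
              (convFun (E.map fun d => d.mono hU) [A])) s (T s) ∂Kernel.qMeas W)) ∧
        (∀ j, (∀ w, (sys j).l w = 0) → M j ≠ 0 → evalList E Bad (sys j) ≠ 0 ∧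
          levelForms Bad (sys j).a U ≠ ⊥) ∧
        ∀ a₀ : FPlace F → ℂ, evalList E Bad ⟨a₀, 0⟩ ≠ 0 →
          FiniteDimensional ℂ (levelForms Bad a₀ U) ∧
          ∀ X : Module.End ℂ (Gf F → Hyp F → ℂ), (∀ φ, IsAutomorphic U φ → X φ = A.act (Tfn φ)) →
            ∀ hX : ∀ φ ∈ levelForms Bad a₀ U, X φ ∈ levelForms Bad a₀ U,
              ∑' j : {j // (∀ v ∉ Bad, (sys j).a v = a₀ v) ∧ ∀ w, (sys j).l w = 0}, M j =
                evalList E Bad ⟨a₀, 0⟩ ^ 2 * LinearMap.trace ℂ _ (X.restrict hX)

end Fermat.Agent.ResidualThree
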