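import Fermat.Agent.ResidualThree.CubicDescent.Spectral.Data
import Fermat.Agent.ResidualThree.CubicDescent.SpectralStatement

/-!
# The spectral side of the twisted trace

The trace pairing in the joint eigenbasis of the good algebra; each eigenfunction carries a system
of eigenvalues, and the systems of parameter zero span the forms of the level.
-/

noncomputable section

open IsDedekindDomain NumberField MeasureTheory Filter Topology
open scoped WithZero ComplexConjugate InnerProductSpace

namespace Fermat.Agent.ResidualThree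

open Kernel (qMeas kerL2 IsHS opK adjK substK substOp)
open Spectral

variable {F : Type} [Field F] [NumberField F] [IsTotallyComplex F] {U : Level F}
  {Bad : Finset (FPlace F)}

namespace SpecData

variable {hU : ∀ v ∉ Bad, U.J v = maxSubgroup v} {W : QuotientWeight U}
  {E : List (GoodDatum F)}
  {hK : KillsConstant (E.map fun d => d.mono hU)} (D : SpecData hU W E hK)

/-- The mass of a basis element. -/
def mass (A : TestMonomial U) (T' : Spc U → Spc U) (hT' : MeasurePreserving T' (qMeas W) (qMeas W))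
    (j : D.κ) : ℂ :=
  (D.μ j : ℂ) * ⟪D.b j, opK (kerL2 (isHS_convFun W hK [A])) (substOp T' hT' (D.b j))⟫_ℂ

variable (A : TestMonomial U) {T T' : Spc U → Spc U} (hT : MeasurePreserving T (qMeas W) (qMeas W))
  (hT' : MeasurePreserving T' (qMeas W) (qMeas W)) (hT'T : ∀ s, T' (T s) = s)
include hT hT'T

theorem opK_substK_apply (v : Lp ℂ 2 (qMeas W)) :
    opK (substK T hT (kerL2 (isHS_convFun W hK [A]))) v =
      opK (kerL2 (isHS_convFun W hK [A])) (substOp T' hT' v) := by
  rw [Kernel.opK_substK hT hT' hT'T, ContinuousLinearMap.comp_apply]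

/-- The masses are absolutely summable. -/
theorem summable_mass : Summable fun j => ‖D.mass A T' hT' j‖ := by
  refine Summable.of_nonneg_of_le (fun j => norm_nonneg _) (fun j => ?_)
    ((Kernel.summable_norm_sq_char D.b _ D.eigen).add
      (Kernel.hasSum_norm_sq_opK D.b (substK T hT (kerL2 (isHS_convFun W hK [A])))).summable)
  set K₂ := kerL2 (isHS_convFun W hK [A])
  have h1 : ‖⟪D.b j, opK K₂ (substOp T' hT' (D.b j))⟫_ℂ‖ ≤ ‖opK (substK T hT K₂) (D.b j)‖ := by
    refine (norm_inner_le_norm _ _).trans (le_of_eq ?_)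
    rw [D.b.orthonormal.1 j, one_mul, opK_substK_apply (hK := hK) A hT hT' hT'T]
  rw [mass, norm_mul]
  nlinarith [mul_le_mul_of_nonneg_left h1 (norm_nonneg (D.μ j : ℂ)),
    sq_nonneg (‖(D.μ j : ℂ)‖ - ‖opK (substK T hT K₂) (D.b j)‖),
    norm_nonneg (D.μ j : ℂ), norm_nonneg (opK (substK T hT K₂) (D.b j))]

/-- The twisted trace is the sum of the masses times the values. -/
theorem hasSum_mass (a : GoodDatum F) :
    HasSum (fun j => D.mass A T' hT' j * D.mult j a)
      (∫ s, autKernel (convFun (convFun (E.map fun d => d.mono hU) [a.mono hU])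
        (convFun (E.map fun d => d.mono hU) [A])) s (T s) ∂qMeas W) := by
  have h1 := Kernel.hasSum_inner_opK D.b (adjK (kerL2 (isHS_convFun W hK [a.mono hU])))
    (substK T hT (kerL2 (isHS_convFun W hK [A])))
  rw [Kernel.inner_adjK_substK, Kernel.integral_kerL2_pair _ _ T hT] at h1
  refine h1.congr_fun fun j => ?_
  rw [Kernel.opK_adjK, Kernel.adjoint_eigen D.b (fun j => D.eigen_mult j a) j, inner_smul_left,
    Complex.conj_conj, opK_substK_apply (hK := hK) A hT hT' hT'T, mass]
  ring

omit hT hT'T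

/-- The mass of an eigenfunction of parameter zero is a diagonal coefficient. -/
theorem mass_eq_coeff (hsa : ∀ s t, kernel (adjFun (E.map fun d => d.mono hU)) s t =
      kernel (E.map fun d => d.mono hU) s t)
    (hT'eq : ∀ γ : PGLF F, ∃ γ' : PGLF F, ∀ s, T' (γ • s) = γ' • T' s)
    (Tfn : Module.End ℂ (Gf F → Hyp F → ℂ))
    (hTfn : ∀ φ, IsAutomorphic U φ → ∀ s : Spc U, onSpc U (Tfn φ) s = onSpc U φ (T' s))
    {a₀ : FPlace F → ℂ} (j : D.Index a₀) (ψ : Gf F → Hyp F → ℂ)
    (hψ : ψ = A.act (Tfn (D.φ j.1.1))) (v : Lp ℂ 2 (qMeas W))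
    (hv : (v : Spc U → ℂ) =ᵐ[qMeas W] onSpc U ψ) :
    D.mass A T' hT' j.1.1 = evalList E Bad ⟨a₀, 0⟩ ^ 2 * ⟪D.b j.1.1, v⟫_ℂ := by
  have hA := D.aut _ j.1.2
  have hB := D.bdd _ j.1.2
  have hae := D.ae _ j.1.2
  have heig := D.reproduce _ j.1.2
  set Em := E.map fun d => d.mono hU
  obtain ⟨hm, C, hC⟩ := measurable_onSpc_bounded hA hB
  set w : Spc U → ℂ := fun s => onSpc U (D.φ j.1.1) (T' s)
  have hwm : Measurable w := hm.comp hT'.measurable
  have hwi := integrable_of_bounded W hwm fun s => hC _
  have hwinv : IsInvariantFn w := fun γ s => by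
    obtain ⟨γ', h⟩ := hT'eq γ
    simp only [w, h s]
    exact isInvariantFn_onSpc hA γ' _
  have hu : onSpc U ψ = opPt W [A] w := by
    funext s
    rw [opPt_eq_integral_kernel W [A] hwm hwinv (fun s => hC _), onSpc,
      hψ, TestMonomial.act,
      QuotientGroup.out_eq']
    refine integral_congr_ae (Eventually.of_forall fun t => ?_)
    simp only [kernel_cons, kernel_nil, add_zero, w, ← hTfn _ hA t]
    rfl
  have hSb : (substOp T' hT' (D.b j.1.1) : Spc U → ℂ) =ᵐ[qMeas W] w := by
    filter_upwards [Kernel.coeFn_substOp T' hT' (D.b j.1.1),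
      hT'.quasiMeasurePreserving.ae hae] with s h1 h2
    rw [h1]
    exact h2
  have h1 : (opK (kerL2 (isHS_convFun W hK [A])) (substOp T' hT' (D.b j.1.1)) : Spc U → ℂ)
      =ᵐ[qMeas W] opPt W Em (opPt W [A] w) := by
    refine (coeFn_opK_eq_opPt _ _).trans (Eventually.of_forall fun s => ?_)
    rw [opPt_congr_ae W _ hSb, opPt_convFun W Em [A] hwi]
  have h2 : ∀ s, opPt W (adjFun Em) (onSpc U (D.φ j.1.1)) s =
      (D.μ j.1.1 : ℂ) * onSpc U (D.φ j.1.1) s := fun s => by
    rw [opPt_congr_kernel W (fun s t => tsum_congr fun γ => hsa s (γ • t)), heig]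
  rw [inner_eq_integral hae hv, hu, mass]
  rw [inner_eq_integral hae h1,
    integral_conj_mul_opPt W Em hm hC (integrable_opPt W [A] hwi)]
  simp only [h2, map_mul, Complex.conj_ofReal, mul_assoc, integral_const_mul]
  rw [D.value_index j]
  ring

end SpecData

/-- The spectral side of the twisted trace. -/
theorem spectralTrace : SpectralTrace F := by
  intro U Bad hU W E hK hsa A T T' Tfn hT hT' hT'T _ hTeq hT'eq hTfn
  classical
  obtain ⟨D⟩ := exists_specData hU W E hK hsa
  refine ⟨{j // D.μ j ≠ 0}, D.countable, D.sys, fun j => D.mass A T' hT' j.1,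
    (D.summable_mass A hT hT' hT'T).comp_injective Subtype.val_injective,
    D.adm, fun a => ⟨?_, ?_⟩, fun j hl _ => ?_, fun a₀ he => ?_⟩
  · exact Kernel.integrable_twisted_diag W (Kernel.HasCuspBound.convFun
      (Kernel.HasCuspBound.convFun (Kernel.hasCuspBound_of_killsConstant hK) _) _) hT.measurable
      hTeq
  · refine ((hasSum_subtype_iff_of_support_subset fun j hj => ?_).mpr
      (D.hasSum_mass A hT hT' hT'T a)).congr_fun fun j => by
      simp only [Function.comp_apply, D.mult_eq j a]
    rw [Function.mem_support] at hj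
    show D.μ j ≠ 0
    intro h0
    exact hj (by simp [SpecData.mass, h0])
  · refine ⟨by rw [← D.value]; exact_mod_cast j.2, fun hbot => ?_⟩
    obtain ⟨x, p, h0⟩ := D.exists_ne_zero j
    have hmem := D.mem_levelForms j (a := (D.sys j).a) (fun _ _ => rfl) hl
    rw [hbot, Submodule.mem_bot] at hmem
    exact h0 (by rw [hmem]; rfl)
  have := D.finite_index he
  have : Fintype (D.Index a₀) := Fintype.ofFinite _
  refine ⟨Module.Finite.of_basis (D.formBasis he), fun X hX hXmem => ?_⟩
  rw [LinearMap.trace_eq_matrix_trace ℂ (D.formBasis he), Matrix.trace, Finset.mul_sum,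
    tsum_fintype]
  refine Finset.sum_congr rfl fun j _ => ?_
  obtain ⟨v, hv, hcoef⟩ := D.formBasis_repr he (X.restrict hXmem (D.form j)) j
  rw [Matrix.diag_apply, LinearMap.toMatrix_apply, D.formBasis_apply, hcoef]
  exact D.mass_eq_coeff A hT' hsa hT'eq Tfn hTfn j _ (hX _ (D.aut _ j.1.2)) v hv

end Fermat.Agent.ResidualThree
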