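import Fermat.Agent.ResidualThree.CubicDescent.Systems

/-!
# Transforms of good data and data with given local functions at the bad places

The transform of a datum supported at finitely many places `P`: Satake transforms at the places of
`P`, as functions on `ℤ`, times the horospherical transforms at the infinite places.
-/

noncomputable section

open IsDedekindDomain NumberField
open scoped WithZero

namespace Fermat.Agent.ResidualThree

/-- The Satake transform as a symmetric function of an integer. -/
def satakeInt (Q : ℕ) (f : ℕ →₀ ℂ) (n : ℤ) : ℂ := satake Q f n.natAbs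

variable {F : Type} [Field F] [NumberField F]

/-- Positions of a torus element at the places of `P` and at the infinite places. -/
abbrev ShiftSpace (P : Finset (FPlace F)) : Type := (↥P → ℤ) × (InfinitePlace F → ℝ)

/-- The position of a non-zero element. -/
def shiftVec (P : Finset (FPlace F)) (a : F) : ShiftSpace P :=
  (fun v => -WithZero.log ((v : FPlace F).valuation F a), fun w => Real.log (w a))

/-- The transform of a datum. -/
def GoodDatum.transform (d : GoodDatum F) (P : Finset (FPlace F)) (x : ShiftSpace P) : ℂ :=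
  (∏ v : P, satakeInt (Ideal.absNorm (v : FPlace F).asIdeal) (d.loc v) (x.1 v)) *
    ∏ w, d.g w (x.2 w)

/-- The transform of a combination of data. -/
def transformList (E : List (GoodDatum F)) (P : Finset (FPlace F)) (x : ShiftSpace P) : ℂ :=
  (E.map fun d => d.transform P x).sum

open Classical in
/-- The indicators of the level. -/
def levelFun (U : Level F) (v : FPlace F) (x : GLv v) : ℂ := if x ∈ U.J v then 1 else 0

open Classical in
/-- A datum with given functions at the bad places. -/
def GoodDatum.finWith (d : GoodDatum F) (Bad : Finset (FPlace F))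
    (fB : ∀ v : FPlace F, GLv v → ℂ) (v : FPlace F) (x : GLv v) : ℂ :=
  if v ∈ Bad then fB v x else d.loc v (cartan (valv v) x)

theorem GoodDatum.isLocalFamily_finWith (d : GoodDatum F) {U : Level F} {Bad : Finset (FPlace F)}
    (hU : ∀ v ∉ Bad, U.J v = maxSubgroup v) {fB : ∀ v : FPlace F, GLv v → ℂ}
    (hbi : ∀ v ∈ Bad, ∀ j₁ ∈ U.J v, ∀ j₂ ∈ U.J v, ∀ x, fB v (j₁ * x * j₂) = fB v x)
    (hfin : ∀ v ∈ Bad, {q : GLv v ⧸ U.J v | fB v q.out ≠ 0}.Finite) :
    Orbital.IsLocalFamily U (d.finWith Bad fB) where
  bi v j₁ h₁ j₂ h₂ x := by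
    classical
    by_cases hv : v ∈ Bad
    · simp only [GoodDatum.finWith, if_pos hv]; exact hbi v hv j₁ h₁ j₂ h₂ x
    · simpa only [GoodDatum.finWith, GoodDatum.fin, if_neg hv] using
        (d.isLocalFamily hU).bi v j₁ h₁ j₂ h₂ x
  fin v := by
    classical
    by_cases hv : v ∈ Bad
    · simpa only [GoodDatum.finWith, if_pos hv] using hfin v hv
    · simpa only [GoodDatum.finWith, GoodDatum.fin, if_neg hv] using (d.isLocalFamily hU).fin v
  unit := by
    classical
    filter_upwards [(d.isLocalFamily hU).unit, Bad.finite_toSet.compl_mem_cofinite] with v hv hv'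
    have hvB : v ∉ Bad := by simpa using hv'
    refine ⟨hv.1, funext fun x => ?_⟩
    rw [← congrFun hv.2 x]
    simp only [GoodDatum.finWith, GoodDatum.fin, if_neg hvB]

/-- The monomial of a datum with given functions at the bad places. -/
def GoodDatum.monoWith (d : GoodDatum F) {U : Level F} {Bad : Finset (FPlace F)}
    (hU : ∀ v ∉ Bad, U.J v = maxSubgroup v) {fB : ∀ v : FPlace F, GLv v → ℂ}
    (hbi : ∀ v ∈ Bad, ∀ j₁ ∈ U.J v, ∀ j₂ ∈ U.J v, ∀ x, fB v (j₁ * x * j₂) = fB v x)
    (hfin : ∀ v ∈ Bad, {q : GLv v ⧸ U.J v | fB v q.out ≠ 0}.Finite) : TestMonomial U :=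
  prodMono (d.isLocalFamily_finWith hU hbi hfin) d.g d.test

end Fermat.Agent.ResidualThree
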