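import Fermat.Agent.ResidualThree.CubicDescent.BaseTrace
import Fermat.Agent.ResidualThree.CubicDescent.Spectral.ArchPi
import Fermat.Agent.ResidualThree.CubicDescent.Transform

/-!
# The test monomial of a double class acts by the double class operator

On forms of spectral parameter zero a monomial supported in the level away from `S` is the product
of the archimedean values times the operator of its restriction to `S`; for double class
indicators this is the double class operator.
-/

noncomputable section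

open IsDedekindDomain NumberField MeasureTheory
open scoped WithZero

namespace Fermat.Agent.ResidualThree

variable {F : Type} [Field F] [NumberField F] {S : Finset (FPlace F)} {U : Level F}

/-- A monomial supported in the level away from `S` acts by the operator of its restriction. -/
theorem act_eq_heckeLin_of_support (A : TestMonomial U) {h : placeSubgroup S → ℂ}
    (hh : IsHeckeFn (levelAt U S) h) (hA : ∀ z : placeSubgroup S, A.fin (z : Gf F) = h z)
    (hsupp : ∀ y : Gf F, A.fin y ≠ 0 → ∀ v ∉ S, (y : ∀ v, GLv v) v ∈ U.J v)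
    {φ : Gf F → Hyp F → ℂ} (hφ : IsAutomorphic U φ) (hs : IsSpectralZero φ) :
    A.act φ = (∏ w, sphZero (A.arch w)) • heckeLin hh φ := by
  classical
  funext x p
  rw [TestMonomial.act_eq_of_spectralZero A hφ hs, Pi.smul_apply, Pi.smul_apply, smul_eq_mul]
  congr 1
  rw [heckeLin, LinearMap.sum_apply, Finset.sum_apply, Finset.sum_apply]
  have hfin : ∀ z : Gf F, A.fin (z : Ωf U).out = A.fin z := fun z => by
    obtain ⟨j, hj⟩ := QuotientGroup.mk_out_eq_mul U.group z
    rw [hj]
    simpa using A.biinvariant 1 j z (one_mem _) j.2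
  symm
  refine Finset.sum_bij (fun q _ => ((q.out : Gf F) : Ωf U)) (fun q hq => ?_) (fun q _ q' _ e => ?_)
    (fun y hy => ?_) fun q hq => ?_
  · rw [Set.Finite.mem_toFinset, Set.mem_ofPred_eq, hfin, hA]
    exact hh.fin.mem_toFinset.1 hq
  · have h1 : (q.out⁻¹ * q'.out : placeSubgroup S) ∈ levelAt U S :=
      Subgroup.mem_subgroupOf.2 (QuotientGroup.eq.1 e)
    rw [← QuotientGroup.out_eq' q, ← QuotientGroup.out_eq' q', QuotientGroup.eq]
    exact h1
  · rw [Set.Finite.mem_toFinset, Set.mem_ofPred_eq] at hy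
    set z := resPlaces S y.out
    have hrest : (z : Gf F)⁻¹ * y.out ∈ U.group := fun v => by
      by_cases hv : v ∈ S
      · rw [resPlaces_rest y.out hv]; exact one_mem _
      · rw [resPlaces_rest_ne y.out hv]
        exact hsupp _ hy v hv
    have hzy : ((z : Gf F) : Ωf U) = y := by
      rw [← QuotientGroup.out_eq' y, QuotientGroup.eq]; exact hrest
    obtain ⟨j, hj⟩ := QuotientGroup.mk_out_eq_mul (levelAt U S) z
    have hmk : (((z : placeSubgroup S ⧸ levelAt U S).out : Gf F) : Ωf U) = y := by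
      rw [hj, Subgroup.coe_mul, QuotientGroup.mk_mul_of_mem _ (Subgroup.mem_subgroupOf.1 j.2), hzy]
    refine ⟨(z : placeSubgroup S ⧸ levelAt U S), ?_, hmk⟩
    rw [Set.Finite.mem_toFinset, Set.mem_ofPred_eq, hh.apply_out, ← hA, ← hfin, hzy]
    exact hy
  · obtain ⟨j, hj⟩ := QuotientGroup.mk_out_eq_mul U.group (q.out : Gf F)
    show h q.out * φ (x * (q.out : Gf F)) p = _
    rw [hfin, hA, hj, ← mul_assoc, hφ.right (x * (q.out : Gf F)) (j : Gf F) j.2]

/-- The restriction to the places of `S` of the finite part of the unit datum with given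
functions. -/
theorem GoodDatum.monoWith_fin_apply (d : GoodDatum F) (hU : ∀ v ∉ S, U.J v = maxSubgroup v)
    (hd : ∀ v, d.loc v = Finsupp.single 0 1) {fB : ∀ v : FPlace F, GLv v → ℂ}
    (hbi : ∀ v ∈ S, ∀ j₁ ∈ U.J v, ∀ j₂ ∈ U.J v, ∀ x, fB v (j₁ * x * j₂) = fB v x)
    (hfin : ∀ v ∈ S, {q : GLv v ⧸ U.J v | fB v q.out ≠ 0}.Finite) (z : placeSubgroup S) :
    (d.monoWith hU hbi hfin).fin (z : Gf F) =
      ∏ v ∈ S, fB v (((z : Gf F) : ∀ v, GLv v) v) := by
  classical
  show (∏ᶠ v, d.finWith S fB v (((z : Gf F) : ∀ v, GLv v) v)) = _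
  rw [finprod_eq_prod_of_mulSupport_subset _ (s := S) fun v hv => ?_]
  · exact Finset.prod_congr rfl fun v hv => by rw [GoodDatum.finWith, if_pos hv]
  · by_contra hvS
    refine hv ?_
    show d.finWith S fB v _ = 1
    have hvS' : v ∉ S := hvS
    rw [GoodDatum.finWith, if_neg hvS', hd v, z.2 v hvS', Finsupp.single_apply,
      if_pos (Tree.cartan_eq_zero_iff.2 (one_mem _)).symm]

/-- The finite part vanishes outside the level away from `S`. -/
theorem GoodDatum.monoWith_fin_support (d : GoodDatum F) (hU : ∀ v ∉ S, U.J v = maxSubgroup v)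
    (hd : ∀ v, d.loc v = Finsupp.single 0 1) {fB : ∀ v : FPlace F, GLv v → ℂ}
    (hbi : ∀ v ∈ S, ∀ j₁ ∈ U.J v, ∀ j₂ ∈ U.J v, ∀ x, fB v (j₁ * x * j₂) = fB v x)
    (hfin : ∀ v ∈ S, {q : GLv v ⧸ U.J v | fB v q.out ≠ 0}.Finite) (y : Gf F)
    (hy : (d.monoWith hU hbi hfin).fin y ≠ 0) (v : FPlace F) (hv : v ∉ S) :
    (y : ∀ v, GLv v) v ∈ U.J v := by
  classical
  have h := (d.isLocalFamily_finWith hU hbi hfin).globalFun_ne_zero (x := y) hy v
  rw [GoodDatum.finWith, if_neg hv, hd v, Finsupp.single_apply, ne_eq, ite_eq_right_iff,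
    Classical.not_imp] at h
  rw [hU v hv]
  exact Tree.cartan_eq_zero_iff.1 h.1.symm

/-- The local double class indicators of an element supported at `S`. -/
def dcFamily (U : Level F) (g : placeSubgroup S) (v : FPlace F) (x : GLv v) : ℂ :=
  dcInd (U.J v) (((g : Gf F) : ∀ v, GLv v) v) x

theorem finite_dc_local (U : Level F) (v : FPlace F) (x : GLv v) :
    {q : GLv v ⧸ U.J v | ∃ j ∈ U.J v, ((j * x : GLv v) : GLv v ⧸ U.J v) = q}.Finite := by
  refine finite_dc_of_hom U ⟨⟨single v, single_one v⟩, single_mul v⟩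
    (Subgroup.ext fun g => ⟨fun hg u => ?_, fun hg => ?_⟩) x
  · show ((single v g : Gf F) : ∀ v, GLv v) u ∈ U.J u
    by_cases hu : u = v
    · subst hu; rw [single_apply_same]; exact hg
    · rw [single_apply_ne hu]; exact one_mem _
  · simpa [single_apply_same] using hg v

theorem dcFamily_finite (U : Level F) (g : placeSubgroup S) (v : FPlace F) :
    {q : GLv v ⧸ U.J v | dcFamily U g v q.out ≠ 0}.Finite :=
  (isHeckeFn_dcInd (finite_dc_local U v _)).fin

theorem isLocalFamily_dcFamily (U : Level F) (g : placeSubgroup S) :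
    Orbital.IsLocalFamily U (dcFamily U g) where
  bi _ _ h₁ _ h₂ x := dcInd_bi _ h₁ h₂ x
  fin := dcFamily_finite U g
  unit := by
    classical
    filter_upwards [U.eventually_max, S.finite_toSet.compl_mem_cofinite] with v hv hS
    refine ⟨hv, funext fun x => ?_⟩
    rw [dcFamily, g.2 v (by simpa using hS), hv, dcInd_one_eq, Orbital.unitFun]

theorem globalFun_dcFamily (g x : placeSubgroup S) :
    Orbital.globalFun (dcFamily U g) (x : Gf F) = dcInd (levelAt U S) g x := by
  classical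
  have hf := isLocalFamily_dcFamily U g
  by_cases h : ∀ v, dcFamily U g v (((x : Gf F) : ∀ v, GLv v) v) ≠ 0
  · have hone : ∀ v, dcFamily U g v (((x : Gf F) : ∀ v, GLv v) v) = 1 := fun v => by
      rw [dcFamily, dcInd, if_pos (dcInd_ne_zero (h v))]
    rw [Orbital.globalFun, finprod_eq_one_of_forall_eq_one hone]
    choose j₁ h₁ j₂ h₂ e using fun v => dcInd_ne_zero (h v)
    have hmem : ∀ (j : ∀ v, GLv v), (∀ v, j v ∈ U.J v) → j ∈ Gf F := fun j hj =>
      (Filter.Eventually.of_forall fun v => U.le_max v (hj v) :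
        ∀ᶠ v in Filter.cofinite, j v ∈ maxSubgroup v)
    set J₁ := resPlaces S ⟨fun v => j₁ v, hmem _ h₁⟩
    set J₂ := resPlaces S ⟨fun v => j₂ v, hmem _ h₂⟩
    refine (if_pos ⟨J₁, mem_levelAt.2 fun v hv => ?_, J₂, mem_levelAt.2 fun v hv => ?_, ?_⟩).symm
    · rw [resPlaces_apply_mem _ hv]; exact h₁ v
    · rw [resPlaces_apply_mem _ hv]; exact h₂ v
    · refine Subtype.ext (Subtype.ext (funext fun v => ?_))
      show ((x : Gf F) : ∀ v, GLv v) v = ((J₁ : Gf F) : ∀ v, GLv v) v *
        ((g : Gf F) : ∀ v, GLv v) v * ((J₂ : Gf F) : ∀ v, GLv v) v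
      by_cases hv : v ∈ S
      · rw [resPlaces_apply_mem _ hv, resPlaces_apply_mem _ hv]; exact e v
      · rw [J₁.2 v hv, J₂.2 v hv, g.2 v hv, x.2 v hv, one_mul, one_mul]
  · push Not at h
    obtain ⟨v, hv⟩ := h
    have h0 : Orbital.globalFun (dcFamily U g) (x : Gf F) = 0 :=
      by_contra fun hne => hf.globalFun_ne_zero hne v hv
    rw [h0]
    by_contra hne
    obtain ⟨i₁, hi₁, i₂, hi₂, e⟩ := dcInd_ne_zero (Ne.symm hne)
    have hone : dcFamily U g v (((x : Gf F) : ∀ v, GLv v) v) = 1 :=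
      if_pos ⟨_, hi₁ v, _, hi₂ v,
        congrArg (fun z : placeSubgroup S => ((z : Gf F) : ∀ v, GLv v) v) e⟩
    exact one_ne_zero (hone.symm.trans hv)

/-- The finite part of the unit datum with double class indicators at `S`. -/
theorem GoodDatum.monoWith_fin_dcFamily (d : GoodDatum F) {Bad : Finset (FPlace F)}
    (hU : ∀ v ∉ Bad, U.J v = maxSubgroup v) (g : placeSubgroup S) (hS : S ⊆ Bad)
    (hd : ∀ v, d.loc v = Finsupp.single 0 1)
    {fB : ∀ v : FPlace F, GLv v → ℂ}
    (hfB : ∀ v ∈ Bad, fB v = dcFamily U g v)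
    (hbi : ∀ v ∈ Bad, ∀ j₁ ∈ U.J v, ∀ j₂ ∈ U.J v, ∀ x, fB v (j₁ * x * j₂) = fB v x)
    (hfin : ∀ v ∈ Bad, {q : GLv v ⧸ U.J v | fB v q.out ≠ 0}.Finite) (x : Gf F) :
    (d.monoWith hU hbi hfin).fin x = Orbital.globalFun (dcFamily U g) x := by
  classical
  refine finprod_congr fun v => ?_
  show d.finWith Bad fB v _ = _
  by_cases hv : v ∈ Bad
  · rw [GoodDatum.finWith, if_pos hv, hfB v hv]
  · rw [GoodDatum.finWith, if_neg hv, hd v, dcFamily, g.2 v (fun h => hv (hS h)), dcInd_one_eq,
      Finsupp.single_apply, hU v hv]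
    refine if_congr ?_ rfl rfl
    rw [eq_comm, Tree.cartan_eq_zero_iff]
    rfl

end Fermat.Agent.ResidualThree
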