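import Fermat.Agent.ResidualThree.CubicDescent.BadLevels
import Fermat.Agent.ResidualThree.CubicDescent.BaseAct
import Fermat.Agent.ResidualThree.Tree.TransferLevel
import Fermat.Agent.ResidualThree.Tree.TransferTame

/-!
# The levels and the matching functions at the bad places

At the split bad places the level is a congruence subgroup and the functions are double class
indicators with their convolution below; at the others it is the tame level away from three and a
deep congruence level over three.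
-/

noncomputable section

open IsDedekindDomain NumberField
open scoped WithZero

namespace Fermat.Agent.ResidualThree

open Orbital (below Over comapPlace comapOver baseGL IsStableLevel)
open Fermat.Agent.ResidualThree.Tree (threeLev congInd tameInd levelWeight baseLevel
  comapPlace_eq_self)

variable {K L : Type} [Field K] [NumberField K] [Field L] [NumberField L] [Algebra K L]
  (BadK T₃ : Finset (FPlace K)) (N : ℕ)

open Classical in
/-- The level over `L`. -/
def levL : Level L where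
  J w := if below K w ∈ T₃ then congSubgroup w N else
    if below K w ∈ BadK then
      (if (3 : 𝓞 L) ∈ w.asIdeal then congSubgroup w (threeLev w + 1 + threeLev w)
        else tameSubgroup w)
    else maxSubgroup w
  le_max w := by
    split_ifs
    exacts [congSubgroup_le_max w _, congSubgroup_le_max w _, tameSubgroup_le_max w, le_rfl]
  exists_cong w := by
    split_ifs
    exacts [⟨_, le_rfl⟩, ⟨_, le_rfl⟩, ⟨1, congSubgroup_one_le_tame w⟩, ⟨0, congSubgroup_le_max w 0⟩]
  eventually_max := by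
    filter_upwards [(Orbital.overFinset L (BadK ∪ T₃)).finite_toSet.compl_mem_cofinite] with w hw
    have h : below K w ∉ BadK ∪ T₃ := fun h => hw (Finset.mem_coe.2 (Orbital.mem_overFinset.2 h))
    simp only [Finset.mem_union, not_or] at h
    rw [if_neg h.2, if_neg h.1]

variable (L) in
/-- The depth over `K` at a bad place over three. -/
def baseDepth (v : FPlace K) : ℕ :=
  let c := threeLev (Classical.choice (Orbital.nonempty_over L v)).1
  c + 1 + c + c

variable (L) in
open Classical in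
/-- The level over `K`. -/
def levK : Level K where
  J v := if v ∈ T₃ then congSubgroup v N else
    if v ∈ BadK then
      (if (3 : 𝓞 K) ∈ v.asIdeal then congSubgroup v (baseDepth L v) else tameSubgroup v)
    else maxSubgroup v
  le_max v := by
    split_ifs
    exacts [congSubgroup_le_max v _, congSubgroup_le_max v _, tameSubgroup_le_max v, le_rfl]
  exists_cong v := by
    split_ifs
    exacts [⟨_, le_rfl⟩, ⟨_, le_rfl⟩, ⟨1, congSubgroup_one_le_tame v⟩, ⟨0, congSubgroup_le_max v 0⟩]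
  eventually_max := by
    filter_upwards [(BadK ∪ T₃).finite_toSet.compl_mem_cofinite] with v hv
    have h : v ∉ BadK ∪ T₃ := fun h => hv (Finset.mem_coe.2 h)
    simp only [Finset.mem_union, not_or] at h
    rw [if_neg h.2, if_neg h.1]

theorem levL_split {w : FPlace L} (hw : below K w ∈ T₃) :
    (levL BadK T₃ N).J w = congSubgroup w N := by
  classical exact if_pos hw

theorem levL_wild {w : FPlace L} (hT : below K w ∉ T₃) (hB : below K w ∈ BadK)
    (h3 : (3 : 𝓞 L) ∈ w.asIdeal) :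
    (levL BadK T₃ N).J w = congSubgroup w (threeLev w + 1 + threeLev w) := by
  classical
  show ite _ _ _ = _
  rw [if_neg hT, if_pos hB, if_pos h3]

theorem levL_tame {w : FPlace L} (hT : below K w ∉ T₃) (hB : below K w ∈ BadK)
    (h3 : (3 : 𝓞 L) ∉ w.asIdeal) : (levL BadK T₃ N).J w = tameSubgroup w := by
  classical
  show ite _ _ _ = _
  rw [if_neg hT, if_pos hB, if_neg h3]

theorem levL_max {w : FPlace L} (hT : below K w ∉ T₃) (hB : below K w ∉ BadK) :
    (levL BadK T₃ N).J w = maxSubgroup w := by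
  classical
  show ite _ _ _ = _
  rw [if_neg hT, if_neg hB]

theorem levK_split {v : FPlace K} (hv : v ∈ T₃) :
    (levK L BadK T₃ N).J v = congSubgroup v N := by
  classical exact if_pos hv

theorem levK_wild {v : FPlace K} (hT : v ∉ T₃) (hB : v ∈ BadK) (h3 : (3 : 𝓞 K) ∈ v.asIdeal) :
    (levK L BadK T₃ N).J v = congSubgroup v (baseDepth L v) := by
  classical
  show ite _ _ _ = _
  rw [if_neg hT, if_pos hB, if_pos h3]

theorem levK_tame {v : FPlace K} (hT : v ∉ T₃) (hB : v ∈ BadK) (h3 : (3 : 𝓞 K) ∉ v.asIdeal) :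
    (levK L BadK T₃ N).J v = tameSubgroup v := by
  classical
  show ite _ _ _ = _
  rw [if_neg hT, if_pos hB, if_neg h3]

theorem levK_max {v : FPlace K} (hT : v ∉ T₃) (hB : v ∉ BadK) :
    (levK L BadK T₃ N).J v = maxSubgroup v := by
  classical
  show ite _ _ _ = _
  rw [if_neg hT, if_neg hB]

theorem threeLev_comapPlace (f : L ≃+* L) (w : FPlace L) :
    threeLev (comapPlace f w) = threeLev w := by
  rw [threeLev, threeLev, ← Orbital.valv_localAut f w, map_ofNat]

/-- The level over `L` is stable under the automorphism. -/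
theorem isStableLevel_levL (τ : Orbital.CubicAut K L) :
    IsStableLevel τ.σ.toRingEquiv (levL BadK T₃ N) := by
  intro w g hg
  have hb : below K (comapPlace τ.σ.toRingEquiv w) = below K w := Orbital.below_comapPlace τ.σ w
  by_cases hT : below K w ∈ T₃
  · rw [levL_split BadK T₃ N (hb ▸ hT)] at hg
    rw [levL_split BadK T₃ N hT]
    exact localAutGL_mem_cong _ w hg
  by_cases hB : below K w ∈ BadK
  · by_cases h3 : (3 : 𝓞 L) ∈ w.asIdeal
    · have h3' : (3 : 𝓞 L) ∈ (comapPlace τ.σ.toRingEquiv w).asIdeal := by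
        rw [← three_mem_below_iff (K := K), hb, three_mem_below_iff]; exact h3
      rw [levL_wild BadK T₃ N (hb ▸ hT) (hb ▸ hB) h3', threeLev_comapPlace] at hg
      rw [levL_wild BadK T₃ N hT hB h3]
      exact localAutGL_mem_cong _ w hg
    · have h3' : (3 : 𝓞 L) ∉ (comapPlace τ.σ.toRingEquiv w).asIdeal := by
        rw [← three_mem_below_iff (K := K), hb, three_mem_below_iff]; exact h3
      rw [levL_tame BadK T₃ N (hb ▸ hT) (hb ▸ hB) h3'] at hg
      rw [levL_tame BadK T₃ N hT hB h3]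
      exact localAutGL_mem_tame _ w hg
  · rw [levL_max BadK T₃ N (hb ▸ hT) (hb ▸ hB)] at hg
    rw [levL_max BadK T₃ N hT hB]
    exact Orbital.localAutGL_mem_max _ w hg

/-- The shape of the bad places: three places above those of `T₃`, one above the others. -/
structure BadShape (τ : Orbital.CubicAut K L) : Prop where
  sub : T₃ ⊆ BadK
  degree : Module.finrank K L = 3
  split : ∀ v ∈ T₃, Nat.card (Over L v) = 3
  one : ∀ v ∈ BadK, v ∉ T₃ → ∃ w : Over L v, (∀ w' : Over L v, w' = w) ∧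
    ((3 : 𝓞 K) ∉ v.asIdeal → Ideal.absNorm w.1.asIdeal = Ideal.absNorm v.asIdeal ∧
      valv w.1 (3 : w.1.adicCompletion L) = 1)

variable {BadK T₃} {τ : Orbital.CubicAut K L}

open Classical in
/-- The functions over `K` matching double class indicators over `L`. -/
def badFnK (hS : BadShape BadK T₃ τ) (g : placeSubgroup (Orbital.overFinset L T₃))
    (v : FPlace K) : GLv v → ℂ :=
  if v ∈ T₃ then
    let w₀ : Over L v := Classical.choice (Orbital.nonempty_over L v)
    Orbital.conv3 v (levK L BadK T₃ N)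
      (fun x => dcFamily (levL BadK T₃ N) g w₀.1 (baseGL w₀.1 w₀.2 x))
      (fun x => dcFamily (levL BadK T₃ N) g (comapOver τ.σ w₀).1
        (baseGL (comapOver τ.σ w₀).1 (comapOver τ.σ w₀).2 x))
      (fun x => dcFamily (levL BadK T₃ N) g (comapOver τ.σ (comapOver τ.σ w₀)).1
        (baseGL (comapOver τ.σ (comapOver τ.σ w₀)).1 (comapOver τ.σ (comapOver τ.σ w₀)).2 x))
  else if hB : v ∈ BadK ∧ v ∉ T₃ then
    (if (3 : 𝓞 K) ∈ v.asIdeal then
      levelWeight (hS.one v hB.1 hB.2).choose.1 (hS.one v hB.1 hB.2).choose.2 τ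
        (comapPlace_eq_self τ _ (hS.one v hB.1 hB.2).choose_spec.1)
        (threeLev (hS.one v hB.1 hB.2).choose.1 + 1) ((levK L BadK T₃ N).J v)
    else tameInd v)
  else 0

variable (hS : BadShape BadK T₃ τ) (g : placeSubgroup (Orbital.overFinset L T₃))

include hS in
theorem baseGL_mem_level_iff {v : FPlace K} (hv : v ∈ T₃) (w : Over L v) (x : GLv v) :
    baseGL w.1 w.2 x ∈ (levL BadK T₃ N).J w.1 ↔ x ∈ (levK L BadK T₃ N).J v := by
  rw [levL_split BadK T₃ N (w.2.symm ▸ hv), levK_split BadK T₃ N hv]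
  exact baseGL_mem_cong_iff τ hS.degree (hS.split v hv) w N x

include hS in
theorem dcPull_bi {v : FPlace K} (hv : v ∈ T₃) (w : Over L v) :
    ∀ j₁ ∈ (levK L BadK T₃ N).J v, ∀ j₂ ∈ (levK L BadK T₃ N).J v, ∀ x,
      dcFamily (levL BadK T₃ N) g w.1 (baseGL w.1 w.2 (j₁ * x * j₂)) =
        dcFamily (levL BadK T₃ N) g w.1 (baseGL w.1 w.2 x) := fun j₁ h₁ j₂ h₂ x => by
  rw [map_mul, map_mul]
  exact dcInd_bi _ ((baseGL_mem_level_iff N hS hv w j₁).2 h₁)
    ((baseGL_mem_level_iff N hS hv w j₂).2 h₂) _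

include hS in
theorem dcPull_fin {v : FPlace K} (hv : v ∈ T₃) (w : Over L v) :
    {q : GLv v ⧸ (levK L BadK T₃ N).J v |
      dcFamily (levL BadK T₃ N) g w.1 (baseGL w.1 w.2 q.out) ≠ 0}.Finite := by
  let ι : GLv v ⧸ (levK L BadK T₃ N).J v → GLv w.1 ⧸ (levL BadK T₃ N).J w.1 := fun q =>
    QuotientGroup.mk (baseGL w.1 w.2 q.out)
  have hι : Function.Injective ι := fun a b h => by
    have h' := QuotientGroup.eq.1 h
    rw [← map_inv, ← map_mul, baseGL_mem_level_iff N hS hv w] at h'
    rw [← QuotientGroup.out_eq' a, ← QuotientGroup.out_eq' b, QuotientGroup.eq]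
    exact h'
  refine ((dcFamily_finite (levL BadK T₃ N) g w.1).preimage hι.injOn).subset fun q hq => ?_
  show dcFamily _ g w.1 (ι q).out ≠ 0
  obtain ⟨j, hj⟩ := QuotientGroup.mk_out_eq_mul ((levL BadK T₃ N).J w.1) (baseGL w.1 w.2 q.out)
  rw [show (ι q).out = baseGL w.1 w.2 q.out * (j : GLv w.1) from hj,
    show baseGL w.1 w.2 q.out * (j : GLv w.1) = 1 * baseGL w.1 w.2 q.out * j by rw [one_mul],
    show dcFamily (levL BadK T₃ N) g w.1 (1 * baseGL w.1 w.2 q.out * (j : GLv w.1)) = _ from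
      dcInd_bi _ (one_mem _) j.2 _]
  exact hq

theorem badFnK_split {v : FPlace K} (hv : v ∈ T₃) :
    ∃ w₀ : Over L v, badFnK N hS g v = Orbital.conv3 v (levK L BadK T₃ N)
      (fun x => dcFamily (levL BadK T₃ N) g w₀.1 (baseGL w₀.1 w₀.2 x))
      (fun x => dcFamily (levL BadK T₃ N) g (comapOver τ.σ w₀).1
        (baseGL (comapOver τ.σ w₀).1 (comapOver τ.σ w₀).2 x))
      (fun x => dcFamily (levL BadK T₃ N) g (comapOver τ.σ (comapOver τ.σ w₀)).1
        (baseGL (comapOver τ.σ (comapOver τ.σ w₀)).1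
          (comapOver τ.σ (comapOver τ.σ w₀)).2 x)) := by
  classical
  exact ⟨_, if_pos hv⟩

theorem badFnK_one {v : FPlace K} (hv : v ∈ BadK) (hT : v ∉ T₃) :
    ∃ (w : Over L v) (hu : ∀ w' : Over L v, w' = w),
      ((3 : 𝓞 K) ∈ v.asIdeal ∧ badFnK N hS g v = levelWeight w.1 w.2 τ (comapPlace_eq_self τ w hu)
        (threeLev w.1 + 1) ((levK L BadK T₃ N).J v)) ∨
      ((3 : 𝓞 K) ∉ v.asIdeal ∧ Ideal.absNorm w.1.asIdeal = Ideal.absNorm v.asIdeal ∧
        valv w.1 (3 : w.1.adicCompletion L) = 1 ∧ badFnK N hS g v = tameInd v) := by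
  classical
  refine ⟨(hS.one v hv hT).choose, (hS.one v hv hT).choose_spec.1, ?_⟩
  by_cases h3 : (3 : 𝓞 K) ∈ v.asIdeal
  · refine Or.inl ⟨h3, ?_⟩
    rw [badFnK, if_neg hT, dif_pos ⟨hv, hT⟩, if_pos h3]
  · obtain ⟨e1, e2⟩ := (hS.one v hv hT).choose_spec.2 h3
    refine Or.inr ⟨h3, e1, e2, ?_⟩
    rw [badFnK, if_neg hT, dif_pos ⟨hv, hT⟩, if_neg h3]

theorem levK_le_baseLevel {v : FPlace K} (hv : v ∈ BadK) (hT : v ∉ T₃)
    (h3 : (3 : 𝓞 K) ∈ v.asIdeal) (w : Over L v) (hu : ∀ w' : Over L v, w' = w) :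
    (levK L BadK T₃ N).J v ≤
      baseLevel w.1 w.2 (threeLev w.1 + 1 + threeLev w.1 + threeLev w.1) := by
  rw [levK_wild BadK T₃ N hT hv h3, baseDepth, hu (Classical.choice (Orbital.nonempty_over L v))]
  exact Tree.congSubgroup_le_baseLevel w.1 w.2 _

theorem tameInd_bi {F : Type} [Field F] [NumberField F] (u : FPlace F) :
    ∀ j₁ ∈ tameSubgroup u, ∀ j₂ ∈ tameSubgroup u, ∀ x,
      tameInd u (j₁ * x * j₂) = tameInd u x := fun j₁ h₁ j₂ h₂ x => by
  classical
  simp only [tameInd, Subgroup.mul_mem_cancel_right _ h₂, Subgroup.mul_mem_cancel_left _ h₁]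

theorem badFnK_bi {v : FPlace K} (hv : v ∈ BadK) :
    ∀ j₁ ∈ (levK L BadK T₃ N).J v, ∀ j₂ ∈ (levK L BadK T₃ N).J v, ∀ x,
      badFnK N hS g v (j₁ * x * j₂) = badFnK N hS g v x := by
  intro j₁ h₁ j₂ h₂ x
  by_cases hT : v ∈ T₃
  · obtain ⟨w₀, e⟩ := badFnK_split N hS g hT
    rw [e]
    exact Orbital.conv3_biinvariant (dcPull_bi N hS g hT _) (dcPull_bi N hS g hT _)
      (dcPull_bi N hS g hT _) h₁ h₂ x
  · obtain ⟨w, hu, ⟨h3, e⟩ | ⟨h3, -, -, e⟩⟩ := badFnK_one N hS g hv hT
    · rw [e]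
      exact Tree.levelWeight_biinvariant w.1 w.2 τ (comapPlace_eq_self τ w hu)
        (Nat.lt_succ_self _) _ (levK_le_baseLevel N hv hT h3 w hu) h₁ h₂ x
    · rw [e]
      rw [levK_tame BadK T₃ N hT hv h3] at h₁ h₂
      exact tameInd_bi v j₁ h₁ j₂ h₂ x

theorem badFnK_fin {v : FPlace K} (hv : v ∈ BadK) :
    {q : GLv v ⧸ (levK L BadK T₃ N).J v | badFnK N hS g v q.out ≠ 0}.Finite := by
  by_cases hT : v ∈ T₃
  · obtain ⟨w₀, e⟩ := badFnK_split N hS g hT
    rw [e]
    exact Orbital.conv3_finite_support (dcPull_bi N hS g hT _) (dcPull_bi N hS g hT _)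
      (dcPull_fin N hS g hT _) (dcPull_fin N hS g hT _) (dcPull_fin N hS g hT _)
  · obtain ⟨w, hu, ⟨h3, e⟩ | ⟨h3, -, -, e⟩⟩ := badFnK_one N hS g hv hT
    · rw [e]
      exact Tree.levelWeight_finite_support w.1 w.2 τ (comapPlace_eq_self τ w hu)
        (Nat.lt_succ_self _) _ ((levK L BadK T₃ N).exists_cong v)
    · rw [e]
      classical
      refine (Set.finite_singleton (QuotientGroup.mk 1)).subset fun q hq => ?_
      rw [Set.mem_ofPred_eq, tameInd, ne_eq, ite_eq_right_iff] at hq
      push Not at hq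
      rw [Set.mem_singleton_iff, ← QuotientGroup.out_eq' q, QuotientGroup.eq, mul_one]
      exact inv_mem ((SetLike.ext_iff.1 (levK_tame BadK T₃ N hT hv h3) _).2 hq.1)

/-- The two families of functions match at every bad place. -/
theorem badFnK_match {v : FPlace K} (hv : v ∈ BadK) :
    Orbital.LocalMatch τ (levL BadK T₃ N) (levK L BadK T₃ N) v (dcFamily (levL BadK T₃ N) g)
      (badFnK N hS g v) := by
  classical
  by_cases hT : v ∈ T₃
  · obtain ⟨w₀, e⟩ := badFnK_split N hS g hT
    exact Orbital.localMatch_split τ (levL BadK T₃ N) (levK L BadK T₃ N) _ _ (hS.split v hT) w₀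
      _ _ _ (fun w x => baseGL_mem_level_iff N hS hT w x) (dcPull_bi N hS g hT _)
      (dcPull_bi N hS g hT _) (dcPull_bi N hS g hT _) (dcPull_fin N hS g hT _)
      (dcPull_fin N hS g hT _) (fun _ => rfl) (fun _ => rfl) (fun _ => rfl) fun x => congrFun e x
  · obtain ⟨w, hu, hcase⟩ := badFnK_one N hS g hv hT
    have hTw : below K w.1 ∉ T₃ := w.2.symm ▸ hT
    have hBw : below K w.1 ∈ BadK := w.2.symm ▸ hv
    have hg1 : ∀ x, dcFamily (levL BadK T₃ N) g w.1 x =
        if x ∈ (levL BadK T₃ N).J w.1 then 1 else 0 := fun x => by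
      rw [dcFamily, g.2 w.1 fun h => hTw (Orbital.mem_overFinset.1 h), dcInd_one_eq]
    rcases hcase with ⟨h3, e⟩ | ⟨h3, hN, hv3, e⟩
    · have h3' : (3 : 𝓞 L) ∈ w.1.asIdeal := by rw [← three_mem_below_iff (K := K), w.2]; exact h3
      refine Tree.localMatch_level τ w hu (threeLev w.1 + 1) (Nat.lt_succ_self _) _ _
        (levL_wild BadK T₃ N hTw hBw h3')
        ((levK_le_baseLevel N hv hT h3 w hu).trans
          (Tree.baseLevel_antitone w.1 w.2 (by omega))) _ _ (fun x => ?_) fun x => congrFun e x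
      rw [hg1, levL_wild BadK T₃ N hTw hBw h3', congInd]
    · have h3' : (3 : 𝓞 L) ∉ w.1.asIdeal := by rw [← three_mem_below_iff (K := K), w.2]; exact h3
      refine Tree.localMatch_tame τ w hu hN hv3 _ _ (levL_tame BadK T₃ N hTw hBw h3')
        (levK_tame BadK T₃ N hT hv h3) _ _ (fun x => ?_) fun x => congrFun e x
      rw [hg1, levL_tame BadK T₃ N hTw hBw h3', tameInd]

end Fermat.Agent.ResidualThree
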