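import Fermat.Agent.ResidualThree.CubicDescent.Transform

/-!
# Combinations of translates of a product of test functions

The transforms of the killing elements: finitely many translates of `δ₀ ⊗ ⊗ g₀`.
-/

noncomputable section

open IsDedekindDomain NumberField

namespace Fermat.Agent.ResidualThree

variable {F : Type} [Field F] [NumberField F] {P : Finset (FPlace F)}

open Classical in
/-- The translate by `u` of `δ₀ ⊗ ⊗ g₀`. -/
def shiftAtom (g₀ : InfinitePlace F → ℝ → ℂ) (u x : ShiftSpace P) : ℂ :=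
  if x.1 = u.1 then ∏ w, g₀ w (x.2 w - u.2 w) else 0

/-- A combination of translates of `δ₀ ⊗ ⊗ g₀`. -/
def shiftSum (g₀ : InfinitePlace F → ℝ → ℂ) (c : ShiftSpace P →₀ ℂ) (x : ShiftSpace P) : ℂ :=
  c.sum fun u cu => cu * shiftAtom g₀ u x

theorem shiftSum_add (g₀ : InfinitePlace F → ℝ → ℂ) (c c' : ShiftSpace P →₀ ℂ)
    (x : ShiftSpace P) : shiftSum g₀ (c + c') x = shiftSum g₀ c x + shiftSum g₀ c' x := by
  classical
  exact Finsupp.sum_add_index' (fun _ => zero_mul _) fun _ _ _ => add_mul _ _ _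

theorem shiftSum_sub (g₀ : InfinitePlace F → ℝ → ℂ) (c c' : ShiftSpace P →₀ ℂ)
    (x : ShiftSpace P) : shiftSum g₀ (c - c') x = shiftSum g₀ c x - shiftSum g₀ c' x :=
  Finsupp.sum_sub_index fun _ _ _ => sub_mul _ _ _

theorem shiftSum_single (g₀ : InfinitePlace F → ℝ → ℂ) (u : ShiftSpace P) (r : ℂ)
    (x : ShiftSpace P) : shiftSum g₀ (Finsupp.single u r) x = r * shiftAtom g₀ u x :=
  Finsupp.sum_single_index (zero_mul _)

theorem shiftSum_finsetSum (g₀ : InfinitePlace F → ℝ → ℂ) {ι : Type*} (S : Finset ι)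
    (c : ι → ShiftSpace P →₀ ℂ) (x : ShiftSpace P) :
    shiftSum g₀ (∑ i ∈ S, c i) x = ∑ i ∈ S, shiftSum g₀ (c i) x := by
  classical
  induction S using Finset.induction_on with
  | empty => simp [shiftSum]
  | @insert j S hj ih => rw [Finset.sum_insert hj, Finset.sum_insert hj, shiftSum_add, ih]

theorem shiftAtom_add (g₀ : InfinitePlace F → ℝ → ℂ) (u δ x : ShiftSpace P) :
    shiftAtom g₀ (u + δ) x = shiftAtom g₀ u (x - δ) := by
  classical
  have e : ∀ w : InfinitePlace F, x.2 w - (u + δ).2 w = (x - δ).2 w - u.2 w := fun w => by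
    simp only [Prod.snd_add, Prod.snd_sub, Pi.add_apply, Pi.sub_apply]
    ring
  simp only [shiftAtom, e, Prod.fst_add, Prod.fst_sub, sub_eq_iff_eq_add]

/-- Translating the combination translates the function. -/
theorem shiftSum_mapDomain (g₀ : InfinitePlace F → ℝ → ℂ) (c : ShiftSpace P →₀ ℂ)
    (δ x : ShiftSpace P) :
    shiftSum g₀ (c.mapDomain (· + δ)) x = shiftSum g₀ c (x - δ) := by
  rw [shiftSum, shiftSum, Finsupp.sum_mapDomain_index (fun _ => zero_mul _)
    fun _ _ _ => add_mul _ _ _]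
  simp only [shiftAtom_add]

end Fermat.Agent.ResidualThree
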