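import Fermat.Agent.ResidualThree.CubicDescent.Killing.Sum
import Fermat.Agent.ResidualThree.CubicDescent.ShiftSum

/-!
# Test functions with a divisible transform kill constants

If the transform of a combination of data, trivial outside `P`, is a difference `Φ x - Φ (x - δ)`
for the position `δ` of a global element `a₀` which is congruent to one at the bad places, then the
combination kills constant terms: the periodised Borel part unfolds to a sum over the diagonal
which is invariant under `a ↦ a a₀`.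
-/

noncomputable section

open IsDedekindDomain NumberField MeasureTheory
open scoped WithZero

namespace Fermat.Agent.ResidualThree

variable {F : Type} [Field F] [NumberField F] {U : Level F} {Bad P : Finset (FPlace F)}

namespace Killing

/-- The class of an upper triangular element. -/
def borelClass (z : Fˣ × F) : borelClasses F :=
  ⟨((upGL z.1 1 z.2 : GL (Fin 2) F) : PGLF F), Set.mem_image_of_mem _ (by simp)⟩

omit [NumberField F] in
/-- The Borel classes are parametrised by the upper triangular elements. -/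
theorem borelClass_bijective : Function.Bijective (borelClass (F := F)) := by
  refine ⟨?_, fun γ => ?_⟩
  · rintro ⟨a, b⟩ ⟨a', b'⟩ h
    have h1 := QuotientGroup.eq.mp (congrArg Subtype.val h)
    rw [Matrix.GeneralLinearGroup.center_eq_range_scalar] at h1
    obtain ⟨s, hs⟩ := h1
    rw [scalar_eq_upGL, upGL_inv, upGL_mul] at hs
    have hs' := congrArg (fun g : GL (Fin 2) F => (g : Matrix (Fin 2) (Fin 2) F)) hs
    have e11 : (s : F) = 1 := by simpa using congrFun (congrFun hs' 1) 1
    have e00 : (s : F) = (a : F)⁻¹ * a' := by simpa using congrFun (congrFun hs' 0) 0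
    have e01 : (0 : F) = (a : F)⁻¹ * b' + -((a : F)⁻¹ * b) := by
      simpa using congrFun (congrFun hs' 0) 1
    rw [e11] at e00
    have ha := a.ne_zero
    refine Prod.ext (Units.ext ?_) ?_
    · field_simp at e00
      exact e00
    · field_simp at e01
      linear_combination e01
  · obtain ⟨a, t, h⟩ := Kernel.exists_affine_of_borel γ.2
    exact ⟨(a, t), Subtype.ext h.symm⟩

variable [IsTotallyComplex F]

omit [IsTotallyComplex F] in
theorem continuous_kernel_boxPt (f : TestFun U) (ξ : Ωf U) (p : Hyp F) (m : ℕ) (t : Spc U) :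
    Continuous fun r : BasisIx F → ℝ => kernel f (ξ, horoShift (boxPt m r) p) t :=
  (continuous_kernel_left f ξ t).comp
    (continuous_horoShift.comp ((continuous_boxPt m).prodMk continuous_const))

/-- The integrated summands of a test function over a period box: only finitely many are non-zero
and they sum to the integral of the periodised Borel part. -/
theorem hasSum_borel_integral (f : TestFun U) (ξ : Ωf U) (p : Hyp F) (t : Spc U) (m : ℕ) :
    HasSum (fun z : Fˣ × F => ∫ r in Set.Icc (0 : BasisIx F → ℝ) 1,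
        kernel f (ξ, horoShift (boxPt m r) p) ((borelClass z : PGLF F) • t))
      (∫ r in Set.Icc (0 : BasisIx F → ℝ) 1, ∑' γ : borelClasses F,
        kernel f (ξ, horoShift (boxPt m r) p) ((γ : PGLF F) • t)) := by
  classical
  obtain ⟨X, c, B, R, hX, hc, hs⟩ := exists_mem_boxSet ((ξ, p) : Spc U)
  obtain ⟨Y, d, B', R', hY, hd, ht⟩ := exists_mem_boxSet t
  obtain ⟨D, -, hD⟩ := norm_boxPt_le (F := F) m
  obtain ⟨G, hG⟩ := exists_finset_translates f hX hY hc hd B B' (R + D) R'
  set e := Equiv.ofBijective _ (borelClass_bijective (F := F)) with he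
  set S : Finset (Fˣ × F) := G.preimage (fun z => (borelClass z : PGLF F))
    (Subtype.val_injective.comp borelClass_bijective.1).injOn with hS
  have hout : ∀ r ∈ Set.Icc (0 : BasisIx F → ℝ) 1, ∀ z ∉ S,
      kernel f (ξ, horoShift (boxPt m r) p) ((borelClass z : PGLF F) • t) = 0 := fun r hr z hz => by
    by_contra h
    refine hz (Finset.mem_preimage.mpr (hG (ξ, horoShift (boxPt m r) p)
      ⟨hs.1, fun w => ⟨?_, (hs.2 w).2⟩⟩ t ht _ h))
    exact (norm_add_le _ _).trans (add_le_add (hs.2 w).1 (hD r hr w))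
  have hsum : ∀ r ∈ Set.Icc (0 : BasisIx F → ℝ) 1,
      ∑' γ : borelClasses F, kernel f (ξ, horoShift (boxPt m r) p) ((γ : PGLF F) • t) =
        ∑ z ∈ S, kernel f (ξ, horoShift (boxPt m r) p) ((borelClass z : PGLF F) • t) :=
    fun r hr => by
    rw [← e.tsum_eq]
    exact tsum_eq_sum (hout r hr)
  rw [setIntegral_congr_fun measurableSet_Icc hsum,
    integral_finsetSum S fun z _ =>
      (continuous_kernel_boxPt f ξ p m _).continuousOn.integrableOn_Icc]
  refine hasSum_sum_of_ne_finset_zero fun z hz => ?_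
  exact setIntegral_eq_zero_of_forall_eq_zero fun r hr => hout r hr z hz

omit [IsTotallyComplex F] in
theorem integral_mono_kernel (hU : ∀ v ∉ Bad, U.J v = maxSubgroup v) (d : GoodDatum F) (ξ : Ωf U)
    (p : Hyp F) (η : Ωf U) (q : Hyp F) (m : ℕ) (z : Fˣ × F) :
    ∫ r in Set.Icc (0 : BasisIx F → ℝ) 1,
        kernel [d.mono hU] (ξ, horoShift (boxPt m r) p)
          ((borelClass z : PGLF F) • ((η, q) : Spc U)) =
      borelTerm d U Bad ξ.out η.out m p q z := by
  rw [borelTerm, archInt, ← integral_const_mul]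
  refine setIntegral_congr_fun measurableSet_Icc fun r _ => ?_
  show kernel [d.mono hU] (ξ, horoShift (boxPt m r) p)
    (((upGL z.1 1 z.2 : GL (Fin 2) F) : PGLF F) • ((η, q) : Spc U)) = _
  rw [mk_smul_spc, kernel_cons, kernel_nil, add_zero, TestMonomial.kernel]
  congr 1
  have e : (((upGL z.1 1 z.2 : GL (Fin 2) F) • ((η, q) : Spc U)).1) =
      ((diag F (upGL z.1 1 z.2) * η.out : Gf F) : Ωf U) := by
    conv_lhs => rw [← QuotientGroup.out_eq' η]
    rfl
  rw [e]
  conv_lhs => rw [← QuotientGroup.out_eq' ξ]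
  exact (d.mono hU).fin_out_mul_out _ _

/-- The periodised Borel part of a combination of data is a sum over the diagonal. -/
theorem hasSum_weight (hU : ∀ v ∉ Bad, U.J v = maxSubgroup v) (hdisj : Disjoint P Bad)
    (E : List (GoodDatum F)) (hE : ∀ d ∈ E, ∀ v ∉ P, d.loc v = Finsupp.single 0 1) (ξ : Ωf U)
    (p : Hyp F) (η : Ωf U) (q : Hyp F) {m : ℕ} (hm : 0 < m) {c : ℂ}
    (hc : ∀ g : (InfinitePlace F → ℂ) → ℂ, ∫ t, g (boxPt (F := F) m t) = c * ∫ x, g x)
    (hx : IsPeriodClass U ξ.out m) :
    ∃ T : ℂ, HasSum (fun z : Fˣ × F => ∫ r in Set.Icc (0 : BasisIx F → ℝ) 1,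
        kernel (E.map fun d => d.mono hU) (ξ, horoShift (boxPt m r) p)
          ((borelClass z : PGLF F) • ((η, q) : Spc U))) T ∧
      HasSum (fun a => weight U P ξ.out η.out m c p q a *
        transformList E P (posOf P ξ.out η.out p q a)) T := by
  induction E with
  | nil => exact ⟨0, by simp [kernel_nil, hasSum_zero], by simp [transformList, hasSum_zero]⟩
  | cons d E ih =>
    obtain ⟨T, hT1, hT2⟩ := ih fun d' hd' => hE d' (List.mem_cons_of_mem _ hd')
    have h1 := hasSum_borel_integral [d.mono hU] ξ p (η, q) m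
    set T₁ := ∫ r in Set.Icc (0 : BasisIx F → ℝ) 1, ∑' γ : borelClasses F,
      kernel [d.mono hU] (ξ, horoShift (boxPt m r) p) ((γ : PGLF F) • ((η, q) : Spc U))
    simp only [integral_mono_kernel hU d] at h1
    have h2 := hasSum_borelTerm hU hdisj hm hc hx η.out p q d (hE d (List.mem_cons_self ..)) h1
    refine ⟨T₁ + T, (h1.add hT1).congr_fun fun z => ?_, (h2.add hT2).congr_fun fun a => ?_⟩
    · have hi : ∀ f : TestFun U, IntegrableOn (fun r : BasisIx F → ℝ =>
          kernel f (ξ, horoShift (boxPt m r) p) ((borelClass z : PGLF F) • ((η, q) : Spc U)))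
          (Set.Icc 0 1) volume := fun f =>
        (continuous_kernel_boxPt f ξ p m _).continuousOn.integrableOn_Icc
      rw [← integral_mono_kernel hU d ξ p η q m z]
      refine Eq.trans ?_
        (integral_add (hi [d.mono hU]) (hi (E.map fun d : GoodDatum F => GoodDatum.mono d hU)))
      exact setIntegral_congr_fun measurableSet_Icc fun r _ => by
        simp only [List.map_cons, kernel_cons, kernel_nil, add_zero]
    · simp only [transformList, List.map_cons, List.sum_cons]
      ring

omit [IsTotallyComplex F] in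
/-- Only finitely many diagonal elements have weight and position in a bounded set. -/
theorem finite_support_weight (hU : ∀ v ∉ Bad, U.J v = maxSubgroup v) {x y : Gf F} {m : ℕ}
    (hm : 0 < m) (c : ℂ) (p q : Hyp F) (Φ : ShiftSpace P → ℂ) {R : ℝ}
    (hΦ : ∀ z, Φ z ≠ 0 → (∀ v, |(z.1 v : ℝ)| ≤ R) ∧ ∀ w, |z.2 w| ≤ R) :
    (Function.support fun a => weight U P x y m c p q a * Φ (posOf P x y p q a)).Finite := by
  classical
  set B : FPlace F → ℤ := fun v => if v ∈ P then ⌈R⌉ - logOffset x y v else -logOffset x y v with hB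
  have hB0 : ∀ᶠ v in Filter.cofinite, B v ≤ 0 := by
    filter_upwards [eventually_logOffset x y, P.finite_toSet.compl_mem_cofinite] with v h1 h2
    have hv : v ∉ P := by simpa using h2
    simp [hB, hv, h1]
  set C : ℝ := ∑ w : InfinitePlace F,
    Real.exp (R + |Real.log (q w).y - Real.log (p w).y|) with hC
  refine ((finite_bounded_elements B hB0 C).preimage (f := ((↑) : Fˣ → F))
    Units.val_injective.injOn).subset fun a ha => ?_
  obtain ⟨hw, hΦa⟩ := mul_ne_zero_iff.mp ha
  obtain ⟨hv, hi⟩ := hΦ _ hΦa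
  have hf : finWeight U P x y m a ≠ 0 := left_ne_zero_of_mul hw
  refine ⟨fun v => ?_, fun w => ?_⟩
  · simp only [hB]
    split_ifs with hP
    · rw [← WithZero.exp_log ((Valuation.ne_zero_iff (v.valuation F)).mpr a.ne_zero),
        WithZero.exp_le_exp]
      have h := (le_abs_self _).trans (hv ⟨v, hP⟩)
      have h' : -((posOf P x y p q a).1 ⟨v, hP⟩) ≤ ⌈R⌉ := by
        have h2 := (neg_le_abs _).trans (hv ⟨v, hP⟩)
        exact_mod_cast h2.trans (Int.le_ceil R)
      simp only [posOf, logPos] at h'
      omega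
    · exact (finWeight_ne_zero hU hm hf hP).le
  · refine le_trans ?_ (Finset.single_le_sum (f := fun w : InfinitePlace F =>
      Real.exp (R + |Real.log (q w).y - Real.log (p w).y|)) (fun _ _ => (Real.exp_pos _).le)
      (Finset.mem_univ w))
    rw [InfinitePlace.norm_embedding_eq,
      ← Real.exp_log (InfinitePlace.pos_iff.mpr a.ne_zero : (0 : ℝ) < w (a : F))]
    refine Real.exp_le_exp.mpr ?_
    have h := (le_abs_self _).trans (hi w)
    simp only [posOf] at h
    linarith [neg_abs_le (Real.log (q w).y - Real.log (p w).y)]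

end Killing

open Killing

variable [IsTotallyComplex F]

/-- A combination of data with a transform divisible by the translation of `a₀` kills constants. -/
theorem killsConstant_of_transform (hU : ∀ v ∉ Bad, U.J v = maxSubgroup v)
    (hdisj : Disjoint P Bad) (E : List (GoodDatum F))
    (hE : ∀ d ∈ E, ∀ v ∉ P, d.loc v = Finsupp.single 0 1) (a₀ : Fˣ)
    (hord : ∀ v ∉ P, v.valuation F (a₀ : F) = 1)
    (hcong : ∀ v ∈ Bad, ∃ n, congSubgroup v n ≤ U.J v ∧
      v.valuation F ((a₀ : F) - 1) ≤ WithZero.exp (-(n : ℤ)))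
    (Φ : ShiftSpace P → ℂ) {R : ℝ}
    (hΦ : ∀ z, Φ z ≠ 0 → (∀ v, |(z.1 v : ℝ)| ≤ R) ∧ ∀ w, |z.2 w| ≤ R)
    (htr : ∀ z, transformList E P z = Φ z - Φ (z - shiftVec P (a₀ : F))) :
    KillsConstant (E.map fun d => d.mono hU) := by
  rintro ⟨ξ, p⟩ ⟨η, q⟩ m hm hfix
  obtain ⟨c, hc⟩ := exists_box_const F m hm
  have hx : IsPeriodClass U ξ.out m := isPeriodClass_of_fix hfix
  obtain ⟨T, hT1, hT2⟩ := hasSum_weight hU hdisj E hE ξ p η q hm hc hx
  have h9 := hasSum_borel_integral (E.map fun d => d.mono hU) ξ p (η, q) m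
  have h10 := h9.unique hT1
  refine Eq.trans h10 ?_
  set f : Fˣ → ℂ := fun a => weight U P ξ.out η.out m c p q a * Φ (posOf P ξ.out η.out p q a)
  have hf : HasSum f (∑' a, f a) :=
    (summable_of_hasFiniteSupport (finite_support_weight hU hm c p q Φ hΦ)).hasSum
  have hg : HasSum (fun a => weight U P ξ.out η.out m c p q a *
      Φ (posOf P ξ.out η.out p q a - shiftVec P (a₀ : F))) (∑' a, f a) := by
    refine (Equiv.mulRight a₀).hasSum_iff.mp (hf.congr_fun fun a => ?_)
    simp only [Function.comp_apply, Equiv.coe_mulRight, f,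
      weight_mul hU hm hx η.out c p q hord hcong, posOf_mul, add_sub_cancel_right]
  rw [← sub_self (∑' a, f a)]
  refine hT2.unique ((hf.sub hg).congr_fun fun a => ?_)
  simp only [f, htr]
  ring

/-- The criterion for combinations of translates of a product of test functions. -/
theorem killsConstant_of_shiftSum (hU : ∀ v ∉ Bad, U.J v = maxSubgroup v)
    (hdisj : Disjoint P Bad) (E : List (GoodDatum F))
    (hE : ∀ d ∈ E, ∀ v ∉ P, d.loc v = Finsupp.single 0 1) (a₀ : Fˣ)
    (hord : ∀ v ∉ P, v.valuation F (a₀ : F) = 1)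
    (hcong : ∀ v ∈ Bad, ∃ n, congSubgroup v n ≤ U.J v ∧
      v.valuation F ((a₀ : F) - 1) ≤ WithZero.exp (-(n : ℤ)))
    (g₀ : InfinitePlace F → ℝ → ℂ) (hg₀ : ∀ w, HasCompactSupport (g₀ w))
    (cs : ShiftSpace P →₀ ℂ)
    (htr : ∀ z, transformList E P z =
      shiftSum g₀ (cs - cs.mapDomain (· + shiftVec P (a₀ : F))) z) :
    KillsConstant (E.map fun d => d.mono hU) := by
  classical
  choose M hM using fun w => (hg₀ w).isCompact.isBounded.exists_norm_le
  set R : ℝ := ∑ u ∈ cs.support, (∑ v, |(u.1 v : ℝ)| + ∑ w, (|u.2 w| + |M w|))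
  have hR : ∀ u ∈ cs.support, (∀ v, |(u.1 v : ℝ)| ≤ R) ∧ ∀ w, |u.2 w| + |M w| ≤ R := fun u hu => by
    have h := Finset.single_le_sum (f := fun u : ShiftSpace P => ∑ v, |(u.1 v : ℝ)| +
      ∑ w, (|u.2 w| + |M w|)) (fun u _ => by positivity) hu
    refine ⟨fun v => le_trans ?_ h, fun w => le_trans ?_ h⟩
    · exact (Finset.single_le_sum (f := fun v => |(u.1 v : ℝ)|) (fun _ _ => abs_nonneg _)
        (Finset.mem_univ v)).trans (le_add_of_nonneg_right (by positivity))
    · exact (Finset.single_le_sum (f := fun w => |u.2 w| + |M w|) (fun _ _ => by positivity)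
        (Finset.mem_univ w)).trans (le_add_of_nonneg_left (by positivity))
  refine killsConstant_of_transform hU hdisj E hE a₀ hord hcong (shiftSum g₀ cs)
    (R := R) (fun z hz => ?_)
    fun z => by rw [htr, shiftSum_sub, shiftSum_mapDomain]
  obtain ⟨u, hu, hne⟩ := Finset.exists_ne_zero_of_sum_ne_zero hz
  have hne' := right_ne_zero_of_mul hne
  rw [shiftAtom, ne_eq, ite_eq_right_iff, Classical.not_imp] at hne'
  obtain ⟨he, hprod⟩ := hne'
  refine ⟨fun v => by rw [he]; exact (hR u hu).1 v, fun w => le_trans ?_ ((hR u hu).2 w)⟩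
  have h0 := Finset.prod_ne_zero_iff.mp hprod w (Finset.mem_univ w)
  have := (hM w _ (subset_tsupport _ h0)).trans (le_abs_self _)
  rw [Real.norm_eq_abs] at this
  calc |z.2 w| = |(z.2 w - u.2 w) + u.2 w| := by rw [sub_add_cancel]
    _ ≤ |z.2 w - u.2 w| + |u.2 w| := abs_add_le _ _
    _ ≤ |u.2 w| + |M w| := by linarith

end Fermat.Agent.ResidualThree
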