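import Fermat.Agent.ResidualThree.Automorphic.SphericalStep
import Fermat.Agent.ResidualThree.Tree.TransferBase

/-!
# Traces at a new level at one place

For a subgroup `J` between a congruence subgroup and the maximal one, the trace on the forms of
level `J` is the average over `J` of the numbers of fixed vertices times the spherical trace.
-/

noncomputable section

open IsDedekindDomain NumberField MeasureTheory
open scoped WithZero

namespace Fermat.Agent.ResidualThree

open Fermat.Agent.ResidualThree.Tree (vdist Vert)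

variable {F : Type} [Field F] [NumberField F] [DecidableEq (FPlace F)]

/-- The level with a given subgroup at one place. -/
def Level.setAt (U : Level F) (w : FPlace F) (J : Subgroup (GLv w)) (h₁ : J ≤ maxSubgroup w)
    (h₂ : ∃ n, congSubgroup w n ≤ J) : Level F where
  J := Function.update U.J w J
  le_max v := by
    by_cases h : v = w
    · subst h; rw [Function.update_self]; exact h₁
    · rw [Function.update_of_ne h]; exact U.le_max v
  exists_cong v := by
    by_cases h : v = w
    · subst h; rw [Function.update_self]; exact h₂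
    · rw [Function.update_of_ne h]; exact U.exists_cong v
  eventually_max := by
    filter_upwards [U.eventually_max,
      (Set.finite_singleton w).compl_mem_cofinite] with v hv hv'
    rw [Function.update_of_ne (by simpa using hv'), hv]

theorem Level.setAt_same (U : Level F) (w : FPlace F) (J : Subgroup (GLv w))
    (h₁ : J ≤ maxSubgroup w) (h₂ : ∃ n, congSubgroup w n ≤ J) : (U.setAt w J h₁ h₂).J w = J :=
  show Function.update U.J w J w = J from Function.update_self ..

theorem Level.setAt_ne (U : Level F) {w v : FPlace F} (J : Subgroup (GLv w))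
    (h₁ : J ≤ maxSubgroup w) (h₂ : ∃ n, congSubgroup w n ≤ J) (h : v ≠ w) :
    (U.setAt w J h₁ h₂).J v = U.J v := Function.update_of_ne h ..

omit [DecidableEq (FPlace F)] in
/-- Subgroups of the maximal one have finitely many classes modulo a congruence subgroup. -/
theorem finite_quotient_cong (w : FPlace F) (m : ℕ) {J : Subgroup (GLv w)}
    (hJ : J ≤ maxSubgroup w) : Finite (J ⧸ (congSubgroup w m).subgroupOf J) := by
  have hfin := Tree.finite_image_intGL (isLocalVal_valv w) m
  have := hfin.to_subtype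
  refine Finite.of_injective (β := (QuotientGroup.mk '' (Tree.intGL (valv w) : Set (GLv w)) :
    Set (GLv w ⧸ Tree.congZ (valv w) m))) (fun q => ⟨QuotientGroup.mk (q.out : GLv w), ?_⟩)
    fun q q' h => ?_
  · obtain ⟨s, g, hg, e⟩ := Tree.mul_mem_vertexSubgroup_iff.mp (hJ q.out.2)
    refine ⟨g, hg, ?_⟩
    rw [e, QuotientGroup.eq, ← Subgroup.mem_center_iff.1 (Tree.scalar_mem_center s) g,
      inv_mul_cancel_left]
    exact Subgroup.subset_closure (Or.inr (Tree.scalar_mem_center s))
  · have h' := congrArg Subtype.val h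
    simp only [QuotientGroup.eq] at h'
    rw [← QuotientGroup.out_eq' q, ← QuotientGroup.out_eq' q', QuotientGroup.eq]
    exact h'

variable [IsTotallyComplex F] {S : Finset (FPlace F)} {a : FPlace F → ℂ} {U : Level F}
  {w : FPlace F}

omit [DecidableEq (FPlace F)] [IsTotallyComplex F] in
/-- The mean of the translations by the classes of `J` modulo a congruence subgroup. -/
def avgTr (w : FPlace F) (m : ℕ) (J : Subgroup (GLv w))
    [Fintype (J ⧸ (congSubgroup w m).subgroupOf J)] : Module.End ℂ (Gf F → Hyp F → ℂ) :=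
  (Fintype.card (J ⧸ (congSubgroup w m).subgroupOf J) : ℂ)⁻¹ •
    ∑ q : J ⧸ (congSubgroup w m).subgroupOf J, rightTrLin (single w (q.out : GLv w))

/-- The mean of the translates of a form of congruence level has level `J`. -/
theorem avgTr_mem_levelForms {m : ℕ} {J : Subgroup (GLv w)}
    [Fintype (J ⧸ (congSubgroup w m).subgroupOf J)] (h₁ : J ≤ maxSubgroup w)
    (h₂ : congSubgroup w m ≤ J) {φ : Gf F → Hyp F → ℂ}
    (hφ : φ ∈ levelForms (insert w S) a (U.deepen w m)) :
    avgTr w m J φ ∈ levelForms (insert w S) a (U.setAt w J h₁ ⟨m, h₂⟩) := by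
  classical
  have hperm : ∀ k ∈ J, rightTr (single w k) (avgTr w m J φ) = avgTr w m J φ := by
    intro k hk
    simp only [avgTr, LinearMap.smul_apply, LinearMap.sum_apply, rightTrLin_apply]
    rw [← rightTrLin_apply (single w k), map_smul, map_sum]
    congr 1
    refine Fintype.sum_equiv (MulAction.toPerm (⟨k, hk⟩ : J)) _ _ fun q => ?_
    show rightTr (single w k) (rightTr (single w (q.out : GLv w)) φ) =
      rightTr (single w (((⟨k, hk⟩ : J) • q).out : GLv w)) φ
    obtain ⟨d, hd⟩ := QuotientGroup.mk_out_eq_mul ((congSubgroup w m).subgroupOf J)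
      (⟨k, hk⟩ * q.out)
    have e : (⟨k, hk⟩ : J) • q = QuotientGroup.mk (⟨k, hk⟩ * q.out) :=
      (MulAction.Quotient.mk_smul_out _ _ q).symm
    simp only [e, hd, Subgroup.coe_mul]
    have hdfix : rightTr (single w ((d : J) : GLv w)) φ = φ := by
      funext x
      refine hφ.2.right x _ fun v => ?_
      by_cases hv : v = w
      · subst hv; rw [single_apply_same, Level.deepen_same]; exact d.2
      · rw [single_apply_ne hv]; exact one_mem _
    rw [single_mul, single_mul, rightTr_mul, rightTr_mul, hdfix]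
  have hE : IsEigenForm ((insert w S : Finset (FPlace F)) : Set (FPlace F)) a (avgTr w m J φ) := by
    refine (eigenForms _ a).smul_mem _ ?_
    rw [LinearMap.sum_apply]
    refine (eigenForms _ a).sum_mem fun q _ => hφ.1.rightTr fun v hv => ?_
    rw [single_apply_ne fun e => hv (by simp [e])]
  obtain ⟨Ulev, hUlev, -⟩ := hE.exists_level
  refine ⟨hE, hUlev.left, fun x j hj => ?_, hUlev.continuous⟩
  -- the part away from `w` fixes every translate
  set k := (j : ∀ v, GLv v) w
  set j' := (single w k)⁻¹ * j with hj'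
  have hj'w : (j' : ∀ v, GLv v) w = 1 := by
    show (((single w k : Gf F) : ∀ v, GLv v) w)⁻¹ * (j : ∀ v, GLv v) w = 1
    rw [single_apply_same, inv_mul_cancel]
  have hj'U : ∀ v, (j' : ∀ v, GLv v) v ∈ (U.deepen w m).J v := fun v => by
    by_cases hv : v = w
    · subst hv; rw [hj'w]; exact one_mem _
    · show (((single w k : Gf F) : ∀ v, GLv v) v)⁻¹ * (j : ∀ v, GLv v) v ∈ _
      rw [single_apply_ne hv, inv_one, one_mul, Level.deepen_ne U m hv]
      have := hj v
      rwa [Level.setAt_ne U J h₁ _ hv] at this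
  have hkJ : k ∈ J := by
    have := hj w
    rwa [Level.setAt_same] at this
  have e : rightTr j (avgTr w m J φ) = avgTr w m J φ := by
    rw [show j = single w k * j' by rw [hj', mul_inv_cancel_left], rightTr_mul]
    have hfix : rightTr j' (avgTr w m J φ) = avgTr w m J φ := by
      simp only [avgTr, LinearMap.smul_apply, LinearMap.sum_apply, rightTrLin_apply]
      rw [← rightTrLin_apply j', map_smul, map_sum]
      congr 1
      refine Finset.sum_congr rfl fun q _ => ?_
      show rightTr j' (rightTr (single w (q.out : GLv w)) φ) = _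
      rw [← rightTr_mul, (commute_single hj'w (q.out : GLv w)).eq, rightTr_mul,
        show rightTr j' φ = φ from funext fun x => hφ.2.right x j' hj'U]
    rw [hfix, hperm k hkJ]
  exact congrFun e x

/-- A translate of the operator by an element fixing a fixed vertex of the sphere: its trace on the
forms of congruence level is a positive multiple of the spherical trace. -/
theorem exists_trace_translate (hw : w ∉ S) (hne : (Ideal.absNorm w.asIdeal : ℂ) * a w ^ 2 ≠
      ((Ideal.absNorm w.asIdeal : ℂ) + 1) ^ 2) (hU : U.J w = maxSubgroup w)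
    [FiniteDimensional ℂ (levelForms S a U)] {θ : Gf F → Hyp F → ℂ} (hθ : θ ∈ levelForms S a U)
    (hθ0 : θ ≠ 0) (T : Module.End ℂ (Gf F → Hyp F → ℂ))
    (hT : ∀ φ ∈ levelForms S a U, T φ ∈ levelForms S a U) {m : ℕ}
    (π : Vert (valv w) ≃ Vert (valv w)) (hπd : ∀ x y, vdist (π x) (π y) = vdist x y)
    (hπ0 : π (baseVert w) = baseVert w)
    (hTπ : ∀ φ ∈ levelForms S a U, ∀ y, vdist (baseVert w) y ≤ m →
      T (vertFun w φ y) = vertFun w (T φ) (π y))
    {y₀ : Vert (valv w)} (hy₀ : y₀ ∈ baseSphere w m) (hy₀π : π y₀ = y₀)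
    {r : GLv w} (hr : r ∈ maxSubgroup w) (hry₀ : r • y₀ = y₀) :
    ∃ hq : ∀ φ ∈ levelForms (insert w S) a (U.deepen w m),
        (T * rightTrLin (single w r)) φ ∈ levelForms (insert w S) a (U.deepen w m),
      ∃ c : ℕ, 0 < c ∧ LinearMap.trace ℂ _ ((T * rightTrLin (single w r)).restrict hq) =
        (c : ℂ) * LinearMap.trace ℂ _ (T.restrict hT) := by
  classical
  set Tq := T * rightTrLin (single w r)
  have hTq : ∀ φ ∈ levelForms S a U, Tq φ = T φ := fun φ hφ => by
    show T (rightTr (single w r) φ) = T φ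
    rw [show rightTr (single w r) φ = φ from funext fun x => hφ.2.sphericalAt hU x r hr]
  have hTqS : ∀ φ ∈ levelForms S a U, Tq φ ∈ levelForms S a U := fun φ hφ => by
    rw [hTq φ hφ]; exact hT φ hφ
  let πq : Vert (valv w) ≃ Vert (valv w) := (MulAction.toPerm r).trans π
  have hπqd : ∀ x y, vdist (πq x) (πq y) = vdist x y := fun x y => by
    show vdist (π (r • x)) (π (r • y)) = _
    rw [hπd, Tree.vdist_smul]
  have hfix0 : r • baseVert w = baseVert w := by
    show QuotientGroup.mk (r * 1) = QuotientGroup.mk 1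
    rw [mul_one, QuotientGroup.eq, mul_one]
    exact inv_mem hr
  have hπq0 : πq (baseVert w) = baseVert w := by
    show π (r • baseVert w) = _
    rw [hfix0, hπ0]
  obtain ⟨hq, htr⟩ := trace_deepen (m := m) hw hne hU hθ hθ0 Tq hTqS πq hπqd hπq0
    fun φ hφ y hy => by
      show T (rightTr (single w r) (vertFun w φ y)) = vertFun w (Tq φ) (π (r • y))
      rw [rightTr_vertFun (hφ.2.sphericalAt hU), hTπ φ hφ _ ?_, hTq φ hφ]
      conv_lhs => rw [← hfix0, Tree.vdist_smul]
      exact hy
  refine ⟨hq, ((baseSphere w m).filter fun y => πq y = y).card,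
    Finset.card_pos.2 ⟨y₀, Finset.mem_filter.2 ⟨hy₀, ?_⟩⟩, ?_⟩
  · show π (r • y₀) = y₀
    rw [hry₀, hy₀π]
  · rw [htr]
    congr 1
    exact congrArg (LinearMap.trace ℂ _) (LinearMap.ext fun φ => Subtype.ext (hTq _ φ.2))

/-- The trace at a new level at one place does not vanish. -/
theorem trace_setAt_ne_zero (hw : w ∉ S) (hne : (Ideal.absNorm w.asIdeal : ℂ) * a w ^ 2 ≠
      ((Ideal.absNorm w.asIdeal : ℂ) + 1) ^ 2) (hU : U.J w = maxSubgroup w)
    [FiniteDimensional ℂ (levelForms S a U)] {θ : Gf F → Hyp F → ℂ} (hθ : θ ∈ levelForms S a U)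
    (hθ0 : θ ≠ 0) (T : Module.End ℂ (Gf F → Hyp F → ℂ))
    (hT : ∀ φ ∈ levelForms S a U, T φ ∈ levelForms S a U)
    (h0 : LinearMap.trace ℂ _ (T.restrict hT) ≠ 0) (m : ℕ) (J : Subgroup (GLv w))
    (h₁ : J ≤ maxSubgroup w) (h₂ : congSubgroup w m ≤ J)
    (π : Vert (valv w) ≃ Vert (valv w)) (hπd : ∀ x y, vdist (π x) (π y) = vdist x y)
    (hπ0 : π (baseVert w) = baseVert w)
    (hTπ : ∀ φ ∈ levelForms S a U, ∀ y, vdist (baseVert w) y ≤ m →
      T (vertFun w φ y) = vertFun w (T φ) (π y))
    {y₀ : Vert (valv w)} (hy₀ : y₀ ∈ baseSphere w m) (hy₀π : π y₀ = y₀)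
    (hy₀J : ∀ j ∈ J, j • y₀ = y₀) :
    FiniteDimensional ℂ (levelForms (insert w S) a (U.setAt w J h₁ ⟨m, h₂⟩)) ∧
      ∀ hT' : ∀ φ ∈ levelForms (insert w S) a (U.setAt w J h₁ ⟨m, h₂⟩),
          T φ ∈ levelForms (insert w S) a (U.setAt w J h₁ ⟨m, h₂⟩),
        LinearMap.trace ℂ _ (T.restrict hT') ≠ 0 := by
  classical
  set U' := U.setAt w J h₁ ⟨m, h₂⟩ with hU'
  set W := levelForms (insert w S) a U'
  set V := levelForms (insert w S) a (U.deepen w m)
  have hV : FiniteDimensional ℂ V := finiteDimensional_deepen (m := m) hw hU hθ hθ0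
  have hJle : ∀ v, (U.deepen w m).J v ≤ U'.J v := fun v => by
    by_cases h : v = w
    · subst h; rw [Level.deepen_same, hU', Level.setAt_same]; exact h₂
    · rw [Level.deepen_ne U m h, hU', Level.setAt_ne U J h₁ _ h]
  have hWV : W ≤ V := fun φ hφ => ⟨hφ.1, hφ.2.mono hJle⟩
  have hWfd : FiniteDimensional ℂ W := Submodule.finiteDimensional_of_le hWV
  refine ⟨hWfd, fun hT' => ?_⟩
  have := finite_quotient_cong w m h₁
  let Q := J ⧸ (congSubgroup w m).subgroupOf J
  let _ := Fintype.ofFinite Q
  let r : Q → GLv w := fun q => (q.out : GLv w)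
  -- the translated operators on the forms of congruence level
  have key : ∀ q : Q, ∃ hq : ∀ φ ∈ V, (T * rightTrLin (single w (r q))) φ ∈ V,
      ∃ c : ℕ, 0 < c ∧ LinearMap.trace ℂ _ ((T * rightTrLin (single w (r q))).restrict hq) =
        (c : ℂ) * LinearMap.trace ℂ _ (T.restrict hT) := fun q =>
    exists_trace_translate hw hne hU hθ hθ0 T hT π hπd hπ0 hTπ hy₀ hy₀π (h₁ q.out.2)
      (hy₀J _ q.out.2)
  choose hq c hc htr using key
  -- the average over `J`
  set P : Module.End ℂ (Gf F → Hyp F → ℂ) := avgTr w m J with hPdef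
  have hcard : (Fintype.card Q : ℂ) ≠ 0 := Nat.cast_ne_zero.2 Fintype.card_ne_zero
  have hP : ∀ φ ∈ V, P φ ∈ W := fun φ hφ => avgTr_mem_levelForms h₁ h₂ hφ
  have hPW : ∀ φ ∈ W, P φ = φ := by
    intro φ hφ
    have hfix : ∀ q : Q, rightTr (single w (r q)) φ = φ := fun q => funext fun x =>
      hφ.2.right x _ fun v => by
        by_cases hv : v = w
        · subst hv; rw [single_apply_same, hU', Level.setAt_same]; exact q.out.2
        · rw [single_apply_ne hv]; exact one_mem _
    simp only [hPdef, avgTr, LinearMap.smul_apply, LinearMap.sum_apply, rightTrLin_apply, r, hfix,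
      Finset.sum_const, Finset.card_univ, ← Nat.cast_smul_eq_nsmul ℂ]
    exact inv_smul_smul₀ hcard φ
  let g : V →ₗ[ℂ] W := (T.restrict hT').comp (P.restrict hP)
  have h1 : (T.restrict hT') = g.comp (Submodule.inclusion hWV) := LinearMap.ext fun φ =>
    Subtype.ext (congrArg T (hPW _ φ.2)).symm
  have h2 : (Submodule.inclusion hWV).comp g =
      (Fintype.card Q : ℂ)⁻¹ • ∑ q : Q, (T * rightTrLin (single w (r q))).restrict (hq q) := by
    refine LinearMap.ext fun φ => Subtype.ext ?_
    simp only [LinearMap.smul_apply, LinearMap.sum_apply, SetLike.val_smul,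
      AddSubmonoidClass.coe_finsetSum]
    show T (P φ) = _
    simp only [hPdef, avgTr, LinearMap.smul_apply, LinearMap.sum_apply, map_smul, map_sum]
    rfl
  rw [h1, LinearMap.trace_comp_comm', h2, map_smul, map_sum, Finset.sum_congr rfl fun q _ => htr q,
    ← Finset.sum_mul, smul_eq_mul]
  refine mul_ne_zero (inv_ne_zero hcard) (mul_ne_zero ?_ h0)
  rw [← Nat.cast_sum, Nat.cast_ne_zero]
  exact (Finset.sum_pos (fun q _ => hc q) Finset.univ_nonempty).ne'

end Fermat.Agent.ResidualThree
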