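import Fermat.Agent.ResidualThree.CubicDescent.SigmaOp
import Fermat.Agent.ResidualThree.Orbital.UnitPlace

/-!
# The automorphism of order three of the space

It has cube one, preserves the measure, and some quotient weight is invariant under it.
-/

noncomputable section

open IsDedekindDomain NumberField MeasureTheory
open scoped WithZero ENNReal

namespace Fermat.Agent.ResidualThree

open Orbital (comapPlace autGf autHyp autΩ autSpc localAutGL coord conjH3 IsStableLevel autPGL)

variable {K L : Type} [Field K] [NumberField K] [Field L] [NumberField L] [Algebra K L]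
  (τ : Orbital.CubicAut K L)

omit [NumberField K] in
theorem autGf_cube (x : Gf L) :
    autGf τ.σ.toRingEquiv (autGf τ.σ.toRingEquiv (autGf τ.σ.toRingEquiv x)) = x := by
  refine Subtype.ext (funext fun w => ?_)
  set f := τ.σ.toRingEquiv with hf
  have h := congrFun (Orbital.autOver_cube (v := Orbital.below K w) τ
    fun u : Orbital.Over L (Orbital.below K w) => (x : ∀ v, GLv v) u.1) ⟨w, rfl⟩
  show localAutGL f w (localAutGL f (comapPlace f w) (localAutGL f (comapPlace f (comapPlace f w))
    ((x : ∀ v, GLv v) (comapPlace f (comapPlace f (comapPlace f w)))))) = (x : ∀ v, GLv v) w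
  exact h

variable [IsTotallyComplex L]

omit [NumberField K] [NumberField L] in
theorem autHyp_cube (p : Hyp L) :
    autHyp τ.σ.toRingEquiv (autHyp τ.σ.toRingEquiv (autHyp τ.σ.toRingEquiv p)) = p := by
  funext w
  rw [← Orbital.coord_embedding w (autHyp τ.σ.toRingEquiv _), Orbital.coord_autHyp,
    Orbital.coord_autHyp,
    Orbital.coord_autHyp]
  conv_rhs => rw [← Orbital.coord_embedding w p]
  congr 1
  exact RingHom.ext fun a => congrArg w.embedding (τ.pow_three a)

omit [IsTotallyComplex L] in
/-- An automorphism of the field preserves the archimedean volume. -/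
theorem measurePreserving_autHyp (f : L ≃+* L) :
    MeasurePreserving (autHyp f) (Measure.pi fun _ : InfinitePlace L => H3.vol)
      (Measure.pi fun _ : InfinitePlace L => H3.vol) := by
  classical
  let E : InfinitePlace L ≃ InfinitePlace L :=
    ⟨fun w => w.comap (f : L →+* L), fun w => w.comap (f.symm : L →+* L),
      fun w => comap_symm_comap f w, fun w => comap_comap_symm f w⟩
  have h1 : MeasurePreserving (MeasurableEquiv.piCongrLeft (fun _ => H3) E).symm
      (Measure.pi fun _ : InfinitePlace L => H3.vol) (Measure.pi fun _ => H3.vol) :=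
    (measurePreserving_piCongrLeft (fun _ : InfinitePlace L => H3.vol) E).symm _
  let c : InfinitePlace L → H3 → H3 := fun w =>
    if (InfinitePlace.mk (w.embedding.comp (f : L →+* L))).embedding =
        w.embedding.comp (f : L →+* L)
    then id else conjH3
  have h2 : MeasurePreserving (fun (p : Hyp L) w => c w (p w))
      (Measure.pi fun _ : InfinitePlace L => H3.vol) (Measure.pi fun _ => H3.vol) := by
    refine measurePreserving_pi (fun _ : InfinitePlace L => H3.vol) (fun _ => H3.vol) fun w => ?_
    simp only [c]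
    split_ifs
    · exact MeasurePreserving.id _
    · exact Orbital.measurePreserving_conjH3
  have e : autHyp f = (fun (p : Hyp L) w => c w (p w)) ∘
      (MeasurableEquiv.piCongrLeft (fun _ => H3) E).symm := by
    funext p w
    have hp : (MeasurableEquiv.piCongrLeft (fun _ => H3) E).symm p w = p (E w) := rfl
    have hE : E w = InfinitePlace.mk (w.embedding.comp (f : L →+* L)) :=
      (congrArg (fun u => InfinitePlace.comap u (f : L →+* L))
        (InfinitePlace.mk_embedding w).symm).trans (InfinitePlace.comap_mk _ _)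
    simp only [Function.comp_apply, hp, c, hE]
    show coord _ p = _
    unfold coord
    split_ifs <;> rfl
  rw [e]
  exact h2.comp h1

variable {UL : Level L} (hU : IsStableLevel τ.σ.toRingEquiv UL)

omit [NumberField K] [IsTotallyComplex L] in
theorem autΩ_cube (ξ : Ωf UL) : autΩ τ.σ.toRingEquiv UL hU (autΩ τ.σ.toRingEquiv UL hU
    (autΩ τ.σ.toRingEquiv UL hU ξ)) = ξ := by
  induction ξ using QuotientGroup.induction_on with
  | H x => exact congrArg QuotientGroup.mk (autGf_cube τ x)

omit [NumberField K] in
theorem autSpc_cube (s : Spc UL) : autSpc τ hU (autSpc τ hU (autSpc τ hU s)) = s := by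
  exact Prod.ext (autΩ_cube τ hU s.1) (autHyp_cube τ s.2)

/-- The inverse of the automorphism of the space. -/
def autSpcInv (s : Spc UL) : Spc UL := autSpc τ hU (autSpc τ hU s)

omit [NumberField K] in
theorem autSpc_autSpcInv (s : Spc UL) : autSpc τ hU (autSpcInv τ hU s) = s := autSpc_cube τ hU s

omit [NumberField K] in
theorem autSpcInv_autSpc (s : Spc UL) : autSpcInv τ hU (autSpc τ hU s) = s := autSpc_cube τ hU s

omit [IsTotallyComplex L] [NumberField K] in
/-- The automorphism preserves the volume of the space. -/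
theorem measurePreserving_autSpc :
    MeasurePreserving (autSpc τ hU) (volSpc UL) (volSpc UL) := by
  have hb : Function.Bijective (autΩ τ.σ.toRingEquiv UL hU) := by
    exact ⟨fun a b h => by rw [← autΩ_cube τ hU a, ← autΩ_cube τ hU b, h],
      fun b => ⟨_, autΩ_cube τ hU b⟩⟩
  have h1 : MeasurePreserving (autΩ τ.σ.toRingEquiv UL hU) Measure.count Measure.count :=
    ⟨measurable_from_top, Measure.ext fun t ht => by
      rw [Measure.map_apply measurable_from_top ht, Measure.count_apply (measurable_from_top ht),
        Measure.count_apply ht]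
      congr 1
      exact (Set.encard_preimage_of_bijective hb t)⟩
  exact h1.prod (measurePreserving_autHyp τ.σ.toRingEquiv)

omit [NumberField K] [NumberField L] [IsTotallyComplex L] in
theorem autPGL_cube (γ : PGLF L) : autPGL τ (autPGL τ (autPGL τ γ)) = γ := by
  induction γ using QuotientGroup.induction_on with
  | H g =>
    refine congrArg QuotientGroup.mk (Units.ext ?_)
    show τ.mat (τ.mat (τ.mat (g : Matrix (Fin 2) (Fin 2) L))) = _
    exact τ.mat_pow_three _

omit [NumberField K] in
/-- A weight invariant under the automorphism. -/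
theorem exists_invariant_weight (W : QuotientWeight UL) :
    ∃ W' : QuotientWeight UL, ∀ s, W'.w (autSpc τ hU s) = W'.w s := by
  set T := autSpc τ hU
  have hm : Measurable T := Orbital.measurable_autSpc τ hU
  have hmp := measurePreserving_autSpc τ hU
  let eγ : PGLF L ≃ PGLF L :=
    ⟨autPGL τ, fun γ => autPGL τ (autPGL τ γ), fun γ => autPGL_cube τ γ, fun γ => autPGL_cube τ γ⟩
  have hT : ∀ g : Spc UL → ℝ≥0∞, (∀ᵐ s ∂volSpc UL, ∑' γ : PGLF L, g (γ • s) = 1) →
      ∀ᵐ s ∂volSpc UL, ∑' γ : PGLF L, g (T (γ • s)) = 1 := fun g hg => by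
    filter_upwards [hmp.quasiMeasurePreserving.ae hg] with s hs
    refine Eq.trans ?_ hs
    rw [← eγ.tsum_eq fun γ => g (γ • T s)]
    refine tsum_congr fun γ => ?_
    rw [show T (γ • s) = eγ γ • T s from Orbital.autSpc_smul_pgl τ hU γ s]
  have hae := hT (fun s => (W.w s : ℝ≥0∞)) W.sum_eq
  have hae2 := hT (fun s => (W.w (T s) : ℝ≥0∞)) hae
  refine ⟨⟨fun s => (W.w s + W.w (T s) + W.w (T (T s))) / 3, ?_, ?_⟩, fun s => ?_⟩
  · exact ((W.measurable.add (W.measurable.comp hm)).add
      (W.measurable.comp (hm.comp hm))).div_const _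
  · filter_upwards [W.sum_eq, hae, hae2] with s h1 h2 h3
    have e : ∀ γ : PGLF L, (((W.w (γ • s) + W.w (T (γ • s)) + W.w (T (T (γ • s)))) / 3 : NNReal) :
        ℝ≥0∞) = ((W.w (γ • s) : ℝ≥0∞) + W.w (T (γ • s)) + W.w (T (T (γ • s)))) * (3 : ℝ≥0∞)⁻¹ :=
      fun γ => by
        rw [ENNReal.coe_div (by norm_num), div_eq_mul_inv]
        push_cast
        rfl
    rw [tsum_congr e, ENNReal.tsum_mul_right, ENNReal.tsum_add, ENNReal.tsum_add, h1, h2, h3,
      show (1 : ℝ≥0∞) + 1 + 1 = 3 by norm_num, ENNReal.mul_inv_cancel (by norm_num) (by norm_num)]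
  · show (W.w (T s) + W.w (T (T s)) + W.w (T (T (T s)))) / 3 = _
    rw [show T (T (T s)) = s from autSpc_cube τ hU s]
    congr 1
    abel

omit [IsTotallyComplex L] [NumberField K] in
/-- The automorphism preserves the measure of an invariant weight. -/
theorem measurePreserving_qMeas (W : QuotientWeight UL)
    (hW : ∀ s, W.w (autSpc τ hU s) = W.w s) :
    MeasurePreserving (autSpc τ hU) (Kernel.qMeas W) (Kernel.qMeas W) := by
  refine ⟨Orbital.measurable_autSpc τ hU, Measure.ext fun t ht => ?_⟩
  rw [Measure.map_apply (Orbital.measurable_autSpc τ hU) ht, Kernel.qMeas,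
    withDensity_apply _ (Orbital.measurable_autSpc τ hU ht), withDensity_apply _ ht,
    ← (measurePreserving_autSpc τ hU).setLIntegral_comp_preimage ht
      (f := fun a => (W.w a : ℝ≥0∞)) (measurable_coe_nnreal_ennreal.comp W.measurable)]
  simp only [hW]

omit [IsTotallyComplex L] [NumberField K] in
theorem measurePreserving_qMeas_inv (W : QuotientWeight UL)
    (hW : ∀ s, W.w (autSpc τ hU s) = W.w s) :
    MeasurePreserving (autSpcInv τ hU) (Kernel.qMeas W) (Kernel.qMeas W) :=
  (measurePreserving_qMeas τ hU W hW).comp (measurePreserving_qMeas τ hU W hW)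

/-- The inverse on functions. -/
def sigmaInvFn : Module.End ℂ (Gf L → Hyp L → ℂ) :=
  sigmaFn τ.σ.toRingEquiv * sigmaFn τ.σ.toRingEquiv

omit [NumberField K] [IsTotallyComplex L] in
/-- The inverse on functions is composition with the inverse on the space. -/
theorem onSpc_sigmaInvFn {φ : Gf L → Hyp L → ℂ} (hφ : IsAutomorphic UL φ) (s : Spc UL) :
    onSpc UL (sigmaInvFn τ φ) s = onSpc UL φ (autSpcInv τ hU s) := by
  obtain ⟨ξ, p⟩ := s
  induction ξ using QuotientGroup.induction_on with
  | H x =>
    rw [sigmaInvFn, Module.End.mul_apply,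
      onSpc_mk (isAutomorphic_sigmaFn _ hU (isAutomorphic_sigmaFn _ hU hφ))]
    exact (onSpc_mk hφ _ _).symm

end Fermat.Agent.ResidualThree
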