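import Fermat.Agent.ResidualThree.Automorphic.Tame
import Fermat.Agent.ResidualThree.Automorphic.TreeGeom
import Fermat.Agent.ResidualThree.CubicDescent.SigmaCube
import Fermat.Agent.ResidualThree.Tree.Cases

/-!
# The automorphism on the tree of a fixed place

A vertex of the standard apartment at distance `m` below the base is fixed by the automorphism and
by the tame subgroup for `m = 1`, by the congruence subgroup of depth `m` in general.
-/

noncomputable section

open IsDedekindDomain NumberField
open scoped WithZero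

namespace Fermat.Agent.ResidualThree

open Orbital (comapPlace autGf localAut localAutGL)
open Fermat.Agent.ResidualThree.Tree (vdist Vert diagGL axisVert)

variable {K L : Type} [Field K] [NumberField K] [Field L] [NumberField L] [Algebra K L]

omit [NumberField K] in
theorem sigmaInvFn_rightTr (τ : Orbital.CubicAut K L) (g : Gf L) (φ : Gf L → Hyp L → ℂ) :
    sigmaInvFn τ (rightTr g φ) = rightTr (autGf τ.σ.toRingEquiv g) (sigmaInvFn τ φ) := by
  set f := τ.σ.toRingEquiv
  show sigmaFn f (sigmaFn f (rightTr g φ)) = rightTr (autGf f g) (sigmaFn f (sigmaFn f φ))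
  conv_lhs => rw [← autGf_cube τ g]
  rw [sigmaFn_rightTr, sigmaFn_rightTr]

theorem exists_localAut (f : L ≃+* L) {w v : FPlace L} (h : comapPlace f w = v) :
    ∃ em : v.adicCompletion L →+* w.adicCompletion L, (∀ z, valv w (em z) = valv v z) ∧
      ∀ g : GLv v, autGf f (single v g) = single w (Matrix.GeneralLinearGroup.map em g) := by
  subst h
  exact ⟨localAut f w, Orbital.valv_localAut f w, fun g => autGf_single f w g⟩

omit [NumberField K] in
/-- The automorphism on the vertices of a fixed place. -/
theorem exists_sigmaVert (τ : Orbital.CubicAut K L) {w : FPlace L}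
    (hw : comapPlace τ.σ.toRingEquiv w = w) :
    ∃ π : Vert (valv w) ≃ Vert (valv w), (∀ x y, vdist (π x) (π y) = vdist x y) ∧
      π (baseVert w) = baseVert w ∧
      (∀ φ : Gf L → Hyp L → ℂ, IsSphericalAt w φ → IsSphericalAt w (sigmaInvFn τ φ) →
        ∀ y, sigmaInvFn τ (vertFun w φ y) = vertFun w (sigmaInvFn τ φ) (π y)) ∧
      ∀ p : (w.adicCompletion L)ˣ, valv w (p : w.adicCompletion L) = WithZero.exp (-1 : ℤ) →
        ∀ i : ℤ, π (axisVert (valv w) p i) = axisVert (valv w) p i := by
  obtain ⟨em, hem, he⟩ := exists_localAut τ.σ.toRingEquiv hw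
  set e := Matrix.GeneralLinearGroup.map (n := Fin 2) em
  have he3 : ∀ g : GLv w, e (e (e g)) = g := fun g => by
    have h := autGf_cube τ (single w g)
    rw [he, he, he] at h
    have h' := congrArg (fun x : Gf L => (x : ∀ v, GLv v) w) h
    simpa only [single_apply_same] using h'
  set P := Tree.mapVert em hem
  have hP3 : ∀ y, P (P (P y)) = y := fun y => by
    induction y using QuotientGroup.induction_on with
    | H g => exact congrArg QuotientGroup.mk (he3 g)
  refine ⟨⟨P, fun y => P (P y), hP3, hP3⟩, Tree.vdist_mapVert em hem,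
    congrArg QuotientGroup.mk (map_one e), fun φ hφ hφ' y => ?_, fun p hp i => ?_⟩
  · induction y using QuotientGroup.induction_on with
    | H g =>
      show _ = vertFun w _ (QuotientGroup.mk (e g))
      rw [vertFun_mk hφ, vertFun_mk hφ', sigmaInvFn_rightTr, he]
  · have hu : valv w ((Units.map em.toMonoidHom p * p⁻¹ : (w.adicCompletion L)ˣ) :
        w.adicCompletion L) = 1 := by
      rw [Units.val_mul, map_mul, Units.coe_map, Units.val_inv_eq_inv_val, map_inv₀]
      show valv w (em (p : w.adicCompletion L)) * _ = 1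
      rw [hem, mul_inv_cancel₀ ((Valuation.ne_zero_iff _).mpr p.ne_zero)]
    set u := Units.map em.toMonoidHom p * p⁻¹ with hudef
    have hu' : valv w ((u ^ i : (w.adicCompletion L)ˣ) : w.adicCompletion L) = 1 := by
      rw [Units.val_zpow_eq_zpow_val, map_zpow₀, hu, one_zpow]
    show (QuotientGroup.mk (e (diagGL (p ^ i) 1)) : Vert (valv w)) =
        QuotientGroup.mk (diagGL (p ^ i) 1)
    have hmap : e (diagGL (p ^ i) 1) = diagGL (p ^ i) 1 * diagGL (u ^ i) 1 := by
      rw [Tree.diagGL_mul, ← mul_zpow, mul_one, hudef, mul_comm p, inv_mul_cancel_right,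
        ← map_zpow]
      refine Units.ext ?_
      ext a b
      fin_cases a <;> fin_cases b <;> simp [e]
    rw [hmap]
    exact QuotientGroup.mk_mul_of_mem _
      (Tree.intGL_le_vertexSubgroup (Tree.diagGL_mem_intGL hu' (by simp)))

/-- The vertex below the base fixed by the tame subgroup. -/
theorem tame_smul_axisVert {w : FPlace L} {p : (w.adicCompletion L)ˣ}
    (hp : valv w (p : w.adicCompletion L) = WithZero.exp (-1 : ℤ)) {j : GLv w}
    (hj : j ∈ tameSubgroup w) : j • axisVert (valv w) p (-1) = axisVert (valv w) p (-1) := by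
  suffices h : tameSubgroup w ≤ MulAction.stabilizer (GLv w) (axisVert (valv w) p (-1)) from h hj
  rw [tameSubgroup, Subgroup.closure_le]
  intro g hg
  rw [SetLike.mem_coe, MulAction.mem_stabilizer_iff, axisVert, MulAction.Quotient.smul_mk,
    smul_eq_mul, QuotientGroup.eq]
  rcases hg with ⟨h1, h2, -⟩ | hc
  · refine Tree.vertexSubgroup (valv w) |>.inv_mem_iff.1 (Tree.intGL_le_vertexSubgroup ?_)
    have hd : valv w ((p ^ (-1 : ℤ) : (w.adicCompletion L)ˣ) : w.adicCompletion L) =
        WithZero.exp (1 : ℤ) := by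
      rw [Tree.v_zpow hp]; simp
    have e : (g * diagGL (p ^ (-1 : ℤ)) 1)⁻¹ * diagGL (p ^ (-1 : ℤ)) 1 =
        ((diagGL (p ^ (-1 : ℤ)) 1)⁻¹ * g * diagGL (p ^ (-1 : ℤ)) 1)⁻¹ := by group
    rw [e, inv_inv]
    have hinv : (diagGL (p ^ (-1 : ℤ)) (1 : (w.adicCompletion L)ˣ))⁻¹ = diagGL p 1 := by
      rw [inv_eq_iff_mul_eq_one, Tree.diagGL_mul]
      refine Units.ext ?_
      ext a b
      fin_cases a <;> fin_cases b <;> simp
    rw [hinv]
    set G := (g : Matrix (Fin 2) (Fin 2) (w.adicCompletion L))
    have hp0 : (p : w.adicCompletion L) ≠ 0 := p.ne_zero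
    have hM : ((diagGL p 1 * g * diagGL (p ^ (-1 : ℤ)) 1 : GLv w) :
        Matrix (Fin 2) (Fin 2) (w.adicCompletion L)) =
        !![G 0 0, (p : w.adicCompletion L) * G 0 1;
          (p : w.adicCompletion L)⁻¹ * G 1 0, G 1 1] := by
      rw [Units.val_mul, Units.val_mul, Tree.coe_diagGL, Tree.coe_diagGL,
        Units.val_zpow_eq_zpow_val, zpow_neg_one, Units.val_one]
      conv_lhs => rw [show (g : Matrix (Fin 2) (Fin 2) (w.adicCompletion L)) =
        !![G 0 0, G 0 1; G 1 0, G 1 1] from Matrix.eta_fin_two G]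
      rw [Matrix.mul_fin_two, Matrix.mul_fin_two]
      simp only [mul_zero, zero_mul, add_zero, zero_add, mul_one, one_mul]
      rw [mul_right_comm, mul_inv_cancel₀ hp0, one_mul, mul_comm (G 1 0)]
    refine Tree.mem_intGL.2 ⟨fun a b => ?_, ?_⟩
    · rw [hM]
      fin_cases a <;> fin_cases b <;> simp only [Fin.zero_eta, Fin.mk_one, Matrix.of_apply,
        Matrix.cons_val', Matrix.cons_val_zero, Matrix.cons_val_one, Matrix.empty_val',
        Matrix.cons_val_fin_one]
      · exact h1.1 0 0
      · rw [map_mul, hp]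
        exact (mul_le_mul' (le_of_lt (by
          rw [← WithZero.exp_zero, WithZero.exp_lt_exp]; norm_num)) (h1.1 0 1)).trans (one_mul 1).le
      · rw [map_mul, map_inv₀, hp, ← WithZero.exp_neg, neg_neg]
        rcases eq_or_ne (valv w (G 1 0)) 0 with h0 | h0
        · rw [h0, mul_zero]; exact zero_le
        · have h2' : valv w (G 1 0) < 1 := h2
          rw [← WithZero.exp_log h0, ← WithZero.exp_zero, WithZero.exp_lt_exp] at h2'
          rw [← WithZero.exp_log h0, ← WithZero.exp_add, ← WithZero.exp_zero, WithZero.exp_le_exp]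
          omega
      · exact h1.1 1 1
    · rw [Units.val_mul, Units.val_mul, Matrix.det_mul, Matrix.det_mul, map_mul, map_mul, h1.2,
        mul_one, Tree.coe_diagGL, Tree.coe_diagGL, Matrix.det_fin_two_of, Matrix.det_fin_two_of,
        Units.val_one, mul_one, mul_one, zero_mul, sub_zero, sub_zero, hp, hd, ← WithZero.exp_add]
      simp
  · rw [mul_inv_rev, mul_assoc, ← Subgroup.mem_center_iff.1 (inv_mem hc), inv_mul_cancel_left]
    exact Subgroup.subset_closure (Or.inr (inv_mem hc))

theorem axisVert_zero (w : FPlace L) (p : (w.adicCompletion L)ˣ) :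
    axisVert (valv w) p 0 = baseVert w := by
  rw [axisVert, zpow_zero]
  refine congrArg QuotientGroup.mk (Units.ext ?_)
  ext a b
  fin_cases a <;> fin_cases b <;> simp

/-- The congruence subgroup fixes the vertices within its depth. -/
theorem cong_smul_axisVert {w : FPlace L} {p : (w.adicCompletion L)ˣ}
    (hp : valv w (p : w.adicCompletion L) = WithZero.exp (-1 : ℤ)) (m : ℕ) {j : GLv w}
    (hj : j ∈ congSubgroup w m) :
    j • axisVert (valv w) p (-(m : ℤ)) = axisVert (valv w) p (-(m : ℤ)) := by
  refine Tree.congZ_smul_eq hp ?_ hj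
  have h := Tree.vdist_axis hp 0 (-(m : ℤ))
  rw [axisVert_zero, baseVert] at h
  rw [h]; simp

theorem axisVert_mem_baseSphere {w : FPlace L} {p : (w.adicCompletion L)ˣ}
    (hp : valv w (p : w.adicCompletion L) = WithZero.exp (-1 : ℤ)) (m : ℕ) :
    axisVert (valv w) p (-(m : ℤ)) ∈ baseSphere w m := by
  rw [mem_baseSphere]
  have h := Tree.vdist_axis hp 0 (-(m : ℤ))
  rw [axisVert_zero] at h
  rw [h]; simp

end Fermat.Agent.ResidualThree
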