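import Fermat.Agent.ResidualThree.CubicDescent.BaseTrace
import Fermat.Agent.ResidualThree.CubicDescent.LevelTrace
import Fermat.Agent.ResidualThree.CubicDescent.SigmaVert

/-!
# Twisted traces along a chain of levels

Starting from a place set `S` where some double class operator has non-zero twisted trace, the
trace stays non-zero when tame or congruence levels are added at fixed places.
-/

noncomputable section

open IsDedekindDomain NumberField
open scoped WithZero

namespace Fermat.Agent.ResidualThree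

open Orbital (comapPlace IsStableLevel localAutGL)

variable {F : Type} [Field F] [NumberField F]

open Classical in
/-- The level kept at the places of `P`, maximal elsewhere. -/
def Level.keep (U : Level F) (P : Finset (FPlace F)) : Level F where
  J v := if v ∈ P then U.J v else maxSubgroup v
  le_max v := by
    split_ifs
    · exact U.le_max v
    · exact le_rfl
  exists_cong v := by
    split_ifs
    · exact U.exists_cong v
    · exact ⟨0, congSubgroup_le_max v 0⟩
  eventually_max := by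
    filter_upwards [P.finite_toSet.compl_mem_cofinite] with v hv
    exact if_neg (show v ∉ P by simpa using hv)

theorem Level.ext_of_forall {U U' : Level F} (h : ∀ v, U.J v = U'.J v) : U = U' := by
  cases U
  cases U'
  cases (funext h : _ = _)
  rfl

theorem Level.keep_mem (U : Level F) {P : Finset (FPlace F)} {v : FPlace F} (hv : v ∈ P) :
    (U.keep P).J v = U.J v := by
  classical exact if_pos hv

theorem Level.keep_not (U : Level F) {P : Finset (FPlace F)} {v : FPlace F} (hv : v ∉ P) :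
    (U.keep P).J v = maxSubgroup v := by
  classical exact if_neg hv

/-- A level is the level kept at a set outside which it is maximal. -/
theorem Level.keep_eq_self (U : Level F) {P : Finset (FPlace F)}
    (hP : ∀ v ∉ P, U.J v = maxSubgroup v) : U.keep P = U := by
  refine Level.ext_of_forall fun v => ?_
  by_cases hv : v ∈ P
  · exact U.keep_mem hv
  · rw [U.keep_not hv, hP v hv]

theorem Level.keep_anti (U : Level F) {P Q : Finset (FPlace F)} (h : P ⊆ Q) (v : FPlace F) :
    (U.keep Q).J v ≤ (U.keep P).J v := by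
  by_cases hv : v ∈ P
  · rw [U.keep_mem hv, U.keep_mem (h hv)]
  · rw [U.keep_not hv]; exact (U.keep Q).le_max v

theorem Level.setAt_keep [DecidableEq (FPlace F)] (U : Level F) {P : Finset (FPlace F)}
    {w : FPlace F} (h₁ : U.J w ≤ maxSubgroup w) (h₂ : ∃ n, congSubgroup w n ≤ U.J w) :
    (U.keep P).setAt w (U.J w) h₁ h₂ = U.keep (insert w P) := by
  refine Level.ext_of_forall fun v => ?_
  by_cases hv : v = w
  · subst hv; rw [Level.setAt_same, U.keep_mem (Finset.mem_insert_self v P)]
  · rw [Level.setAt_ne _ _ h₁ h₂ hv]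
    by_cases hvP : v ∈ P
    · rw [U.keep_mem hvP, U.keep_mem (Finset.mem_insert_of_mem hvP)]
    · rw [U.keep_not hvP, U.keep_not (by simp [hv, hvP])]

variable {K L : Type} [Field K] [NumberField K] [Field L] [NumberField L] [Algebra K L]

theorem isStableLevel_keep {f : L ≃+* L} {U : Level L} (hU : IsStableLevel f U)
    {P : Finset (FPlace L)} (hP : ∀ w, comapPlace f w ∈ P ↔ w ∈ P) :
    IsStableLevel f (U.keep P) := by
  intro w g hg
  by_cases hw : w ∈ P
  · rw [U.keep_mem hw]
    rw [U.keep_mem ((hP w).2 hw)] at hg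
    exact hU w g hg
  · rw [U.keep_not hw]
    rw [U.keep_not fun h => hw ((hP w).1 h)] at hg
    exact Orbital.localAutGL_mem_max f w hg

variable [IsTotallyComplex L] [DecidableEq (FPlace L)] (τ : Orbital.CubicAut K L) {U : Level L}
    {a : FPlace L → ℂ}

omit [NumberField K] [DecidableEq (FPlace L)] in
/-- The inverse automorphism preserves forms of invariant systems. -/
theorem sigmaInvFn_mem {S : Finset (FPlace L)} (hU : IsStableLevel τ.σ.toRingEquiv U)
    (hS : ∀ w, comapPlace τ.σ.toRingEquiv w ∈ S ↔ w ∈ S)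
    (hJ : ∀ w ∉ S, U.J w = maxSubgroup w) (ha : ∀ w, a (comapPlace τ.σ.toRingEquiv w) = a w)
    {φ : Gf L → Hyp L → ℂ} (hφ : φ ∈ levelForms S a U) : sigmaInvFn τ φ ∈ levelForms S a U :=
  sigmaFn_mem_levelForms _ hU hS hJ ha (sigmaFn_mem_levelForms _ hU hS hJ ha hφ)

omit [DecidableEq (FPlace L)] [NumberField K] in
/-- The inverse automorphism is injective on functions. -/
theorem sigmaInvFn_injective : Function.Injective (sigmaInvFn τ) := by
  have hcube : ∀ φ, sigmaFn τ.σ.toRingEquiv (sigmaInvFn τ φ) = φ := fun φ => by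
    funext x p
    show φ (Orbital.autGf _ (Orbital.autGf _ (Orbital.autGf _ x)))
      (Orbital.autHyp _ (Orbital.autHyp _ (Orbital.autHyp _ p))) = φ x p
    rw [autGf_cube, autHyp_cube]
  intro φ ψ h
  rw [← hcube φ, h, hcube]

omit [IsTotallyComplex L] [DecidableEq (FPlace L)] in
/-- An eigenvalue of norm at most two is not the trivial one. -/
theorem absNorm_mul_sq_ne (w : FPlace L) {z : ℂ} (hz : ‖z‖ ≤ 2) :
    (Ideal.absNorm w.asIdeal : ℂ) * z ^ 2 ≠ ((Ideal.absNorm w.asIdeal : ℂ) + 1) ^ 2 := by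
  have hN : 2 ≤ Ideal.absNorm w.asIdeal := by
    have h0 := absNorm_fplace_ne_zero w
    have h1 : Ideal.absNorm w.asIdeal ≠ 1 := fun h =>
      w.isPrime.ne_top (Ideal.absNorm_eq_one_iff.1 h)
    omega
  intro e
  have e' := congrArg norm e
  rw [norm_mul, norm_pow, norm_pow, Complex.norm_natCast,
    show ((Ideal.absNorm w.asIdeal : ℂ) + 1) = ((Ideal.absNorm w.asIdeal + 1 : ℕ) : ℂ) by simp,
    Complex.norm_natCast] at e'
  have hN' : (2 : ℝ) ≤ Ideal.absNorm w.asIdeal := by exact_mod_cast hN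
  have h4 : ‖z‖ ^ 2 ≤ 4 := by nlinarith [norm_nonneg z]
  push_cast at e'
  nlinarith [mul_le_mul_of_nonneg_left h4 (zero_le_two.trans hN')]

/-- The data of a chain: levels with fixed vertices at fixed places. -/
structure ChainPlaces (U : Level L) (S T : Finset (FPlace L)) : Prop where
  disj : ∀ w ∈ T, w ∉ S
  fixed : ∀ w ∈ T, comapPlace τ.σ.toRingEquiv w = w
  stableS : ∀ w, comapPlace τ.σ.toRingEquiv w ∈ S ↔ w ∈ S
  shape : ∀ w ∈ T, U.J w = tameSubgroup w ∨ ∃ m, U.J w = congSubgroup w m

omit [NumberField K] in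
/-- Twisted traces of a double class operator at `S` stay non-zero along the chain. -/
theorem trace_chain {S T : Finset (FPlace L)} (hC : ChainPlaces τ U S T)
    (hU : IsStableLevel τ.σ.toRingEquiv U) (ha : ∀ w, a (comapPlace τ.σ.toRingEquiv w) = a w)
    (hsmall : ∀ w ∈ T, (a w).im = 0 ∧ ‖a w‖ ≤ 2) {θ : Gf L → Hyp L → ℂ}
    (hθ : θ ∈ levelForms S a (U.keep S)) (hθ0 : θ ≠ 0)
    [FiniteDimensional ℂ (levelForms (S ∪ T) a (U.keep (S ∪ T)))] :
    ∃ g : placeSubgroup S, ∀ hX : ∀ φ ∈ levelForms (S ∪ T) a (U.keep (S ∪ T)),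
        (heckeLin (isHeckeFn_dcPlaces U g) * sigmaInvFn τ) φ ∈
          levelForms (S ∪ T) a (U.keep (S ∪ T)),
      LinearMap.trace ℂ _ ((heckeLin (isHeckeFn_dcPlaces U g) * sigmaInvFn τ).restrict hX) ≠ 0 := by
  classical
  set σ := τ.σ.toRingEquiv
  have hstab : ∀ T' ⊆ T, ∀ w, comapPlace σ w ∈ S ∪ T' ↔ w ∈ S ∪ T' := fun T' hT' w => by
    simp only [Finset.mem_union]
    refine or_congr (hC.stableS w) ⟨fun h => ?_, fun h => by rwa [hC.fixed w (hT' h)]⟩
    have := Orbital.comapPlace_injective σ (hC.fixed _ (hT' h))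
    rwa [this] at h
  have hθT : ∀ T' ⊆ T, θ ∈ levelForms (S ∪ T') a (U.keep (S ∪ T')) := fun T' _ =>
    ⟨hθ.1.mono (Finset.coe_subset.2 Finset.subset_union_left),
      hθ.2.mono fun v => U.keep_anti Finset.subset_union_left v⟩
  have hle : ∀ T' ⊆ T, levelForms (S ∪ T') a (U.keep (S ∪ T')) ≤
      levelForms (S ∪ T) a (U.keep (S ∪ T)) := fun T' hT' φ hφ =>
    ⟨hφ.1.mono (Finset.coe_subset.2 (Finset.union_subset_union le_rfl hT')),
      hφ.2.mono fun v => U.keep_anti (Finset.union_subset_union le_rfl hT') v⟩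
  have hFD : ∀ T' ⊆ T, FiniteDimensional ℂ (levelForms (S ∪ T') a (U.keep (S ∪ T'))) :=
    fun T' hT' => Submodule.finiteDimensional_of_le (hle T' hT')
  -- the base
  have hV₀ : FiniteDimensional ℂ (levelForms S a (U.keep S)) := by
    have h := hFD ∅ (Finset.empty_subset T)
    rwa [Finset.union_empty] at h
  have hS₀ : ∀ φ ∈ levelForms S a (U.keep S), sigmaInvFn τ φ ∈ levelForms S a (U.keep S) :=
    fun φ hφ => sigmaInvFn_mem τ (isStableLevel_keep hU hC.stableS) hC.stableS
      (fun w hw => U.keep_not hw) ha hφ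
  obtain ⟨g, hg⟩ := exists_dc_trace_ne_zero ((sigmaInvFn τ).restrict hS₀) fun h => by
    have h1 := congrArg Subtype.val (LinearMap.congr_fun h ⟨θ, hθ⟩)
    exact hθ0 (sigmaInvFn_injective τ (h1.trans (map_zero (sigmaInvFn τ)).symm))
  have hJS : levelAt (U.keep S) S = levelAt U S := levelAt_congr fun v hv => U.keep_mem hv
  refine ⟨g, ?_⟩
  set op := heckeLin (isHeckeFn_dcPlaces U g) * sigmaInvFn τ with hop
  have hmem : ∀ T' ⊆ T, ∀ φ ∈ levelForms (S ∪ T') a (U.keep (S ∪ T')),
      op φ ∈ levelForms (S ∪ T') a (U.keep (S ∪ T')) := fun T' hT' φ hφ =>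
    heckeLin_mem _ Finset.subset_union_left
      (fun v hv => (U.keep_mem (Finset.mem_union_left _ hv)).symm)
      (sigmaInvFn_mem τ (isStableLevel_keep hU (hstab T' hT')) (hstab T' hT')
        (fun w hw => U.keep_not hw) ha hφ)
  suffices h : ∀ T' ⊆ T, ∀ hX : ∀ φ ∈ levelForms (S ∪ T') a (U.keep (S ∪ T')),
      op φ ∈ levelForms (S ∪ T') a (U.keep (S ∪ T')),
      LinearMap.trace ℂ _ (op.restrict hX) ≠ 0 from h T le_rfl
  intro T'
  induction T' using Finset.induction_on with
  | empty =>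
    intro _
    rw [Finset.union_empty]
    intro hX
    refine fun h0 => hg (Eq.trans ?_ h0)
    congr 1
    refine LinearMap.ext fun φ => Subtype.ext ?_
    rw [Module.End.mul_apply, heckeV_apply]
    show _ = heckeLin _ (sigmaInvFn τ (φ : Gf L → Hyp L → ℂ))
    rw [heckeLin_apply, hJS]
    rfl
  | insert w T' hwT' ih =>
    intro hT'
    rw [Finset.insert_subset_iff] at hT'
    obtain ⟨hwT, hT'T⟩ := hT'
    set P := S ∪ T' with hP
    have hwP : w ∉ P := by
      simp only [hP, Finset.mem_union, not_or]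
      exact ⟨hC.disj w hwT, hwT'⟩
    have hne := absNorm_mul_sq_ne w (hsmall w hwT).2
    obtain ⟨p, hp⟩ := exists_unif_units w
    obtain ⟨m, hmJ, hfix⟩ : ∃ m : ℕ, congSubgroup w m ≤ U.J w ∧
        ∀ j ∈ U.J w,
          j • Tree.axisVert (valv w) p (-(m : ℤ)) = Tree.axisVert (valv w) p (-(m : ℤ)) := by
      rcases hC.shape w hwT with h | ⟨m, h⟩
      · exact ⟨1, h ▸ congSubgroup_one_le_tame w, fun j hj =>
          tame_smul_axisVert hp (h ▸ hj)⟩
      · exact ⟨m, h ▸ le_rfl, fun j hj => cong_smul_axisVert hp m (h ▸ hj)⟩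
    obtain ⟨π, hπd, hπ0, hπT, hπfix⟩ := exists_sigmaVert τ (hC.fixed w hwT)
    have := hFD T' hT'T
    obtain ⟨-, htr⟩ := trace_setAt_ne_zero hwP hne (U.keep_not hwP) (hθT T' hT'T) hθ0 op
      (hmem T' hT'T) (ih hT'T (hmem T' hT'T)) m (U.J w) (U.le_max w) hmJ π hπd hπ0
      (fun φ hφ y _ => by
        have hs : ∀ ψ ∈ levelForms P a (U.keep P), IsSphericalAt w ψ := fun ψ hψ =>
          hψ.2.sphericalAt (U.keep_not hwP)
        have hσ := sigmaInvFn_mem τ (isStableLevel_keep hU (hstab T' hT'T)) (hstab T' hT'T)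
          (fun v hv => U.keep_not hv) ha hφ
        rw [hop, Module.End.mul_apply, hπT φ (hs φ hφ) (hs _ hσ),
          heckeLin_vertFun _ (hC.disj w hwT)]
        rfl)
      (axisVert_mem_baseSphere hp m) (hπfix p hp _) hfix
    have e : S ∪ insert w T' = insert w P := Finset.union_insert w S T'
    rw [e, ← Level.setAt_keep U (U.le_max w) ⟨m, hmJ⟩]
    exact htr

end Fermat.Agent.ResidualThree
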