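import Fermat.Agent.ResidualThree.Orbital.Coord
import Fermat.Agent.ResidualThree.Orbital.GlobalTransfer
import Fermat.Agent.ResidualThree.Tree.TransferBase

/-!
# The places above a place of the base in a cubic extension

A place has three places above it or one; the residue fields agree in the first case.
-/

noncomputable section

open IsDedekindDomain NumberField

namespace Fermat.Agent.ResidualThree.Orbital

variable {K L : Type} [Field K] [NumberField K] [Field L] [NumberField L] [Algebra K L]
  (τ : CubicAut K L) {v : FPlace K}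

include τ in
theorem eq_or_eq_or_eq_over (w u : Over L v) :
    u = w ∨ u = comapOver τ.σ w ∨ u = comapOver τ.σ (comapOver τ.σ w) := by
  set m : Over L v → Prop := fun z =>
    z = w ∨ z = comapOver τ.σ w ∨ z = comapOver τ.σ (comapOver τ.σ w)
  have hm : ∀ z, m (comapOver τ.σ z) = m z := fun z => by
    have h1 : ∀ x, m x → m (comapOver τ.σ x) := by
      rintro x (rfl | rfl | rfl)
      · exact Or.inr (Or.inl rfl)
      · exact Or.inr (Or.inr rfl)
      · exact Or.inl (comapOver_cube τ w)
    refine propext ⟨fun h => ?_, h1 z⟩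
    have := h1 _ (h1 _ h)
    rwa [comapOver_cube] at this
  exact (eq_of_comapOver_invariant τ m hm w u).mpr (Or.inl rfl)

theorem comapOver_ne (hv : Nat.card (Over L v) ≠ 1) (w : Over L v) : comapOver τ.σ w ≠ w := by
  intro h
  refine hv (Nat.card_eq_one_iff_unique.2 ⟨⟨fun a b => ?_⟩, ⟨w⟩⟩)
  have key : ∀ u : Over L v, u = w := fun u => by
    rcases eq_or_eq_or_eq_over τ w u with h1 | h1 | h1
    · exact h1
    · exact h1.trans h
    · exact h1.trans (by rw [h, h])
  rw [key a, key b]

theorem comapOver_comapOver_ne (hv : Nat.card (Over L v) ≠ 1) (w : Over L v) :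
    comapOver τ.σ (comapOver τ.σ w) ≠ w := fun h => by
  refine comapOver_ne τ hv w ?_
  conv_rhs => rw [← comapOver_cube τ w, h]

/-- The three places above a place with more than one. -/
def overTriple (w : Over L v) : Fin 3 → Over L v :=
  ![w, comapOver τ.σ w, comapOver τ.σ (comapOver τ.σ w)]

theorem bijective_overTriple (hv : Nat.card (Over L v) ≠ 1) (w : Over L v) :
    Function.Bijective (overTriple τ w) := by
  refine ⟨fun i j h => ?_, fun u => ?_⟩
  · have h1 := comapOver_ne τ hv w
    have h2 := comapOver_ne τ hv (comapOver τ.σ w)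
    have h3 := comapOver_comapOver_ne τ hv w
    fin_cases i <;> fin_cases j <;> simp_all [overTriple, eq_comm]
  · rcases eq_or_eq_or_eq_over τ w u with h | h | h
    · exact ⟨0, h.symm⟩
    · exact ⟨1, h.symm⟩
    · exact ⟨2, h.symm⟩

include τ in
/-- There are three places above a place unless there is one. -/
theorem card_over_eq_three (hv : Nat.card (Over L v) ≠ 1) : Nat.card (Over L v) = 3 := by
  obtain ⟨w⟩ := nonempty_over L v
  rw [← Nat.card_eq_of_bijective _ (bijective_overTriple τ hv w), Nat.card_eq_fintype_card,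
    Fintype.card_fin]

omit [NumberField K] in
theorem eq_of_card_over_eq_one (h1 : Nat.card (Over L v) = 1) (w u : Over L v) : u = w :=
  (Nat.card_eq_one_iff_unique.1 h1).1.elim u w

include τ in
theorem prod_over_eq {M : Type*} [CommMonoid M] (hv : Nat.card (Over L v) ≠ 1) (w : Over L v)
    (f : Over L v → M) :
    ∏ u, f u = f w * f (comapOver τ.σ w) * f (comapOver τ.σ (comapOver τ.σ w)) := by
  rw [← Fintype.prod_bijective _ (bijective_overTriple τ hv w) (fun i => f (overTriple τ w i)) f
    fun i => rfl, Fin.prod_univ_three]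
  rfl

variable (v) in
/-- The degrees of the places above a place add up to the degree. -/
theorem sum_ram_mul_inertiaDeg :
    ∑ w : Over L v, ram K w.1 * v.asIdeal.inertiaDeg' w.1.asIdeal = Module.finrank K L := by
  classical
  have hlies : ∀ w : Over L v, w.1.asIdeal.LiesOver v.asIdeal := fun w =>
    ⟨(congrArg HeightOneSpectrum.asIdeal w.2).symm⟩
  let e : Over L v → v.asIdeal.primesOver (𝓞 L) := fun w => ⟨w.1.asIdeal, w.1.isPrime, hlies w⟩
  have he : Function.Bijective e := by
    refine ⟨fun a b h => Subtype.ext (HeightOneSpectrum.ext (congrArg Subtype.val h)), fun P => ?_⟩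
    have := P.2.1
    have := P.2.2
    exact ⟨⟨⟨P.1, P.2.1, Ideal.ne_bot_of_liesOver_of_ne_bot v.ne_bot P.1⟩,
      HeightOneSpectrum.ext P.2.2.over.symm⟩, rfl⟩
  let : Fintype (v.asIdeal.primesOver (𝓞 L)) := Fintype.ofBijective e he
  rw [IsFractionRing.finrank_eq (𝓞 K) K (𝓞 L) L,
    ← Ideal.sum_ramification_inertia_eq_finrank v.asIdeal (𝓞 L),
    ← Fintype.sum_bijective e he _ _ fun _ => rfl]
  refine Finset.sum_congr rfl fun w _ => ?_
  have := hlies w
  have := v.isMaximal
  have := w.1.isMaximal
  rw [ram, w.2, Ideal.ramificationIdx'_eq_ramificationIdx v.asIdeal w.1.asIdeal v.ne_bot,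
    Ideal.inertiaDeg'_eq_inertiaDeg v.asIdeal w.1.asIdeal]

/-- At a split place ramification and residue degrees are one. -/
theorem split_place (hdeg : Module.finrank K L = 3) (h3 : Nat.card (Over L v) = 3) (w : Over L v) :
    ram K w.1 = 1 ∧ Ideal.absNorm w.1.asIdeal = Ideal.absNorm v.asIdeal := by
  have hlies : ∀ u : Over L v, u.1.asIdeal.LiesOver v.asIdeal := fun u =>
    ⟨(congrArg HeightOneSpectrum.asIdeal u.2).symm⟩
  have hpos : ∀ u : Over L v, 1 ≤ ram K u.1 * v.asIdeal.inertiaDeg' u.1.asIdeal := fun u => by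
    have := hlies u
    have : v.asIdeal.IsMaximal := v.isMaximal
    exact Nat.mul_pos (ram_pos u.1) (Ideal.inertiaDeg'_pos v.asIdeal u.1.asIdeal)
  have hsum : ∑ u : Over L v, ram K u.1 * v.asIdeal.inertiaDeg' u.1.asIdeal =
      ∑ _u : Over L v, 1 := by
    rw [sum_ram_mul_inertiaDeg, hdeg, Finset.sum_const, Finset.card_univ,
      ← Nat.card_eq_fintype_card, h3, smul_eq_mul, mul_one]
  have h1 := (Finset.sum_eq_sum_iff_of_le fun u _ => hpos u).1 hsum.symm w (Finset.mem_univ _)
  obtain ⟨he, hf⟩ := mul_eq_one.1 h1.symm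
  have := hlies w
  refine ⟨he, ?_⟩
  rw [Ideal.absNorm_eq_pow_inertiaDeg'_of_liesOver w.1.asIdeal v.asIdeal v.isPrime v.ne_bot, hf,
    pow_one]

/-- The places over the places of a finite set. -/
def overFinset (L : Type) [Field L] [NumberField L] [Algebra K L] (P : Finset (FPlace K)) :
    Finset (FPlace L) := by
  classical
  exact P.biUnion fun v => (Finset.univ : Finset (Over L v)).image Subtype.val

theorem mem_overFinset {P : Finset (FPlace K)} {w : FPlace L} :
    w ∈ overFinset L P ↔ below K w ∈ P := by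
  classical
  simp only [overFinset, Finset.mem_biUnion, Finset.mem_image, Finset.mem_univ, true_and]
  exact ⟨fun ⟨v, hv, u, hu⟩ => by rw [← hu, u.2]; exact hv, fun h => ⟨_, h, ⟨w, rfl⟩, rfl⟩⟩

theorem prod_overFinset {M : Type*} [CommMonoid M] (P : Finset (FPlace K)) (f : FPlace L → M) :
    ∏ w ∈ overFinset L P, f w = ∏ v ∈ P, ∏ u : Over L v, f u.1 := by
  classical
  rw [overFinset, Finset.prod_biUnion fun v _ v' _ hne => ?_]
  · exact Finset.prod_congr rfl fun v _ =>
      Finset.prod_image fun a _ b _ h => Subtype.ext h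
  · rw [Function.onFun, Finset.disjoint_left]
    simp only [Finset.mem_image, Finset.mem_univ, true_and]
    rintro w ⟨u, rfl⟩ ⟨u', hu'⟩
    exact hne (u.2.symm.trans ((congrArg (below K) hu'.symm).trans u'.2))

end Fermat.Agent.ResidualThree.Orbital
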