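import Fermat.Agent.ResidualThree.CubicDescent.GoodAlgebra
import Fermat.Agent.ResidualThree.CubicDescent.PushPlaces

/-!
# Push forward of good data along the cubic extension

The spherical function at a place of the base is given by the product of the transforms at the
places above, positions being tripled when there is one place; the test function is the convolution
along the three infinite places.
-/

noncomputable section

open IsDedekindDomain NumberField AddMonoidAlgebra

namespace Fermat.Agent.ResidualThree

/-! ### From Laurent polynomials to spherical functions -/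

/-- Invariance under inversion of the variable. -/
def IsSymPoly (p : LaurentPolynomial ℂ) : Prop :=
  mapDomainRingHom ℂ (-AddMonoidHom.id ℤ) p = p

theorem IsSymPoly.coeff_neg {p : LaurentPolynomial ℂ} (hp : IsSymPoly p) (n : ℤ) :
    p.coeff (-n) = p.coeff n := by
  conv_lhs => rw [← hp]
  rw [mapDomainRingHom_apply]
  exact Finsupp.mapDomain_apply (f := fun m : ℤ => -m) neg_injective p.coeff n

theorem isSymPoly_satakePoly (Q : ℕ) (f : ℕ →₀ ℂ) : IsSymPoly (satakePoly Q f) := by
  refine AddMonoidAlgebra.ext (Finsupp.ext fun n => ?_)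
  have h := Finsupp.mapDomain_apply (f := fun m : ℤ => -m) neg_injective (satakePoly Q f).coeff (-n)
  rw [neg_neg, coeff_satakePoly, satakeInt_neg] at h
  rw [mapDomainRingHom_apply, coeff_satakePoly]
  exact h

theorem isSymPoly_mapDomain {p : LaurentPolynomial ℂ} (hp : IsSymPoly p) (h : ℤ →+ ℤ) :
    IsSymPoly (mapDomainRingHom ℂ h p) := by
  unfold IsSymPoly at hp ⊢
  conv_rhs => rw [← hp]
  rw [← RingHom.comp_apply, ← RingHom.comp_apply, ← mapDomainRingHom_comp,
    ← mapDomainRingHom_comp]
  exact congrArg (fun g : ℤ →+ ℤ => mapDomainRingHom ℂ g p)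
    (AddMonoidHom.ext fun n => (map_neg h n).symm)

theorem isSymPoly_prod {ι : Type*} (s : Finset ι) (p : ι → LaurentPolynomial ℂ)
    (h : ∀ i ∈ s, IsSymPoly (p i)) : IsSymPoly (∏ i ∈ s, p i) :=
  (map_prod _ _ _).trans (Finset.prod_congr rfl h)

/-- The spherical function with a given transform. -/
def ofPoly (Q : ℕ) (p : LaurentPolynomial ℂ) : ℕ →₀ ℂ :=
  invSatake Q (p.coeff.comapDomain Nat.cast Nat.cast_injective.injOn)

theorem satakePoly_ofPoly {Q : ℕ} (hQ : Q ≠ 0) {p : LaurentPolynomial ℂ} (hp : IsSymPoly p) :
    satakePoly Q (ofPoly Q p) = p := by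
  refine AddMonoidAlgebra.ext (Finsupp.ext fun n => ?_)
  rw [coeff_satakePoly, satakeInt, ofPoly, Tree.satake_invSatake hQ, Finsupp.comapDomain_apply]
  rcases Int.natAbs_eq n with h | h
  · rw [← h]
  · conv_rhs => rw [h]
    exact (hp.coeff_neg _).symm

variable {K L : Type} [Field K] [NumberField K] [Field L] [NumberField L] [Algebra K L]

/-! ### Finite places -/

variable (L) in
/-- The factor on positions: one when there are three places above, three otherwise. -/
def fibExp (v : FPlace K) : ℕ := if Nat.card (Orbital.Over L v) = 3 then 1 else 3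

variable (L) in
/-- Positions at a place above as positions below. -/
def fibHom (v : FPlace K) : ℤ →+ ℤ := AddMonoidHom.mulLeft (fibExp L v : ℤ)

/-- The transform below. -/
def fibPoly (d : GoodDatum L) (v : FPlace K) : LaurentPolynomial ℂ :=
  ∏ u : Orbital.Over L v, mapDomainRingHom ℂ (fibHom L v)
    (satakePoly (Ideal.absNorm u.1.asIdeal) (d.loc u.1))

theorem isSymPoly_fibPoly (d : GoodDatum L) (v : FPlace K) : IsSymPoly (fibPoly d v) :=
  isSymPoly_prod _ _ fun _ _ => isSymPoly_mapDomain (isSymPoly_satakePoly _ _) _

/-- The spherical function below whose transform is the product of the transforms above, with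
positions multiplied by `fibExp`. -/
def pushLoc (d : GoodDatum L) (v : FPlace K) : ℕ →₀ ℂ :=
  ofPoly (Ideal.absNorm v.asIdeal) (fibPoly d v)

/-- The transform of a pushed function is the product over the fibre. -/
theorem satakePoly_pushLoc (d : GoodDatum L) (v : FPlace K) :
    satakePoly (Ideal.absNorm v.asIdeal) (pushLoc d v) = fibPoly d v :=
  satakePoly_ofPoly (absNorm_fplace_ne_zero v) (isSymPoly_fibPoly d v)

theorem pushLoc_eq_single (d : GoodDatum L) (v : FPlace K)
    (h : ∀ u : Orbital.Over L v, d.loc u.1 = Finsupp.single 0 1) :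
    pushLoc d v = Finsupp.single 0 1 := by
  refine eq_of_satakePoly (absNorm_fplace_ne_zero v) ?_
  rw [satakePoly_pushLoc, satakePoly_sphUnit (absNorm_fplace_ne_zero v), fibPoly]
  exact Finset.prod_eq_one fun u _ => by
    rw [h u, satakePoly_sphUnit (absNorm_fplace_ne_zero _), map_one]

variable (L) in
/-- The base change of the eigenvalue `a` at `v` to a place above `v`. -/
def bcEigen (v : FPlace K) (a : ℂ) : ℂ :=
  if Nat.card (Orbital.Over L v) = 3 then a else a ^ 3 - 3 * a

/-- The eigenvalue of a pushed function is the value at the base change. -/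
theorem sphEval_pushLoc (d : GoodDatum L) (v : FPlace K) (a : ℂ) :
    sphEval (Ideal.absNorm v.asIdeal) a (pushLoc d v) =
      ∏ u : Orbital.Over L v, sphEval (Ideal.absNorm u.1.asIdeal) (bcEigen L v a) (d.loc u.1) := by
  obtain ⟨z, rfl⟩ := exists_add_inv_eq a
  rw [← evalAt_satakePoly (absNorm_fplace_ne_zero v), satakePoly_pushLoc, fibPoly, map_prod]
  refine Finset.prod_congr rfl fun u _ => ?_
  rw [fibHom, evalAt_mapDomain_mulLeft, evalAt_satakePoly (absNorm_fplace_ne_zero _)]
  congr 1
  rw [bcEigen, fibExp]
  split_ifs
  · simp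
  · rw [Units.val_pow_eq_pow_val, add_inv_cube]

/-! ### The datum below -/

/-- Convolution of three functions. -/
def conv3 (g : Fin 3 → ℝ → ℂ) : ℝ → ℂ := convR (convR (g 0) (g 1)) (g 2)

variable {τ : Orbital.CubicAut K L}

/-- The push forward of a datum. -/
def GoodDatum.push (A : Orbital.ArchFrame τ) (d : GoodDatum L) : GoodDatum K where
  loc := pushLoc d
  unit := by
    filter_upwards [Orbital.eventually_over (K := K) d.unit] with v hv
    exact pushLoc_eq_single d v hv
  g _ := conv3 fun i => d.g (A.placeEquiv i)
  test _ := ((d.test _).conv (d.test _)).conv (d.test _)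

/-- The base change of a system. -/
def bcSys (A : Orbital.ArchFrame τ) (s : EigenSystem K) : EigenSystem L where
  a w := bcEigen L (Orbital.below K w) (s.a (Orbital.below K w))
  l _ := s.l A.w₀

/-- The value of the push forward. -/
theorem GoodDatum.eval_push (A : Orbital.ArchFrame τ) (d : GoodDatum L) {BadL : Finset (FPlace L)}
    {BadK : Finset (FPlace K)} (hBad : ∀ w, w ∈ BadL ↔ Orbital.below K w ∈ BadK)
    (s : EigenSystem K) :
    (d.push A).eval BadK s = d.eval BadL (bcSys A s) := by
  classical
  have hfin : {v : FPlace K | ¬ ∀ u : Orbital.Over L v, d.loc u.1 = Finsupp.single 0 1}.Finite :=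
    Filter.eventually_cofinite.1 (Orbital.eventually_over (K := K) d.unit)
  rw [GoodDatum.eval, GoodDatum.eval]
  congr 1
  · rw [finprod_eq_prod_of_mulSupport_subset _ (s := hfin.toFinset) fun v hv => ?_,
      finprod_eq_prod_of_mulSupport_subset _ (s := Orbital.overFinset L hfin.toFinset) fun
        w hw => ?_,
      Orbital.prod_overFinset]
    · refine Finset.prod_congr rfl fun v _ => ?_
      by_cases hv : v ∈ BadK
      · rw [if_pos hv, Finset.prod_eq_one fun u _ => if_pos ((hBad u.1).2 (by rw [u.2]; exact hv))]
      · rw [if_neg hv]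
        refine (sphEval_pushLoc d v (s.a v)).trans (Finset.prod_congr rfl fun u _ => ?_)
        rw [if_neg fun h => hv (by rw [← u.2]; exact (hBad u.1).1 h)]
        show _ = sphEval _ (bcEigen L (Orbital.below K u.1) (s.a (Orbital.below K u.1))) _
        rw [u.2]
    · rw [Finset.mem_coe, Orbital.mem_overFinset, Set.Finite.mem_toFinset]
      intro h
      exact hw (by simp [h ⟨w, rfl⟩, sphEval_single_zero])
    · rw [Finset.mem_coe, Set.Finite.mem_toFinset]
      intro h
      exact hv (by simp [GoodDatum.push, pushLoc_eq_single d v h, sphEval_single_zero])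
  · let : Unique (InfinitePlace K) := ⟨⟨A.w₀⟩, A.unique⟩
    rw [Fintype.prod_unique, ← A.placeEquiv.prod_comp, Fin.prod_univ_three]
    show coshTransform (conv3 _) (s.l A.w₀) = _
    rw [conv3, coshTransform_conv ((d.test _).conv (d.test _)) (d.test _),
      coshTransform_conv (d.test _) (d.test _)]
    rfl

end Fermat.Agent.ResidualThree
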