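import Fermat.Agent.ResidualThree.CubicDescent.KillElement
import Fermat.Agent.ResidualThree.CubicDescent.Push

/-!
# The push forward of real data is real

Conjugation of coefficients commutes with the transforms defining the push forward.
-/

noncomputable section

open IsDedekindDomain NumberField MeasureTheory AddMonoidAlgebra
open scoped ComplexConjugate

namespace Fermat.Agent.ResidualThree

/-- Conjugation of the coefficients. -/
def conjPoly : LaurentPolynomial ℂ →+* LaurentPolynomial ℂ :=
  AddMonoidAlgebra.mapRingHom ℤ (starRingEnd ℂ)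

theorem coeff_conjPoly (p : LaurentPolynomial ℂ) (n : ℤ) :
    (conjPoly p).coeff n = conj (p.coeff n) := by
  simp [conjPoly]

theorem conjPoly_mapDomain (h : ℤ →+ ℤ) (p : LaurentPolynomial ℂ) :
    conjPoly (mapDomainRingHom ℂ h p) = mapDomainRingHom ℂ h (conjPoly p) := by
  induction p using AddMonoidAlgebra.induction_linear with
  | zero => simp
  | add a b ha hb => simp only [map_add, ha, hb]
  | single n c =>
    simp only [conjPoly, mapDomainRingHom_apply, mapDomain_single, mapRingHom_single]

theorem conjPoly_satakePoly {Q : ℕ} {f : ℕ →₀ ℂ} (hf : ∀ n, conj (f n) = f n) :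
    conjPoly (satakePoly Q f) = satakePoly Q f := by
  refine AddMonoidAlgebra.ext (Finsupp.ext fun n => ?_)
  rw [coeff_conjPoly, coeff_satakePoly]
  simp [satakeInt, satake, hf, map_sum, apply_ite conj]

theorem conj_conv3 {g : Fin 3 → ℝ → ℂ} (hg : ∀ i s, conj (g i s) = g i s) (s : ℝ) :
    conj (conv3 g s) = conv3 g s := by
  simp only [conv3, convR, ← integral_conj, map_mul, hg]

variable {K L : Type} [Field K] [NumberField K] [Field L] [NumberField L] [Algebra K L]
  {τ : Orbital.CubicAut K L}

/-- The push forward of real data is real. -/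
theorem GoodDatum.IsReal.push (A : Orbital.ArchFrame τ) {d : GoodDatum L} (hd : d.IsReal) :
    (d.push A).IsReal where
  loc v n := by
    refine Killing.conj_invSatake (fun k => ?_) _ n
    rw [Finsupp.comapDomain_apply, ← coeff_conjPoly]
    have h : conjPoly (fibPoly d v) = fibPoly d v := by
      rw [fibPoly, map_prod]
      exact Finset.prod_congr rfl fun u _ => by
        rw [conjPoly_mapDomain, conjPoly_satakePoly (hd.loc u.1)]
    rw [h]
  test w s := conj_conv3 (fun i => hd.test _) s

/-- The pushed combination has a symmetric kernel. -/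
theorem isReal_push_list (A : Orbital.ArchFrame τ) {E : List (GoodDatum L)}
    (hE : ∀ d ∈ E, d.IsReal) : ∀ d ∈ E.map (GoodDatum.push A), d.IsReal := fun d hd => by
  obtain ⟨e, he, rfl⟩ := List.mem_map.mp hd
  exact (hE e he).push A

end Fermat.Agent.ResidualThree
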