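import Fermat.Agent.ResidualThree.CubicDescent.Push
import Fermat.Agent.ResidualThree.CubicDescent.ShiftSum

/-!
# The transform of a push forward is the sum along the fibres

A combination of shifts of a fixed function pushes to the combination of the shifts of its push
forward; the shift by an element of the base becomes the shift by its cube.
-/

noncomputable section

open IsDedekindDomain NumberField MeasureTheory

namespace Fermat.Agent.ResidualThree

/-! ### Products of Laurent polynomials in separate variables -/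

theorem coeff_prod_single {ι : Type*} [Fintype ι] [DecidableEq ι] (p : ι → LaurentPolynomial ℂ)
    (n : ι → ℤ) :
    (∏ i, AddMonoidAlgebra.mapDomainRingHom ℂ
      (AddMonoidHom.single (fun _ : ι => ℤ) i) (p i)).coeff n = ∏ i, (p i).coeff (n i) := by
  classical
  have hp : ∀ i,
      AddMonoidAlgebra.mapDomainRingHom ℂ (AddMonoidHom.single (fun _ : ι => ℤ) i) (p i) =
      ∑ a ∈ (p i).coeff.support,
        AddMonoidAlgebra.single (Pi.single i a) ((p i).coeff a) := fun i => by
    conv_lhs => rw [← AddMonoidAlgebra.sum_coeff_single (p i), Finsupp.sum, map_sum]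
    exact Finset.sum_congr rfl fun a _ => by
      rw [AddMonoidAlgebra.mapDomainRingHom_apply, AddMonoidAlgebra.mapDomain_single,
        AddMonoidHom.single_apply]
  simp only [hp]
  rw [Finset.prod_univ_sum]
  have hs : ∀ x : ι → ℤ,
      ∏ i, AddMonoidAlgebra.single (Pi.single i (x i) : ι → ℤ) ((p i).coeff (x i)) =
      AddMonoidAlgebra.single x (∏ i, (p i).coeff (x i)) := fun x => by
    rw [AddMonoidAlgebra.prod_single, Finset.univ_sum_single]
  simp only [hs]
  rw [AddMonoidAlgebra.coeff_sum, Finsupp.finsetSum_apply]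
  simp only [AddMonoidAlgebra.coeff_single, Finsupp.single_apply, Finset.sum_ite_eq']
  split_ifs with h
  · rfl
  · simp only [Fintype.mem_piFinset, Finsupp.mem_support_iff, not_forall, not_not] at h
    obtain ⟨i, hi⟩ := h
    exact (Finset.prod_eq_zero (Finset.mem_univ i) hi).symm

variable {K L : Type} [Field K] [NumberField K] [Field L] [NumberField L] [Algebra K L]

open Classical in
/-- The Satake transforms at the places of `P`, in separate variables. -/
def GoodDatum.finPoly {F : Type} [Field F] [NumberField F] (d : GoodDatum F)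
    (P : Finset (FPlace F)) : AddMonoidAlgebra ℂ (↥P → ℤ) :=
  ∏ v : P, AddMonoidAlgebra.mapDomainRingHom ℂ (AddMonoidHom.single (fun _ : ↥P => ℤ) v)
    (satakePoly (Ideal.absNorm (v : FPlace F).asIdeal) (d.loc v))

theorem GoodDatum.coeff_finPoly {F : Type} [Field F] [NumberField F] (d : GoodDatum F)
    (P : Finset (FPlace F)) (n : ↥P → ℤ) :
    (d.finPoly P).coeff n =
      ∏ v : P, satakeInt (Ideal.absNorm (v : FPlace F).asIdeal) (d.loc v) (n v) := by
  classical
  rw [GoodDatum.finPoly, coeff_prod_single]
  simp only [coeff_satakePoly]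

/-! ### Positions -/

variable (L) (P : Finset (FPlace K))

open Classical in
/-- Positions above as positions below. -/
def posHom : (↥(Orbital.overFinset L P) → ℤ) →+ (↥P → ℤ) :=
  ∑ w : ↥(Orbital.overFinset L P), ((AddMonoidHom.single (fun _ : ↥P => ℤ)
    ⟨Orbital.below K w.1, Orbital.mem_overFinset.1 w.2⟩).comp (fibHom L (Orbital.below K w.1))).comp
      (Pi.evalAddMonoidHom (fun _ : ↥(Orbital.overFinset L P) => ℤ) w)

variable {L P}

theorem posHom_single [DecidableEq ↥(Orbital.overFinset L P)] [DecidableEq ↥P]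
    (w : ↥(Orbital.overFinset L P)) (n : ℤ) :
    posHom L P (Pi.single w n) =
      Pi.single ⟨Orbital.below K w.1, Orbital.mem_overFinset.1 w.2⟩
        (fibHom L (Orbital.below K w.1) n) := by
  rw [posHom, AddMonoidHom.finsetSum_apply, Finset.sum_eq_single w]
  · simp only [AddMonoidHom.comp_apply, Pi.evalAddMonoidHom_apply, Pi.single_eq_same,
      AddMonoidHom.single_apply]
    ext x
    simp [Pi.single_apply]
  · intro b _ hb
    simp [Pi.single_eq_of_ne hb]
  · exact fun h => absurd (Finset.mem_univ w) h

theorem posHom_apply (m : ↥(Orbital.overFinset L P) → ℤ) (v : ↥P) :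
    posHom L P m v = ∑ u : Orbital.Over L v.1,
      fibHom L v.1 (m ⟨u.1, Orbital.mem_overFinset.2 (by rw [u.2]; exact v.2)⟩) := by
  classical
  rw [posHom, AddMonoidHom.finsetSum_apply, Finset.sum_apply]
  simp only [AddMonoidHom.comp_apply, Pi.evalAddMonoidHom_apply, AddMonoidHom.single_apply,
    Pi.single_apply]
  rw [← Finset.sum_filter]
  refine (Finset.sum_bij (fun (u : Orbital.Over L v.1) _ =>
      (⟨u.1, Orbital.mem_overFinset.2 (by rw [u.2]; exact v.2)⟩ : ↥(Orbital.overFinset L P)))
    (fun u _ => ?_)
    (fun a _ b _ h => Subtype.ext (congrArg (fun z : ↥(Orbital.overFinset L P) => z.1) h))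
    (fun w hw => ?_) fun u _ => ?_).symm
  · simp only [Finset.mem_filter, Finset.mem_univ, true_and]
    exact Subtype.ext u.2.symm
  · simp only [Finset.mem_filter, Finset.mem_univ, true_and] at hw
    exact ⟨⟨w.1, (congrArg Subtype.val hw).symm⟩, Finset.mem_univ _, rfl⟩
  · show fibHom L v.1 _ = fibHom L (Orbital.below K u.1) _
    rw [show fibHom L (Orbital.below K u.1) = fibHom L v.1 from by rw [u.2]]

variable {τ : Orbital.CubicAut K L}

/-- The finite part of the transform of a push forward. -/
theorem GoodDatum.finPoly_push (A : Orbital.ArchFrame τ) (d : GoodDatum L) (P : Finset (FPlace K)) :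
    (d.push A).finPoly P =
      AddMonoidAlgebra.mapDomainRingHom ℂ (posHom L P) (d.finPoly (Orbital.overFinset L P)) := by
  classical
  rw [GoodDatum.finPoly, GoodDatum.finPoly, map_prod]
  let G : FPlace L → AddMonoidAlgebra ℂ (↥P → ℤ) := fun w =>
    if h : Orbital.below K w ∈ P then
      AddMonoidAlgebra.mapDomainRingHom ℂ ((AddMonoidHom.single (fun _ : ↥P => ℤ) ⟨_, h⟩).comp
        (fibHom L (Orbital.below K w))) (satakePoly (Ideal.absNorm w.asIdeal) (d.loc w))
    else 1
  have hR : ∀ w : ↥(Orbital.overFinset L P), AddMonoidAlgebra.mapDomainRingHom ℂ (posHom L P)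
      (AddMonoidAlgebra.mapDomainRingHom ℂ
          (AddMonoidHom.single (fun _ : ↥(Orbital.overFinset L P) => ℤ) w)
        (satakePoly (Ideal.absNorm (w : FPlace L).asIdeal) (d.loc w))) = G w := fun w => by
    simp only [G, dif_pos (Orbital.mem_overFinset.1 w.2)]
    rw [← RingHom.comp_apply, ← AddMonoidAlgebra.mapDomainRingHom_comp]
    exact congrArg (fun h => AddMonoidAlgebra.mapDomainRingHom ℂ h _)
      (AddMonoidHom.ext fun n => posHom_single w n)
  simp only [hR]
  rw [Finset.prod_coe_sort _ G, Orbital.prod_overFinset, ← Finset.prod_coe_sort P]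
  refine Finset.prod_congr rfl fun v _ => ?_
  show AddMonoidAlgebra.mapDomainRingHom ℂ _ (satakePoly _ (pushLoc d v.1)) = _
  rw [satakePoly_pushLoc, fibPoly, map_prod]
  refine Finset.prod_congr rfl fun u _ => ?_
  have key : ∀ (x : FPlace K) (hx : x ∈ P) (hu : Orbital.below K u.1 ∈ P), Orbital.below K u.1 = x →
      ((AddMonoidHom.single (fun _ : ↥P => ℤ) ⟨_, hu⟩).comp (fibHom L (Orbital.below K u.1))) =
        (AddMonoidHom.single (fun _ : ↥P => ℤ) ⟨x, hx⟩).comp (fibHom L x) := by
    rintro x hx hu rfl
    rfl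
  have hu : Orbital.below K u.1 ∈ P := by rw [u.2]; exact v.2
  simp only [G, dif_pos hu]
  rw [key v.1 v.2 hu u.2]
  rw [AddMonoidAlgebra.mapDomainRingHom_comp, RingHom.comp_apply]

/-! ### Threefold convolutions -/

/-- Continuous functions of compact support. -/
def IsContCompact (g : ℝ → ℂ) : Prop := Continuous g ∧ HasCompactSupport g

theorem IsSphTest.isContCompact {g : ℝ → ℂ} (hg : IsSphTest g) : IsContCompact g :=
  ⟨hg.continuous, hg.compact⟩

theorem IsContCompact.shift {g : ℝ → ℂ} (hg : IsContCompact g) (a : ℝ) :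
    IsContCompact fun s => g (s - a) :=
  ⟨hg.1.comp (continuous_id.sub continuous_const),
    hg.2.comp_homeomorph (Homeomorph.addRight (-a))⟩

theorem IsContCompact.conv {g h : ℝ → ℂ} (hg : IsContCompact g) (hh : IsContCompact h) :
    IsContCompact (convR g h) := by
  rw [convR_eq_convolution]
  exact ⟨hh.2.continuous_convolution_right _ hg.1.locallyIntegrable hh.1, hg.2.convolution _ hh.2⟩

theorem IsContCompact.integrable_mul_sub {g h : ℝ → ℂ} (hg : IsContCompact g) (hh : Continuous h)
    (s : ℝ) :
    Integrable fun t => g t * h (s - t) :=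
  (hg.1.mul (hh.comp (continuous_const.sub continuous_id))).integrable_of_hasCompactSupport
    hg.2.mul_right

/-- An identity between combinations of products passes to the convolutions. -/
theorem sum_conv3_congr {ι κ : Type} (I : Finset ι) (J : Finset κ) (a : ι → ℂ) (b : κ → ℂ)
    (f : ι → Fin 3 → ℝ → ℂ) (h : κ → Fin 3 → ℝ → ℂ) (hf : ∀ i j, IsContCompact (f i j))
    (hh : ∀ k j, IsContCompact (h k j))
    (e : ∀ x : Fin 3 → ℝ, ∑ i ∈ I, a i * ∏ j, f i j (x j) = ∑ k ∈ J, b k * ∏ j, h k j (x j))
    (s : ℝ) :
    ∑ i ∈ I, a i * conv3 (f i) s = ∑ k ∈ J, b k * conv3 (h k) s := by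
  have hi : ∀ {γ : Type} (g : γ → Fin 3 → ℝ → ℂ) (c : γ → ℂ), (∀ i j, IsContCompact (g i j)) →
      ∀ i, Integrable fun t => c i * (convR (g i 0) (g i 1) t * g i 2 (s - t)) := fun g c hg i =>
    (((hg i 0).conv (hg i 1)).integrable_mul_sub (hg i 2).1 s).const_mul _
  simp only [conv3]
  conv_lhs => simp only [convR.eq_1 (convR _ _), ← integral_const_mul]
  conv_rhs => simp only [convR.eq_1 (convR _ _), ← integral_const_mul]
  rw [← integral_finsetSum _ fun i _ => hi f a hf i, ← integral_finsetSum _ fun k _ => hi h b hh k]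
  refine integral_congr_ae (Filter.Eventually.of_forall fun t => ?_)
  simp only [convR, ← integral_mul_const, ← integral_const_mul]
  rw [← integral_finsetSum _ fun i _ => (((hf i 0).integrable_mul_sub (hf i 1).1 t).mul_const
      _).const_mul _,
    ← integral_finsetSum _ fun k _ => (((hh k 0).integrable_mul_sub (hh k 1).1 t).mul_const
      _).const_mul _]
  refine integral_congr_ae (Filter.Eventually.of_forall fun t' => ?_)
  simpa [Fin.prod_univ_three] using e ![t', t - t', s - t]

theorem convR_shift (g h : ℝ → ℂ) (a b : ℝ) :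
    convR (fun s => g (s - a)) (fun s => h (s - b)) = fun s => convR g h (s - (a + b)) := by
  funext s
  simp only [convR]
  rw [← integral_add_right_eq_self _ a]
  refine integral_congr_ae (Filter.Eventually.of_forall fun t => ?_)
  simp only [add_sub_cancel_right]
  congr 2
  ring

theorem conv3_shift (g : Fin 3 → ℝ → ℂ) (a : Fin 3 → ℝ) :
    conv3 (fun i s => g i (s - a i)) = fun s => conv3 g (s - ∑ i, a i) := by
  rw [conv3, convR_shift, convR_shift, Fin.sum_univ_three]
  rfl

/-! ### The push forward of a combination of shifts -/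

variable (L) (P) in
/-- Shifts above as shifts below. -/
def pushShift : ShiftSpace (Orbital.overFinset L P) →+ ShiftSpace P :=
  (posHom L P).prodMap
    (AddMonoidHom.pi fun _ => ∑ w : InfinitePlace L, Pi.evalAddMonoidHom (fun _ => ℝ) w)

theorem pushShift_fst (u : ShiftSpace (Orbital.overFinset L P)) :
    (pushShift L P u).1 = posHom L P u.1 := rfl

theorem pushShift_snd (u : ShiftSpace (Orbital.overFinset L P)) (w : InfinitePlace K) :
    (pushShift L P u).2 w = ∑ w' : InfinitePlace L, u.2 w' := by
  show (∑ w' : InfinitePlace L, Pi.evalAddMonoidHom (fun _ : InfinitePlace L => ℝ) w') u.2 = _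
  rw [AddMonoidHom.finsetSum_apply]
  rfl

theorem transform_eq_finPoly (d : GoodDatum L) (P' : Finset (FPlace L)) (x : ShiftSpace P') :
    d.transform P' x = (d.finPoly P').coeff x.1 * ∏ w, d.g w (x.2 w) := by
  rw [GoodDatum.transform, GoodDatum.coeff_finPoly]

/-- The transform of the push forward of one datum as a sum over positions above. -/
theorem transform_push_eq_sum (A : Orbital.ArchFrame τ) (d : GoodDatum L) (y : ShiftSpace P)
    {M : Finset (↥(Orbital.overFinset L P) → ℤ)}
    (hM : (d.finPoly (Orbital.overFinset L P)).coeff.support ⊆ M) :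
    (d.push A).transform P y = ∑ m ∈ M with posHom L P m = y.1,
      (d.finPoly (Orbital.overFinset L P)).coeff m *
        conv3 (fun i => d.g (A.placeEquiv i)) (y.2 A.w₀) := by
  classical
  let : Unique (InfinitePlace K) := ⟨⟨A.w₀⟩, A.unique⟩
  rw [GoodDatum.transform, ← GoodDatum.coeff_finPoly, GoodDatum.finPoly_push,
    Fintype.prod_unique, ← Finset.sum_mul, AddMonoidAlgebra.mapDomainRingHom_apply]
  congr 1
  rw [AddMonoidAlgebra.coeff_mapDomain]
  rw [Finsupp.mapDomain, Finsupp.sum_apply, Finsupp.sum]
  simp only [Finsupp.single_apply]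
  rw [← Finset.sum_filter]
  refine Finset.sum_subset (Finset.filter_subset_filter _ hM) fun m hm hm' => ?_
  rw [Finset.mem_filter] at hm hm'
  exact Finsupp.notMem_support_iff.1 fun h => hm' ⟨h, hm.2⟩

/-- **The transform of a push forward.** -/
theorem transformList_push (A : Orbital.ArchFrame τ) (E : List (GoodDatum L))
    (c : ShiftSpace (Orbital.overFinset L P) →₀ ℂ) (g₀ : InfinitePlace L → ℝ → ℂ)
    (hg₀ : ∀ w, IsSphTest (g₀ w))
    (hE : ∀ x, transformList E (Orbital.overFinset L P) x = shiftSum g₀ c x) (y : ShiftSpace P) :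
    transformList (E.map (GoodDatum.push A)) P y =
      shiftSum (fun _ => conv3 fun i => g₀ (A.placeEquiv i)) (c.mapDomain (pushShift L P)) y := by
  classical
  let : Unique (InfinitePlace K) := ⟨⟨A.w₀⟩, A.unique⟩
  set S := y.2 A.w₀ with hS
  set π := posHom L P
  set N := Fin E.length
  let f : N → Fin 3 → ℝ → ℂ := fun i j => (E[i.1]).g (A.placeEquiv j)
  let h : (ShiftSpace (Orbital.overFinset L P)) → Fin 3 → ℝ → ℂ := fun u j s =>
    g₀ (A.placeEquiv j) (s - u.2 (A.placeEquiv j))
  set M : Finset (↥(Orbital.overFinset L P) → ℤ) :=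
    (Finset.univ : Finset N).biUnion (fun i =>
      (E[i.1].finPoly (Orbital.overFinset L P)).coeff.support) ∪ c.support.image Prod.fst with hM
  have hM1 : ∀ (i : N), ∀ m ∈ (E[i.1].finPoly (Orbital.overFinset L P)).coeff.support, m ∈ M :=
    fun i m hm => by
      rw [hM]
      exact Finset.mem_union_left _ (Finset.mem_biUnion.2 ⟨i, Finset.mem_univ _, hm⟩)
  have hM2 : ∀ u ∈ c.support, u.1 ∈ M := fun u hu => by
    rw [hM]
    exact Finset.mem_union_right _ (Finset.mem_image_of_mem _ hu)
  clear_value M
  have hL : transformList (E.map (GoodDatum.push A)) P y =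
      ∑ m ∈ M with π m = y.1, ∑ i : N,
        (E[i.1].finPoly (Orbital.overFinset L P)).coeff m * conv3 (f i) S := by
    rw [Finset.sum_comm, transformList, List.map_map, ← Fin.sum_univ_getElem]
    refine Fintype.sum_equiv (finCongr (List.length_map _)) _ _ fun i => ?_
    simp only [List.getElem_map, Function.comp_apply]
    exact transform_push_eq_sum A _ y (hM1 (finCongr (List.length_map _) i))
  have hR : shiftSum (fun _ => conv3 fun i => g₀ (A.placeEquiv i)) (c.mapDomain (pushShift L P)) y =
      ∑ m ∈ M with π m = y.1, ∑ u ∈ c.support with u.1 = m, c u * conv3 (h u) S := by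
    rw [shiftSum, Finsupp.sum_mapDomain_index (fun b => zero_mul _) (fun b a a' => add_mul _ _ _),
      Finsupp.sum]
    simp only [shiftAtom, mul_ite, mul_zero, eq_comm (a := y.1)]
    rw [← Finset.sum_filter]
    rw [← Finset.sum_fiberwise_of_maps_to (t := M.filter fun m => π m = y.1) (g := Prod.fst)
      fun u hu => Finset.mem_filter.2 ⟨hM2 u (Finset.mem_filter.1 hu).1,
        (pushShift_fst u).symm.trans (Finset.mem_filter.1 hu).2⟩]
    refine Finset.sum_congr rfl fun m hm => Finset.sum_congr ?_ fun u _ => ?_
    · ext u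
      simp only [Finset.mem_filter]
      refine ⟨fun hu => ⟨hu.1.1, hu.2⟩, fun hu => ⟨⟨hu.1, ?_⟩, hu.2⟩⟩
      refine (pushShift_fst u).trans ?_
      rw [hu.2]
      exact (Finset.mem_filter.1 hm).2
    · rw [show conv3 (h u) S = _ from congrFun (conv3_shift (fun i => g₀ (A.placeEquiv i))
          (fun i => u.2 (A.placeEquiv i))) S, Fintype.prod_unique, pushShift_snd,
        A.placeEquiv.sum_comp (fun w => u.2 w)]
      rfl
  rw [hL, hR]
  refine Finset.sum_congr rfl fun m _ => sum_conv3_congr _ _ _ _ f h
    (fun i j => (E[i.1].test _).isContCompact) (fun u j => (hg₀ _).isContCompact.shift _)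
    (fun x => ?_) S
  have e := hE (m, fun w => x (A.placeEquiv.symm w))
  rw [transformList, ← Fin.sum_univ_fun_getElem, shiftSum, Finsupp.sum] at e
  simp only [shiftAtom, mul_ite, mul_zero, eq_comm (a := m)] at e
  rw [← Finset.sum_filter] at e
  refine (Finset.sum_congr rfl fun i _ => ?_).trans (e.trans (Finset.sum_congr rfl fun u _ => ?_))
  · rw [transform_eq_finPoly, ← A.placeEquiv.prod_comp]
    simp only [Equiv.symm_apply_apply, f]
  · rw [← A.placeEquiv.prod_comp]
    simp only [Equiv.symm_apply_apply, h]

/-! ### Elements of the base -/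

/-- The shift by an element of the base pushes to the shift by its cube. -/
theorem pushShift_shiftVec (A : Orbital.ArchFrame τ) (hdeg : Module.finrank K L = 3)
    (hP : ∀ v ∈ P, Nat.card (Orbital.Over L v) ≠ 3 → ∀ w : Orbital.Over L v, Orbital.ram K w.1 = 1)
    (a : K) :
    pushShift L P (shiftVec (Orbital.overFinset L P) (algebraMap K L a)) = shiftVec P (a ^ 3) := by
  refine Prod.ext (funext fun v => ?_) (funext fun w => ?_)
  · show posHom L P (shiftVec _ _).1 v = _
    rw [posHom_apply]
    have hv : ∀ u : Orbital.Over L v.1,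
        fibHom L v.1 (-WithZero.log (u.1.valuation L (algebraMap K L a))) =
          (fibExp L v.1 : ℤ) * -WithZero.log ((v : FPlace K).valuation K a) := fun u => by
      rw [Orbital.valuation_algebraMap_of_below u.1 u.2, fibHom, AddMonoidHom.coe_mulLeft]
      congr 3
      by_cases h3 : Nat.card (Orbital.Over L v.1) = 3
      · rw [(Orbital.split_place hdeg h3 u).1, pow_one]
      · rw [hP v v.2 h3 u, pow_one]
    simp only [shiftVec]
    rw [Finset.sum_congr rfl fun u _ => hv u, Finset.sum_const, Finset.card_univ,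
      ← Nat.card_eq_fintype_card, map_pow, WithZero.log_pow]
    by_cases h3 : Nat.card (Orbital.Over L v.1) = 3
    · rw [fibExp, if_pos h3, h3]
      simp
    · have h1 : Nat.card (Orbital.Over L v.1) = 1 := by
        by_contra h1
        exact h3 (Orbital.card_over_eq_three τ h1)
      rw [fibExp, if_neg h3, h1]
      simp
  · rw [pushShift_snd, ← A.placeEquiv.sum_comp, A.unique w]
    show ∑ i, Real.log (A.placeEquiv i (algebraMap K L a)) = Real.log (A.w₀ (a ^ 3))
    have hi : ∀ i, A.placeEquiv i (algebraMap K L a) = A.w₀ a := fun i => by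
      show InfinitePlace.mk (A.emb i) (algebraMap K L a) = _
      rw [InfinitePlace.apply, ← InfinitePlace.norm_embedding_eq A.w₀]
      congr 1
      rw [← A.extends_emb]
      fin_cases i <;> simp [Orbital.ArchFrame.emb]
    simp only [hi, map_pow, Real.log_pow, Finset.sum_const, Finset.card_univ, Fintype.card_fin,
      nsmul_eq_mul]

/-- Pushing a difference of a combination and its translate. -/
theorem mapDomain_pushShift_sub (c : ShiftSpace (Orbital.overFinset L P) →₀ ℂ)
    (t : ShiftSpace (Orbital.overFinset L P)) :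
    (c - c.mapDomain fun u => u + t).mapDomain (pushShift L P) =
      c.mapDomain (pushShift L P) -
        (c.mapDomain (pushShift L P)).mapDomain fun u => u + pushShift L P t := by
  rw [Finsupp.mapDomain_sub, ← Finsupp.mapDomain_comp, ← Finsupp.mapDomain_comp]
  refine congrArg (fun f => c.mapDomain (pushShift L P) - c.mapDomain f) (funext fun u => ?_)
  simp

end Fermat.Agent.ResidualThree
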