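import Fermat.Agent.ResidualThree.CubicDescent.KillElement
import Fermat.Agent.ResidualThree.CubicDescent.Killing
import Fermat.Agent.ResidualThree.CubicDescent.LevelChain
import Fermat.Agent.ResidualThree.CubicDescent.PushReal
import Fermat.Agent.ResidualThree.CubicDescent.PushTransform

/-!
# Preparations for the transfer: the killing element and the operator of a monomial

A monomial composed with an operator extends to a linear map on all functions (`exists_act_end`).
At a prime inert in `K` and split in `L` there is a killing element which kills constants over both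
fields and does not vanish at systems with eigenvalue zero there (`exists_killing`).
-/

noncomputable section

open IsDedekindDomain NumberField MeasureTheory
open scoped WithZero ComplexConjugate

namespace Fermat.Agent.ResidualThree

section Act

variable {F : Type} [Field F] [NumberField F]

/-- The action of a monomial after a linear map is linear on automorphic functions. -/
theorem exists_act_end {U : Level F} (A : TestMonomial U)
    (T : Module.End ℂ (Gf F → Hyp F → ℂ))
    (hT : ∀ φ, IsAutomorphic U φ → IsAutomorphic U (T φ)) :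
    ∃ X : Module.End ℂ (Gf F → Hyp F → ℂ),
      ∀ φ, IsAutomorphic U φ → X φ = A.act (T φ) := by
  let V : Submodule ℂ (Gf F → Hyp F → ℂ) :=
    { carrier := {φ | IsAutomorphic U φ}
      add_mem' := fun h h' => h.add h'
      zero_mem' := ⟨fun _ _ _ _ _ => rfl, fun _ _ _ => rfl, fun _ => continuous_const⟩
      smul_mem' := fun c _ h => h.smul c }
  let X₀ : V →ₗ[ℂ] (Gf F → Hyp F → ℂ) :=
    { toFun := fun φ => A.act (T φ.1)
      map_add' := fun φ ψ => by
        funext x p
        rw [Submodule.coe_add, map_add, Pi.add_apply, Pi.add_apply,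
          A.act_eq_sum ((hT _ φ.2).add (hT _ ψ.2)), A.act_eq_sum (hT _ φ.2),
          A.act_eq_sum (hT _ ψ.2), ← Finset.sum_add_distrib]
        refine Finset.sum_congr rfl fun y _ => ?_
        rw [← mul_add, ← integral_add (integrable_archProd A.isPair p ((hT _ φ.2).continuous _))
          (integrable_archProd A.isPair p ((hT _ ψ.2).continuous _))]
        simp only [Pi.add_apply, mul_add]
      map_smul' := fun c φ => by
        funext x p
        rw [Submodule.coe_smul, map_smul, RingHom.id_apply, Pi.smul_apply, Pi.smul_apply,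
          A.act_eq_sum ((hT _ φ.2).smul c), A.act_eq_sum (hT _ φ.2), Finset.smul_sum]
        refine Finset.sum_congr rfl fun y _ => ?_
        simp only [Pi.smul_apply, smul_eq_mul, mul_left_comm _ c, integral_const_mul] }
  obtain ⟨X, hX⟩ := LinearMap.exists_extend X₀
  exact ⟨X, fun φ hφ => LinearMap.congr_fun hX ⟨φ, hφ⟩⟩

end Act

variable {K L : Type} [Field K] [NumberField K] [Field L] [NumberField L] [Algebra K L]
  [IsTotallyComplex K] [IsTotallyComplex L] {τ : Orbital.CubicAut K L}

/-- **The killing element** at a split place above a natural number: it kills constants on both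
sides and does not vanish where the eigenvalues at that place are zero. -/
theorem exists_killing (A : Orbital.ArchFrame τ) (hdeg : Module.finrank K L = 3) {UL : Level L}
    {UK : Level K} {BadL : Finset (FPlace L)} {BadK : Finset (FPlace K)}
    (hUL : ∀ w ∉ BadL, UL.J w = maxSubgroup w) (hUK : ∀ v ∉ BadK, UK.J v = maxSubgroup v)
    (hbad : ∀ w, w ∈ BadL ↔ Orbital.below K w ∈ BadK) {v : FPlace K} (hv : v ∉ BadK)
    (hv3 : Nat.card (Orbital.Over L v) = 3) {p : ℕ} (hp : p ≠ 0)
    (hval : ∀ w : FPlace L, Orbital.below K w = v → w.valuation L (p : L) = WithZero.exp (-1 : ℤ))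
    (hout : ∀ w : FPlace L, Orbital.below K w ≠ v → w.valuation L (p : L) = 1)
    (houtK : ∀ u : FPlace K, u ≠ v → u.valuation K (p : K) = 1)
    (hcL : ∀ w ∈ BadL, ∃ n, congSubgroup w n ≤ UL.J w ∧
      w.valuation L ((p : L) ^ 2 - 1) ≤ WithZero.exp (-(n : ℤ)))
    (hcK : ∀ u ∈ BadK, ∃ n, congSubgroup u n ≤ UK.J u ∧
      u.valuation K ((p : K) ^ 6 - 1) ≤ WithZero.exp (-(n : ℤ))) :
    ∃ E : List (GoodDatum L),
      KillsConstant (E.map fun d => d.mono hUL) ∧
      KillsConstant ((E.map (GoodDatum.push A)).map fun d => d.mono hUK) ∧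
      (∀ s t, kernel (adjFun (E.map fun d => d.mono hUL)) s t =
        kernel (E.map fun d => d.mono hUL) s t) ∧
      (∀ s t, kernel (adjFun ((E.map (GoodDatum.push A)).map fun d => d.mono hUK)) s t =
        kernel ((E.map (GoodDatum.push A)).map fun d => d.mono hUK) s t) ∧
      (∀ d ∈ E, ∀ w, Orbital.below K w ≠ v → d.loc w = Finsupp.single 0 1) ∧
      ∀ s : EigenSystem L, (∀ w, Orbital.below K w = v → s.a w = 0) → (∀ w, s.l w = 0) →
        evalList E BadL s ≠ 0 := by
  classical
  obtain ⟨g, hg, hg1, hgr⟩ := exists_sphTest_real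
  set P : Finset (FPlace L) := Orbital.overFinset L {v} with hP
  have hmem : ∀ w, w ∈ P ↔ Orbital.below K w = v := fun w => by
    rw [hP, Orbital.mem_overFinset, Finset.mem_singleton]
  have hdisj : Disjoint P BadL := Finset.disjoint_left.2 fun w hw hw' =>
    hv ((hmem w).1 hw ▸ (hbad w).1 hw')
  have hp0K : ((p : K) ^ 2) ≠ 0 := pow_ne_zero _ (Nat.cast_ne_zero.2 hp)
  have e2 : algebraMap K L ((p : K) ^ 2) = (p : L) ^ 2 := by rw [map_pow, map_natCast]
  obtain ⟨E, c, hEout, hEreal, hEtr, hEval⟩ :=
    exists_killElem P (algebraMap K L ((p : K) ^ 2)) (fun _ => g) (fun _ => hg) (fun _ => hgr)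
  refine ⟨E, ?_, ?_, kernel_adjFun_of_isReal hEreal hUL,
    kernel_adjFun_of_isReal (isReal_push_list A hEreal) hUK,
    fun d hd w hw => hEout d hd w fun h => hw ((hmem w).1 h), fun s ha hl => ?_⟩
  · refine killsConstant_of_shiftSum hUL hdisj E hEout
      (Units.mk0 (algebraMap K L ((p : K) ^ 2)) ((map_ne_zero _).2 hp0K)) (fun w hw => ?_)
      (fun w hw => ?_) (fun _ => g) (fun _ => hg.compact) c hEtr
    · rw [Units.val_mk0, e2, map_pow, hout w fun h => hw ((hmem w).2 h), one_pow]
    · rw [Units.val_mk0, e2]; exact hcL w hw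
  · refine killsConstant_of_shiftSum hUK (Finset.disjoint_singleton_left.2 hv)
      (E.map (GoodDatum.push A)) (fun d hd u hu => ?_)
      (Units.mk0 (((p : K) ^ 2) ^ 3) (pow_ne_zero _ hp0K)) (fun u hu => ?_) (fun u hu => ?_)
      (fun _ => conv3 fun _ => g) (fun _ => ((hg.conv hg).conv hg).compact)
      (c.mapDomain (pushShift L {v})) fun z => ?_
    · obtain ⟨e, he, rfl⟩ := List.mem_map.1 hd
      refine pushLoc_eq_single e u fun w => hEout e he w.1 fun h => hu ?_
      rw [Finset.mem_singleton, ← w.2]
      exact (hmem _).1 h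
    · rw [Units.val_mk0, map_pow, map_pow, houtK u (by simpa using hu), one_pow, one_pow]
    · rw [Units.val_mk0, ← pow_mul]; exact hcK u hu
    · rw [transformList_push A E _ (fun _ => g) (fun _ => hg) hEtr, mapDomain_pushShift_sub,
        pushShift_shiftVec A hdeg (fun u hu h => absurd (Finset.mem_singleton.1 hu ▸ hv3) h)
          ((p : K) ^ 2)]
      rfl
  · refine hEval ?_ (fun w hw => ?_) (fun _ => by rw [hg1]; exact one_ne_zero) BadL hdisj s
      (fun w hw => ha w ((hmem w).1 hw)) hl
    · have hc : P.card = Nat.card (Orbital.Over L v) := by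
        rw [← Nat.card_eq_finsetCard]
        exact Nat.card_congr (Equiv.subtypeEquivRight hmem)
      rw [hc, hv3]
      decide
    · rw [e2, map_pow, hval w ((hmem w).1 hw), ← WithZero.exp_nsmul]
      norm_num

end Fermat.Agent.ResidualThree
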