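import Fermat.Agent.ResidualThree.CubicDescent.Identity
import Fermat.Agent.ResidualThree.CubicDescent.Spectral.Datum
import Fermat.Agent.ResidualThree.CubicDescent.SpectralStatement
import Fermat.Agent.ResidualThree.CubicDescent.TransferLevels
import Fermat.Agent.ResidualThree.CubicDescent.TransferSetup

/-!
# From a form over the cubic extension to a form over the base

The twisted trace over `L` has non-zero mass at the system of the form, the comparison with the
trace over `K` kills that mass unless some system over `K` lies below it.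
`exists_form_below_of_trace` does this for any test functions with non-zero trace and matching
functions; `exists_form_below` supplies double class indicators.
-/

noncomputable section

open IsDedekindDomain NumberField MeasureTheory
open scoped WithZero ComplexConjugate

namespace Fermat.Agent.ResidualThree

open Orbital (below Over overFinset)

variable {K L : Type} [Field K] [NumberField K] [Field L] [NumberField L] [Algebra K L]
  [IsTotallyComplex K] [IsTotallyComplex L] {τ : Orbital.CubicAut K L}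
  {BadK T₃ : Finset (FPlace K)}

omit [IsTotallyComplex K] [IsTotallyComplex L] in
/-- Base change keeps eigenvalues real and bounded. -/
theorem bcEigen_bound {v : FPlace K} {a : ℂ} (ha : a.im = 0)
    (hb : ‖a‖ ≤ Real.sqrt (Ideal.absNorm v.asIdeal) + 1) :
    (bcEigen L v a).im = 0 ∧ ‖bcEigen L v a‖ ≤
      (Real.sqrt (Ideal.absNorm v.asIdeal) + 1) ^ 3 +
        4 * (Real.sqrt (Ideal.absNorm v.asIdeal) + 1) := by
  obtain ⟨r, rfl⟩ : ∃ r : ℝ, a = (r : ℂ) := ⟨a.re, Complex.ext rfl (by simp [ha])⟩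
  rw [Complex.norm_real, Real.norm_eq_abs] at hb
  set B := Real.sqrt (Ideal.absNorm v.asIdeal) + 1
  have hB : 0 ≤ B := (abs_nonneg r).trans hb
  have h3 := pow_le_pow_left₀ (abs_nonneg r) hb 3
  rw [bcEigen]
  split_ifs
  · refine ⟨Complex.ofReal_im r, ?_⟩
    rw [Complex.norm_real, Real.norm_eq_abs]
    nlinarith [pow_nonneg hB 3]
  · rw [show ((r : ℂ)) ^ 3 - 3 * r = ((r ^ 3 - 3 * r : ℝ) : ℂ) by push_cast; rfl]
    refine ⟨Complex.ofReal_im _, ?_⟩
    rw [Complex.norm_real, Real.norm_eq_abs]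
    refine (abs_sub _ _).trans ?_
    rw [abs_pow, abs_mul, abs_of_nonneg (by norm_num : (0 : ℝ) ≤ 3)]
    linarith

/-- A killing element at given levels which does not vanish at a system with enough zero
eigenvalues. -/
theorem exists_killing_at_levels (A : Orbital.ArchFrame τ) (hdeg : Module.finrank K L = 3)
    {UL : Level L} {UK : Level K} {BadL : Finset (FPlace L)}
    (hUL : ∀ w ∉ BadL, UL.J w = maxSubgroup w) (hUK : ∀ v ∉ BadK, UK.J v = maxSubgroup v)
    (hbad : ∀ w, w ∈ BadL ↔ below K w ∈ BadK) (a₀ : FPlace L → ℂ)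
    (hkill : ∀ M : ℕ, 0 < M → ∃ (p : ℕ) (v : FPlace K), p.Prime ∧ (p : ZMod M) = -1 ∧
      v ∉ BadK ∧ Nat.card (Over L v) = 3 ∧
      (∀ w : FPlace L, below K w = v → a₀ w = 0 ∧
        w.valuation L (p : L) = WithZero.exp (-1 : ℤ)) ∧
      (∀ w : FPlace L, below K w ≠ v → w.valuation L (p : L) = 1) ∧
      ∀ u : FPlace K, u ≠ v → u.valuation K (p : K) = 1) :
    ∃ E : List (GoodDatum L),
      KillsConstant (E.map fun d => d.mono hUL) ∧
      KillsConstant ((E.map (GoodDatum.push A)).map fun d => d.mono hUK) ∧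
      (∀ s t, kernel (adjFun (E.map fun d => d.mono hUL)) s t =
        kernel (E.map fun d => d.mono hUL) s t) ∧
      (∀ s t, kernel (adjFun ((E.map (GoodDatum.push A)).map fun d => d.mono hUK)) s t =
        kernel ((E.map (GoodDatum.push A)).map fun d => d.mono hUK) s t) ∧
      (∀ d ∈ E, ∀ w, a₀ w ≠ 0 → d.loc w = Finsupp.single 0 1) ∧
      evalList E BadL ⟨a₀, 0⟩ ≠ 0 := by
  choose nL hnL using fun w : FPlace L => UL.exists_cong w
  choose nK hnK using fun v : FPlace K => UK.exists_cong v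
  set M := (∏ w ∈ BadL, Ideal.absNorm w.asIdeal ^ nL w) *
    ∏ v ∈ BadK, Ideal.absNorm v.asIdeal ^ nK v with hM
  have hM0 : 0 < M := Nat.pos_of_ne_zero <| mul_ne_zero
    (Finset.prod_ne_zero_iff.2 fun w _ => pow_ne_zero _ (absNorm_fplace_ne_zero w))
    (Finset.prod_ne_zero_iff.2 fun v _ => pow_ne_zero _ (absNorm_fplace_ne_zero v))
  obtain ⟨p, vk, hp, hpM, hvk, hvk3, hover, hout, houtK⟩ := hkill M hM0
  have hdvd : M ∣ p + 1 := by
    rw [← ZMod.natCast_eq_zero_iff]
    push_cast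
    rw [hpM, neg_add_cancel]
  have hd2 : M ∣ p ^ 2 - 1 := hdvd.trans ⟨p - 1, by rw [← Nat.sq_sub_sq, one_pow]⟩
  have hd6 : M ∣ p ^ 6 - 1 := hd2.trans <| by
    have := Nat.sub_dvd_pow_sub_pow (p ^ 2) 1 3
    rwa [one_pow, ← pow_mul] at this
  have hp1 : ∀ k, 1 ≤ p ^ k := fun k => Nat.one_le_pow _ _ hp.pos
  obtain ⟨E, hkillL, hkillK, hsymL, hsymK, hEout, hEval⟩ :=
    exists_killing A hdeg hUL hUK hbad hvk hvk3 hp.ne_zero
      (fun w hw => (hover w hw).2) hout houtK
      (fun w hw => ⟨nL w, hnL w, by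
        have h := valuation_natCast_le w (nL w) (p ^ 2 - 1)
          (((Finset.dvd_prod_of_mem _ hw).trans (dvd_mul_right _ _)).trans hd2)
        rwa [Nat.cast_sub (hp1 2), Nat.cast_one, Nat.cast_pow] at h⟩)
      (fun v hv => ⟨nK v, hnK v, by
        have h := valuation_natCast_le v (nK v) (p ^ 6 - 1)
          (((Finset.dvd_prod_of_mem _ hv).trans (dvd_mul_left _ _)).trans hd6)
        rwa [Nat.cast_sub (hp1 6), Nat.cast_one, Nat.cast_pow] at h⟩)
  exact ⟨E, hkillL, hkillK, hsymL, hsymK,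
    fun d hd w hw => hEout d hd w fun h => hw (hover w h).1,
    hEval _ (fun w hw => (hover w hw).1) fun _ => rfl⟩

omit [IsTotallyComplex K] [IsTotallyComplex L] in
open Classical in
/-- The bad places outside `T₃` form a chain for the level over `L`. -/
theorem chainPlaces_levL (hS : BadShape BadK T₃ τ) (N : ℕ) :
    ChainPlaces τ (levL (L := L) BadK T₃ N) (overFinset L T₃)
      (overFinset L BadK \ overFinset L T₃) := by
  have hTmem : ∀ w ∈ overFinset L BadK \ overFinset L T₃, below K w ∈ BadK ∧ below K w ∉ T₃ :=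
    fun w hw => by
      rw [Finset.mem_sdiff] at hw
      exact ⟨Orbital.mem_overFinset.1 hw.1, fun h => hw.2 (Orbital.mem_overFinset.2 h)⟩
  exact
    { disj := fun w hw => (Finset.mem_sdiff.1 hw).2
      fixed := fun w hw => by
        obtain ⟨w', hu', -⟩ := hS.one _ (hTmem w hw).1 (hTmem w hw).2
        rw [show w = w'.1 from congrArg Subtype.val (hu' ⟨w, rfl⟩)]
        exact Tree.comapPlace_eq_self τ w' hu'
      stableS := fun w => by
        rw [Orbital.mem_overFinset, Orbital.mem_overFinset, Orbital.below_comapPlace τ.σ w]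
      shape := fun w hw => by
        by_cases h3 : (3 : 𝓞 L) ∈ w.asIdeal
        · exact Or.inr ⟨_, levL_wild BadK T₃ N (hTmem w hw).2 (hTmem w hw).1 h3⟩
        · exact Or.inl (levL_tame BadK T₃ N (hTmem w hw).2 (hTmem w hw).1 h3) }

omit [IsTotallyComplex K] [IsTotallyComplex L] in
/-- Separation: if the systems over `L` of given eigenvalues have non-zero mass, some system over
`K` lies below them. -/
theorem exists_bcSys_of_tsum_ne_zero (A : Orbital.ArchFrame τ) {BadL : Finset (FPlace L)}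
    (hbad : ∀ w, w ∈ BadL ↔ below K w ∈ BadK) {κ κ' : Type} [Countable κ] [Countable κ']
    {sysL : κ → EigenSystem L} {ML : κ → ℂ} {sysK : κ' → EigenSystem K} {MK : κ' → ℂ}
    (hsumL : Summable fun j => ‖ML j‖) (hsumK : Summable fun k => ‖MK k‖)
    (hadmL : ∀ j, (sysL j).IsAdmissible) (hadmK : ∀ k, (sysK k).IsAdmissible)
    {a₀ : FPlace L → ℂ}
    (htrip : {v : FPlace K | v ∉ BadK ∧ Nat.card (Over L v) = 3 ∧
      ∀ w : Over L v, a₀ w.1 ≠ 0}.Infinite)
    (hkilled : ∀ v, v ∉ BadK → Nat.card (Over L v) = 3 → (∀ w : Over L v, a₀ w.1 ≠ 0) →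
      KilledAt (Sum.elim ML fun k => -MK k) (Sum.elim sysL fun k => bcSys A (sysK k)) BadL
        (overFinset L {v}))
    (hLne : ∑' j : {j // (∀ w ∉ BadL, (sysL j).a w = a₀ w) ∧ ∀ w, (sysL j).l w = 0},
      ML j ≠ 0) :
    ∃ k, (∀ w ∉ BadL, (bcSys A (sysK k)).a w = a₀ w) ∧ (∀ w, (sysK k).l w = 0) ∧ MK k ≠ 0 := by
  classical
  set sys : κ ⊕ κ' → EigenSystem L := Sum.elim sysL fun k => bcSys A (sysK k) with hsys
  set b : κ ⊕ κ' → ℂ := Sum.elim ML fun k => -MK k with hb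
  have hbsum : Summable fun j => ‖b j‖ :=
    Summable.sum _ hsumL (hsumK.congr fun k => (norm_neg (MK k)).symm)
  let B : FPlace L → ℝ := fun w => (Real.sqrt (Ideal.absNorm w.asIdeal) + 1) +
    ((Real.sqrt (Ideal.absNorm (below K w).asIdeal) + 1) ^ 3 +
      4 * (Real.sqrt (Ideal.absNorm (below K w).asIdeal) + 1))
  have hadm : ∀ j, (∀ w, ((sys j).a w).im = 0 ∧ ‖(sys j).a w‖ ≤ B w) ∧
      ∀ w, IsSphParam ((sys j).l w) := by
    rintro (j | k)
    · refine ⟨fun w => ⟨((hadmL j).1 w).1, ((hadmL j).1 w).2.trans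
        (le_add_of_nonneg_right ?_)⟩, (hadmL j).2⟩
      positivity
    · refine ⟨fun w => ?_, fun _ => (hadmK k).2 A.w₀⟩
      have h := bcEigen_bound (L := L) ((hadmK k).1 (below K w)).1 ((hadmK k).1 (below K w)).2
      exact ⟨h.1, h.2.trans (le_add_of_nonneg_left (by positivity))⟩
  set ι := htrip.natEmbedding
  have hv : ∀ k, (ι k).1 ∉ BadK ∧ Nat.card (Over L (ι k).1) = 3 ∧
      ∀ w : Over L (ι k).1, a₀ w.1 ≠ 0 := fun k => (ι k).2
  set r : ℕ → Finset (FPlace L) := fun k => overFinset L {(ι k).1} with hr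
  have hrmem : ∀ k w, w ∈ r k ↔ below K w = (ι k).1 := fun k w => by
    rw [hr]; simp only [Orbital.mem_overFinset, Finset.mem_singleton]
  have hmassL0 : massAt b sys BadL a₀ = 0 := by
    refine massAt_eq_zero hbsum hadm r (fun k k' hkk => Finset.disjoint_left.2 fun w h h' => ?_)
      (fun k => ?_) (fun k w hw h => ?_) (fun k => ?_) a₀ fun k w hw => ?_
    · exact hkk (ι.injective (Subtype.ext (((hrmem k w).1 h).symm.trans ((hrmem k' w).1 h'))))
    · obtain ⟨w⟩ := Orbital.nonempty_over L (ι k).1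
      exact ⟨w.1, (hrmem k w.1).2 w.2⟩
    · exact (hv k).1 ((hrmem k w).1 hw ▸ (hbad w).1 h)
    · exact hkilled _ (hv k).1 (hv k).2.1 (hv k).2.2
    · exact (hv k).2.2 ⟨w, (hrmem k w).1 hw⟩
  obtain ⟨k, ⟨hka, hkl⟩, hkne⟩ : ∃ k, ((∀ w ∉ BadL, (bcSys A (sysK k)).a w = a₀ w) ∧
      ∀ w, (bcSys A (sysK k)).l w = 0) ∧ MK k ≠ 0 := by
    by_contra hno
    apply hLne
    refine Eq.trans ?_ hmassL0
    rw [massAt]
    have hite : Summable fun j => if (∀ w ∉ BadL, (sys j).a w = a₀ w) ∧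
        ∀ w, (sys j).l w = 0 then b j else 0 :=
      Summable.of_norm_bounded hbsum fun j => by split_ifs <;> simp
    rw [Summable.tsum_sum (hite.comp_injective Sum.inl_injective)
      (hite.comp_injective Sum.inr_injective)]
    have hK0 : ∀ k, (if (∀ w ∉ BadL, (sys (Sum.inr k)).a w = a₀ w) ∧
        ∀ w, (sys (Sum.inr k)).l w = 0 then b (Sum.inr k) else 0) = 0 := fun k => by
      by_contra h
      rw [ite_eq_right_iff, Classical.not_imp] at h
      exact hno ⟨k, h.1, fun e => h.2 (by simp [hb, e])⟩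
    rw [tsum_congr hK0, tsum_zero, add_zero]
    exact (tsum_subtype
        {j : κ | (∀ w ∉ BadL, (sysL j).a w = a₀ w) ∧ ∀ w, (sysL j).l w = 0} ML).trans
      (tsum_congr fun j => by rw [Set.indicator_apply]; exact if_congr Iff.rfl rfl rfl)
  exact ⟨k, hka, fun w => by rw [A.unique w]; exact hkl (Classical.arbitrary _), hkne⟩

omit [NumberField K] [IsTotallyComplex K] in
/-- The action after `σ⁻¹` of a monomial whose finite part is a Hecke function at `S` extends to a
linear map whose trace on the forms of an invariant system is a multiple of that of the Hecke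
operator after `σ⁻¹`. -/
theorem exists_act_trace_eq {UL : Level L} (M : TestMonomial UL)
    (hstab : Orbital.IsStableLevel τ.σ.toRingEquiv UL) {BadL S : Finset (FPlace L)}
    (hbadInv : ∀ w, Orbital.comapPlace τ.σ.toRingEquiv w ∈ BadL ↔ w ∈ BadL)
    (hUL : ∀ w ∉ BadL, UL.J w = maxSubgroup w) (hS : S ⊆ BadL) {h : placeSubgroup S → ℂ}
    (hh : IsHeckeFn (levelAt UL S) h) (hfin : ∀ z : placeSubgroup S, M.fin (z : Gf L) = h z)
    (hsupp : ∀ y : Gf L, M.fin y ≠ 0 → ∀ w ∉ S, (y : ∀ w, GLv w) w ∈ UL.J w)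
    {a₀ : FPlace L → ℂ} (ha : ∀ w, a₀ (Orbital.comapPlace τ.σ.toRingEquiv w) = a₀ w) :
    ∃ (X : Module.End ℂ (Gf L → Hyp L → ℂ))
      (hX : ∀ φ ∈ levelForms BadL a₀ UL, X φ ∈ levelForms BadL a₀ UL)
      (hop : ∀ φ ∈ levelForms BadL a₀ UL,
        (heckeLin hh * sigmaInvFn τ) φ ∈ levelForms BadL a₀ UL),
      (∀ φ, IsAutomorphic UL φ → X φ = M.act (sigmaInvFn τ φ)) ∧
      LinearMap.trace ℂ _ (X.restrict hX) = (∏ w, sphZero (M.arch w)) •
        LinearMap.trace ℂ _ ((heckeLin hh * sigmaInvFn τ).restrict hop) := by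
  obtain ⟨X, hX⟩ := exists_act_end M (sigmaInvFn τ) fun φ hφ =>
    isAutomorphic_sigmaFn _ hstab (isAutomorphic_sigmaFn _ hstab hφ)
  set op := heckeLin hh * sigmaInvFn τ
  have hσmem : ∀ φ ∈ levelForms BadL a₀ UL, sigmaInvFn τ φ ∈ levelForms BadL a₀ UL :=
    fun φ hφ => sigmaInvFn_mem τ hstab hbadInv hUL ha hφ
  have hopmem : ∀ φ ∈ levelForms BadL a₀ UL, op φ ∈ levelForms BadL a₀ UL := fun φ hφ =>
    heckeLin_mem _ hS (fun _ _ => rfl) (hσmem φ hφ)
  have hXop : ∀ φ ∈ levelForms BadL a₀ UL, X φ = (∏ w, sphZero (M.arch w)) • op φ := fun φ hφ => by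
    rw [hX φ hφ.2]
    exact act_eq_heckeLin_of_support _ hh hfin hsupp (hσmem φ hφ).2 (hσmem φ hφ).1.spectral
  refine ⟨X, fun φ hφ => by rw [hXop φ hφ]; exact Submodule.smul_mem _ _ (hopmem φ hφ), hopmem, hX,
    ?_⟩
  rw [← map_smul]
  exact congrArg _ (LinearMap.ext fun φ => Subtype.ext (hXop φ.1 φ.2))

/-- **The comparison of traces**: test functions at the bad places over `L` with matching functions
over `K`, whose Hecke function has non-zero twisted trace at `a₀`, give a system over `K` below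
`a₀`. -/
theorem exists_form_below_of_trace (hspecL : SpectralTrace L) (hspecK : SpectralTrace K)
    [IsPrincipalIdealRing (𝓞 K)] (hnp : Orbital.NormPrinciple τ) (hK2 : Module.finrank ℚ K = 2)
    (hdeg : Module.finrank K L = 3)
    (hunr : ∀ v ∉ BadK, Nat.card (Over L v) = 3 ∨
      ∃ w : Over L v, (∀ w' : Over L v, w' = w) ∧ Orbital.ram K w.1 = 1)
    (a₀ : FPlace L → ℂ) (ha : ∀ w, a₀ (Orbital.comapPlace τ.σ.toRingEquiv w) = a₀ w)
    (htrip : {v : FPlace K | v ∉ BadK ∧ Nat.card (Over L v) = 3 ∧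
      ∀ w : Over L v, a₀ w.1 ≠ 0}.Infinite)
    (hkill : ∀ M : ℕ, 0 < M → ∃ (p : ℕ) (v : FPlace K), p.Prime ∧ (p : ZMod M) = -1 ∧
      v ∉ BadK ∧ Nat.card (Over L v) = 3 ∧
      (∀ w : FPlace L, below K w = v → a₀ w = 0 ∧
        w.valuation L (p : L) = WithZero.exp (-1 : ℤ)) ∧
      (∀ w : FPlace L, below K w ≠ v → w.valuation L (p : L) = 1) ∧
      ∀ u : FPlace K, u ≠ v → u.valuation K (p : K) = 1)
    {UL : Level L} {UK : Level K} (hstab : Orbital.IsStableLevel τ.σ.toRingEquiv UL)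
    (hUL : ∀ w ∉ overFinset L BadK, UL.J w = maxSubgroup w)
    (hUK : ∀ v ∉ BadK, UK.J v = maxSubgroup v)
    {fBL : ∀ w : FPlace L, GLv w → ℂ} {fBK : ∀ v : FPlace K, GLv v → ℂ}
    (biL : ∀ w ∈ overFinset L BadK, ∀ j₁ ∈ UL.J w, ∀ j₂ ∈ UL.J w, ∀ x,
      fBL w (j₁ * x * j₂) = fBL w x)
    (finL : ∀ w ∈ overFinset L BadK, {q : GLv w ⧸ UL.J w | fBL w q.out ≠ 0}.Finite)
    (biK : ∀ v ∈ BadK, ∀ j₁ ∈ UK.J v, ∀ j₂ ∈ UK.J v, ∀ x, fBK v (j₁ * x * j₂) = fBK v x)
    (finK : ∀ v ∈ BadK, {q : GLv v ⧸ UK.J v | fBK v q.out ≠ 0}.Finite)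
    (hmatch : ∀ v ∈ BadK, Orbital.LocalMatch τ UL UK v fBL (fBK v))
    {S : Finset (FPlace L)} (hS : S ⊆ overFinset L BadK) {h : placeSubgroup S → ℂ}
    (hh : IsHeckeFn (levelAt UL S) h)
    (hfin : ∀ (u : GoodDatum L), (∀ w, u.loc w = Finsupp.single 0 1) →
      ∀ z : placeSubgroup S, (u.monoWith hUL biL finL).fin (z : Gf L) = h z)
    (hsupp : ∀ (u : GoodDatum L), (∀ w, u.loc w = Finsupp.single 0 1) →
      ∀ y : Gf L, (u.monoWith hUL biL finL).fin y ≠ 0 →
        ∀ w ∉ S, (y : ∀ w, GLv w) w ∈ UL.J w)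
    (htr : FiniteDimensional ℂ (levelForms (overFinset L BadK) a₀ UL) →
      ∀ hX : ∀ φ ∈ levelForms (overFinset L BadK) a₀ UL,
        (heckeLin hh * sigmaInvFn τ) φ ∈ levelForms (overFinset L BadK) a₀ UL,
      LinearMap.trace ℂ _ ((heckeLin hh * sigmaInvFn τ).restrict hX) ≠ 0) :
    ∃ (a : FPlace K → ℂ) (φ : Gf K → Hyp K → ℂ),
      φ ∈ levelForms BadK a UK ∧ φ ≠ 0 ∧
      ∀ v ∉ BadK, ∀ w : Over L v, bcEigen L v (a v) = a₀ w.1 := by
  classical
  set BadL := overFinset L BadK with hBadLdef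
  have hbad : ∀ w, w ∈ BadL ↔ below K w ∈ BadK := fun w => Orbital.mem_overFinset
  -- the frame and the weights
  obtain ⟨ψ⟩ : Nonempty (L →+* ℂ) := inferInstance
  obtain ⟨g, hg, hg1, -⟩ := exists_sphTest_real
  obtain ⟨A, -⟩ := Orbital.exists_archFrame hK2 τ hdeg
    (kL := fun _ => sphKernel g) ⟨ψ, rfl⟩
  obtain ⟨WK, -⟩ := exists_finiteWeight UK
  obtain ⟨W₀, -⟩ := exists_finiteWeight UL
  obtain ⟨WL, hWinv⟩ := exists_invariant_weight τ hstab W₀
  -- the killing element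
  obtain ⟨E, hkillL, hkillK, hsymL, hsymK, hEout, hE0⟩ :=
    exists_killing_at_levels A hdeg hUL hUK hbad a₀ hkill
  -- the unit datum, the symmetry
  let u : GoodDatum L := GoodDatum.ofArch (fun _ => g) fun _ => hg
  have hu : ∀ w, u.loc w = Finsupp.single 0 1 := fun _ => rfl
  set Ti := autSpcInv τ hstab with hTi
  have hmT := measurePreserving_qMeas τ hstab WL hWinv
  have hmTi := measurePreserving_qMeas_inv τ hstab WL hWinv
  have hequ : ∀ γ : PGLF L, ∃ γ' : PGLF L, ∀ s, Orbital.autSpc τ hstab (γ • s) =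
      γ' • Orbital.autSpc τ hstab s := fun γ => ⟨_, fun s => Orbital.autSpc_smul_pgl τ hstab γ s⟩
  have hequi : ∀ γ : PGLF L, ∃ γ' : PGLF L, ∀ s, Ti (γ • s) = γ' • Ti s := fun γ =>
    ⟨_, fun s => by
      show Orbital.autSpc τ hstab (Orbital.autSpc τ hstab (γ • s)) = _
      rw [Orbital.autSpc_smul_pgl τ hstab, Orbital.autSpc_smul_pgl τ hstab]
      rfl⟩
  -- the monomial
  let D : TraceSetting τ :=
    { arch := A
      UL := UL
      UK := UK
      stable := hstab
      BadL := BadL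
      BadK := BadK
      mem_bad := hbad
      maxL := hUL
      maxK := hUK
      WL := WL
      WK := WK
      E := E
      u := u
      u_loc := hu
      fBL := fBL
      fBK := fBK
      biL := biL
      biK := biK
      finL := finL
      finK := finK
      matching := hmatch
      unramified := hunr }
  obtain ⟨κ, hκ, sysL, ML, hsumL, hadmL, hHL, -, hmass⟩ := hspecL UL BadL hUL WL E hkillL hsymL
    (u.monoWith hUL D.biL D.finL)
    (Orbital.autSpc τ hstab) Ti (sigmaInvFn τ) hmT hmTi (autSpcInv_autSpc τ hstab)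
    (autSpc_autSpcInv τ hstab) hequ hequi fun φ hφ s => onSpc_sigmaInvFn τ hstab hφ s
  obtain ⟨κ', hκ', sysK, MK, hsumK, hadmK, hHK, hneK, -⟩ := hspecK UK BadK hUK WK
    (E.map (GoodDatum.push A)) hkillK hsymK
    ((u.push A).monoWith hUK D.biK D.finK) id id 1 (MeasurePreserving.id _)
    (MeasurePreserving.id _) (fun _ => rfl) (fun _ => rfl) (fun γ => ⟨γ, fun _ => rfl⟩)
    (fun γ => ⟨γ, fun _ => rfl⟩) fun φ _ s => rfl
  have hFD := (hmass a₀ hE0).1
  have hkilled : D.Killed sysL ML sysK MK :=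
    killed_of_spectral hK2 hdeg hnp D sysL ML sysK MK hHL hHK
  -- the mass over `L` is not zero
  obtain ⟨X, hXmem, hopmem, hX, htrX⟩ := exists_act_trace_eq (u.monoWith hUL D.biL D.finL) hstab
    (fun w => by rw [hbad, hbad, Orbital.below_comapPlace τ.σ w]) hUL hS hh (hfin u hu)
    (hsupp u hu) ha
  have hc0 : (∏ w, sphZero ((u.monoWith hUL D.biL D.finL).arch w)) ≠ 0 := by
    refine Finset.prod_ne_zero_iff.2 fun w _ => ?_
    show sphZero (sphKernel g) ≠ 0
    rw [sphZero_eq_coshTransform, (sphKernel_spec hg).2.1, hg1]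
    exact one_ne_zero
  have hLne :
      ∑' j : {j // (∀ w ∉ BadL, (sysL j).a w = a₀ w) ∧ ∀ w, (sysL j).l w = 0}, ML j ≠ 0 := by
    rw [(hmass a₀ hE0).2 X hX hXmem, htrX]
    exact mul_ne_zero (pow_ne_zero _ hE0) (smul_ne_zero hc0 (htr hFD hopmem))
  -- the separation
  obtain ⟨k, hka, hl, hkne⟩ := exists_bcSys_of_tsum_ne_zero A hbad hsumL hsumK hadmL hadmK htrip
    (fun v hv hv3 hv0 => hkilled v hv hv3 fun d hd w => hEout d hd w.1 (hv0 w)) hLne
  obtain ⟨φ, hφ, hφ0⟩ := (Submodule.ne_bot_iff _).1 (hneK k hl hkne).2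
  refine ⟨(sysK k).a, φ, hφ, hφ0, fun v hv' w => ?_⟩
  have h := hka w.1 fun h => hv' (w.2 ▸ (hbad w.1).1 h)
  have e : (bcSys A (sysK k)).a w.1 = bcEigen L v ((sysK k).a v) := by
    show bcEigen L (below K w.1) _ = _
    rw [w.2]
  rw [← e, h]

/-- **The transfer**, from a non-zero form over `L` of invariant eigenvalues. -/
theorem exists_form_below (hspecL : SpectralTrace L) (hspecK : SpectralTrace K)
    [IsPrincipalIdealRing (𝓞 K)]
    (hnp : Orbital.NormPrinciple τ) (hK2 : Module.finrank ℚ K = 2)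
    (hS : BadShape BadK T₃ τ)
    (hunr : ∀ v ∉ BadK, Nat.card (Over L v) = 3 ∨
      ∃ w : Over L v, (∀ w' : Over L v, w' = w) ∧ Orbital.ram K w.1 = 1)
    (a₀ : FPlace L → ℂ)
    (ha : ∀ w, a₀ (Orbital.comapPlace τ.σ.toRingEquiv w) = a₀ w)
    (hsmall : ∀ w, (a₀ w).im = 0 ∧ ‖a₀ w‖ ≤ 2)
    (htrip : {v : FPlace K | v ∉ BadK ∧ Nat.card (Over L v) = 3 ∧
      ∀ w : Over L v, a₀ w.1 ≠ 0}.Infinite)
    (hkill : ∀ M : ℕ, 0 < M → ∃ (p : ℕ) (v : FPlace K), p.Prime ∧ (p : ZMod M) = -1 ∧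
      v ∉ BadK ∧ Nat.card (Over L v) = 3 ∧
      (∀ w : FPlace L, below K w = v → a₀ w = 0 ∧
        w.valuation L (p : L) = WithZero.exp (-1 : ℤ)) ∧
      (∀ w : FPlace L, below K w ≠ v → w.valuation L (p : L) = 1) ∧
      ∀ u : FPlace K, u ≠ v → u.valuation K (p : K) = 1)
    (N : ℕ) {θ : Gf L → Hyp L → ℂ}
    (hθ : θ ∈ levelForms (overFinset L T₃) a₀ ((levL BadK T₃ N).keep (overFinset L T₃)))
    (hθ0 : θ ≠ 0) :
    ∃ (a : FPlace K → ℂ) (φ : Gf K → Hyp K → ℂ),
      φ ∈ levelForms BadK a (levK L BadK T₃ N) ∧ φ ≠ 0 ∧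
      ∀ v ∉ BadK, ∀ w : Over L v, bcEigen L v (a v) = a₀ w.1 := by
  classical
  set UL := levL (L := L) BadK T₃ N with hULdef
  set UK := levK L BadK T₃ N with hUKdef
  set BadL := overFinset L BadK with hBadLdef
  set S := overFinset L T₃ with hSdef
  have hbad : ∀ w, w ∈ BadL ↔ below K w ∈ BadK := fun w => Orbital.mem_overFinset
  have hSB : S ⊆ BadL := fun w hw => (hbad w).2 (hS.sub (Orbital.mem_overFinset.1 hw))
  have hUL : ∀ w ∉ BadL, UL.J w = maxSubgroup w := fun w hw =>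
    levL_max BadK T₃ N (fun h => hw (hSB (Orbital.mem_overFinset.2 h))) fun h => hw ((hbad w).2 h)
  have hUK : ∀ v ∉ BadK, UK.J v = maxSubgroup v := fun v hv =>
    levK_max BadK T₃ N (fun h => hv (hS.sub h)) hv
  have hstab := isStableLevel_levL BadK T₃ N τ
  -- the trace of a double class operator
  set T := BadL \ S with hT
  have hST : S ∪ T = BadL := Finset.union_sdiff_of_subset hSB
  have hC : ChainPlaces τ UL S T := chainPlaces_levL hS N
  have hkeep : UL.keep BadL = UL := UL.keep_eq_self hUL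
  obtain ⟨gS, htr⟩ : ∃ gS : placeSubgroup S, FiniteDimensional ℂ (levelForms BadL a₀ UL) →
      ∀ hX : ∀ φ ∈ levelForms BadL a₀ UL,
        (heckeLin (isHeckeFn_dcPlaces UL gS) * sigmaInvFn τ) φ ∈ levelForms BadL a₀ UL,
      LinearMap.trace ℂ _
        ((heckeLin (isHeckeFn_dcPlaces UL gS) * sigmaInvFn τ).restrict hX) ≠ 0 := by
    by_cases hFD : FiniteDimensional ℂ (levelForms BadL a₀ UL)
    · have hFD' : FiniteDimensional ℂ (levelForms (S ∪ T) a₀ (UL.keep (S ∪ T))) := by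
        rw [hST, hkeep]; exact hFD
      obtain ⟨gS, htr⟩ := trace_chain τ hC hstab ha (fun w _ => hsmall w) hθ hθ0
      rw [hST, hkeep] at htr
      exact ⟨gS, fun _ => htr⟩
    · exact ⟨1, fun h => absurd h hFD⟩
  have hloc := isLocalFamily_dcFamily UL gS
  refine exists_form_below_of_trace hspecL hspecK hnp hK2 hS.degree hunr a₀ ha htrip hkill hstab
    hUL hUK (fun w _ => hloc.bi w) (fun w _ => hloc.fin w) (fun v hv => badFnK_bi N hS gS hv)
    (fun v hv => badFnK_fin N hS gS hv) (fun v hv => badFnK_match N hS gS hv) hSB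
    (isHeckeFn_dcPlaces UL gS)
    (fun u hu z => (u.monoWith_fin_dcFamily hUL gS hSB hu (fun _ _ => rfl) _ _ _).trans
      (globalFun_dcFamily gS z))
    (fun u hu y hy w hw => ?_) htr
  rw [u.monoWith_fin_dcFamily hUL gS hSB hu (fun _ _ => rfl)] at hy
  obtain ⟨j₁, h₁, j₂, h₂, e⟩ := dcInd_ne_zero (hloc.globalFun_ne_zero hy w)
  rw [e, gS.2 w hw, mul_one]
  exact mul_mem h₁ h₂

end Fermat.Agent.ResidualThree
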