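import Fermat.Agent.ResidualThree.BianchiForm.Field
import Fermat.Agent.ResidualThree.CubicDescent.GaloisFacts
import Fermat.Agent.ResidualThree.CubicDescent.Interfaces
import Fermat.Agent.ResidualThree.CubicDescent.SpectralForms
import Fermat.Agent.ResidualThree.CubicDescent.TransferTrace
import Fermat.Agent.ResidualThree.Orbital.NormPrinciple

/-!
# The first half of the cubic descent

The form over the cubic extension with the traces of the lifted representation descends to a form
over `ℚ(√-3)`.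
-/

noncomputable section

open IsDedekindDomain NumberField
open scoped WithZero

namespace Fermat.Agent.ResidualThree

local notation "Qbar" => AlgebraicClosure ℚ
local notation "Γℚ" => (AlgebraicClosure ℚ ≃ₐ[ℚ] AlgebraicClosure ℚ)

variable {ρ : Γℚ →* GL (Fin 2) (ZMod 3)} {K L : IntermediateField ℚ Qbar} [NumberField K]
  [NumberField L] [Algebra K L] {τ : Orbital.CubicAut K L}

/-- A set `T₃` of bad places over `3` which split, containing all places below the ramified places
of `L`; the other bad places have one place above. -/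
theorem exists_splitBad (hL3 : Module.finrank K L = 3) (hP : CubicPlaces ρ K L τ) :
    ∃ T₃ : Finset (FPlace K), BadShape hP.finite_ram.toFinset T₃ τ ∧
      (∀ v ∈ T₃, (3 : 𝓞 K) ∈ v.asIdeal) ∧
      ∀ w : FPlace L, Orbital.below K w ∉ T₃ → ¬ RamifiesAt ρ L w := by
  classical
  have hmem : ∀ v, v ∈ hP.finite_ram.toFinset ↔ RamifiesAt ρ K v := fun v =>
    hP.finite_ram.mem_toFinset
  have htame : ∀ v : FPlace K, RamifiesAt ρ K v → (3 : 𝓞 K) ∉ v.asIdeal →
      ∃ w : Orbital.Over L v, (∀ w' : Orbital.Over L v, w' = w) ∧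
        ((3 : 𝓞 K) ∉ v.asIdeal → Ideal.absNorm w.1.asIdeal = Ideal.absNorm v.asIdeal ∧
          valv w.1 (3 : w.1.adicCompletion L) = 1) := fun v hv h3 =>
    let ⟨w, h1, h2⟩ := hP.tame v hv h3
    ⟨w, h1, fun _ => h2⟩
  rcases hP.three with ⟨h1, h2⟩ | ⟨h1, h2⟩
  · refine ⟨∅, ⟨Finset.empty_subset _, hL3, by simp, fun v hv _ => ?_⟩, by simp, fun w _ => h2 w⟩
    by_cases h3 : (3 : 𝓞 K) ∈ v.asIdeal
    · obtain ⟨w, hw⟩ := h1 v h3 ((hmem v).1 hv)
      exact ⟨w, hw, fun h => absurd h3 h⟩
    · exact htame v ((hmem v).1 hv) h3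
  · refine ⟨hP.finite_ram.toFinset.filter fun v : FPlace K => (3 : 𝓞 K) ∈ v.asIdeal,
      ⟨Finset.filter_subset _ _, hL3, fun v hv => h1 v (Finset.mem_filter.1 hv).2,
        fun v hv hT => htame v ((hmem v).1 hv) fun h3 => hT (Finset.mem_filter.2 ⟨hv, h3⟩)⟩,
      fun v hv => (Finset.mem_filter.1 hv).2, fun w hT hw => ?_⟩
    have hb := hP.ramifies_below w hw
    refine h2 w (fun h3 => hT (Finset.mem_filter.2 ⟨(hmem _).2 hb, ?_⟩)) hw
    exact (three_mem_below_iff w).2 h3

/-- A natural number generating the ideal of a place is a unit at the other places. -/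
theorem valuation_eq_one_of_span {F : Type} [Field F] [NumberField F] {p : ℕ} {v u : FPlace F}
    (hv : v.asIdeal = Ideal.span {(p : 𝓞 F)}) (hne : u ≠ v) : u.valuation F (p : F) = 1 := by
  rw [← map_natCast (algebraMap (𝓞 F) F), HeightOneSpectrum.valuation_of_algebraMap,
    HeightOneSpectrum.intValuation_eq_one_iff]
  intro h
  have hle : v.asIdeal ≤ u.asIdeal := by rw [hv]; simpa [Ideal.span_singleton_le_iff_mem] using h
  exact hne (HeightOneSpectrum.ext
    (((v.isPrime.isMaximal v.ne_bot).eq_of_le u.isPrime.ne_top hle).symm))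

/-- A prime `p ≡ -1 (mod M)` inert in `K` at a good place split in `L`, with trace zero above it. -/
theorem exists_killPrime (hP : GenPlaces ρ K L τ) (M : ℕ) (hM : 0 < M) :
    ∃ (p : ℕ) (v : FPlace K), p.Prime ∧ (p : ZMod M) = -1 ∧ v ∉ hP.finite_ram.toFinset ∧
      Nat.card (Orbital.Over L v) = 3 ∧
      (∀ w : FPlace L, Orbital.below K w = v → frobTrace ρ L w = 0 ∧
        w.valuation L (p : L) = WithZero.exp (-1 : ℤ)) ∧
      (∀ w : FPlace L, Orbital.below K w ≠ v → w.valuation L (p : L) = 1) ∧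
      ∀ u : FPlace K, u ≠ v → u.valuation K (p : K) = 1 := by
  obtain ⟨p, v, hp, -, hpM, hspan, hram, -, h3, hover, hout⟩ := hP.killing M hM ∅
  exact ⟨p, v, hp, hpM, fun h => hram (hP.finite_ram.mem_toFinset.1 h), h3,
    fun w hw => hover ⟨w, hw⟩, fun w hw => by_contra fun h => hw (hout w h),
    fun u hu => valuation_eq_one_of_span hspan hu⟩

/-- Infinitely many good places split with non-zero traces above. -/
theorem infinite_good_triples (hP : GenPlaces ρ K L τ) :
    {v : FPlace K | v ∉ hP.finite_ram.toFinset ∧ Nat.card (Orbital.Over L v) = 3 ∧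
      ∀ w : Orbital.Over L v, frobTrace ρ L w.1 ≠ 0}.Infinite :=
  hP.split_triples.mono fun _ hv =>
    ⟨fun h => hv.1 (hP.finite_ram.mem_toFinset.1 h), hv.2.2.1, hv.2.2.2⟩

/-- The norm principle holds: the base contains the cube roots of unity. -/
theorem normPrinciple_of_quad (hL3 : Module.finrank K L = 3)
    (hK : ∀ σ : Γℚ, σ ∈ K.fixingSubgroup ↔ WeierstrassCurve.modThreeCyclotomicChar σ = 1) :
    Orbital.NormPrinciple τ := by
  obtain ⟨ζ, hζ⟩ := HasEnoughRootsOfUnity.exists_primitiveRoot Qbar 3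
  have hζK : ζ ∈ K := by
    rw [BianchiForm.eq_adjoin hK hζ]
    exact IntermediateField.mem_adjoin_simple_self ℚ ζ
  exact Orbital.normPrinciple τ hL3 (ζ := (⟨ζ, hζK⟩ : K))
    (IsPrimitiveRoot.of_map_of_injective (f := K.val) hζ Subtype.val_injective)

/-- **The cubic transfer**, given the dihedral form over the cubic extension. -/
theorem cubicTransfer_of (hθex : ThetaExistence) : CubicTransfer := by
  classical
  intro ρ hc hs hd hu K _ hK
  obtain ⟨htcK, hK2, L, _, _, τ, htcL, hL3, hL, hP⟩ := cubicExtensionFacts ρ hc hs hd hu K hK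
  obtain ⟨Eis⟩ := BianchiForm.exists_eisField K hK
  have hpid := Eis.isPrincipalIdealRing
  have hnp : Orbital.NormPrinciple τ := normPrinciple_of_quad hL3 hK
  obtain ⟨T₃, hS, hT3, hTram⟩ := exists_splitBad hL3 hP
  set BadK := hP.finite_ram.toFinset with hBadK
  have hmem : ∀ v, v ∈ BadK ↔ RamifiesAt ρ K v := fun v => hP.finite_ram.mem_toFinset
  -- the form over `L` at our level
  obtain ⟨U', θ, hθa, hθc, hθs, ⟨x₀, p₀, hθ0⟩, hθb, hθg⟩ := hθex ρ hc hs hd L hL
  choose n hn using fun w : FPlace L => U'.exists_cong w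
  set S := Orbital.overFinset L T₃ with hSdef
  set N := S.sup n
  have hgood : ∀ w ∉ S, U'.J w = maxSubgroup w ∧ HasEigenvalue w (frobTrace ρ L w) θ := by
    intro w hw
    have hnr : ¬ RamifiesAt ρ L w := hTram w fun h => hw (Orbital.mem_overFinset.2 h)
    obtain ⟨hJ, heig⟩ := hθg w (unram_of_not_ramifies hnr)
    obtain ⟨A, σ, hA, hσL, hσ⟩ := hP.exists_frobenius w
    refine ⟨hJ, ?_⟩
    rw [hP.trace_eq w hnr A hA σ hσL hσ]
    exact heig A hA σ hσL hσ
  have hθmem : θ ∈ levelForms S (frobTrace ρ L) ((levL BadK T₃ N).keep S) := by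
    refine ⟨⟨⟨U', hθa, fun w hw => (hgood w (by simpa using hw)).1⟩, hθc, hθs, hθb,
      fun w hw => (hgood w (by simpa using hw)).2⟩, hθa.mono fun w => ?_⟩
    by_cases hw : w ∈ S
    · rw [Level.keep_mem _ hw, levL_split BadK T₃ N (Orbital.mem_overFinset.1 hw)]
      exact (congSubgroup_antitone w (Finset.le_sup hw)).trans (hn w)
    · rw [Level.keep_not _ hw, (hgood w hw).1]
  obtain ⟨a, φ, hφ, hφ0, hbc⟩ := exists_form_below spectralTrace spectralTrace hnp hK2 hS
    (fun v hv => hP.unramified v fun h => hv ((hmem v).2 h)) (frobTrace ρ L) hP.trace_comap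
    hP.trace_small (infinite_good_triples hP.toGenPlaces) (exists_killPrime hP.toGenPlaces) N hθmem
    fun h => hθ0 (by simp [h])
  refine ⟨levK L BadK T₃ N, φ, hφ.2, hφ.1.cuspidal, hφ.1.spectral, ?_, hφ.1.bounded,
    fun v A hA h3 => ?_, fun v hv => ?_⟩
  · by_contra h
    push Not at h
    exact hφ0 (funext fun x => funext fun p => h x p)
  · have h3v : (3 : 𝓞 K) ∉ v.asIdeal := fun h => h3 ((hP.three_iff v A hA).2 h)
    have hT : v ∉ T₃ := fun h => h3v (hT3 v h)
    by_cases hB : v ∈ BadK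
    · rw [levK_tame BadK T₃ N hT hB h3v]
    · rw [levK_max BadK T₃ N hT hB]; exact tameSubgroup_le_max v
  · have hnr : ¬ RamifiesAt ρ K v := not_ramifies_of_unram hv
    have hB : v ∉ BadK := fun h => hnr ((hmem v).1 h)
    obtain ⟨k, hk, hkey⟩ := hP.base_change v hnr (a v) fun w => hbc v hB w
    refine ⟨levK_max BadK T₃ N (fun h => hB (hS.sub h)) hB, k, hkey.1, ?_, hkey.2⟩
    rw [← hk]
    exact hφ.1.eigen v (by simpa using hB)

end Fermat.Agent.ResidualThree
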