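import Fermat.Agent.ResidualThree.Automorphic.Tame
import Fermat.Agent.ResidualThree.CubicDescent.PushPlaces
import Fermat.Agent.ResidualThree.CubicDescent.SigmaCube
import Fermat.Agent.ResidualThree.Orbital.SplitMatch

/-!
# Elementary facts on the levels at the bad places

Automorphisms and split completions respect congruence and tame subgroups; a multiple of enough
norms is deep in a place.
-/

noncomputable section

open IsDedekindDomain NumberField
open scoped WithZero

namespace Fermat.Agent.ResidualThree

section Map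

variable {F F' : Type} [Field F] [NumberField F] [Field F'] [NumberField F'] {v : FPlace F}
  {w : FPlace F'} (φ : v.adicCompletion F →+* w.adicCompletion F')
  (hφ : ∀ z, valv w (φ z) = valv v z)
include hφ

theorem map_mem_cong {n : ℕ} {g : GLv v} (hg : g ∈ congSubgroup v n) :
    Units.map φ.mapMatrix.toMonoidHom g ∈ congSubgroup w n := by
  suffices h : congSubgroup v n ≤
      (congSubgroup w n).comap (Units.map φ.mapMatrix.toMonoidHom) from h hg
  rw [congSubgroup, Subgroup.closure_le]
  rintro x (⟨hx, hn⟩ | hx)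
  · refine Subgroup.subset_closure (Or.inl ⟨Orbital.map_isIntGL _ _ φ hφ hx, fun i j => ?_⟩)
    show valv w (φ ((x : Matrix (Fin 2) (Fin 2) (v.adicCompletion F)) i j) -
      (1 : Matrix (Fin 2) (Fin 2) (w.adicCompletion F')) i j) ≤ _
    rw [show (1 : Matrix (Fin 2) (Fin 2) (w.adicCompletion F')) i j =
      φ ((1 : Matrix (Fin 2) (Fin 2) (v.adicCompletion F)) i j) by
      rw [Matrix.one_apply, Matrix.one_apply, apply_ite φ, map_one, map_zero], ← map_sub, hφ]
    exact hn i j
  · exact Subgroup.subset_closure (Or.inr (Orbital.map_mem_center φ hx))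

theorem map_mem_tame (hN : Ideal.absNorm w.asIdeal = Ideal.absNorm v.asIdeal) {g : GLv v}
    (hg : g ∈ tameSubgroup v) : Units.map φ.mapMatrix.toMonoidHom g ∈ tameSubgroup w := by
  suffices h : tameSubgroup v ≤ (tameSubgroup w).comap (Units.map φ.mapMatrix.toMonoidHom) from h hg
  rw [tameSubgroup, Subgroup.closure_le]
  rintro x (⟨hx, h10, hr⟩ | hx)
  · refine Subgroup.subset_closure (Or.inl ⟨Orbital.map_isIntGL _ _ φ hφ hx, ?_, ?_⟩)
    · show valv w (φ ((x : Matrix (Fin 2) (Fin 2) (v.adicCompletion F)) 1 0)) < 1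
      rw [hφ]; exact h10
    · show valv w (φ ((x : Matrix (Fin 2) (Fin 2) (v.adicCompletion F)) 0 0) ^ primeToThreeOrder w -
        φ ((x : Matrix (Fin 2) (Fin 2) (v.adicCompletion F)) 1 1) ^ primeToThreeOrder w) < 1
      rw [← map_pow, ← map_pow, ← map_sub, hφ, show primeToThreeOrder w = primeToThreeOrder v by
        rw [primeToThreeOrder, primeToThreeOrder, hN]]
      exact hr
  · exact Subgroup.subset_closure (Or.inr (Orbital.map_mem_center φ hx))

end Map

variable {K L : Type} [Field K] [NumberField K] [Field L] [NumberField L] [Algebra K L]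

theorem localAutGL_mem_cong (f : L ≃+* L) (w : FPlace L) {n : ℕ}
    {g : GLv (Orbital.comapPlace f w)} (hg : g ∈ congSubgroup (Orbital.comapPlace f w) n) :
    Orbital.localAutGL f w g ∈ congSubgroup w n :=
  map_mem_cong (Orbital.localAut f w) (Orbital.valv_localAut f w) hg

theorem localAutGL_mem_tame (f : L ≃+* L) (w : FPlace L)
    {g : GLv (Orbital.comapPlace f w)} (hg : g ∈ tameSubgroup (Orbital.comapPlace f w)) :
    Orbital.localAutGL f w g ∈ tameSubgroup w :=
  map_mem_tame (Orbital.localAut f w) (Orbital.valv_localAut f w)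
    (Orbital.absNorm_comapPlace f w).symm hg

/-- At a split place the congruence subgroups of the two completions correspond. -/
theorem baseGL_mem_cong_iff (τ : Orbital.CubicAut K L) (hdeg : Module.finrank K L = 3)
    {v : FPlace K}
    (h3 : Nat.card (Orbital.Over L v) = 3) (w : Orbital.Over L v) (n : ℕ) (x : GLv v) :
    Orbital.baseGL w.1 w.2 x ∈ congSubgroup w.1 n ↔ x ∈ congSubgroup v n := by
  have hval : ∀ z, valv w.1 (Orbital.baseHom w.1 w.2 z) = valv v z := fun z => by
    rw [Tree.valv_baseHom, (Orbital.split_place hdeg h3 w).1, pow_one]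
  have hbij := Orbital.baseHom_bijective τ (by omega : Nat.card (Orbital.Over L v) ≠ 1) w
  set e := RingEquiv.ofBijective (Orbital.baseHom w.1 w.2) hbij
  refine ⟨fun hx => ?_, fun hx => map_mem_cong _ hval hx⟩
  have h := map_mem_cong (e.symm : w.1.adicCompletion L →+* v.adicCompletion K)
    (fun z => by
      rw [← hval]
      exact congrArg (valv w.1) (e.apply_symm_apply z)) hx
  convert h using 1
  refine Units.ext (Matrix.ext fun i j => ?_)
  exact (e.symm_apply_apply _).symm

omit [NumberField K] [NumberField L] in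
/-- A place lies over `3` iff the place below it does. -/
theorem three_mem_below_iff (w : FPlace L) :
    (3 : 𝓞 K) ∈ (Orbital.below K w).asIdeal ↔ (3 : 𝓞 L) ∈ w.asIdeal := by
  show (3 : 𝓞 K) ∈ w.asIdeal.under (𝓞 K) ↔ _
  rw [Ideal.under_def, Ideal.mem_comap, map_ofNat]

/-- A multiple of the `n`-th power of the norm of a place has valuation at most `exp (-n)` there. -/
theorem valuation_natCast_le {F : Type} [Field F] [NumberField F] (v : FPlace F) (n M : ℕ)
    (h : Ideal.absNorm v.asIdeal ^ n ∣ M) :
    v.valuation F (M : F) ≤ WithZero.exp (-(n : ℤ)) := by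
  obtain ⟨c, rfl⟩ := h
  rw [← map_natCast (algebraMap (𝓞 F) F), HeightOneSpectrum.valuation_of_algebraMap]
  refine (HeightOneSpectrum.intValuation_le_pow_iff_mem v _ n).2 ?_
  push_cast
  exact Ideal.mul_mem_right _ _ (Ideal.pow_mem_pow (Ideal.absNorm_mem v.asIdeal) n)

end Fermat.Agent.ResidualThree
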