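import Mathlib

/-!
# Operators of bi-invariant functions of finite support

For a representation of a group and a subgroup, the operators of finitely supported bi-invariant
functions compose by convolution on fixed vectors, and such functions are combinations of
indicators of double classes.
-/

noncomputable section

namespace Fermat.Agent.ResidualThree

variable {G : Type} [Group G] {H : Subgroup G}

/-- A bi-invariant function supported on finitely many cosets. -/
structure IsHeckeFn (H : Subgroup G) (h : G → ℂ) : Prop where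
  bi : ∀ j₁ ∈ H, ∀ j₂ ∈ H, ∀ x, h (j₁ * x * j₂) = h x
  fin : {q : G ⧸ H | h q.out ≠ 0}.Finite

theorem IsHeckeFn.apply_out {h : G → ℂ} (hh : IsHeckeFn H h) (x : G) :
    h (x : G ⧸ H).out = h x := by
  obtain ⟨j, hj⟩ := QuotientGroup.mk_out_eq_mul H x
  rw [hj]
  simpa using hh.bi 1 (one_mem _) j j.2 x

/-- Translation of a coset through its representative. -/
theorem smul_coset_eq (i : G) (q : G ⧸ H) : i • q = ((i * q.out : G) : G ⧸ H) :=
  (MulAction.Quotient.mk_smul_out H i q).symm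

/-- The convolution along the cosets. -/
def heckeConv (H : Subgroup G) (h k : G → ℂ) (x : G) : ℂ :=
  ∑ᶠ q : G ⧸ H, h q.out * k (q.out⁻¹ * x)

open Classical in
/-- The indicator of the double class of an element. -/
def dcInd (H : Subgroup G) (g x : G) : ℂ := if ∃ j₁ ∈ H, ∃ j₂ ∈ H, x = j₁ * g * j₂ then 1 else 0

theorem dcInd_bi (g : G) {j₁ j₂ : G} (h₁ : j₁ ∈ H) (h₂ : j₂ ∈ H) (x : G) :
    dcInd H g (j₁ * x * j₂) = dcInd H g x := by
  classical
  refine if_congr ⟨?_, ?_⟩ rfl rfl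
  · rintro ⟨i₁, hi₁, i₂, hi₂, e⟩
    refine ⟨j₁⁻¹ * i₁, mul_mem (inv_mem h₁) hi₁, i₂ * j₂⁻¹, mul_mem hi₂ (inv_mem h₂), ?_⟩
    rw [show j₁⁻¹ * i₁ * g * (i₂ * j₂⁻¹) = j₁⁻¹ * (i₁ * g * i₂) * j₂⁻¹ by group, ← e]
    group
  · rintro ⟨i₁, hi₁, i₂, hi₂, rfl⟩
    exact ⟨j₁ * i₁, mul_mem h₁ hi₁, i₂ * j₂, mul_mem hi₂ h₂, by group⟩

theorem dcInd_out (g z : G) : dcInd H g (z : G ⧸ H).out = dcInd H g z := by
  obtain ⟨j, hj⟩ := QuotientGroup.mk_out_eq_mul H z
  rw [hj]
  simpa using dcInd_bi g (one_mem H) j.2 z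

theorem dcInd_self (g : G) : dcInd H g g = 1 :=
  if_pos ⟨1, one_mem _, 1, one_mem _, by group⟩

theorem dcInd_ne_zero {g x : G} (h : dcInd H g x ≠ 0) : ∃ j₁ ∈ H, ∃ j₂ ∈ H, x = j₁ * g * j₂ := by
  by_contra hc
  exact h (if_neg hc)

/-- The unit: the indicator of the subgroup. -/
theorem dcInd_one_eq (x : G) [Decidable (x ∈ H)] : dcInd H 1 x = if x ∈ H then 1 else 0 := by
  classical
  refine if_congr ⟨?_, fun h => ⟨x, h, 1, one_mem _, by group⟩⟩ rfl rfl
  rintro ⟨i₁, hi₁, i₂, hi₂, rfl⟩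
  simpa using mul_mem hi₁ hi₂

variable {M : Type*} [AddCommGroup M] [Module ℂ M] (ρ : G →* Module.End ℂ M)

/-- The operator of a function on vectors. -/
def heckeEnd (H : Subgroup G) (h : G → ℂ) (m : M) : M := ∑ᶠ q : G ⧸ H, h q.out • ρ q.out m

theorem heckeEnd_eq_sum {h : G → ℂ} (hh : IsHeckeFn H h) (m : M) :
    heckeEnd ρ H h m = ∑ q ∈ hh.fin.toFinset, h q.out • ρ q.out m :=
  finsum_eq_sum_of_support_subset _ fun q hq => by
    rw [Set.Finite.coe_toFinset]
    exact fun h0 => hq (show h q.out • ρ q.out m = 0 by rw [h0, zero_smul])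

/-- Values are fixed by the subgroup. -/
theorem rho_heckeEnd {h : G → ℂ} (hh : IsHeckeFn H h) {m : M} (hm : ∀ j ∈ H, ρ j m = m) {j : G}
    (hj : j ∈ H) : ρ j (heckeEnd ρ H h m) = heckeEnd ρ H h m := by
  classical
  rw [heckeEnd_eq_sum ρ hh, map_sum]
  have key : ∀ q : G ⧸ H, ∀ i ∈ H,
      ρ i (h q.out • ρ q.out m) = h (i • q).out • ρ (i • q).out m := by
    intro q i hi
    obtain ⟨k, hk⟩ := QuotientGroup.mk_out_eq_mul H (i * q.out)
    rw [smul_coset_eq, hk, map_smul, hh.bi i hi k k.2, map_mul, map_mul, Module.End.mul_apply,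
      Module.End.mul_apply, hm k k.2]
  have hmem : ∀ q ∈ hh.fin.toFinset, ∀ i ∈ H, i • q ∈ hh.fin.toFinset := by
    intro q hq i hi
    rw [Set.Finite.mem_toFinset, Set.mem_ofPred_eq] at hq ⊢
    have h1 := hh.bi i hi 1 (one_mem _) q.out
    rw [mul_one] at h1
    rwa [smul_coset_eq, hh.apply_out, h1]
  refine Finset.sum_bij' (fun q _ => j • q) (fun q _ => j⁻¹ • q) (fun q hq => hmem q hq j hj)
    (fun q hq => hmem q hq _ (inv_mem hj)) (fun q _ => inv_smul_smul j q)
    (fun q _ => smul_inv_smul j q) (fun q _ => key q j hj)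

/-- The support of a convolution consists of the translates of the second support by the first. -/
theorem exists_smul_eq_of_heckeConv_ne_zero {h k : G → ℂ} (hk : IsHeckeFn H k) {x : G ⧸ H}
    (hx : heckeConv H h k x.out ≠ 0) :
    ∃ q r : G ⧸ H, h q.out ≠ 0 ∧ k r.out ≠ 0 ∧ q.out • r = x := by
  obtain ⟨q, hq⟩ : ∃ q : G ⧸ H, h q.out * k (q.out⁻¹ * x.out) ≠ 0 := by
    by_contra hne
    push Not at hne
    exact hx (by rw [heckeConv, finsum_congr hne, finsum_zero])
  refine ⟨q, ((q.out⁻¹ * x.out : G) : G ⧸ H), left_ne_zero_of_mul hq, ?_, ?_⟩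
  · rw [hk.apply_out]; exact right_ne_zero_of_mul hq
  · show ((q.out * (q.out⁻¹ * x.out) : G) : G ⧸ H) = x
    rw [mul_inv_cancel_left, QuotientGroup.out_eq']

/-- The convolution of two Hecke functions is a Hecke function. -/
theorem isHeckeFn_heckeConv {h k : G → ℂ} (hh : IsHeckeFn H h) (hk : IsHeckeFn H k) :
    IsHeckeFn H (heckeConv H h k) where
  bi j₁ h₁ j₂ h₂ x := by
    have hright : ∀ q : G ⧸ H, ∀ y, h q.out * k (q.out⁻¹ * (y * j₂)) =
        h q.out * k (q.out⁻¹ * y) := fun q y => by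
      rw [show q.out⁻¹ * (y * j₂) = 1 * (q.out⁻¹ * y) * j₂ by group, hk.bi 1 (one_mem _) j₂ h₂]
    unfold heckeConv
    rw [finsum_congr fun q => hright q _,
      ← finsum_comp_equiv (MulAction.toPerm j₁ : Equiv.Perm (G ⧸ H))]
    refine finsum_congr fun q => ?_
    obtain ⟨i, hi⟩ := QuotientGroup.mk_out_eq_mul H (j₁ * q.out)
    have e : (MulAction.toPerm j₁ : Equiv.Perm (G ⧸ H)) q = ((j₁ * q.out : G) : G ⧸ H) :=
      smul_coset_eq j₁ q
    rw [e, hi, hh.bi j₁ h₁ i i.2,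
      show (j₁ * q.out * (i : G))⁻¹ * (j₁ * x) = (i : G)⁻¹ * (q.out⁻¹ * x) * 1 by group,
      hk.bi _ (inv_mem i.2) 1 (one_mem _)]
  fin := by
    refine (hh.fin.biUnion fun q _ => hk.fin.image fun r => q.out • r).subset fun x hx => ?_
    obtain ⟨q, r, hq, hr, e⟩ := exists_smul_eq_of_heckeConv_ne_zero hk hx
    exact Set.mem_biUnion hq ⟨r, hr, e⟩

/-- Composition on fixed vectors. -/
theorem heckeEnd_comp {h k : G → ℂ} (hh : IsHeckeFn H h) (hk : IsHeckeFn H k) {m : M}
    (hm : ∀ j ∈ H, ρ j m = m) :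
    heckeEnd ρ H h (heckeEnd ρ H k m) = heckeEnd ρ H (heckeConv H h k) m := by
  classical
  set A := hh.fin.toFinset
  set B := hk.fin.toFinset
  set C := A.biUnion fun q => B.image fun r => q.out • r
  have hsub : Function.support (fun x : G ⧸ H => heckeConv H h k x.out • ρ x.out m) ⊆
      (C : Set (G ⧸ H)) := by
    intro x hx
    obtain ⟨q, r, hq, hr, e⟩ := exists_smul_eq_of_heckeConv_ne_zero hk fun h0 =>
      hx (show heckeConv H h k x.out • ρ x.out m = 0 by rw [h0, zero_smul])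
    exact Finset.mem_coe.2 (Finset.mem_biUnion.2 ⟨q, hh.fin.mem_toFinset.2 hq,
      Finset.mem_image.2 ⟨r, hk.fin.mem_toFinset.2 hr, e⟩⟩)
  rw [show heckeEnd ρ H (heckeConv H h k) m = _ from finsum_eq_sum_of_support_subset _ hsub,
    heckeEnd_eq_sum ρ hh]
  have hconv : ∀ x : G ⧸ H, heckeConv H h k x.out = ∑ q ∈ A, h q.out * k (q.out⁻¹ * x.out) :=
    fun x => finsum_eq_sum_of_support_subset _ fun q hq => by
      rw [Set.Finite.coe_toFinset]
      exact left_ne_zero_of_mul hq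
  simp only [hconv, Finset.sum_smul]
  rw [Finset.sum_comm]
  refine Finset.sum_congr rfl fun q hq => ?_
  rw [heckeEnd_eq_sum ρ hk, map_sum, Finset.smul_sum]
  have hC : ∀ x ∈ C, x ∉ B.image (fun r => q.out • r) →
      (h q.out * k (q.out⁻¹ * x.out)) • ρ x.out m = 0 := by
    intro x _ hx
    by_contra hne
    refine hx (Finset.mem_image.2 ⟨((q.out⁻¹ * x.out : G) : G ⧸ H), ?_, ?_⟩)
    · rw [Set.Finite.mem_toFinset, Set.mem_ofPred_eq, hk.apply_out]
      exact fun h0 => hne (by rw [h0, mul_zero, zero_smul])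
    · show ((q.out * (q.out⁻¹ * x.out) : G) : G ⧸ H) = x
      rw [mul_inv_cancel_left, QuotientGroup.out_eq']
  have hBC : B.image (fun r => q.out • r) ⊆ C := fun x hx => Finset.mem_biUnion.2 ⟨q, hq, hx⟩
  have hinj : Set.InjOn (fun r : G ⧸ H => q.out • r) (B : Set (G ⧸ H)) :=
    fun a _ b _ (e : q.out • a = q.out • b) => MulAction.injective q.out e
  refine Eq.trans ?_ (Finset.sum_subset hBC hC)
  refine Eq.trans ?_ (Finset.sum_image hinj).symm
  refine Finset.sum_congr rfl fun r _ => ?_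
  obtain ⟨i, hi⟩ := QuotientGroup.mk_out_eq_mul H (q.out * r.out)
  have e := smul_coset_eq q.out r
  have hki : k (r.out * i) = k r.out := by
    simpa using hk.bi 1 (one_mem _) i i.2 r.out
  rw [e, hi, show q.out⁻¹ * (q.out * r.out * (i : G)) = r.out * i by group, hki, map_smul,
    smul_smul]
  congr 1
  simp only [map_mul, Module.End.mul_apply, hm i i.2]

/-- The unit acts as the identity. -/
theorem heckeEnd_one {m : M} (hm : ∀ j ∈ H, ρ j m = m) : heckeEnd ρ H (dcInd H 1) m = m := by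
  classical
  rw [heckeEnd, finsum_eq_single _ ((1 : G) : G ⧸ H)]
  · obtain ⟨j, hj⟩ := QuotientGroup.mk_out_eq_mul H (1 : G)
    rw [hj, one_mul, dcInd_one_eq, if_pos j.2, one_smul, hm j j.2]
  · intro q hq
    rw [dcInd_one_eq, if_neg, zero_smul]
    intro h
    refine hq ?_
    rw [← QuotientGroup.out_eq' q, QuotientGroup.eq]
    simpa using inv_mem h

/-- A double class with finitely many cosets gives a Hecke function. -/
theorem isHeckeFn_dcInd {g : G}
    (hfin : {q : G ⧸ H | ∃ j ∈ H, ((j * g : G) : G ⧸ H) = q}.Finite) : IsHeckeFn H (dcInd H g) where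
  bi _ h₁ _ h₂ x := dcInd_bi g h₁ h₂ x
  fin := hfin.subset fun q hq => by
    obtain ⟨j₁, h₁, j₂, h₂, e⟩ := dcInd_ne_zero hq
    refine ⟨j₁, h₁, ?_⟩
    conv_rhs => rw [← QuotientGroup.out_eq' q, e]
    exact (QuotientGroup.mk_mul_of_mem _ h₂).symm

theorem isHeckeFn_dcInd_one : IsHeckeFn H (dcInd H (1 : G)) :=
  isHeckeFn_dcInd ((Set.finite_singleton ((1 : G) : G ⧸ H)).subset fun q ⟨j, hj, e⟩ => by
    rw [Set.mem_singleton_iff, ← e, mul_one]
    simpa [QuotientGroup.eq] using hj)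

/-- A function is a combination of the indicators of the double classes in its support. -/
theorem exists_dc_decomposition {h : G → ℂ} (hh : IsHeckeFn H h) :
    ∃ c : G ⧸ H → ℂ, ∀ x, h x = ∑ q ∈ hh.fin.toFinset, c q * dcInd H q.out x := by
  classical
  set A := hh.fin.toFinset with hA
  refine ⟨fun q => h q.out / (A.filter fun r => dcInd H q.out r.out ≠ 0).card, fun x => ?_⟩
  have hval : ∀ g y, dcInd H g y ≠ 0 → h y = h g := fun g y hy => by
    obtain ⟨j₁, h₁, j₂, h₂, rfl⟩ := dcInd_ne_zero hy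
    exact hh.bi j₁ h₁ j₂ h₂ g
  have hclass : ∀ g y, dcInd H g y ≠ 0 → ∀ z, dcInd H g z = dcInd H y z := fun g y hy z => by
    obtain ⟨j₁, h₁, j₂, h₂, rfl⟩ := dcInd_ne_zero hy
    refine if_congr ⟨?_, ?_⟩ rfl rfl
    · rintro ⟨i₁, hi₁, i₂, hi₂, rfl⟩
      exact ⟨i₁ * j₁⁻¹, mul_mem hi₁ (inv_mem h₁), j₂⁻¹ * i₂, mul_mem (inv_mem h₂) hi₂, by group⟩
    · rintro ⟨i₁, hi₁, i₂, hi₂, rfl⟩
      exact ⟨i₁ * j₁, mul_mem hi₁ h₁, j₂ * i₂, mul_mem h₂ hi₂, by group⟩
  by_cases hx : h x = 0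
  · rw [hx]
    refine (Finset.sum_eq_zero fun q _ => ?_).symm
    by_cases hq : dcInd H q.out x = 0
    · rw [hq, mul_zero]
    · show h q.out / _ * _ = 0
      rw [← hval _ _ hq, hx, zero_div, zero_mul]
  set N := A.filter fun r => dcInd H x r.out ≠ 0 with hN
  have hone : ∀ g y, dcInd H g y ≠ 0 → dcInd H g y = 1 := fun g y hy =>
    if_pos (dcInd_ne_zero hy)
  have hN0 : N.Nonempty := by
    refine ⟨(x : G ⧸ H), Finset.mem_filter.2 ⟨?_, ?_⟩⟩
    · rw [hA, Set.Finite.mem_toFinset, Set.mem_ofPred_eq, hh.apply_out]; exact hx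
    · rw [dcInd_out, dcInd_self]
      exact one_ne_zero
  have hterm : ∀ q ∈ A, dcInd H q.out x ≠ 0 ↔ q ∈ N := by
    intro q hq
    rw [hN, Finset.mem_filter]
    constructor
    · intro h1
      refine ⟨hq, ?_⟩
      rw [← hclass _ _ h1, dcInd_self]
      exact one_ne_zero
    · rintro ⟨-, h1⟩
      rw [← hclass _ _ h1, dcInd_self]
      exact one_ne_zero
  rw [← Finset.sum_subset (Finset.filter_subset (fun q => q ∈ N) A) fun q hq hq' => by
    rw [not_ne_iff.1 fun h1 => hq' (Finset.mem_filter.2 ⟨hq, (hterm q hq).1 h1⟩), mul_zero]]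
  rw [Finset.filter_mem_eq_inter, Finset.inter_eq_right.2 (Finset.filter_subset _ _)]
  have e : ∀ q ∈ N, h q.out / ((A.filter fun r => dcInd H q.out r.out ≠ 0).card : ℂ) *
      dcInd H q.out x = h x / (N.card : ℂ) := by
    intro q hq
    have h1 : dcInd H q.out x ≠ 0 :=
      (hterm q (Finset.filter_subset _ _ hq)).2 hq
    rw [hone _ _ h1, mul_one, hval _ _ h1]
    congr 3
    rw [hN]
    exact Finset.filter_congr fun r _ => by rw [hclass _ _ h1]
  rw [Finset.sum_congr rfl e, Finset.sum_const, nsmul_eq_mul,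
    mul_div_cancel₀ _ (Nat.cast_ne_zero.2 hN0.card_pos.ne')]

/-- The operator of a combination of indicators of double classes is the combination of their
operators. -/
theorem heckeEnd_eq_sum_dc {h : G → ℂ} (hh : IsHeckeFn H h)
    (hdc : ∀ g : G, IsHeckeFn H (dcInd H g)) {c : G ⧸ H → ℂ}
    (hc : ∀ x, h x = ∑ q ∈ hh.fin.toFinset, c q * dcInd H q.out x) (m : M) :
    heckeEnd ρ H h m = ∑ q ∈ hh.fin.toFinset, c q • heckeEnd ρ H (dcInd H q.out) m := by
  classical
  set A := hh.fin.toFinset with hA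
  set B := A ∪ A.biUnion fun q => (hdc q.out).fin.toFinset with hB
  have key : ∀ (k : G → ℂ), IsHeckeFn H k → (∀ r, k r.out ≠ 0 → r ∈ B) →
      heckeEnd ρ H k m = ∑ r ∈ B, k r.out • ρ r.out m := fun k _ hsub =>
    finsum_eq_sum_of_support_subset _ fun r hr => Finset.mem_coe.2 (hsub r fun h0 =>
      hr (show k r.out • ρ r.out m = 0 by rw [h0, zero_smul]))
  have e : ∀ q ∈ A, c q • heckeEnd ρ H (dcInd H q.out) m =
      ∑ r ∈ B, (c q * dcInd H q.out r.out) • ρ r.out m := by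
    intro q hq
    rw [key _ (hdc q.out) fun r hr => Finset.mem_union_right _
      (Finset.mem_biUnion.2 ⟨q, hq, (hdc q.out).fin.mem_toFinset.2 hr⟩), Finset.smul_sum]
    simp only [smul_smul]
  rw [Finset.sum_congr rfl e, Finset.sum_comm,
    key h hh fun r hr => Finset.mem_union_left _ (hh.fin.mem_toFinset.2 hr)]
  refine Finset.sum_congr rfl fun r _ => ?_
  rw [hc r.out, Finset.sum_smul]

end Fermat.Agent.ResidualThree
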