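import Fermat.Agent.ResidualThree.Automorphic.Irreducible
import Fermat.Agent.ResidualThree.CubicDescent.HeckeAlg
import Fermat.Agent.ResidualThree.CubicDescent.Systems
import Fermat.Agent.ResidualThree.Kernel.Refine

/-!
# Operators of functions at finitely many places on forms

The operators are finite combinations of translations at the places of `S`, so that they do not
depend on the level away from `S`.
-/

noncomputable section

open IsDedekindDomain NumberField MeasureTheory
open scoped WithZero

namespace Fermat.Agent.ResidualThree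

variable {F : Type} [Field F] [NumberField F] {S : Finset (FPlace F)}

/-- The elements supported at the places of `S`. -/
def placeSubgroup (S : Finset (FPlace F)) : Subgroup (Gf F) where
  carrier := {x | ∀ v ∉ S, (x : ∀ v, GLv v) v = 1}
  one_mem' := fun _ _ => rfl
  mul_mem' {a b} ha hb := fun v hv => by
    show (a : ∀ v, GLv v) v * (b : ∀ v, GLv v) v = 1
    rw [ha v hv, hb v hv, one_mul]
  inv_mem' {a} ha := fun v hv => by
    show ((a : ∀ v, GLv v) v)⁻¹ = 1
    rw [ha v hv, inv_one]

open Classical in
/-- The components at the places of `S`. -/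
def resPlaces (S : Finset (FPlace F)) (x : Gf F) : placeSubgroup S :=
  ⟨⟨fun v => if v ∈ S then (x : ∀ v, GLv v) v else 1, by
    refine Filter.mem_of_superset (S.finite_toSet.compl_mem_cofinite) fun v hv => ?_
    simp only [Set.mem_ofPred_eq, if_neg (show v ∉ S from hv)]
    exact one_mem _⟩, fun v hv => if_neg hv⟩

theorem resPlaces_apply_mem (x : Gf F) {v : FPlace F} (hv : v ∈ S) :
    (((resPlaces S x : placeSubgroup S) : Gf F) : ∀ v, GLv v) v = (x : ∀ v, GLv v) v := by
  classical exact if_pos hv

theorem resPlaces_rest (x : Gf F) {v : FPlace F} (hv : v ∈ S) :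
    (((resPlaces S x : Gf F)⁻¹ * x : Gf F) : ∀ v, GLv v) v = 1 := by
  show (((resPlaces S x : Gf F) : ∀ v, GLv v) v)⁻¹ * (x : ∀ v, GLv v) v = 1
  rw [resPlaces_apply_mem x hv, inv_mul_cancel]

theorem resPlaces_rest_ne (x : Gf F) {v : FPlace F} (hv : v ∉ S) :
    (((resPlaces S x : Gf F)⁻¹ * x : Gf F) : ∀ v, GLv v) v = (x : ∀ v, GLv v) v := by
  show (((resPlaces S x : Gf F) : ∀ v, GLv v) v)⁻¹ * (x : ∀ v, GLv v) v = _
  rw [(resPlaces S x).2 v hv, inv_one, one_mul]

theorem resPlaces_mem_group {U : Level F} {x : Gf F} (hx : x ∈ U.group) :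
    ((resPlaces S x : placeSubgroup S) : Gf F) ∈ U.group := fun v => by
  by_cases hv : v ∈ S
  · rw [resPlaces_apply_mem x hv]; exact hx v
  · rw [(resPlaces S x).2 v hv]; exact one_mem _

/-- The level at the places of `S`. -/
def levelAt (U : Level F) (S : Finset (FPlace F)) : Subgroup (placeSubgroup S) :=
  U.group.subgroupOf (placeSubgroup S)

theorem mem_levelAt {U : Level F} {g : placeSubgroup S} :
    g ∈ levelAt U S ↔ ∀ v ∈ S, ((g : Gf F) : ∀ v, GLv v) v ∈ U.J v := by
  refine ⟨fun h v _ => h v, fun h v => ?_⟩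
  by_cases hv : v ∈ S
  · exact h v hv
  · show ((g : Gf F) : ∀ v, GLv v) v ∈ U.J v
    rw [g.2 v hv]; exact one_mem _

theorem levelAt_congr {U U' : Level F} (h : ∀ v ∈ S, U.J v = U'.J v) :
    levelAt U S = levelAt U' S := by
  ext g
  simp only [mem_levelAt]
  exact forall₂_congr fun v hv => by rw [h v hv]

/-- Translations by the elements supported at `S`. -/
def placeTr (S : Finset (FPlace F)) :
    placeSubgroup S →* Module.End ℂ (Gf F → Hyp F → ℂ) where
  toFun g := rightTrLin (g : Gf F)
  map_one' := LinearMap.ext fun φ => rightTr_one φ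
  map_mul' g h := LinearMap.ext fun φ => rightTr_mul (g : Gf F) h φ

theorem placeTr_fixed {U : Level F} {φ : Gf F → Hyp F → ℂ} (hφ : IsAutomorphic U φ) :
    ∀ j ∈ levelAt U S, placeTr S j φ = φ := fun j hj =>
  funext fun x => hφ.right x (j : Gf F) hj

/-- A double class has finitely many cosets in a group mapping to the finite adelic group with the
level pulled back. -/
theorem finite_dc_of_hom {G : Type} [Group G] (U : Level F) (f : G →* Gf F) {H : Subgroup G}
    (hH : H = U.group.comap f) (g : G) :
    {q : G ⧸ H | ∃ j ∈ H, ((j * g : G) : G ⧸ H) = q}.Finite := by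
  subst hH
  let ι : G ⧸ U.group.comap f → Ωf U := Quotient.map' f fun a b hab => by
    rw [QuotientGroup.leftRel_apply] at hab ⊢
    simpa using hab
  have hι : Function.Injective ι := by
    intro a b
    induction a using QuotientGroup.induction_on with
    | H a =>
      induction b using QuotientGroup.induction_on with
      | H b =>
        intro h
        have h' : ((f a : Gf F) : Ωf U) = ((f b : Gf F) : Ωf U) := h
        rw [QuotientGroup.eq, Subgroup.mem_comap, map_mul, map_inv]
        exact QuotientGroup.eq.1 h'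
  refine ((Kernel.finite_left_kmax_orbit U (f g)).preimage hι.injOn).subset ?_
  rintro _ ⟨j, hj, rfl⟩
  exact ⟨f j, U.group_le_kmax hj, congrArg (QuotientGroup.mk (s := U.group)) (map_mul f j g).symm⟩

theorem finite_dc_places (U : Level F) (g : placeSubgroup S) :
    {q : placeSubgroup S ⧸ levelAt U S |
      ∃ j ∈ levelAt U S,
        ((j * g : placeSubgroup S) : placeSubgroup S ⧸ levelAt U S) = q}.Finite :=
  finite_dc_of_hom U (placeSubgroup S).subtype rfl g

/-- The double classes at finitely many places give Hecke functions. -/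
theorem isHeckeFn_dcPlaces (U : Level F) (g : placeSubgroup S) :
    IsHeckeFn (levelAt U S) (dcInd (levelAt U S) g) := isHeckeFn_dcInd (finite_dc_places U g)

variable {U : Level F} {h : placeSubgroup S → ℂ}

/-- The operator of a function at the places of `S`. -/
def heckeLin (hh : IsHeckeFn (levelAt U S) h) : Module.End ℂ (Gf F → Hyp F → ℂ) :=
  ∑ q ∈ hh.fin.toFinset, h q.out • placeTr S q.out

theorem heckeLin_apply (hh : IsHeckeFn (levelAt U S) h) (φ : Gf F → Hyp F → ℂ) :
    heckeLin hh φ = heckeEnd (placeTr S) (levelAt U S) h φ := by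
  rw [heckeEnd_eq_sum _ hh, heckeLin, LinearMap.sum_apply]
  rfl

/-- The operators commute with translations at the other places. -/
theorem heckeLin_rightTr (hh : IsHeckeFn (levelAt U S) h) {g : Gf F}
    (hg : ∀ v ∈ S, (g : ∀ v, GLv v) v = 1) (φ : Gf F → Hyp F → ℂ) :
    heckeLin hh (rightTr g φ) = rightTr g (heckeLin hh φ) := by
  rw [← rightTrLin_apply g (heckeLin hh φ), heckeLin]
  simp only [LinearMap.sum_apply, LinearMap.smul_apply, map_sum, map_smul]
  refine Finset.sum_congr rfl fun q _ => congrArg (h q.out • ·) ?_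
  show rightTr (q.out : Gf F) (rightTr g φ) = rightTr g (rightTr (q.out : Gf F) φ)
  rw [← rightTr_mul, ← rightTr_mul]
  congr 1
  refine Subtype.ext (funext fun v => ?_)
  show ((q.out : Gf F) : ∀ v, GLv v) v * (g : ∀ v, GLv v) v =
    (g : ∀ v, GLv v) v * ((q.out : Gf F) : ∀ v, GLv v) v
  by_cases hv : v ∈ S
  · rw [hg v hv, mul_one, one_mul]
  · rw [(q.out : placeSubgroup S).2 v hv, mul_one, one_mul]

/-- The operators at `S` commute with vertex translates outside `S`. -/
theorem heckeLin_vertFun (hh : IsHeckeFn (levelAt U S) h) {w : FPlace F} (hw : w ∉ S)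
    (φ : Gf F → Hyp F → ℂ) (y : Tree.Vert (valv w)) :
    heckeLin hh (vertFun w φ y) = vertFun w (heckeLin hh φ) y :=
  heckeLin_rightTr hh (fun _ hv => single_apply_ne (ne_of_mem_of_not_mem hv hw) _) φ

variable [IsTotallyComplex F] {S' : Finset (FPlace F)} {a : FPlace F → ℂ} {U' : Level F}

/-- The operators preserve the forms of every level agreeing at `S`. -/
theorem heckeLin_mem (hh : IsHeckeFn (levelAt U S) h) (hS : S ⊆ S')
    (hJ : ∀ v ∈ S, U.J v = U'.J v) {φ : Gf F → Hyp F → ℂ} (hφ : φ ∈ levelForms S' a U') :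
    heckeLin hh φ ∈ levelForms S' a U' := by
  have hE : IsEigenForm (S' : Set (FPlace F)) a (heckeLin hh φ) := by
    rw [heckeLin, LinearMap.sum_apply]
    refine (eigenForms _ a).sum_mem fun q _ => (eigenForms _ a).smul_mem _ ?_
    exact hφ.1.rightTr fun v hv => q.out.2 v fun hvS => hv (Finset.mem_coe.2 (hS hvS))
  obtain ⟨V, hV, -⟩ := hE.exists_level
  refine ⟨hE, hV.left, fun x j hj => ?_, hV.continuous⟩
  have hfix : ∀ i ∈ levelAt U S, placeTr S i φ = φ := by
    rw [levelAt_congr hJ]; exact placeTr_fixed hφ.2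
  set j' : Gf F := (resPlaces S j : Gf F)⁻¹ * j
  have e : rightTr j (heckeLin hh φ) = heckeLin hh φ := by
    have h1 : rightTr j' φ = φ := funext fun y => hφ.2.right y _ fun v => by
      by_cases hv : v ∈ S
      · rw [resPlaces_rest j hv]; exact one_mem _
      · rw [resPlaces_rest_ne j hv]; exact hj v
    rw [show j = (resPlaces S j : Gf F) * j' by simp only [j', mul_inv_cancel_left], rightTr_mul,
      ← heckeLin_rightTr hh (fun v hv => resPlaces_rest j hv) φ, h1, heckeLin_apply]
    refine rho_heckeEnd (placeTr S) hh hfix ?_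
    rw [levelAt_congr hJ]
    exact resPlaces_mem_group (U := U') hj
  exact congrFun e x

end Fermat.Agent.ResidualThree
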