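import Fermat.Agent.Deform.Burnside
import Fermat.Agent.ResidualThree.CubicDescent.HeckeOp

/-!
# The twisted trace at the base level

The operators of the double classes at the places of `S` act irreducibly on the eigenforms of a
level, so one of them composed with a given non-zero operator has a non-zero trace.
-/

noncomputable section

open IsDedekindDomain NumberField MeasureTheory
open scoped WithZero

namespace Fermat.Agent.ResidualThree

variable {F : Type} [Field F] [NumberField F] {S : Finset (FPlace F)}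

variable [IsTotallyComplex F] {a : FPlace F → ℂ} {U : Level F}

/-- If the pairing of a double class operator vanishes, so does the pairing of the translate, of
which it is a non-zero multiple. -/
theorem petersson_translate_eq_zero {t d : Gf F → Hyp F → ℂ} (htV : t ∈ levelForms S a U)
    (hdV : d ∈ levelForms S a U) (g : placeSubgroup S)
    (h0 : petersson (heckeLin (isHeckeFn_dcPlaces U g) t) d = 0) :
    petersson (rightTr (g : Gf F) t) d = 0 := by
  classical
  set H := levelAt U S
  have hh := isHeckeFn_dcPlaces U g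
  have hterm : ∀ q ∈ hh.fin.toFinset,
      dcInd H g q.out • placeTr S q.out t = placeTr S q.out t ∧
      IsEigenForm (S : Set (FPlace F)) a (placeTr S q.out t) ∧
      petersson (placeTr S q.out t) d = petersson (rightTr (g : Gf F) t) d := by
    intro q hq
    have hq' : dcInd H g q.out ≠ 0 := (hh.fin.mem_toFinset.1 hq :)
    obtain ⟨j₁, h₁, j₂, h₂, e⟩ := dcInd_ne_zero hq'
    refine ⟨by rw [show dcInd H g q.out = 1 from if_pos ⟨j₁, h₁, j₂, h₂, e⟩, one_smul],
      htV.1.rightTr fun v hv => q.out.2 v (by simpa using hv), ?_⟩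
    rw [e, map_mul, map_mul, Module.End.mul_apply, Module.End.mul_apply,
      placeTr_fixed htV.2 j₂ h₂]
    conv_lhs => rw [← placeTr_fixed hdV.2 j₁ h₁]
    exact (htV.1.rightTr fun v hv => g.2 v (by simpa using hv)).petersson_rightTr hdV.1 _
  have hsum : ∀ A : Finset (placeSubgroup S ⧸ H), A ⊆ hh.fin.toFinset →
      IsEigenForm (S : Set (FPlace F)) a (∑ q ∈ A, placeTr S q.out t) ∧
      petersson (∑ q ∈ A, placeTr S q.out t) d =
        (A.card : ℂ) * petersson (rightTr (g : Gf F) t) d := by
    intro A hA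
    induction A using Finset.induction_on with
    | empty =>
      refine ⟨by simpa using isEigenForm_zero, ?_⟩
      rw [Finset.sum_empty, Finset.card_empty, Nat.cast_zero, zero_mul]
      exact IsEigenForm.petersson_zero_left hdV.1
    | insert q A hqA ih =>
      rw [Finset.insert_subset_iff] at hA
      obtain ⟨h1, h2⟩ := ih hA.2
      obtain ⟨-, h3, h4⟩ := hterm q hA.1
      rw [Finset.sum_insert hqA]
      refine ⟨h3.add h1, ?_⟩
      rw [h3.petersson_add_left h1 hdV.1, h4, h2, Finset.card_insert_of_notMem hqA]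
      push_cast
      ring
  rw [heckeLin_apply, heckeEnd_eq_sum _ hh, Finset.sum_congr rfl fun q hq => (hterm q hq).1,
    (hsum _ subset_rfl).2] at h0
  refine (mul_eq_zero.1 h0).resolve_left ?_
  intro hc
  refine Finset.card_ne_zero.2 ⟨(g : placeSubgroup S ⧸ H), ?_⟩ (Nat.cast_eq_zero.1 hc)
  rw [Set.Finite.mem_toFinset, Set.mem_ofPred_eq, dcInd_out]
  exact fun h1 => one_ne_zero ((dcInd_self _).symm.trans h1)

variable (S a) in
/-- The operator of a function on the forms of a level. -/
def heckeV (U : Level F) {h : placeSubgroup S → ℂ} (hh : IsHeckeFn (levelAt U S) h) :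
    Module.End ℂ (levelForms S a U) :=
  (heckeLin hh).restrict fun _ hφ => heckeLin_mem hh subset_rfl (fun _ _ => rfl) hφ

theorem heckeV_apply {h : placeSubgroup S → ℂ} (hh : IsHeckeFn (levelAt U S) h)
    (φ : levelForms S a U) :
    (heckeV S a U hh φ : Gf F → Hyp F → ℂ) = heckeEnd (placeTr S) (levelAt U S) h φ :=
  heckeLin_apply hh φ

/-- A subspace stable under the double class operators is trivial. -/
theorem eq_bot_or_top_of_stable [FiniteDimensional ℂ (levelForms S a U)]
    (W : Submodule ℂ (levelForms S a U))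
    (hW : ∀ g, ∀ x ∈ W, heckeV S a U (isHeckeFn_dcPlaces U g) x ∈ W) : W = ⊥ ∨ W = ⊤ := by
  refine or_iff_not_imp_left.2 fun hne => Submodule.eq_top_iff'.2 fun φ => ?_
  obtain ⟨t, htW, ht0⟩ := W.exists_mem_ne_zero_of_ne_bot hne
  obtain ⟨w, hwW, horth⟩ := exists_orthogonal_sub (W := W.map (levelForms S a U).subtype)
    (φ := (φ : Gf F → Hyp F → ℂ))
    (fun x hx => by obtain ⟨x, -, rfl⟩ := hx; exact x.2.1) φ.2.1
  obtain ⟨w, hw, rfl⟩ := hwW
  set d := φ - w
  suffices hd : (d : Gf F → Hyp F → ℂ) = 0 by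
    rw [show φ = w from sub_eq_zero.1 (Subtype.ext hd)]
    exact hw
  refine eq_zero_of_orthogonal_translates (θ := (t : Gf F → Hyp F → ℂ)) t.2.1
    (fun h => ht0 (Subtype.ext h)) d.2.1 fun g hg => petersson_eq_zero_comm ?_
  exact petersson_translate_eq_zero t.2 d.2 ⟨g, hg⟩
    (petersson_eq_zero_comm (horth _ ⟨_, hW ⟨g, hg⟩ t htW, rfl⟩))

/-- Some double class operator has non-zero trace against a non-zero operator. -/
theorem exists_dc_trace_ne_zero [FiniteDimensional ℂ (levelForms S a U)]
    (X : Module.End ℂ (levelForms S a U)) (hX : X ≠ 0) :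
    ∃ g : placeSubgroup S,
      LinearMap.trace ℂ _ (heckeV S a U (isHeckeFn_dcPlaces U g) * X) ≠ 0 := by
  classical
  by_contra! hall
  obtain ⟨θ, hθX⟩ : ∃ θ, X θ ≠ 0 := by
    by_contra! h0
    exact hX (LinearMap.ext fun x => (h0 x).trans rfl)
  have : Nontrivial (levelForms S a U) := ⟨⟨X θ, 0, hθX⟩⟩
  have hfixV : ∀ φ : (levelForms S a U), ∀ j ∈ levelAt U S,
      placeTr S j (φ : Gf F → Hyp F → ℂ) = φ :=
    fun φ => placeTr_fixed φ.2.2
  set Mon := Submonoid.closure (Set.range fun g => heckeV S a U (isHeckeFn_dcPlaces U g))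
  have hMon : ∀ Y ∈ Mon, ∃ (h : placeSubgroup S → ℂ) (hh : IsHeckeFn (levelAt U S) h),
      Y = heckeV S a U hh := by
    intro Y hY
    induction hY using Submonoid.closure_induction with
    | mem Y hY =>
      obtain ⟨g, rfl⟩ := hY
      exact ⟨_, isHeckeFn_dcPlaces U g, rfl⟩
    | one =>
      refine ⟨_, isHeckeFn_dcInd_one, LinearMap.ext fun φ => Subtype.ext ?_⟩
      rw [heckeV_apply, heckeEnd_one _ (hfixV φ)]
      rfl
    | mul Y Z _ _ hY hZ =>
      obtain ⟨h, hh, rfl⟩ := hY
      obtain ⟨k, hk, rfl⟩ := hZ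
      refine ⟨_, isHeckeFn_heckeConv hh hk, LinearMap.ext fun φ => Subtype.ext ?_⟩
      rw [Module.End.mul_apply, heckeV_apply, heckeV_apply, heckeV_apply,
        heckeEnd_comp _ hh hk (hfixV φ)]
  have hirr : ∀ W : Submodule ℂ (levelForms S a U),
      (∀ Y : Mon, ∀ x ∈ W, Mon.subtype Y x ∈ W) → W = ⊥ ∨ W = ⊤ :=
    fun W hW => eq_bot_or_top_of_stable W fun g x hx =>
      hW ⟨_, Submonoid.subset_closure ⟨g, rfl⟩⟩ x hx
  have hlin : ∀ {h : placeSubgroup S → ℂ} (hh : IsHeckeFn (levelAt U S) h),
      LinearMap.trace ℂ (levelForms S a U) (heckeV S a U hh * X) = 0 := by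
    intro h hh
    obtain ⟨c, hc⟩ := exists_dc_decomposition hh
    have e : heckeV S a U hh =
        ∑ q ∈ hh.fin.toFinset, c q • heckeV S a U (isHeckeFn_dcPlaces U q.out) := by
      refine LinearMap.ext fun φ => Subtype.ext ?_
      simp only [LinearMap.sum_apply, LinearMap.smul_apply, AddSubmonoidClass.coe_finsetSum,
        SetLike.val_smul, heckeV_apply]
      exact heckeEnd_eq_sum_dc _ hh (isHeckeFn_dcPlaces U) hc _
    rw [e, Finset.sum_mul, map_sum]
    refine Finset.sum_eq_zero fun q _ => ?_
    rw [smul_mul_assoc, map_smul, hall q.out, smul_zero]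
  have hspan := Deform.span_range_eq_top_of_irreducible Mon.subtype hirr
  have hall' : ∀ Y : Module.End ℂ (levelForms S a U),
      LinearMap.trace ℂ (levelForms S a U) (Y * X) = 0 := by
    intro Y
    have hY : Y ∈ Submodule.span ℂ (Set.range Mon.subtype) := hspan ▸ Submodule.mem_top
    induction hY using Submodule.span_induction with
    | mem Y hY =>
      obtain ⟨⟨Y, hY⟩, rfl⟩ := hY
      obtain ⟨h, hh, rfl⟩ := hMon Y hY
      exact hlin hh
    | zero => rw [zero_mul, map_zero]
    | add Y Z _ _ hY hZ => rw [add_mul, map_add, hY, hZ, add_zero]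
    | smul c Y _ hY => rw [smul_mul_assoc, map_smul, hY, smul_zero]
  obtain ⟨f, hf⟩ := Module.Projective.exists_dual_ne_zero ℂ hθX
  have hrank : LinearMap.smulRight f θ * X = LinearMap.smulRight (f.comp X) θ :=
    LinearMap.ext fun x => rfl
  have h0 := hall' (LinearMap.smulRight f θ)
  rw [hrank, LinearMap.trace_smulRight] at h0
  exact hf h0

end Fermat.Agent.ResidualThree
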