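import Fermat.Agent.ResidualThree.Automorphic.ThetaInterface
import Fermat.Agent.ResidualThree.CubicDescent.Push

/-!
# The places of the cubic extension cut out by `ρ`

Ramification of `ρ` restricted to a number field, the lifted Frobenius trace `frobTrace`, and the
predicates `GenPlaces` (any ramification), `CubicPlaces` and `CubicExtensionFacts`: all the
facts about `ρ`, the quadratic field and the cubic extension which the transfer uses.
-/

noncomputable section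

open IsDedekindDomain NumberField
open scoped WithZero

namespace Fermat.Agent.ResidualThree

local notation "Qbar" => AlgebraicClosure ℚ
local notation "Γℚ" => (AlgebraicClosure ℚ ≃ₐ[ℚ] AlgebraicClosure ℚ)

/-- The restriction of `ρ` to `F` is ramified at the place. -/
def RamifiesAt (ρ : Γℚ →* GL (Fin 2) (ZMod 3)) (F : IntermediateField ℚ Qbar) [NumberField F]
    (v : FPlace F) : Prop :=
  ∃ B : ValuationSubring Qbar, LiesOverPlace B v ∧
    ∃ σ ∈ B.inertiaSubgroupIn ℚ, σ ∈ F.fixingSubgroup ∧ ρ σ ≠ 1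

open Classical in
/-- The lifted trace of a Frobenius element, zero at the ramified places. -/
def frobTrace (ρ : Γℚ →* GL (Fin 2) (ZMod 3)) (L : IntermediateField ℚ Qbar) [NumberField L]
    (w : FPlace L) : ℂ :=
  if h : ¬ RamifiesAt ρ L w ∧ ∃ (A : ValuationSubring Qbar) (σ : Γℚ), LiesOverPlace A w ∧
      σ ∈ L.fixingSubgroup ∧ A.IsFrobeniusAt σ (Ideal.absNorm w.asIdeal)
  then (quatTrace (ρ h.2.choose_spec.choose) : ℂ) else 0

/-- The condition of a form attached to `ρ` on the eigenvalue at an unramified place. -/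
def IsKEigen (ρ : Γℚ →* GL (Fin 2) (ZMod 3)) (K : IntermediateField ℚ Qbar) [NumberField K]
    (v : FPlace K) (n : ℤ) : Prop :=
  n.natAbs ≤ 2 ∧ ∀ A : ValuationSubring Qbar, LiesOverPlace A v → ∀ σ ∈ K.fixingSubgroup,
    A.IsFrobeniusAt σ (Ideal.absNorm v.asIdeal) →
      ((n : ℤ) : ZMod 3) = (ρ σ : Matrix (Fin 2) (Fin 2) (ZMod 3)).trace ∧
      (ρ σ ^ 4 = 1 → n = quatTrace (ρ σ)) ∧ (ρ σ ^ 4 ≠ 1 → n ≠ 0)

/-- The facts on the places of `K` and `L` which do not depend on the kind of ramification. -/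
structure GenPlaces (ρ : Γℚ →* GL (Fin 2) (ZMod 3)) (K L : IntermediateField ℚ Qbar)
    [NumberField K] [NumberField L] [Algebra K L] (τ : Orbital.CubicAut K L) : Prop where
  finite_ram : {v : FPlace K | RamifiesAt ρ K v}.Finite
  three_iff : ∀ (v : FPlace K) (A : ValuationSubring Qbar), LiesOverPlace A v →
    (A.LiesOverPrime 3 ↔ (3 : 𝓞 K) ∈ v.asIdeal)
  ramifies_below : ∀ w : FPlace L, RamifiesAt ρ L w → RamifiesAt ρ K (Orbital.below K w)
  unramified : ∀ v : FPlace K, ¬ RamifiesAt ρ K v → Nat.card (Orbital.Over L v) = 3 ∨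
    ∃ w : Orbital.Over L v, (∀ w' : Orbital.Over L v, w' = w) ∧ Orbital.ram K w.1 = 1
  exists_frobenius : ∀ w : FPlace L, ∃ (A : ValuationSubring Qbar) (σ : Γℚ),
    LiesOverPlace A w ∧ σ ∈ L.fixingSubgroup ∧ A.IsFrobeniusAt σ (Ideal.absNorm w.asIdeal)
  trace_eq : ∀ w : FPlace L, ¬ RamifiesAt ρ L w → ∀ A : ValuationSubring Qbar, LiesOverPlace A w →
    ∀ σ ∈ L.fixingSubgroup, A.IsFrobeniusAt σ (Ideal.absNorm w.asIdeal) →
      frobTrace ρ L w = (quatTrace (ρ σ) : ℂ)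
  trace_comap : ∀ w : FPlace L,
    frobTrace ρ L (Orbital.comapPlace τ.σ.toRingEquiv w) = frobTrace ρ L w
  trace_small : ∀ w : FPlace L, (frobTrace ρ L w).im = 0 ∧ ‖frobTrace ρ L w‖ ≤ 2
  base_change : ∀ v : FPlace K, ¬ RamifiesAt ρ K v → ∀ a : ℂ,
    (∀ w : Orbital.Over L v, bcEigen L v a = frobTrace ρ L w.1) →
      ∃ n : ℤ, a = (n : ℂ) ∧ IsKEigen ρ K v n
  split_triples : {v : FPlace K | ¬ RamifiesAt ρ K v ∧ (3 : 𝓞 K) ∉ v.asIdeal ∧
    Nat.card (Orbital.Over L v) = 3 ∧ ∀ w : Orbital.Over L v, frobTrace ρ L w.1 ≠ 0}.Infinite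
  killing : ∀ M : ℕ, 0 < M → ∀ S₀ : Finset ℕ, ∃ (p : ℕ) (v : FPlace K), p.Prime ∧ p ∉ S₀ ∧
    (p : ZMod M) = -1 ∧ v.asIdeal = Ideal.span {(p : 𝓞 K)} ∧ ¬ RamifiesAt ρ K v ∧
    (3 : 𝓞 K) ∉ v.asIdeal ∧ Nat.card (Orbital.Over L v) = 3 ∧
    (∀ w : Orbital.Over L v, frobTrace ρ L w.1 = 0 ∧
      w.1.valuation L (p : L) = WithZero.exp (-1 : ℤ)) ∧
    ∀ w : FPlace L, w.valuation L (p : L) ≠ 1 → Orbital.below K w = v

/-- The facts on the places used by the transfer of a representation tame away from three. -/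
structure CubicPlaces (ρ : Γℚ →* GL (Fin 2) (ZMod 3)) (K L : IntermediateField ℚ Qbar)
    [NumberField K] [NumberField L] [Algebra K L] (τ : Orbital.CubicAut K L) : Prop
    extends GenPlaces ρ K L τ where
  tame : ∀ v : FPlace K, RamifiesAt ρ K v → (3 : 𝓞 K) ∉ v.asIdeal →
    ∃ w : Orbital.Over L v, (∀ w' : Orbital.Over L v, w' = w) ∧
      Ideal.absNorm w.1.asIdeal = Ideal.absNorm v.asIdeal ∧
      valv w.1 (3 : w.1.adicCompletion L) = 1
  three : ((∀ v : FPlace K, (3 : 𝓞 K) ∈ v.asIdeal → RamifiesAt ρ K v →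
        ∃ w : Orbital.Over L v, ∀ w' : Orbital.Over L v, w' = w) ∧
      ∀ w : FPlace L, ¬ RamifiesAt ρ L w) ∨
    ((∀ v : FPlace K, (3 : 𝓞 K) ∈ v.asIdeal → Nat.card (Orbital.Over L v) = 3) ∧
      ∀ w : FPlace L, (3 : 𝓞 L) ∉ w.asIdeal → ¬ RamifiesAt ρ L w)

/-- The cubic extension with its places. -/
def CubicExtensionFacts : Prop :=
  ∀ (ρ : Γℚ →* GL (Fin 2) (ZMod 3)), Continuous ρ → Function.Surjective ρ →
    (∀ σ : Γℚ, Matrix.GeneralLinearGroup.det (ρ σ) =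
        WeierstrassCurve.modThreeCyclotomicChar σ) →
    IsUnipotentAwayThree ρ →
    ∀ (K : IntermediateField ℚ Qbar) [NumberField K],
      (∀ σ : Γℚ, σ ∈ K.fixingSubgroup ↔ WeierstrassCurve.modThreeCyclotomicChar σ = 1) →
      IsTotallyComplex K ∧ Module.finrank ℚ K = 2 ∧
      ∃ (L : IntermediateField ℚ Qbar) (_ : NumberField L) (_ : Algebra K L)
        (τ : Orbital.CubicAut K L),
        IsTotallyComplex L ∧ Module.finrank K L = 3 ∧
        (∀ σ : Γℚ, σ ∈ L.fixingSubgroup ↔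
          Matrix.GeneralLinearGroup.det (ρ σ) = 1 ∧ ρ σ ^ 4 = 1) ∧
        CubicPlaces ρ K L τ

end Fermat.Agent.ResidualThree
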