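import Mathlib.Algebra.Polynomial.Laurent
import Fermat.Agent.ResidualThree.CubicDescent.Transform

/-!
# The constant term transform as a Laurent polynomial

The value of a spherical function at `z + z⁻¹` is the value at `z` of a Laurent polynomial whose
coefficients are its transform; base change substitutes the cube of the variable.
-/

noncomputable section

open Finset AddMonoidAlgebra

namespace Fermat.Agent.ResidualThree

theorem satakeInt_eq_zero (Q : ℕ) (f : ℕ →₀ ℂ) {n : ℤ} (hn : Tree.spBound f ≤ n.natAbs) :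
    satakeInt Q f n = 0 := Tree.satake_eq_zero Q f hn

theorem satakeInt_neg (Q : ℕ) (f : ℕ →₀ ℂ) (n : ℤ) : satakeInt Q f (-n) = satakeInt Q f n := by
  rw [satakeInt, satakeInt, Int.natAbs_neg]

/-- The Laurent polynomial of the transform. -/
def satakePoly (Q : ℕ) (f : ℕ →₀ ℂ) : LaurentPolynomial ℂ :=
  ∑ n ∈ Finset.Icc (-(Tree.spBound f : ℤ)) (Tree.spBound f),
    AddMonoidAlgebra.single n (satakeInt Q f n)

theorem coeff_satakePoly (Q : ℕ) (f : ℕ →₀ ℂ) (n : ℤ) :
    (satakePoly Q f).coeff n = satakeInt Q f n := by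
  classical
  rw [satakePoly, coeff_sum, Finsupp.finsetSum_apply]
  simp only [coeff_single, Finsupp.single_apply, Finset.sum_ite_eq']
  split_ifs with h
  · rfl
  · rw [Finset.mem_Icc] at h
    exact (satakeInt_eq_zero Q f (by omega)).symm

/-- The value at a unit. -/
def evalAt (z : ℂˣ) : LaurentPolynomial ℂ →+* ℂ := LaurentPolynomial.eval₂ (RingHom.id ℂ) z

theorem evalAt_single (z : ℂˣ) (n : ℤ) (c : ℂ) :
    evalAt z (AddMonoidAlgebra.single n c) = c * (z : ℂ) ^ n := by
  rw [evalAt, LaurentPolynomial.single_eq_C_mul_T, LaurentPolynomial.eval₂_C_mul_T]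
  simp

theorem eq_of_forall_evalAt {p p' : LaurentPolynomial ℂ}
    (h : ∀ z : ℂˣ, evalAt z p = evalAt z p') : p = p' := by
  rw [← sub_eq_zero]
  obtain ⟨n, f, hf⟩ := LaurentPolynomial.exists_T_pow (p - p')
  have h0 : ∀ z : ℂˣ, f.eval (z : ℂ) = 0 := fun z => by
    have e := congrArg (evalAt z) hf
    rw [map_mul, map_sub, h z, sub_self, zero_mul] at e
    rwa [evalAt, LaurentPolynomial.eval₂_toLaurent] at e
  have hf0 : f = 0 := by
    refine Polynomial.eq_zero_of_infinite_isRoot f ?_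
    refine (Set.infinite_univ.sdiff (Set.finite_singleton (0 : ℂ))).mono fun x hx => ?_
    exact h0 (Units.mk0 x hx.2)
  rw [hf0, map_zero] at hf
  exact (IsUnit.mul_left_eq_zero (LaurentPolynomial.isUnit_T (n : ℤ))).1 hf.symm

theorem evalAt_satakePoly {Q : ℕ} (hQ : Q ≠ 0) (f : ℕ →₀ ℂ) (z : ℂˣ) :
    evalAt z (satakePoly Q f) = sphEval Q ((z : ℂ) + (z : ℂ)⁻¹) f := by
  rw [sphEval, Tree.sum_sphereEigen hQ z.ne_zero f le_rfl, satakePoly, map_sum]
  simp only [evalAt_single]
  have key : ∀ N : ℕ, ∑ n ∈ Finset.Icc (-(N : ℤ)) N, satakeInt Q f n * (z : ℂ) ^ n =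
      ∑ n ∈ Finset.range (N + 1), satake Q f n * Tree.charPow (z : ℂ) n := by
    intro N
    induction N with
    | zero => simp [Tree.charPow, satakeInt]
    | succ N ih =>
      rw [Finset.sum_range_succ _ (N + 1), ← ih,
        show Finset.Icc (-((N + 1 : ℕ) : ℤ)) (N + 1 : ℕ) =
          insert (-((N + 1 : ℕ) : ℤ)) (insert ((N + 1 : ℕ) : ℤ) (Finset.Icc (-(N : ℤ)) N)) from by
            ext x
            simp only [Finset.mem_insert, Finset.mem_Icc]
            push_cast
            omega,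
        Finset.sum_insert (by simp only [Finset.mem_insert, Finset.mem_Icc]; omega),
        Finset.sum_insert (by simp only [Finset.mem_Icc]; omega)]
      have hcp : Tree.charPow (z : ℂ) (N + 1) = (z : ℂ) ^ (N + 1) + (z : ℂ)⁻¹ ^ (N + 1) :=
        if_neg (Nat.succ_ne_zero _)
      simp only [satakeInt, Int.natAbs_neg, Int.natAbs_natCast, zpow_neg, zpow_natCast, hcp,
        inv_pow]
      ring
  rw [key, Finset.sum_range_succ, Tree.satake_eq_zero Q f le_rfl, zero_mul, add_zero]

/-- A Laurent polynomial with the values of a spherical function is its transform. -/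
theorem satakePoly_eq_of_eval {Q : ℕ} (hQ : Q ≠ 0) {f : ℕ →₀ ℂ} {p : LaurentPolynomial ℂ}
    (h : ∀ z : ℂˣ, sphEval Q ((z : ℂ) + (z : ℂ)⁻¹) f = evalAt z p) : satakePoly Q f = p :=
  eq_of_forall_evalAt fun z => by rw [evalAt_satakePoly hQ, h]

theorem exists_add_inv_eq (a : ℂ) : ∃ z : ℂˣ, (z : ℂ) + (z : ℂ)⁻¹ = a := by
  obtain ⟨d, hd⟩ := IsAlgClosed.exists_eq_mul_self (a * a - 4)
  have hz : (a + d) / 2 ≠ 0 := by
    intro h0
    have h1 : d = -a := by linear_combination 2 * h0
    rw [h1] at hd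
    have : (4 : ℂ) = 0 := by linear_combination -hd
    norm_num at this
  refine ⟨Units.mk0 _ hz, ?_⟩
  have had : a + d ≠ 0 := fun h => hz (by rw [h, zero_div])
  rw [Units.val_mk0]
  field_simp
  linear_combination -hd

/-! ### Base change -/

/-- If `a = z + z⁻¹` then `a³ - 3 a = z³ + z⁻³`. -/
theorem add_inv_cube (z : ℂˣ) :
    ((z : ℂ) + (z : ℂ)⁻¹) ^ 3 - 3 * ((z : ℂ) + (z : ℂ)⁻¹) = (z : ℂ) ^ 3 + ((z : ℂ) ^ 3)⁻¹ := by
  have := mul_inv_cancel₀ z.ne_zero
  rw [← inv_pow]
  linear_combination 3 * ((z : ℂ) + (z : ℂ)⁻¹) * this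

/-- Multiplying the positions by `k` substitutes the `k`-th power. -/
theorem evalAt_mapDomain_mulLeft (z : ℂˣ) (k : ℕ) (p : LaurentPolynomial ℂ) :
    evalAt z (mapDomainRingHom ℂ (AddMonoidHom.mulLeft (k : ℤ)) p) = evalAt (z ^ k) p := by
  induction p using AddMonoidAlgebra.induction_linear with
  | zero => simp
  | add p q hp hq => simp only [map_add, hp, hq]
  | single n c =>
    rw [mapDomainRingHom_apply, mapDomain_single, evalAt_single, evalAt_single,
      AddMonoidHom.coe_mulLeft, Units.val_pow_eq_pow_val, ← zpow_natCast, ← zpow_mul]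

theorem sphEval_sphericalBC {q : ℕ} (hq : q ≠ 0) (f : ℕ →₀ ℂ) (a : ℂ) :
    sphEval q a (sphericalBC q f) = sphEval (q ^ 3) (a ^ 3 - 3 * a) f := by
  obtain ⟨z, rfl⟩ := exists_add_inv_eq a
  rw [add_inv_cube, sphEval, sphEval]
  set M := Tree.spBound f
  rw [Tree.sum_sphereEigen hq z.ne_zero _
      (N := max (Tree.spBound (sphericalBC q f)) (3 * M)) (le_max_left _ _),
    Tree.sum_sphereEigen (pow_ne_zero 3 hq) (pow_ne_zero 3 z.ne_zero) f (N := M) le_rfl]
  rw [← Finset.sum_subset (Finset.range_mono (le_max_right _ _)) fun n _ hn => ?_,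
    Tree.sum_triple _ 0 (by norm_num) fun j hj => ?_]
  · refine Finset.sum_congr rfl fun i _ => ?_
    rw [add_zero, Tree.satake_sphericalBC hq, if_pos (dvd_mul_right 3 i),
      Nat.mul_div_cancel_left i (by norm_num)]
    rcases i.eq_zero_or_pos with rfl | hi
    · simp [Tree.charPow]
    · simp only [Tree.charPow, if_neg hi.ne', if_neg (show 3 * i ≠ 0 by omega), ← pow_mul, inv_pow]
  · rw [Tree.satake_sphericalBC hq, if_neg (fun h => hj (Nat.mod_eq_zero_of_dvd h)), zero_mul]
  · rw [Finset.mem_range, not_lt] at hn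
    rw [Tree.satake_sphericalBC hq]
    split_ifs with h3
    · rw [Tree.satake_eq_zero _ f (show M ≤ n / 3 by omega), zero_mul]
    · rw [zero_mul]

/-- Multiplication of positions by three. -/
def tripleHom : ℤ →+ ℤ := AddMonoidHom.mulLeft 3

theorem satakePoly_sphericalBC {q : ℕ} (hq : q ≠ 0) (f : ℕ →₀ ℂ) :
    satakePoly q (sphericalBC q f) =
      mapDomainRingHom ℂ tripleHom (satakePoly (q ^ 3) f) := by
  refine satakePoly_eq_of_eval hq fun z => ?_
  rw [sphEval_sphericalBC hq, add_inv_cube, ← Units.val_pow_eq_pow_val,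
    ← evalAt_satakePoly (pow_ne_zero 3 hq)]
  exact (evalAt_mapDomain_mulLeft z 3 _).symm

end Fermat.Agent.ResidualThree
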