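import Fermat.Agent.ResidualThree.Automorphic.Sphere
import Fermat.Agent.ResidualThree.Automorphic.TreeGeom
import Fermat.Agent.ResidualThree.CubicDescent.PushSatake
import Fermat.Agent.ResidualThree.CubicDescent.Spectral.KernelAlg
import Fermat.Agent.ResidualThree.Kernel.Conv

/-!
# The good algebra is multiplicative

The product of two spherical functions of the distance is their convolution on the tree; the product
of two data has the kernel of the composition of their monomials.
-/

noncomputable section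

open IsDedekindDomain NumberField MeasureTheory
open scoped WithZero

namespace Fermat.Agent.ResidualThree

/-! ### Products of spherical functions -/

/-- The product of two spherical functions: the function with the product of the transforms. -/
def sphMul (Q : ℕ) (f g : ℕ →₀ ℂ) : ℕ →₀ ℂ :=
  invSatake Q ((satakePoly Q f * satakePoly Q g).coeff.comapDomain ((↑) : ℕ → ℤ)
    Nat.cast_injective.injOn)

theorem invert_satakePoly (Q : ℕ) (f : ℕ →₀ ℂ) :
    LaurentPolynomial.invert (satakePoly Q f) = satakePoly Q f := by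
  ext n
  rw [LaurentPolynomial.invert_apply, coeff_satakePoly, coeff_satakePoly, satakeInt_neg]

/-- The transform of a product is the product of the transforms. -/
theorem satakePoly_sphMul {Q : ℕ} (hQ : Q ≠ 0) (f g : ℕ →₀ ℂ) :
    satakePoly Q (sphMul Q f g) = satakePoly Q f * satakePoly Q g := by
  have hsym : LaurentPolynomial.invert (satakePoly Q f * satakePoly Q g) =
      satakePoly Q f * satakePoly Q g := by
    rw [map_mul, invert_satakePoly, invert_satakePoly]
  ext n
  rw [coeff_satakePoly, satakeInt, sphMul, Tree.satake_invSatake hQ, Finsupp.comapDomain_apply]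
  rcases Int.natAbs_eq n with h | h
  · rw [← h]
  · conv_rhs => rw [← hsym, LaurentPolynomial.invert_apply]
    congr 1
    omega

/-- The eigenvalue of a product is the product of the eigenvalues. -/
theorem sphEval_sphMul {Q : ℕ} (hQ : Q ≠ 0) (f g : ℕ →₀ ℂ) (a : ℂ) :
    sphEval Q a (sphMul Q f g) = sphEval Q a f * sphEval Q a g := by
  obtain ⟨z, rfl⟩ := exists_add_inv_eq a
  rw [← evalAt_satakePoly hQ, ← evalAt_satakePoly hQ, ← evalAt_satakePoly hQ,
    satakePoly_sphMul hQ, map_mul]

theorem satakePoly_sphUnit {Q : ℕ} (hQ : Q ≠ 0) :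
    satakePoly Q (Finsupp.single 0 1) = 1 :=
  satakePoly_eq_of_eval hQ fun z => by rw [sphEval_single_zero, map_one]

/-- A spherical function is determined by its transform. -/
theorem eq_of_satakePoly {Q : ℕ} (hQ : Q ≠ 0) {f g : ℕ →₀ ℂ}
    (h : satakePoly Q f = satakePoly Q g) : f = g := by
  have hs : ∀ n : ℕ, satake Q f n = satake Q g n := fun n => by
    have := congrArg (fun p : LaurentPolynomial ℂ => p.coeff (n : ℤ)) h
    simpa only [coeff_satakePoly, satakeInt, Int.natAbs_natCast] using this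
  set N := max (Tree.spBound f) (Tree.spBound g)
  ext n
  have e1 := Tree.satake_eq Q f n
  have e2 := Tree.satake_eq Q g n
  have ht : Tree.satakeTail Q f n = Tree.satakeTail Q g n := by
    rw [Tree.satakeTail_eq_geomTail Q f (le_max_left _ _ : _ ≤ N),
      Tree.satakeTail_eq_geomTail Q g (le_max_right _ _ : _ ≤ N), funext hs]
  refine mul_left_cancel₀ (pow_ne_zero n (Tree.csqrtN_ne_zero hQ)) ?_
  linear_combination hs n - e1 + e2 - (1 - 1 / (Q : ℂ)) * ht

/-- A spherical function is determined by its eigenvalues. -/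
theorem eq_of_sphEval {Q : ℕ} (hQ : Q ≠ 0) {f g : ℕ →₀ ℂ}
    (h : ∀ a, sphEval Q a f = sphEval Q a g) : f = g :=
  eq_of_satakePoly hQ (eq_of_forall_evalAt fun z => by
    rw [evalAt_satakePoly hQ, evalAt_satakePoly hQ, h])

/-- The point mass at the centre is a left unit. -/
theorem sphMul_single_zero {Q : ℕ} (hQ : Q ≠ 0) (f : ℕ →₀ ℂ) :
    sphMul Q (Finsupp.single 0 1) f = f :=
  eq_of_sphEval hQ fun a => by rw [sphEval_sphMul hQ, sphEval_single_zero, one_mul]

/-- The point mass at the centre is a right unit. -/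
theorem sphMul_single_zero_right {Q : ℕ} (hQ : Q ≠ 0) (f : ℕ →₀ ℂ) :
    sphMul Q f (Finsupp.single 0 1) = f :=
  eq_of_sphEval hQ fun a => by rw [sphEval_sphMul hQ, sphEval_single_zero, mul_one]

/-! ### Convolution on a tree -/

namespace Tree.IsRegTree

variable {V : Type*} {d : V → V → ℕ} {Q : ℕ} (h : IsRegTree d Q)
include h

open Classical in
/-- The points whose distance from `p` is in the support of `f`. -/
def suppBall (p : V) (f : ℕ →₀ ℂ) : Finset V := f.support.biUnion fun n => h.sphere p n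

theorem mem_suppBall {p x : V} {f : ℕ →₀ ℂ} : x ∈ h.suppBall p f ↔ f (d p x) ≠ 0 := by
  classical
  simp [suppBall, h.mem_sphere]

theorem exists_dist_eq (hQ : Q ≠ 0) (o : V) : ∀ n, ∃ x, d o x = n
  | 0 => ⟨o, h.dist_self o⟩
  | n + 1 => by
    obtain ⟨x, hx⟩ := exists_dist_eq hQ o n
    obtain ⟨y, -, hy⟩ := h.exists_child hQ o x
    exact ⟨y, by omega⟩

/-- A radial eigenfunction of the neighbour sum. -/
theorem exists_eigenfunction (hQ : Q ≠ 0) (o : V) (a : ℂ) :
    ∃ φ : V → ℂ, φ o = 1 ∧ ∀ x, ∑ y ∈ h.nbhd x, φ y = (csqrtN Q * a) • φ x := by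
  classical
  set c : ℕ → ℂ := fun n => if n = 0 then 1 else ((Q : ℂ) + 1) * (Q : ℂ) ^ (n - 1) with hc
  set E := sphereEigen Q a with hE
  have hQ' : (Q : ℂ) ≠ 0 := Nat.cast_ne_zero.mpr hQ
  have hQ1 : (Q : ℂ) + 1 ≠ 0 := by exact_mod_cast Nat.succ_ne_zero Q
  refine ⟨fun y => E (d o y) / c (d o y), by simp [h.dist_self, hc, hE, sphereEigen], fun x => ?_⟩
  simp only [smul_eq_mul]
  rcases eq_or_ne x o with rfl | hne
  · rw [Finset.sum_congr rfl (g := fun _ => E 1 / c 1) fun y hy => by
      rw [h.mem_nbhd] at hy; rw [hy], Finset.sum_const, h.card_nbhd', nsmul_eq_mul, h.dist_self]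
    simp only [hc, hE, sphereEigen, if_true, if_false, one_ne_zero]
    push_cast
    field_simp
  obtain ⟨t1, t2⟩ := h.dist_toward hne
  have ht : h.toward o x ∈ h.nbhd x := h.mem_nbhd.mpr t1
  rw [← Finset.add_sum_erase _ _ ht,
    Finset.sum_congr rfl (g := fun _ => E (d o x + 1) / c (d o x + 1)) fun y hy => by
      rw [Finset.mem_erase, h.mem_nbhd] at hy
      rw [h.dist_of_ne_toward hne hy.2 hy.1], Finset.sum_const, Finset.card_erase_of_mem ht,
    h.card_nbhd', Nat.add_sub_cancel, nsmul_eq_mul]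
  obtain ⟨m, hm⟩ : ∃ m, d o x = m + 1 := ⟨d o x - 1, by omega⟩
  rw [show d o (h.toward o x) = m by omega, hm]
  rcases m with _ | m
  · simp only [hc, hE, sphereEigen, if_true, if_false, Nat.add_eq_zero_iff, one_ne_zero, and_false,
      zero_add, Nat.add_sub_cancel, Nat.sub_self, pow_zero, pow_one]
    field_simp
    ring
  · simp only [hc, hE, sphereEigen, if_false, Nat.succ_ne_zero, Nat.add_sub_cancel, pow_succ]
    field_simp
    ring

/-- Radial sums against an eigenfunction. -/
theorem sum_suppBall (φ : V → ℂ) (a : ℂ) (hφ : ∀ x, ∑ y ∈ h.nbhd x, φ y = (csqrtN Q * a) • φ x)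
    (f : ℕ →₀ ℂ) (p : V) {S : Finset V} (hS : h.suppBall p f ⊆ S) :
    ∑ x ∈ S, f (d p x) * φ x = sphEval Q a f * φ p := by
  classical
  rw [← Finset.sum_subset hS fun x _ hx => by
    rw [h.mem_suppBall, not_not] at hx; rw [hx, zero_mul], suppBall,
    Finset.sum_biUnion fun m _ n _ hne => Finset.disjoint_left.mpr fun x hx hx' =>
      hne ((h.mem_sphere.mp hx).symm.trans (h.mem_sphere.mp hx')), sphEval, Finsupp.sum,
    Finset.sum_mul]
  refine Finset.sum_congr rfl fun n _ => ?_
  rw [Finset.sum_congr rfl (g := fun x => f n * φ x) fun x hx => by rw [h.mem_sphere.mp hx],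
    ← Finset.mul_sum, h.sum_sphere φ a hφ p n, smul_eq_mul, mul_assoc]

/-- The convolution of two functions of the distance is their product. -/
theorem sum_conv (hQ : Q ≠ 0)
    (hom : ∀ x y x' y' : V, d x y = d x' y' →
      ∃ T : V ≃ V, (∀ p q, d (T p) (T q) = d p q) ∧ T x = x' ∧ T y = y')
    (o : V) (f g : ℕ →₀ ℂ) (x : V) :
    ∑ y ∈ h.suppBall o f, f (d o y) * g (d y x) = sphMul Q f g (d o x) := by
  classical
  set C : V → ℂ := fun x => ∑ y ∈ h.suppBall o f, f (d o y) * g (d y x) with hC
  have hrad : ∀ x x', d o x = d o x' → C x = C x' := by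
    intro x x' e
    obtain ⟨T, hT, hTo, hTx⟩ := hom o x o x' e
    refine Finset.sum_equiv T (fun y => ?_) fun y _ => ?_
    · rw [h.mem_suppBall, h.mem_suppBall, ← hT o y, hTo]
    · rw [← hT o y, hTo, ← hT y x, hTx]
  choose pt hpt using h.exists_dist_eq hQ o
  set S : Finset V := (h.suppBall o f).biUnion fun y => h.suppBall y g with hS
  have hCS : ∀ x, C x ≠ 0 → x ∈ S := fun x hx => by
    obtain ⟨y, hy, hne⟩ := Finset.exists_ne_zero_of_sum_ne_zero hx
    exact Finset.mem_biUnion.mpr ⟨y, hy, h.mem_suppBall.mpr (right_ne_zero_of_mul hne)⟩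
  set k : ℕ →₀ ℂ := Finsupp.onFinset (S.image (d o)) (fun n => C (pt n)) fun n hn =>
    Finset.mem_image.mpr ⟨pt n, hCS _ hn, hpt n⟩ with hk
  have hkC : ∀ x, k (d o x) = C x := fun x => by
    rw [hk, Finsupp.onFinset_apply]
    exact hrad _ _ (hpt _)
  suffices hkeq : k = sphMul Q f g by rw [← hkeq, hkC]
  refine eq_of_sphEval hQ fun a => ?_
  obtain ⟨φ, hφo, hφ⟩ := h.exists_eigenfunction hQ o a
  rw [sphEval_sphMul hQ]
  have hk1 : ∑ x ∈ S, k (d o x) * φ x = sphEval Q a k * φ o := h.sum_suppBall φ a hφ k o fun x hx =>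
    hCS x (hkC x ▸ h.mem_suppBall.mp hx)
  rw [hφo, mul_one] at hk1
  rw [← hk1]
  have hk2 := h.sum_suppBall φ a hφ f o (subset_refl _)
  rw [hφo, mul_one] at hk2
  rw [← hk2, Finset.sum_mul]
  calc ∑ x ∈ S, k (d o x) * φ x
      = ∑ x ∈ S, ∑ y ∈ h.suppBall o f, f (d o y) * (g (d y x) * φ x) :=
        Finset.sum_congr rfl fun x _ => by
          rw [hkC, hC, Finset.sum_mul]
          exact Finset.sum_congr rfl fun y _ => by ring
    _ = ∑ y ∈ h.suppBall o f, f (d o y) * ∑ x ∈ S, g (d y x) * φ x := by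
        rw [Finset.sum_comm]
        simp only [Finset.mul_sum]
    _ = _ := Finset.sum_congr rfl fun y hy => by
        rw [h.sum_suppBall φ a hφ g y
          (Finset.subset_biUnion_of_mem (fun y => h.suppBall y g) hy)]
        ring

end Tree.IsRegTree

variable {F : Type} [Field F] [NumberField F]

/-- The convolution of two spherical functions at a place. -/
theorem finsum_cartan_mul (v : FPlace F) (f g : ℕ →₀ ℂ) (x : GLv v) :
    ∑ᶠ y : GLv v ⧸ maxSubgroup v,
        f (cartan (valv v) y.out) * g (cartan (valv v) (y.out⁻¹ * x)) =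
      sphMul (Ideal.absNorm v.asIdeal) f g (cartan (valv v) x) := by
  obtain ⟨p, hp⟩ := exists_unif_units v
  have h := placeTree v
  have key := h.sum_conv (absNorm_fplace_ne_zero v) (fun a b a' b' e => by
      obtain ⟨γ, h1, h2⟩ := Tree.exists_smul_pair hp e
      exact ⟨MulAction.toPerm γ, fun _ _ => Tree.vdist_smul γ _ _, h1, h2⟩)
    (baseVert v) f g (QuotientGroup.mk x)
  rw [show Tree.vdist (baseVert v) (QuotientGroup.mk x : Tree.Vert (valv v)) = cartan (valv v) x by
    rw [baseVert, Tree.vdist_mk, inv_one, one_mul]] at key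
  rw [← key]
  refine (finsum_eq_sum_of_support_subset (α := Tree.Vert (valv v))
    (fun y => f (cartan (valv v) y.out) * g (cartan (valv v) (y.out⁻¹ * x)))
    (s := h.suppBall (baseVert v) f) fun y hy => ?_).trans (Finset.sum_congr rfl fun y _ => ?_)
  · rw [Finset.mem_coe, h.mem_suppBall, vdist_baseVert_out]
    exact left_ne_zero_of_mul hy
  · rw [vdist_baseVert_out, ← Tree.vdist_mk, QuotientGroup.out_eq']

/-! ### Composition of the radial kernels -/

/-- Composition of the kernels of two test functions is the kernel of their convolution. -/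
theorem compKernel_sphKernel {g g' : ℝ → ℂ} (hg : IsSphTest g) (hg' : IsSphTest g') {c : ℝ}
    (hc : 1 ≤ c) :
    H3.compKernel (sphKernel g) (sphKernel g') c = sphKernel (convR g g') c :=
  (sphKernel_conv hg hg' hc).symm

/-! ### Products of data -/

/-- The product of two data. -/
def GoodDatum.mul (d d' : GoodDatum F) : GoodDatum F where
  loc v := sphMul (Ideal.absNorm v.asIdeal) (d.loc v) (d'.loc v)
  unit := by
    filter_upwards [d.unit, d'.unit] with v h h'
    rw [h, h', sphMul_single_zero (absNorm_fplace_ne_zero v)]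
  g w := convR (d.g w) (d'.g w)
  test w := (d.test w).conv (d'.test w)

/-! ### Products of local families -/

namespace Orbital

variable {U : Level F} {f g : ∀ v : FPlace F, GLv v → ℂ}

/-- Unit functions convolve to one on the maximal subgroup. -/
theorem finsum_conv_eq_one
    {v : FPlace F} (hJ : U.J v = maxSubgroup v) (h1 : f v = unitFun v) (h2 : g v = unitFun v)
    {x : GLv v} (hx : x ∈ maxSubgroup v) :
    ∑ᶠ q : GLv v ⧸ U.J v, f v q.out * g v (q.out⁻¹ * x) = 1 := by
  rw [finsum_eq_single _ (QuotientGroup.mk 1) fun q hq => ?_]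
  · obtain ⟨j, hj⟩ := QuotientGroup.mk_out_eq_mul (U.J v) 1
    have hjm : (j : GLv v) ∈ maxSubgroup v := U.le_max v j.2
    rw [hj, one_mul, h1, h2, unitFun, unitFun, if_pos hjm, if_pos (mul_mem (inv_mem hjm) hx),
      mul_one]
  · refine mul_eq_zero_of_left ?_ _
    rw [h1, unitFun, if_neg]
    intro hm
    refine hq ?_
    rw [← QuotientGroup.out_eq' q, QuotientGroup.eq, mul_one, inv_mem_iff]
    exact (SetLike.ext_iff.mp hJ _).mpr hm

/-- A sum over cosets of a product of local functions is the product of the local sums. -/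
theorem IsLocalFamily.tsum_globalFun_mul (hf : IsLocalFamily U f) (hg : IsLocalFamily U g)
    (x : Gf F) :
    ∑' y : Ωf U, globalFun f y.out * globalFun g (y.out⁻¹ * x) =
      ∏ᶠ v, ∑ᶠ q : GLv v ⧸ U.J v, f v q.out * g v (q.out⁻¹ * (x : ∀ v, GLv v) v) := by
  classical
  have hev : ∀ᶠ v in Filter.cofinite, (U.J v = maxSubgroup v ∧ f v = unitFun v) ∧
      g v = unitFun v ∧ (x : ∀ v, GLv v) v ∈ maxSubgroup v := by
    filter_upwards [hf.unit, hg.unit, x.2] with v h h' hx
    exact ⟨h, h'.2, hx⟩
  set S := (Filter.eventually_cofinite.mp hev).toFinset with hS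
  have hout : ∀ v ∉ S, (U.J v = maxSubgroup v ∧ f v = unitFun v) ∧
      g v = unitFun v ∧ (x : ∀ v, GLv v) v ∈ maxSubgroup v := fun v hv => by
    simp only [hS, Set.Finite.mem_toFinset, Set.mem_ofPred_eq, not_not] at hv
    exact hv
  set A : ∀ v, Finset (GLv v ⧸ U.J v) := fun v => (hf.fin v).toFinset with hA
  -- the coset with given components
  let pt : (∀ v ∈ S, GLv v ⧸ U.J v) → Gf F := fun c =>
    ⟨fun v => if hv : v ∈ S then (c v hv).out else 1, by
      show ∀ᶠ v in Filter.cofinite, _ ∈ maxSubgroup v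
      filter_upwards [S.finite_toSet.compl_mem_cofinite] with v hv
      rw [dif_neg (by simpa using hv)]
      exact one_mem _⟩
  have hq1 : ∀ (c) (v) (hv : v ∈ S), qAt ((pt c : Gf F) : Ωf U) v = c v hv := fun c v hv => by
    rw [qAt_mk]
    show QuotientGroup.mk (if hv : v ∈ S then (c v hv).out else 1) = _
    rw [dif_pos hv, QuotientGroup.out_eq']
  have hq2 : ∀ (c) (v), v ∉ S → qAt ((pt c : Gf F) : Ωf U) v = QuotientGroup.mk 1 :=
    fun c v hv => by
      rw [qAt_mk]
      show QuotientGroup.mk (if hv : v ∈ S then (c v hv).out else 1) = _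
      rw [dif_neg hv]
  have hzero : ∀ y : Ωf U, globalFun f y.out ≠ 0 →
      y ∈ (S.pi A).image (fun c => ((pt c : Gf F) : Ωf U)) := by
    intro y hy
    refine Finset.mem_image.mpr ⟨fun v _ => qAt y v, Finset.mem_pi.mpr fun v _ => ?_,
      qAt_ext fun v => ?_⟩
    · rw [hA, Set.Finite.mem_toFinset, Set.mem_ofPred_eq, qAt, hf.apply_out]
      exact hf.globalFun_ne_zero hy v
    · by_cases hv : v ∈ S
      · rw [hq1 _ v hv]
      · rw [hq2 _ v hv, qAt, eq_comm, QuotientGroup.eq, mul_one, inv_mem_iff, (hout v hv).1.1]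
        by_contra hc
        exact hf.globalFun_ne_zero hy v (by rw [(hout v hv).1.2, unitFun, if_neg hc])
  rw [tsum_eq_sum (s := (S.pi A).image fun c => ((pt c : Gf F) : Ωf U)) fun y hy => by
      rw [not_ne_iff.mp fun h => hy (hzero y h), zero_mul],
    Finset.sum_image fun c _ c' _ e => funext fun v => funext fun hv => by
      rw [← hq1 c v hv, ← hq1 c' v hv, show ((pt c : Gf F) : Ωf U) = (pt c' : Gf F) from e],
    finprod_eq_prod_of_mulSupport_subset _ (s := S) (fun v hv => ?_), Finset.prod_congr rfl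
      (g := fun v => ∑ q ∈ A v, f v q.out * g v (q.out⁻¹ * (x : ∀ v, GLv v) v)) fun v _ =>
      finsum_eq_sum_of_support_subset _ fun q hq => by
        rw [hA, Set.Finite.coe_toFinset]
        exact left_ne_zero_of_mul hq,
    Finset.prod_sum]
  · refine Finset.sum_congr rfl fun c _ => ?_
    obtain ⟨j, hj⟩ := QuotientGroup.mk_out_eq_mul U.group (pt c)
    have hF : globalFun f ((pt c : Gf F) : Ωf U).out = globalFun f (pt c) := by
      rw [hj]
      simpa using hf.globalFun_biinv (one_mem _) j.2 (pt c)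
    have hG : globalFun g (((pt c : Gf F) : Ωf U).out⁻¹ * x) = globalFun g ((pt c)⁻¹ * x) := by
      rw [hj]
      simpa [mul_assoc] using hg.globalFun_biinv (inv_mem j.2) (one_mem _) ((pt c)⁻¹ * x)
    have hF' : globalFun f (pt c) = ∏ v ∈ S, f v ((pt c : ∀ v, GLv v) v) :=
      finprod_eq_prod_of_mulSupport_subset _ fun v hv => by
        by_contra hv'
        rw [Finset.mem_coe] at hv'
        refine hv ?_
        show f v (if h : v ∈ S then (c v h).out else 1) = 1
        rw [dif_neg hv', (hout v hv').1.2, unitFun, if_pos (one_mem _)]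
    have hG' : globalFun g ((pt c)⁻¹ * x) =
        ∏ v ∈ S, g v (((pt c : ∀ v, GLv v) v)⁻¹ * (x : ∀ v, GLv v) v) :=
      finprod_eq_prod_of_mulSupport_subset _ fun v hv => by
        by_contra hv'
        rw [Finset.mem_coe] at hv'
        refine hv ?_
        show g v ((if h : v ∈ S then (c v h).out else 1)⁻¹ * (x : ∀ v, GLv v) v) = 1
        rw [dif_neg hv', inv_one, one_mul, (hout v hv').2.1, unitFun, if_pos (hout v hv').2.2]
    rw [hF, hG, hF', hG', ← Finset.prod_mul_distrib, ← Finset.prod_attach]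
    refine Finset.prod_congr rfl fun v _ => ?_
    show f v.1 (if h : v.1 ∈ S then (c v.1 h).out else 1) *
      g v.1 ((if h : v.1 ∈ S then (c v.1 h).out else 1)⁻¹ * _) = _
    rw [dif_pos v.2]
  · by_contra hv'
    rw [Finset.mem_coe] at hv'
    obtain ⟨⟨hJ, h1⟩, h2, hx⟩ := hout v hv'
    exact hv (finsum_conv_eq_one hJ h1 h2 hx)

end Orbital

/-! ### Compositions of monomials -/

variable {U : Level F}

theorem prodMono_congr {f f' : ∀ v : FPlace F, GLv v → ℂ} (hf : Orbital.IsLocalFamily U f)
    (hf' : Orbital.IsLocalFamily U f') (e : f = f') {g : InfinitePlace F → ℝ → ℂ}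
    (hg : ∀ w, IsSphTest (g w)) : prodMono hf g hg = prodMono hf' g hg := by
  subst e; rfl

/-- The kernel of a composition depends only on the kernels. -/
theorem kernel_conv_congr {f f' g g' : TestMonomial U} (hf : ∀ s t, f.kernel s t = f'.kernel s t)
    (hg : ∀ s t, g.kernel s t = g'.kernel s t) (s t : Spc U) :
    (f.conv g).kernel s t = (f'.conv g').kernel s t := by
  rw [← TestMonomial.integral_kernel_mul_kernel, ← TestMonomial.integral_kernel_mul_kernel]
  simp only [hf, hg]

/-- The composition of two products of local functions. -/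
theorem kernel_conv_prodMono {f g h : ∀ v : FPlace F, GLv v → ℂ} (hf : Orbital.IsLocalFamily U f)
    (hg : Orbital.IsLocalFamily U g) (hh : Orbital.IsLocalFamily U h)
    (heq : ∀ v x, ∑ᶠ q : GLv v ⧸ U.J v, f v q.out * g v (q.out⁻¹ * x) = h v x)
    {k k' : InfinitePlace F → ℝ → ℂ} (hk : ∀ w, IsSphTest (k w)) (hk' : ∀ w, IsSphTest (k' w))
    (s t : Spc U) :
    ((prodMono hf k hk).conv (prodMono hg k' hk')).kernel s t =
      (prodMono hh (fun w => convR (k w) (k' w)) fun w => (hk w).conv (hk' w)).kernel s t := by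
  simp only [TestMonomial.kernel]
  refine congrArg₂ (· * ·) ((hf.tsum_globalFun_mul hg _).trans (finprod_congr fun v => heq v _))
    (Finset.prod_congr rfl fun w _ => ?_)
  exact compKernel_sphKernel (hk w) (hk' w) (H3.one_le_coshDist _ _)

theorem levelFun_biinv (U : Level F) (Bad : Finset (FPlace F)) :
    ∀ v ∈ Bad, ∀ j₁ ∈ U.J v, ∀ j₂ ∈ U.J v, ∀ x, levelFun U v (j₁ * x * j₂) = levelFun U v x :=
  fun v _ j₁ h₁ j₂ h₂ x => by
    classical
    exact if_congr
      (by rw [Subgroup.mul_mem_cancel_right _ h₂, Subgroup.mul_mem_cancel_left _ h₁]) rfl rfl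

theorem levelFun_finite (U : Level F) (Bad : Finset (FPlace F)) :
    ∀ v ∈ Bad, {q : GLv v ⧸ U.J v | levelFun U v q.out ≠ 0}.Finite := fun v _ =>
  (Set.finite_singleton (QuotientGroup.mk 1 : GLv v ⧸ U.J v)).subset fun q hq => by
    classical
    rw [Set.mem_singleton_iff, ← QuotientGroup.out_eq' q, eq_comm, QuotientGroup.eq, inv_one,
      one_mul]
    by_contra h
    exact hq (if_neg h)

/-- The indicator of the level is a unit for bi-invariant functions. -/
theorem finsum_levelFun_mul {v : FPlace F} {f : GLv v → ℂ}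
    (hf : ∀ j₁ ∈ U.J v, ∀ j₂ ∈ U.J v, ∀ x, f (j₁ * x * j₂) = f x) (x : GLv v) :
    ∑ᶠ q : GLv v ⧸ U.J v, levelFun U v q.out * f (q.out⁻¹ * x) = f x := by
  classical
  rw [finsum_eq_single _ (QuotientGroup.mk 1) fun q hq => ?_]
  · obtain ⟨j, hj⟩ := QuotientGroup.mk_out_eq_mul (U.J v) 1
    rw [hj, one_mul, levelFun, if_pos j.2, one_mul]
    simpa using hf (j : GLv v)⁻¹ (inv_mem j.2) 1 (one_mem _) x
  · refine mul_eq_zero_of_left (if_neg fun hm => hq ?_) _
    rw [← QuotientGroup.out_eq' q, QuotientGroup.eq, mul_one, inv_mem_iff]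
    exact hm

/-- The local sum of two spherical functions at a place of maximal level. -/
theorem finsum_cartan_mul_level {v : FPlace F} (hJ : U.J v = maxSubgroup v) (f g : ℕ →₀ ℂ)
    (x : GLv v) :
    ∑ᶠ q : GLv v ⧸ U.J v, f (cartan (valv v) q.out) * g (cartan (valv v) (q.out⁻¹ * x)) =
      sphMul (Ideal.absNorm v.asIdeal) f g (cartan (valv v) x) := by
  rw [hJ]
  exact finsum_cartan_mul v f g x

variable {Bad : Finset (FPlace F)} (hU : ∀ v ∉ Bad, U.J v = maxSubgroup v)

theorem GoodDatum.mono_eq_monoWith (d : GoodDatum F) :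
    d.mono hU = d.monoWith hU (levelFun_biinv U Bad) (levelFun_finite U Bad) :=
  prodMono_congr _ _ rfl d.test

/-- The composition with a datum. -/
theorem GoodDatum.kernel_conv_monoWith (d d' : GoodDatum F) {fB : ∀ v : FPlace F, GLv v → ℂ}
    (hbi : ∀ v ∈ Bad, ∀ j₁ ∈ U.J v, ∀ j₂ ∈ U.J v, ∀ x, fB v (j₁ * x * j₂) = fB v x)
    (hfin : ∀ v ∈ Bad, {q : GLv v ⧸ U.J v | fB v q.out ≠ 0}.Finite) (s t : Spc U) :
    ((d.mono hU).conv (d'.monoWith hU hbi hfin)).kernel s t =
      ((d.mul d').monoWith hU hbi hfin).kernel s t := by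
  classical
  refine kernel_conv_prodMono (d.isLocalFamily hU) (d'.isLocalFamily_finWith hU hbi hfin)
    ((d.mul d').isLocalFamily_finWith hU hbi hfin) (fun v x => ?_) d.test d'.test s t
  by_cases hv : v ∈ Bad
  · simp only [GoodDatum.fin, GoodDatum.finWith, if_pos hv]
    exact finsum_levelFun_mul (hbi v hv) x
  · simp only [GoodDatum.fin, GoodDatum.finWith, if_neg hv]
    exact finsum_cartan_mul_level (hU v hv) _ _ x

/-- The composition of two data has the kernel of their product. -/
theorem GoodDatum.kernel_conv_mono (d d' : GoodDatum F) (s t : Spc U) :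
    ((d.mono hU).conv (d'.mono hU)).kernel s t = ((d.mul d').mono hU).kernel s t := by
  rw [d'.mono_eq_monoWith hU, (d.mul d').mono_eq_monoWith hU]
  exact d.kernel_conv_monoWith hU d' _ _ s t

/-- The kernel of `(E a) (E u)`. -/
theorem kernel_square (E : List (GoodDatum F)) (a u : GoodDatum F)
    {fB : ∀ v : FPlace F, GLv v → ℂ}
    (hbi : ∀ v ∈ Bad, ∀ j₁ ∈ U.J v, ∀ j₂ ∈ U.J v, ∀ x, fB v (j₁ * x * j₂) = fB v x)
    (hfin : ∀ v ∈ Bad, {q : GLv v ⧸ U.J v | fB v q.out ≠ 0}.Finite) (s t : Spc U) :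
    kernel (convFun (convFun (E.map fun d => d.mono hU) [a.mono hU])
        (convFun (E.map fun d => d.mono hU) [u.monoWith hU hbi hfin])) s t =
      kernel ((List.product E E).map fun p =>
        ((p.1.mul a).mul (p.2.mul u)).monoWith hU hbi hfin) s t := by
  have e : ∀ (G : TestFun U) (m : TestMonomial U), convFun G [m] = G.map fun x => x.conv m :=
    fun G m => by
      induction G with
      | nil => rfl
      | cons b G ih => rw [List.map_cons, ← ih]; rfl
  have key : ∀ d₁ d₂ : GoodDatum F,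
      (((d₁.mono hU).conv (a.mono hU)).conv ((d₂.mono hU).conv (u.monoWith hU hbi hfin))).kernel
          s t = (((d₁.mul a).mul (d₂.mul u)).monoWith hU hbi hfin).kernel s t := fun d₁ d₂ => by
    rw [kernel_conv_congr (fun s t => d₁.kernel_conv_mono hU a s t)
      (fun s t => d₂.kernel_conv_monoWith hU u hbi hfin s t)]
    exact (d₁.mul a).kernel_conv_monoWith hU (d₂.mul u) hbi hfin s t
  rw [e, e]
  simp only [kernel, convFun, List.product, List.flatMap_map, List.map_flatMap, List.map_map,
    Function.comp_def, key]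

end Fermat.Agent.ResidualThree
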