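import Mathlib.Analysis.Convolution
import Fermat.Agent.ResidualThree.CubicDescent.Push
import Fermat.Agent.ResidualThree.Spherical.Characters

/-!
# The push forward is multiplicative; supports of convolutions

Convolution of test functions is associative and commutative, so the push forward of a product of
data is the product of the push forwards. Convolutions with shifted functions vanish near the
origin.
-/

noncomputable section

open MeasureTheory NumberField IsDedekindDomain

namespace Fermat.Agent.ResidualThree

/-- Convolution of test functions is associative. -/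
theorem convR_assoc {f g h : ℝ → ℂ} (hf : IsSphTest f) (hg : IsSphTest g) (hh : IsSphTest h) :
    convR (convR f g) h = convR f (convR g h) := by
  funext x
  simp only [convR_eq_convolution]
  refine convolution_assoc (𝕜 := ℝ) _ _ _ _ (fun a b c => mul_assoc a b c)
    hf.continuous.aestronglyMeasurable hg.continuous.aestronglyMeasurable
    hh.continuous.aestronglyMeasurable (Filter.Eventually.of_forall fun y => ?_)
    (Filter.Eventually.of_forall fun y => ?_) ?_
  · exact hg.compact.convolutionExists_right _ hf.continuous.locallyIntegrable hg.continuous y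
  · exact (hh.compact.norm).convolutionExists_right _ hg.continuous.norm.locallyIntegrable
      hh.continuous.norm y
  · exact ((hg.compact.norm).convolution _ hh.compact.norm).convolutionExists_right _
      hf.continuous.norm.locallyIntegrable
      (hh.compact.norm.continuous_convolution_right _ hg.continuous.norm.locallyIntegrable
        hh.continuous.norm) x

/-- Regrouping four factors. -/
theorem convR_convR_comm {a b c e : ℝ → ℂ} (ha : IsSphTest a) (hb : IsSphTest b) (hc : IsSphTest c)
    (he : IsSphTest e) :
    convR (convR a b) (convR c e) = convR (convR a c) (convR b e) := by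
  rw [convR_assoc ha hb (hc.conv he), ← convR_assoc hb hc he, convR_comm b c,
    convR_assoc hc hb he, ← convR_assoc ha hc (hb.conv he)]

/-- The triple convolution is multiplicative. -/
theorem conv3_mul {f g : Fin 3 → ℝ → ℂ} (hf : ∀ i, IsSphTest (f i)) (hg : ∀ i, IsSphTest (g i)) :
    conv3 (fun i => convR (f i) (g i)) = convR (conv3 f) (conv3 g) := by
  rw [conv3, convR_convR_comm (hf 0) (hg 0) (hf 1) (hg 1),
    convR_convR_comm ((hf 0).conv (hf 1)) ((hg 0).conv (hg 1)) (hf 2) (hg 2)]
  rfl

/-- The values near the origin vanish. -/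
def VanishNear (f : ℝ → ℂ) (N : ℝ) : Prop := ∀ x, |x| < N → f x = 0

theorem exists_radius_of_isSphTest {g : ℝ → ℂ} (hg : IsSphTest g) :
    ∃ R : ℝ, 0 ≤ R ∧ ∀ x, R < |x| → g x = 0 := by
  obtain ⟨R, hR⟩ := hg.compact.isCompact.isBounded.exists_norm_le
  refine ⟨max R 0, le_max_right _ _, fun x hx => by_contra fun h => ?_⟩
  have := hR x (subset_tsupport g h)
  rw [Real.norm_eq_abs] at this
  linarith [le_max_left R 0]

theorem VanishNear.convR_left {f g : ℝ → ℂ} {N R : ℝ} (hf : VanishNear f N)
    (hg : ∀ x, R < |x| → g x = 0) : VanishNear (convR f g) (N - R) := by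
  intro x hx
  refine integral_eq_zero_of_ae (Filter.Eventually.of_forall fun t => ?_)
  show f t * g (x - t) = 0
  by_cases h : |t| < N
  · rw [hf t h, zero_mul]
  · rw [hg (x - t) (lt_of_lt_of_le (by linarith) (le_trans (abs_sub_abs_le_abs_sub t x)
      (le_of_eq (abs_sub_comm t x)))), mul_zero]

theorem VanishNear.convR_right {f g : ℝ → ℂ} {N R : ℝ} (hf : VanishNear f N)
    (hg : ∀ x, R < |x| → g x = 0) : VanishNear (convR g f) (N - R) := by
  rw [convR_comm]; exact hf.convR_left hg

theorem vanishNear_avgShift {g : ℝ → ℂ} {R : ℝ} (hg : ∀ x, R < |x| → g x = 0) (A : ℝ) :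
    VanishNear (avgShift A g) (|A| - R) := by
  intro x hx
  have h1 : g (x + A) = 0 := hg _ (by
    have := abs_sub_abs_le_abs_sub A (-x)
    rw [abs_neg, sub_neg_eq_add, add_comm A x] at this
    linarith)
  have h2 : g (x - A) = 0 := hg _ (by
    have := abs_sub_abs_le_abs_sub A x
    rw [abs_sub_comm A x] at this
    linarith)
  simp [avgShift, h1, h2]

theorem GoodDatum.ext' {F : Type} [Field F] [NumberField F] {d e : GoodDatum F}
    (h1 : d.loc = e.loc) (h2 : d.g = e.g) : d = e := by
  obtain ⟨dl, du, dg, dt⟩ := d
  obtain ⟨el, eu, eg, et⟩ := e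
  subst h1 h2
  rfl

variable {K L : Type} [Field K] [NumberField K] [Field L] [NumberField L] [Algebra K L]
  {τ : Orbital.CubicAut K L}

/-- The push forward is multiplicative at each place. -/
theorem pushLoc_mul (d e : GoodDatum L) (v : FPlace K) :
    pushLoc (d.mul e) v =
      sphMul (Ideal.absNorm v.asIdeal) (pushLoc d v) (pushLoc e v) := by
  refine eq_of_satakePoly (absNorm_fplace_ne_zero v) ?_
  rw [satakePoly_sphMul (absNorm_fplace_ne_zero v), satakePoly_pushLoc, satakePoly_pushLoc,
    satakePoly_pushLoc, fibPoly, fibPoly, fibPoly, ← Finset.prod_mul_distrib]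
  refine Finset.prod_congr rfl fun u _ => ?_
  rw [← map_mul]
  exact congrArg _ (satakePoly_sphMul (absNorm_fplace_ne_zero _) _ _)

/-- The push forward of a product. -/
theorem GoodDatum.push_mul (A : Orbital.ArchFrame τ) (d e : GoodDatum L) :
    (d.mul e).push A = (d.push A).mul (e.push A) := by
  refine GoodDatum.ext' (funext fun v => ?_) (funext fun w => ?_)
  · simp only [GoodDatum.push, GoodDatum.mul]
    exact pushLoc_mul d e v
  · simp only [GoodDatum.push, GoodDatum.mul]
    exact conv3_mul (fun i => d.test (A.placeEquiv i)) fun i => e.test (A.placeEquiv i)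

end Fermat.Agent.ResidualThree
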