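import Fermat.Agent.ResidualThree.CubicDescent.SpectralStatement
import Fermat.Agent.ResidualThree.Kernel.Separation
import Fermat.Agent.ResidualThree.Orbital.APUnique
import Fermat.Agent.ResidualThree.Spherical.Characters

/-!
# Separation of eigenvalue systems

Point masses on systems killed by the good data with odd parity at a split triple and with far
archimedean support have equal sums over a system and its flip at the triple; infinitely many flips
force the sums to vanish.
-/

noncomputable section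

open IsDedekindDomain NumberField MeasureTheory
open scoped WithZero ComplexConjugate

namespace Fermat.Agent.ResidualThree

/-- Multiplication by the eigenvalue, on spherical functions. -/
theorem exists_mulEigen {Q : ℕ} (hQ : Q ≠ 0) (f : ℕ →₀ ℂ) :
    ∃ g : ℕ →₀ ℂ, (∀ a, sphEval Q a g = a * sphEval Q a f) ∧
      ∀ m ∈ g.support, ∃ n ∈ f.support, Odd (m + n) := by
  classical
  have hs := Tree.csqrtN_ne_zero hQ
  have hone : ∀ n, ∃ g : ℕ →₀ ℂ, (∀ a, sphEval Q a g = a * Tree.sphereEigen Q a n) ∧
      ∀ m ∈ g.support, Odd (m + n) := by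
    intro n
    have hsum : ∀ (i j : ℕ) (x y a : ℂ), sphEval Q a (Finsupp.single i x + Finsupp.single j y) =
        x * Tree.sphereEigen Q a i + y * Tree.sphereEigen Q a j := fun i j x y a => by
      rw [sphEval, Finsupp.sum_add_index' (by simp) (fun _ _ _ => by ring),
        Finsupp.sum_single_index (by simp), Finsupp.sum_single_index (by simp)]
    have hsupp : ∀ (i j : ℕ) (x y : ℂ), ∀ m ∈ (Finsupp.single i x + Finsupp.single j y).support,
        m = i ∨ m = j := fun i j x y m hm => by
      by_contra h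
      rw [not_or] at h
      rw [Finsupp.mem_support_iff, Finsupp.add_apply, Finsupp.single_eq_of_ne h.1,
        Finsupp.single_eq_of_ne h.2, add_zero] at hm
      exact hm rfl
    match n with
    | 0 =>
      refine ⟨Finsupp.single 1 (Tree.csqrtN Q)⁻¹, fun a => ?_, fun m hm => ?_⟩
      · rw [sphEval, Finsupp.sum_single_index (by simp), Tree.sphereEigen, Tree.sphereEigen,
          inv_mul_cancel_left₀ hs, mul_one]
      · rw [Finset.mem_singleton.1 (Finsupp.support_single_subset hm)]; exact odd_one
    | 1 =>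
      refine ⟨Finsupp.single 2 (Tree.csqrtN Q)⁻¹ +
        Finsupp.single 0 (((Q : ℂ) + 1) * (Tree.csqrtN Q)⁻¹), fun a => ?_, fun m hm => ?_⟩
      · rw [hsum, Tree.sphereEigen, Tree.sphereEigen, Tree.sphereEigen]
        field_simp
        ring
      · rcases hsupp _ _ _ _ m hm with rfl | rfl <;> decide
    | n + 2 =>
      refine ⟨Finsupp.single (n + 3) (Tree.csqrtN Q)⁻¹ +
        Finsupp.single (n + 1) ((Q : ℂ) * (Tree.csqrtN Q)⁻¹), fun a => ?_, fun m hm => ?_⟩
      · rw [hsum, Tree.sphereEigen]
        field_simp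
        ring
      · rcases hsupp _ _ _ _ m hm with rfl | rfl
        · exact ⟨n + 2, by ring⟩
        · exact ⟨n + 1, by ring⟩
  choose G hG hGs using hone
  refine ⟨f.sum fun n c => c • G n, fun a => ?_, fun m hm => ?_⟩
  · rw [sphEval, sphEval, Finsupp.sum_sum_index (by simp) (fun _ _ _ => by ring), Finsupp.mul_sum]
    refine Finsupp.sum_congr fun n _ => ?_
    rw [Finsupp.sum_smul_index' (by simp)]
    simp only [smul_eq_mul, mul_assoc]
    rw [← Finsupp.mul_sum, show (G n).sum (fun m c => c * Tree.sphereEigen Q a m) =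
      sphEval Q a (G n) from rfl, hG]
    ring
  · obtain ⟨n, hn, hm'⟩ := Finset.mem_biUnion.1 (Finsupp.support_sum hm)
    exact ⟨n, hn, hGs n m (Finsupp.support_smul hm')⟩

theorem exists_sphereEigen_bound (Q : ℕ) (B : ℝ) :
    ∀ n, ∃ C : ℝ, ∀ a : ℂ, ‖a‖ ≤ B → ‖Tree.sphereEigen Q a n‖ ≤ C := by
  intro n
  have hc : Continuous fun a => Tree.sphereEigen Q a n := by
    induction n using Nat.strong_induction_on with
    | _ n ih =>
      match n with
      | 0 => simpa [Tree.sphereEigen] using continuous_const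
      | 1 => simp only [Tree.sphereEigen]; fun_prop
      | 2 => simp only [Tree.sphereEigen]; fun_prop
      | n + 3 =>
        have h1 := ih (n + 2) (by omega)
        have h2 := ih (n + 1) (by omega)
        simp only [Tree.sphereEigen]
        fun_prop
  obtain ⟨C, hC⟩ := (isCompact_closedBall (0 : ℂ) B).exists_bound_of_continuousOn hc.continuousOn
  exact ⟨C, fun a ha => hC a (by simpa using ha)⟩

theorem exists_sphEval_bound (Q : ℕ) (B : ℝ) (f : ℕ →₀ ℂ) :
    ∃ C : ℝ, ∀ a : ℂ, ‖a‖ ≤ B → ‖sphEval Q a f‖ ≤ C := by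
  choose D hD using exists_sphereEigen_bound Q B
  refine ⟨∑ n ∈ f.support, ‖f n‖ * D n, fun a ha => (norm_sum_le _ _).trans
    (Finset.sum_le_sum fun n _ => ?_)⟩
  rw [norm_mul]
  exact mul_le_mul_of_nonneg_left (hD n a ha) (norm_nonneg _)

/-- The transform of a symmetrised shift. -/
theorem coshTransform_avgShift {g : ℝ → ℂ} (hg : IsSphTest g) (t : ℝ) (l : ℂ) :
    coshTransform (avgShift t g) l = Complex.cosh (l * t) * coshTransform g l := by
  have h1 : ∀ u : ℝ, ∫ s : ℝ, g (s + u) * Complex.cosh (l * s) =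
      Complex.cosh (l * u) * coshTransform g l := fun u => by
    rw [← integral_sub_right_eq_self (fun s : ℝ => g (s + u) * Complex.cosh (l * s)) u]
    simp only [sub_add_cancel, Complex.ofReal_sub, mul_sub, Complex.cosh_sub]
    rw [coshTransform, ← integral_const_mul,
      integral_sub (hg.integrable_mul (by fun_prop)) (hg.integrable_mul (by fun_prop))]
    simp only [← mul_assoc, integral_mul_const, integral_mul_sinh_eq_zero hg.even, zero_mul,
      sub_zero]
    rw [← integral_mul_const]
    refine integral_congr_ae (Filter.Eventually.of_forall fun s => ?_)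
    ring
  have h2 := h1 (-t)
  rw [Complex.ofReal_neg, mul_neg, Complex.cosh_neg] at h2
  simp only [← sub_eq_add_neg] at h2
  have i1 : Integrable fun s : ℝ => g (s + t) * Complex.cosh (l * s) :=
    ((hg.continuous.comp (continuous_id.add continuous_const)).mul
      (by fun_prop)).integrable_of_hasCompactSupport
      (hg.compact.comp_homeomorph (Homeomorph.addRight t)).mul_right
  have i2 : Integrable fun s : ℝ => g (s - t) * Complex.cosh (l * s) :=
    ((hg.continuous.comp (continuous_id.sub continuous_const)).mul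
      (by fun_prop)).integrable_of_hasCompactSupport
      (hg.compact.comp_homeomorph (Homeomorph.addRight (-t))).mul_right
  rw [coshTransform]
  simp only [avgShift, div_mul_eq_mul_div, integral_div, add_mul]
  rw [integral_add i1 i2, h1, h2]
  ring

/-- A real test function of total mass one. -/
theorem exists_sphTest_real :
    ∃ g : ℝ → ℂ, IsSphTest g ∧ coshTransform g 0 = 1 ∧ ∀ s, conj (g s) = g s := by
  let f : ContDiffBump (0 : ℝ) := ⟨1, 2, one_pos, one_lt_two⟩
  refine ⟨fun s => (f.normed volume s : ℂ), ⟨Complex.ofRealCLM.contDiff.comp f.contDiff_normed,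
    f.hasCompactSupport_normed.comp_left Complex.ofReal_zero,
    fun s => by rw [f.normed_neg]⟩, ?_, fun s => Complex.conj_ofReal _⟩
  simp only [coshTransform, zero_mul, Complex.cosh_zero, mul_one]
  rw [integral_complex_ofReal, f.integral_normed, Complex.ofReal_one]

/-- A predicate closed under combinations and under products with self-adjoint generators is
closed under products with the star subalgebra they generate. -/
theorem mul_mem_of_mem_adjoin {R ι : Type*} [CommRing R] [StarRing R] [Algebra ℂ R]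
    [StarModule ℂ R] (x : ι → R) (hstar : ∀ i, star (x i) = x i) (Good : R → Prop)
    (hx : ∀ i P, Good P → Good (x i * P))
    (hlin : ∀ (c : ℂ) P Q, Good P → Good Q → Good (c • P + Q)) (h0 : Good 0) {Q : R}
    (hQ : Q ∈ StarAlgebra.adjoin ℂ (Set.range x)) {P : R} (hP : Good P) : Good (Q * P) := by
  have hrange : star (Set.range x) = Set.range x := by
    ext z
    simp only [Set.mem_star, Set.mem_range]
    exact exists_congr fun i => by rw [← star_inj, star_star, hstar]
  rw [← StarSubalgebra.mem_toSubalgebra, StarAlgebra.adjoin_toSubalgebra, hrange,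
    Set.union_self] at hQ
  induction hQ using Algebra.adjoin_induction generalizing P with
  | mem z hz => obtain ⟨i, rfl⟩ := hz; exact hx i P hP
  | algebraMap c =>
    rw [Algebra.algebraMap_eq_smul_one, smul_mul_assoc, one_mul, ← add_zero (c • P)]
    exact hlin c P 0 hP h0
  | add y z _ _ ihy ihz =>
    rw [add_mul, ← one_smul ℂ (y * P)]
    exact hlin 1 _ _ (ihy hP) (ihz hP)
  | mul y z _ _ ihy ihz => rw [mul_assoc]; exact ihy (ihz hP)

variable {F : Type} [Field F] [NumberField F]

open Classical in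
/-- The finite part of the value of local data at eigenvalues. -/
def finEval (Bad : Finset (FPlace F)) (loc : FPlace F → (ℕ →₀ ℂ)) (a : FPlace F → ℂ) : ℂ :=
  ∏ᶠ v, if v ∈ Bad then 1 else sphEval (Ideal.absNorm v.asIdeal) (a v) (loc v)

/-- Odd total parity at the places of `r`. -/
def OddAt (r : Finset (FPlace F)) (loc : FPlace F → (ℕ →₀ ℂ)) : Prop :=
  ∀ n : FPlace F → ℕ, (∀ w ∈ r, loc w (n w) ≠ 0) → Odd (∑ w ∈ r, n w)

/-- Even total parity at the places of `r`. -/
def EvenAt (r : Finset (FPlace F)) (loc : FPlace F → (ℕ →₀ ℂ)) : Prop :=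
  ∀ n : FPlace F → ℕ, (∀ w ∈ r, loc w (n w) ≠ 0) → Even (∑ w ∈ r, n w)

open Classical in
/-- Multiplying the value by one eigenvalue. -/
theorem exists_mulEigen_loc (Bad : Finset (FPlace F)) {v : FPlace F} (hv : v ∉ Bad)
    (loc : FPlace F → (ℕ →₀ ℂ)) (hloc : ∀ᶠ w in Filter.cofinite, loc w = Finsupp.single 0 1) :
    ∃ loc' : FPlace F → (ℕ →₀ ℂ), (∀ᶠ w in Filter.cofinite, loc' w = Finsupp.single 0 1) ∧
      (∀ a, finEval Bad loc' a = a v * finEval Bad loc a) ∧
      ∀ r : Finset (FPlace F), (v ∉ r → (OddAt r loc → OddAt r loc')) ∧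
        (v ∈ r → (EvenAt r loc → OddAt r loc') ∧ (OddAt r loc → EvenAt r loc')) := by
  obtain ⟨g, hg, hgs⟩ := exists_mulEigen (absNorm_fplace_ne_zero v) (loc v)
  refine ⟨Function.update loc v g, ?_, fun a => ?_, fun r => ⟨fun hr h n hn => h n fun w hw => ?_,
    fun hr => ?_⟩⟩
  · filter_upwards [hloc, (Set.finite_singleton v).compl_mem_cofinite] with w hw hw'
    rw [Function.update_of_ne (by simpa using hw'), hw]
  · have hfin : {w | ¬ loc w = Finsupp.single 0 1}.Finite := Filter.eventually_cofinite.1 hloc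
    set T := insert v hfin.toFinset with hT
    have hsub : ∀ l : FPlace F → (ℕ →₀ ℂ), (∀ w, w ∉ T → l w = Finsupp.single 0 1) →
        finEval Bad l a = ∏ w ∈ T,
          if w ∈ Bad then 1 else sphEval (Ideal.absNorm w.asIdeal) (a w) (l w) := by
      intro l hl
      refine finprod_eq_prod_of_mulSupport_subset _ fun w hw => ?_
      rw [Finset.mem_coe]
      by_contra hwT
      exact hw (by simp [hl w hwT, sphEval_single_zero])
    have hl0 : ∀ w, w ∉ T → loc w = Finsupp.single 0 1 := fun w hw => by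
      by_contra h
      exact hw (Finset.mem_insert_of_mem (hfin.mem_toFinset.2 h))
    rw [hsub _ fun w hw => by
        rw [Function.update_of_ne (fun e : w = v => hw (by simp [e, hT])), hl0 w hw],
      hsub _ hl0, ← Finset.mul_prod_erase T _ (Finset.mem_insert_self v _),
      ← Finset.mul_prod_erase T (fun w => if w ∈ Bad then (1 : ℂ) else
          sphEval (Ideal.absNorm w.asIdeal) (a w) (loc w)) (Finset.mem_insert_self v _),
      if_neg hv, Function.update_self, hg, if_neg hv, mul_assoc]
    refine congrArg _ (congrArg _ (Finset.prod_congr rfl fun w hw => ?_))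
    rw [Function.update_of_ne (Finset.ne_of_mem_erase hw)]
  · have := hn w hw
    rwa [Function.update_of_ne (fun e : w = v => hr (e ▸ hw))] at this
  · have key : ∀ n : FPlace F → ℕ, (∀ w ∈ r, Function.update loc v g w (n w) ≠ 0) →
        ∃ n' : FPlace F → ℕ, (∀ w ∈ r, loc w (n' w) ≠ 0) ∧
          Odd ((∑ w ∈ r, n w) + ∑ w ∈ r, n' w) := by
      intro n hn
      have hv' := hn v hr
      rw [Function.update_self] at hv'
      obtain ⟨m, hm, hmo⟩ := hgs (n v) (Finsupp.mem_support_iff.2 hv')
      refine ⟨Function.update n v m, fun w hw => ?_, ?_⟩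
      · by_cases hwv : w = v
        · subst hwv; rw [Function.update_self]; exact Finsupp.mem_support_iff.1 hm
        · have := hn w hw
          rw [Function.update_of_ne hwv] at this ⊢
          exact this
      · rw [← Finset.add_sum_erase _ _ hr, ← Finset.add_sum_erase r (Function.update n v m) hr,
          Function.update_self, Finset.sum_congr rfl fun w hw =>
            (Function.update_of_ne (Finset.ne_of_mem_erase hw) m n)]
        obtain ⟨k, hk⟩ := hmo
        have e : (r.erase v).sum n = ∑ w ∈ r.erase v, n w := rfl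
        exact ⟨k + ∑ w ∈ r.erase v, n w, by omega⟩
    refine ⟨fun h n hn => ?_, fun h n hn => ?_⟩ <;> obtain ⟨n', h1, h2⟩ := key n hn
    · have := h n' h1
      rw [Nat.odd_add] at h2
      exact h2.2 this
    · have := h n' h1
      rw [Nat.odd_add'] at h2
      exact h2.1 this

/-- The index of the coordinates separating eigenvalues up to a common sign at `r`. -/
abbrev FlipIx (Bad r : Finset (FPlace F)) : Type :=
  {v : FPlace F // v ∉ Bad ∧ v ∉ r} ⊕ (↥r × ↥r)

/-- The eigenvalues outside `r` and the products of two eigenvalues in `r`. -/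
def flipVal (Bad r : Finset (FPlace F)) (a : FPlace F → ℂ) : FlipIx Bad r → ℂ :=
  Sum.elim (fun v => a v.1) fun p => a p.1.1 * a p.2.1

omit [NumberField F] in
theorem flipVal_congr {Bad r : Finset (FPlace F)} (hrB : ∀ w ∈ r, w ∉ Bad) {a θ : FPlace F → ℂ}
    (h : ∀ v ∉ Bad, a v = θ v) : flipVal Bad r a = flipVal Bad r θ := by
  funext i
  rcases i with v | q <;> simp only [flipVal, Sum.elim_inl, Sum.elim_inr]
  · exact h _ v.2.1
  · rw [h _ (hrB _ q.1.2), h _ (hrB _ q.2.2)]

omit [NumberField F] in
open Classical in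
/-- The coordinates do not see a change of the signs at `r`. -/
theorem flipVal_flip {Bad r : Finset (FPlace F)} (θ : FPlace F → ℂ) :
    flipVal Bad r (fun v => if v ∈ r then -θ v else θ v) = flipVal Bad r θ := by
  funext i
  rcases i with v | q <;> simp only [flipVal, Sum.elim_inl, Sum.elim_inr]
  · rw [if_neg v.2.2]
  · rw [if_pos q.1.2, if_pos q.2.2, neg_mul_neg]

/-- Multiplying the value by a coordinate keeps odd parity. -/
theorem exists_flipVal_loc {Bad r : Finset (FPlace F)} (hrB : ∀ w ∈ r, w ∉ Bad)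
    (i : FlipIx Bad r) {loc : FPlace F → (ℕ →₀ ℂ)}
    (hloc : ∀ᶠ w in Filter.cofinite, loc w = Finsupp.single 0 1) (hodd : OddAt r loc) :
    ∃ loc' : FPlace F → (ℕ →₀ ℂ), (∀ᶠ w in Filter.cofinite, loc' w = Finsupp.single 0 1) ∧
      (∀ a, finEval Bad loc' a = flipVal Bad r a i * finEval Bad loc a) ∧ OddAt r loc' := by
  rcases i with v | p
  · obtain ⟨loc', h1, h2, h3⟩ := exists_mulEigen_loc Bad v.2.1 loc hloc
    exact ⟨loc', h1, fun a => h2 a, (h3 r).1 v.2.2 hodd⟩
  · obtain ⟨loc₁, h1, h2, h3⟩ := exists_mulEigen_loc Bad (hrB _ p.2.2) loc hloc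
    obtain ⟨loc₂, k1, k2, k3⟩ := exists_mulEigen_loc Bad (hrB _ p.1.2) loc₁ h1
    refine ⟨loc₂, k1, fun a => ?_, ((k3 r).2 p.1.2).1 (((h3 r).2 p.2.2).2 hodd)⟩
    rw [k2, h2]; simp only [flipVal, Sum.elim_inr]; ring

variable {κ : Type} [Countable κ] {b : κ → ℂ} {sys : κ → EigenSystem F}

theorem exists_finEval_bound (Bad : Finset (FPlace F)) (loc : FPlace F → (ℕ →₀ ℂ))
    (hloc : ∀ᶠ w in Filter.cofinite, loc w = Finsupp.single 0 1)
    (Bd : FPlace F → ℝ) : ∃ C : ℝ, ∀ a : FPlace F → ℂ, (∀ v, ‖a v‖ ≤ Bd v) →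
      ‖finEval Bad loc a‖ ≤ C := by
  classical
  have hfin : {w | ¬ loc w = Finsupp.single 0 1}.Finite := Filter.eventually_cofinite.1 hloc
  choose C hC using fun v : FPlace F => exists_sphEval_bound (Ideal.absNorm v.asIdeal)
    (Bd v) (loc v)
  refine ⟨∏ v ∈ hfin.toFinset, max (C v) 1, fun a ha => ?_⟩
  rw [finEval, finprod_eq_prod_of_mulSupport_subset _ (s := hfin.toFinset) fun w hw => ?_]
  · rw [norm_prod]
    refine Finset.prod_le_prod (fun v _ => norm_nonneg _) fun v _ => ?_
    by_cases hv : v ∈ Bad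
    · rw [if_pos hv, norm_one]; exact le_max_right _ _
    · rw [if_neg hv]; exact (hC v _ (ha v)).trans (le_max_left _ _)
  · rw [Finset.mem_coe, Set.Finite.mem_toFinset]
    intro h
    exact hw (by simp [h, sphEval_single_zero])

/-- The hypothesis of separation at `r`: shifted data have vanishing sums. -/
def KilledAt (b : κ → ℂ) (sys : κ → EigenSystem F) (Bad r : Finset (FPlace F)) : Prop :=
  ∀ loc : FPlace F → (ℕ →₀ ℂ), (∀ᶠ w in Filter.cofinite, loc w = Finsupp.single 0 1) →
    OddAt r loc → ∀ g : InfinitePlace F → ℝ → ℂ, (∀ w, IsSphTest (g w)) → ∀ w₀ : InfinitePlace F,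
      ∃ C : ℝ, ∀ A : ℝ, C ≤ A → ∑' j, b j * (finEval Bad loc (sys j).a *
        ∏ w, coshTransform (open Classical in Function.update g w₀ (avgShift A (g w₀)) w)
          ((sys j).l w)) = 0

variable {Bd : FPlace F → ℝ} (hb : Summable fun j => ‖b j‖)
  (hadm : ∀ j, (∀ v, ((sys j).a v).im = 0 ∧ ‖(sys j).a v‖ ≤ Bd v) ∧ ∀ w, IsSphParam ((sys j).l w))
include hb

/-- Shifts at one place force that parameter to vanish. -/
theorem tsum_param_eq_zero {l : κ → ℂ} (hl : ∀ j, IsSphParam (l j)) (c : κ → ℂ) (B : ℝ)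
    (hc : ∀ j, ‖c j‖ ≤ B) (C : ℝ)
    (h : ∀ A : ℝ, C ≤ A → ∑' j, b j * c j * Complex.cosh (l j * A) = 0) :
    ∑' j, (if l j = 0 then b j * c j else 0) = 0 := by
  classical
  have hbc : Summable fun j => ‖b j * c j‖ :=
    Summable.of_nonneg_of_le (fun _ => norm_nonneg _) (fun j => by
      rw [norm_mul]; exact mul_le_mul_of_nonneg_left (hc j) (norm_nonneg _)) (hb.mul_right B)
  let R : Set κ := {j | (l j).re ≠ 0}
  set bI : κ → ℂ := Rᶜ.indicator fun j => b j * c j
  set bR : {j // j ∈ R} → ℂ := fun j => b j.1 * c j.1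
  have key := Orbital.tsum_zero_freq_eq_zero bI (fun j => if j ∈ R then 0 else (l j).im) bR
    (fun j => (l j.1).re) ?_ ?_ ?_ (fun j => j.2) C fun A hA => ?_
  · refine Eq.trans (tsum_congr fun j => ?_) key
    by_cases hj : j ∈ R
    · have hne : l j ≠ 0 := fun e => hj (by simp [e])
      simp [bI, hj, hne]
    · have hre : (l j).re = 0 := not_not.1 hj
      have hiff : l j = 0 ↔ (l j).im = 0 := by
        rw [Complex.ext_iff]; simp [hre]
      simp [bI, hj, hiff]
  · refine Summable.of_nonneg_of_le (fun _ => norm_nonneg _) (fun j => ?_) hbc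
    exact norm_indicator_le_norm_self (fun j => b j * c j) _
  · exact hbc.subtype R
  · rintro ⟨j, hj⟩
    rcases hl j with ⟨-, hb⟩ | h0
    · exact hb
    · exact absurd h0 hj
  · have hterm : ∀ j, b j * c j * Complex.cosh (l j * A) =
        bI j * (Real.cos ((if j ∈ R then 0 else (l j).im) * A) : ℂ) +
          R.indicator (fun j => b j * c j * (Real.cosh ((l j).re * A) : ℂ)) j := by
      intro j
      by_cases hj : j ∈ R
      · have him : (l j).im = 0 := by
          rcases hl j with ⟨h0, -⟩ | h0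
          · exact h0
          · exact absurd h0 hj
        have e : l j = ((l j).re : ℂ) := Complex.ext rfl (by simp [him])
        simp only [bI, Set.indicator_of_mem hj, Set.indicator_of_notMem (show j ∉ Rᶜ from
          not_not.2 hj), zero_mul, zero_add]
        conv_lhs => rw [e]
        push_cast
        rfl
      · have hre : (l j).re = 0 := not_not.1 hj
        have e : l j * (A : ℂ) = (((l j).im * A : ℝ) : ℂ) * Complex.I := by
          conv_lhs => rw [← Complex.re_add_im (l j)]
          rw [hre]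
          push_cast
          ring
        simp only [bI, Set.indicator_of_notMem hj, Set.indicator_of_mem (show j ∈ Rᶜ from hj),
          add_zero, if_neg hj]
        rw [e, Complex.cosh_mul_I, Complex.ofReal_cos]
    rw [← h A hA, tsum_congr hterm]
    have s1 : Summable fun j =>
        bI j * (Real.cos ((if j ∈ R then 0 else (l j).im) * A) : ℂ) :=
      Summable.of_norm (Summable.of_nonneg_of_le (fun _ => norm_nonneg _) (fun j => by
        rw [norm_mul, Complex.norm_real, Real.norm_eq_abs]
        exact (mul_le_of_le_one_right (norm_nonneg _) (Real.abs_cos_le_one _)).trans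
          (norm_indicator_le_norm_self (fun j => b j * c j) _)) hbc)
    have s2 : Summable (R.indicator fun j => b j * c j * (Real.cosh ((l j).re * A) : ℂ)) := by
      refine Summable.of_norm (Summable.of_nonneg_of_le (fun _ => norm_nonneg _) (fun j => ?_)
        (hbc.mul_right (Real.cosh A)))
      refine (norm_indicator_le_norm_self _ _).trans ?_
      rw [norm_mul, Complex.norm_real, Real.norm_eq_abs, abs_of_pos (Real.cosh_pos _)]
      refine mul_le_mul_of_nonneg_left (Real.cosh_le_cosh.2 ?_) (norm_nonneg _)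
      rw [abs_mul]
      refine mul_le_of_le_one_left (abs_nonneg A) ?_
      rcases hl j with ⟨-, h1⟩ | h1
      · exact h1
      · simp [h1]
    rw [Summable.tsum_add s1 s2, ← tsum_subtype R]

include hadm

/-- Shifting at every place: only parameter zero remains. -/
theorem tsum_zero_param {Bad r : Finset (FPlace F)} (hr : KilledAt b sys Bad r)
    (loc : FPlace F → (ℕ →₀ ℂ)) (hloc : ∀ᶠ w in Filter.cofinite, loc w = Finsupp.single 0 1)
    (hodd : OddAt r loc) :
    ∑' j, (if ∀ w, (sys j).l w = 0 then b j * finEval Bad loc (sys j).a else 0) = 0 := by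
  classical
  obtain ⟨Cf, hCf⟩ := exists_finEval_bound Bad loc hloc Bd
  let G : (InfinitePlace F → ℝ → ℂ) → κ → ℂ := fun g j =>
    finEval Bad loc (sys j).a * ∏ w, coshTransform (g w) ((sys j).l w)
  have hbound : ∀ (g : InfinitePlace F → ℝ → ℂ),
      (∀ w, IsSphTest (g w)) → ∀ (T : Finset (InfinitePlace F)),
      ∃ B, ∀ j, ‖finEval Bad loc (sys j).a * ∏ w ∈ T, coshTransform (g w) ((sys j).l w)‖ ≤ B := by
    intro g hg T
    refine ⟨max Cf 0 * ∏ w ∈ T, ∫ s, ‖g w s‖ * Real.cosh s, fun j => ?_⟩
    rw [norm_mul, norm_prod]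
    exact mul_le_mul ((hCf _ fun v => ((hadm j).1 v).2).trans (le_max_left _ _))
      (Finset.prod_le_prod (fun w _ => norm_nonneg _) fun w _ =>
        norm_coshTransform_le ((hadm j).2 w) (hg w))
      (Finset.prod_nonneg fun w _ => norm_nonneg _) (le_max_right _ _)
  have hshift : ∀ (g : InfinitePlace F → ℝ → ℂ), (∀ w, IsSphTest (g w)) → ∀ (w₀ : InfinitePlace F)
      (A : ℝ) j, G (Function.update g w₀ (avgShift A (g w₀))) j =
        finEval Bad loc (sys j).a * (∏ w, coshTransform (g w) ((sys j).l w)) *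
          Complex.cosh ((sys j).l w₀ * A) := by
    intro g hg w₀ A j
    simp only [G]
    rw [← Finset.mul_prod_erase _ _ (Finset.mem_univ w₀), Function.update_self,
      coshTransform_avgShift (hg w₀), Finset.prod_congr rfl fun w hw => by
        rw [Function.update_of_ne (Finset.ne_of_mem_erase hw)],
      ← Finset.mul_prod_erase _ (fun w => coshTransform (g w) ((sys j).l w)) (Finset.mem_univ w₀)]
    ring
  -- by induction on the set of places
  have hall : ∀ T : Finset (InfinitePlace F), T.Nonempty → ∀ g, (∀ w, IsSphTest (g w)) →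
      ∑' j, (if ∀ w ∈ T, (sys j).l w = 0 then b j * G g j else 0) = 0 := by
    intro T hT
    induction hT using Finset.Nonempty.cons_induction with
    | singleton w₀ =>
      intro g hg
      obtain ⟨C, hC⟩ := hr loc hloc hodd g hg w₀
      obtain ⟨B, hB⟩ := hbound g hg Finset.univ
      have := tsum_param_eq_zero hb (fun j => (hadm j).2 w₀) (G g) B hB C fun A hA => by
        refine Eq.trans (tsum_congr fun j => ?_) (hC A hA)
        rw [show finEval Bad loc (sys j).a * ∏ w, coshTransform
          (Function.update g w₀ (avgShift A (g w₀)) w) ((sys j).l w) = _ from hshift g hg w₀ A j,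
          mul_assoc (b j)]
      simpa using this
    | cons w₀ T hw hT ih =>
      intro g hg
      obtain ⟨B, hB⟩ := hbound g hg Finset.univ
      set c : κ → ℂ := fun j => if ∀ w ∈ T, (sys j).l w = 0 then G g j else 0
      have hc : ∀ j, ‖c j‖ ≤ max B 0 := fun j => by
        simp only [c]; split_ifs
        · exact (hB j).trans (le_max_left _ _)
        · simp
      have := tsum_param_eq_zero hb (fun j => (hadm j).2 w₀) c (max B 0) hc 0 fun A _ => by
        have h := ih (Function.update g w₀ (avgShift A (g w₀))) fun w => by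
          by_cases h : w = w₀
          · subst h; rw [Function.update_self]; exact (hg w).avgShift A
          · rw [Function.update_of_ne h]; exact hg w
        refine Eq.trans (tsum_congr fun j => ?_) h
        simp only [c]
        split_ifs
        · rw [hshift g hg w₀ A j]; simp only [G]; ring
        · simp
      refine Eq.trans (tsum_congr fun j => ?_) this
      simp only [c, Finset.mem_cons, forall_eq_or_imp]
      by_cases h0 : (sys j).l w₀ = 0 <;> simp [h0]
  obtain ⟨g₀, hg₀, hg₀1, -⟩ := exists_sphTest_real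
  have h := hall Finset.univ Finset.univ_nonempty (fun _ => g₀) fun _ => hg₀
  refine Eq.trans (tsum_congr fun j => ?_) h
  simp only [Finset.mem_univ, true_implies]
  split_ifs with h0
  · simp [G, h0, hg₀1]
  · rfl

open Classical in
/-- The mass over the systems of parameter zero with given eigenvalues outside `Bad`. -/
def massAt (b : κ → ℂ) (sys : κ → EigenSystem F) (Bad : Finset (FPlace F)) (θ : FPlace F → ℂ) : ℂ :=
  ∑' j, (if (∀ v ∉ Bad, (sys j).a v = θ v) ∧ ∀ w, (sys j).l w = 0 then b j else 0)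

omit hb hadm [Countable κ] [NumberField F] in
open Classical in
/-- Values that agree outside `r` and have the same products with the value at a place of `r` agree
everywhere or differ by the sign on `r`. -/
theorem eq_or_eq_flip {Bad r : Finset (FPlace F)} {w₁ : FPlace F} (hw₁ : w₁ ∈ r)
    {a θ : FPlace F → ℂ} (hθ : θ w₁ ≠ 0) (hout : ∀ v, v ∉ Bad → v ∉ r → a v = θ v)
    (hin : ∀ w ∈ r, a w₁ * a w = θ w₁ * θ w) :
    ((∀ v ∉ Bad, a v = θ v) ∧ a w₁ = θ w₁) ∨
      ((∀ v ∉ Bad, a v = if v ∈ r then -θ v else θ v) ∧ a w₁ = -θ w₁) := by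
  have hsq : (a w₁ - θ w₁) * (a w₁ + θ w₁) = 0 := by linear_combination hin w₁ hw₁
  rcases mul_eq_zero.1 hsq with e | e
  · have e' : a w₁ = θ w₁ := sub_eq_zero.1 e
    refine Or.inl ⟨fun v hv => ?_, e'⟩
    by_cases hvr : v ∈ r
    · exact mul_left_cancel₀ hθ (by rw [← hin v hvr, e'])
    · exact hout v hv hvr
  · have e' : a w₁ = -θ w₁ := eq_neg_of_add_eq_zero_left e
    refine Or.inr ⟨fun v hv => ?_, e'⟩
    by_cases hvr : v ∈ r
    · rw [if_pos hvr]
      refine mul_left_cancel₀ (neg_ne_zero.2 hθ) ?_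
      rw [← e', hin v hvr, e']; ring
    · rw [if_neg hvr]; exact hout v hv hvr

open Classical in
/-- The masses of parameter zero with given eigenvalues up to the signs at `r`, weighted by the
eigenvalue at a place of `r`, cancel. -/
theorem tsum_flipVal_fibre_eq_zero {Bad r : Finset (FPlace F)} (hr : KilledAt b sys Bad r)
    (hrB : ∀ w ∈ r, w ∉ Bad) {w₁ : FPlace F} (hw₁ : w₁ ∈ r) (j₀ : κ) :
    ∑' j, (if (∀ w, (sys j).l w = 0) ∧ flipVal Bad r (sys j).a = flipVal Bad r (sys j₀).a
      then b j * (sys j).a w₁ else 0) = 0 := by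
  let B : FPlace F → ℝ := Bd
  let I := FlipIx Bad r
  let Bi : I → ℝ := Sum.elim (fun v => B v.1) fun p => B p.1.1 * B p.2.1
  let val : (FPlace F → ℂ) → I → ℂ := flipVal Bad r
  let S := ∀ i : I, Set.Icc (-Bi i) (Bi i)
  have hreal : ∀ j i, val (sys j).a i = ((val (sys j).a i).re : ℂ) := by
    rintro j (v | p) <;> refine Complex.ext (by simp) ?_
    · simpa [val, flipVal] using ((hadm j).1 v.1).1
    · simp [val, flipVal, Complex.mul_im, ((hadm j).1 p.1.1).1, ((hadm j).1 p.2.1).1]
  have hmem : ∀ j i, (val (sys j).a i).re ∈ Set.Icc (-Bi i) (Bi i) := by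
    intro j i
    rw [Set.mem_Icc, ← abs_le]
    refine (Complex.abs_re_le_norm _).trans ?_
    rcases i with v | p
    · exact ((hadm j).1 v.1).2
    · simp only [val, flipVal, Bi, Sum.elim_inr, norm_mul]
      exact mul_le_mul ((hadm j).1 _).2 ((hadm j).1 _).2 (norm_nonneg _)
        ((norm_nonneg _).trans ((hadm j).1 _).2)
  let φ : κ → S := fun j i => ⟨(val (sys j).a i).re, hmem j i⟩
  let coord : I → C(S, ℂ) := fun i => ⟨fun s => ((s i : ℝ) : ℂ), by fun_prop⟩
  have hcoord : ∀ i j, coord i (φ j) = val (sys j).a i := fun i j => (hreal j i).symm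
  set b' : κ → ℂ := fun j => if ∀ w, (sys j).l w = 0 then b j else 0
  -- functions whose products with all odd data are killed
  let Good : C(S, ℂ) → Prop := fun P => ∀ loc : FPlace F → (ℕ →₀ ℂ),
    (∀ᶠ w in Filter.cofinite, loc w = Finsupp.single 0 1) → OddAt r loc →
      ∑' j, b' j * finEval Bad loc (sys j).a * P (φ j) = 0
  have hGone : Good 1 := fun loc h1 h2 => by
    refine Eq.trans (tsum_congr fun j => ?_) (tsum_zero_param hb hadm hr loc h1 h2)
    simp only [b', ContinuousMap.one_apply, mul_one]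
    split_ifs <;> simp
  have hsum : ∀ (loc : FPlace F → (ℕ →₀ ℂ)), (∀ᶠ w in Filter.cofinite, loc w = Finsupp.single 0 1) →
      ∀ P : C(S, ℂ), Summable fun j => b' j * finEval Bad loc (sys j).a * P (φ j) := by
    intro loc hloc P
    obtain ⟨C, hC⟩ := exists_finEval_bound Bad loc hloc Bd
    refine Summable.of_norm_bounded (hb.mul_right (max C 0 * ‖P‖)) fun j => ?_
    rw [norm_mul, norm_mul, mul_assoc]
    refine mul_le_mul ?_ (mul_le_mul ((hC _ fun v => ((hadm j).1 v).2).trans (le_max_left _ _))
      (P.norm_coe_le_norm _) (norm_nonneg _) (le_max_right _ _)) (by positivity) (norm_nonneg _)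
    simp only [b']; split_ifs <;> simp
  have hGcoord : ∀ i P, Good P → Good (coord i * P) := by
    intro i P hP loc hloc hodd
    obtain ⟨loc', h1, h2, h3⟩ := exists_flipVal_loc hrB i hloc hodd
    refine Eq.trans (tsum_congr fun j => ?_) (hP loc' h1 h3)
    rw [h2, ContinuousMap.mul_apply, hcoord]
    ring
  have hGlin : ∀ (c : ℂ) P Q, Good P → Good Q → Good (c • P + Q) := by
    intro c P Q hP hQ loc hloc hodd
    have e : ∀ j, b' j * finEval Bad loc (sys j).a * (c • P + Q) (φ j) =
        c * (b' j * finEval Bad loc (sys j).a * P (φ j)) +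
          b' j * finEval Bad loc (sys j).a * Q (φ j) := fun j => by
      simp only [ContinuousMap.add_apply, ContinuousMap.smul_apply, smul_eq_mul]; ring
    rw [tsum_congr e, Summable.tsum_add ((hsum loc hloc P).mul_left c) (hsum loc hloc Q),
      tsum_mul_left, hP loc hloc hodd, hQ loc hloc hodd, mul_zero, add_zero]
  have hGzero : Good 0 := fun loc _ _ => by simp
  let A : StarSubalgebra ℂ C(S, ℂ) := StarAlgebra.adjoin ℂ (Set.range coord)
  have hA : ∀ Q ∈ A, ∀ P, Good P → Good (Q * P) := fun Q hQ P hP =>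
    mul_mem_of_mem_adjoin coord (fun i => by ext s; simp [coord]) Good hGcoord hGlin hGzero hQ hP
  have hsep : A.SeparatesPoints := by
    intro s t hst
    obtain ⟨i, hi⟩ : ∃ i, s i ≠ t i := by
      by_contra h
      push Not at h
      exact hst (funext h)
    refine ⟨_, ⟨coord i, StarAlgebra.subset_adjoin ℂ _ ⟨i, rfl⟩, rfl⟩, fun e => hi ?_⟩
    exact Subtype.ext (Complex.ofReal_injective e)
  -- the eigenvalue at one place of the triple has odd parity
  obtain ⟨loc₁, h1, h2, h3⟩ := exists_mulEigen_loc Bad (hrB _ hw₁) (fun _ => Finsupp.single 0 1)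
    (Filter.Eventually.of_forall fun _ => rfl)
  have hodd₁ : OddAt r loc₁ := ((h3 r).2 hw₁).1 fun n hn => by
    rw [Finset.sum_eq_zero fun w hw => ?_]
    · exact Even.zero
    · by_contra h
      exact hn w hw (Finsupp.single_eq_of_ne h)
  have hfe : ∀ a : FPlace F → ℂ, finEval Bad loc₁ a = a w₁ := fun a => by
    rw [h2, finEval, finprod_eq_one_of_forall_eq_one fun v => ?_, mul_one]
    rw [sphEval_single_zero, ite_self]
  have hb'' : Summable fun j => ‖b' j * (sys j).a w₁‖ := by
    refine Summable.of_nonneg_of_le (fun _ => norm_nonneg _) (fun j => ?_) (hb.mul_right (B w₁))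
    rw [norm_mul]
    refine mul_le_mul ?_ ((hadm j).1 w₁).2 (norm_nonneg _) (norm_nonneg _)
    simp only [b']; split_ifs <;> simp
  have key := Kernel.tsum_fibre_eq_zero hb'' φ A hsep (fun P hP => by
    refine Eq.trans (tsum_congr fun j => ?_) (hA P hP 1 hGone loc₁ h1 hodd₁)
    rw [mul_one, hfe]) (φ j₀)
  rw [show ∑' j : {j // φ j = φ j₀}, b' j * (sys j).a w₁ =
      ∑' j, {j | φ j = φ j₀}.indicator (fun j => b' j * (sys j).a w₁) j from
    tsum_subtype {j | φ j = φ j₀} fun j => b' j * (sys j).a w₁] at key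
  refine Eq.trans (tsum_congr fun j => ?_) key
  have hiff : φ j = φ j₀ ↔ flipVal Bad r (sys j).a = flipVal Bad r (sys j₀).a :=
    ⟨fun h => funext fun i =>
        (hreal j i).trans ((congrArg (fun s : S => ((s i : ℝ) : ℂ)) h).trans (hreal j₀ i).symm),
      fun h => funext fun i => Subtype.ext (congrArg Complex.re (congrFun h i))⟩
  by_cases h : φ j = φ j₀
  · rw [Set.indicator_of_mem (show j ∈ {j | φ j = φ j₀} from h)]
    simp [b', hiff.1 h, ite_mul]
  · rw [Set.indicator_of_notMem (show j ∉ {j | φ j = φ j₀} from h), if_neg fun e => h (hiff.2 e.2)]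

open Classical in
/-- Changing the signs at the places of a split triple does not change the mass. -/
theorem massAt_flip {Bad r : Finset (FPlace F)} (hr : KilledAt b sys Bad r) (hrB : ∀ w ∈ r, w ∉ Bad)
    {w₁ : FPlace F} (hw₁ : w₁ ∈ r) (θ : FPlace F → ℂ) (hθ : ∀ w ∈ r, θ w ≠ 0) {j₀ : κ}
    (h₀ : ∀ v ∉ Bad, (sys j₀).a v = θ v) :
    massAt b sys Bad θ = massAt b sys Bad fun v => if v ∈ r then -θ v else θ v := by
  have key := tsum_flipVal_fibre_eq_zero hb hadm hr hrB hw₁ j₀
  rw [flipVal_congr hrB h₀] at key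
  -- the fibre is the union of the two classes
  set θ' : FPlace F → ℂ := fun v => if v ∈ r then -θ v else θ v
  let P₁ : κ → Prop := fun j => (∀ v ∉ Bad, (sys j).a v = θ v) ∧ ∀ w, (sys j).l w = 0
  let P₂ : κ → Prop := fun j => (∀ v ∉ Bad, (sys j).a v = θ' v) ∧ ∀ w, (sys j).l w = 0
  have hterm : ∀ j, (if (∀ w, (sys j).l w = 0) ∧ flipVal Bad r (sys j).a = flipVal Bad r θ
      then b j * (sys j).a w₁ else 0) =
      θ w₁ * (if P₁ j then b j else 0) - θ w₁ * (if P₂ j then b j else 0) := by
    intro j
    by_cases hl : ∀ w, (sys j).l w = 0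
    swap
    · simp [P₁, P₂, hl]
    by_cases hj : flipVal Bad r (sys j).a = flipVal Bad r θ
    · rw [if_pos ⟨hl, hj⟩]
      rcases eq_or_eq_flip (a := (sys j).a) hw₁ (hθ _ hw₁)
        (fun v h1 h2 => congrFun hj (Sum.inl ⟨v, h1, h2⟩))
        (fun w hw => congrFun hj (Sum.inr (⟨w₁, hw₁⟩, ⟨w, hw⟩))) with ⟨p, e⟩ | ⟨p, e⟩
      · have p2 : ¬ P₂ j := fun q => hθ _ hw₁ (by
          have := q.1 w₁ (hrB _ hw₁)
          simp only [θ', if_pos hw₁, e] at this
          linear_combination this / 2)
        simp [show P₁ j from ⟨p, hl⟩, p2, e]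
        ring
      · have p1 : ¬ P₁ j := fun q => hθ _ hw₁ (by
          have := q.1 w₁ (hrB _ hw₁)
          rw [e] at this
          linear_combination -this / 2)
        simp [p1, show P₂ j from ⟨p, hl⟩, e]
        ring
    · rw [if_neg fun h => hj h.2, if_neg, if_neg, mul_zero, sub_zero]
      · exact fun p => hj ((flipVal_congr hrB p.1).trans (flipVal_flip θ))
      · exact fun p => hj (flipVal_congr hrB p.1)
  have hite : ∀ (P : κ → Prop) [DecidablePred P],
      Summable fun j => if P j then b j else 0 := fun P _ =>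
    Summable.of_norm_bounded hb fun j => by split_ifs <;> simp
  have t₁ : Summable fun j => θ w₁ * (if P₁ j then b j else 0) := (hite P₁).mul_left _
  have t₂ : Summable fun j => θ w₁ * (if P₂ j then b j else 0) := (hite P₂).mul_left _
  rw [tsum_congr hterm, Summable.tsum_sub t₁ t₂, tsum_mul_left, tsum_mul_left, sub_eq_zero] at key
  exact mul_left_cancel₀ (hθ _ hw₁) key

open Classical in
/-- **Separation**: with infinitely many triples the masses vanish. -/
theorem massAt_eq_zero {Bad : Finset (FPlace F)} (r : ℕ → Finset (FPlace F))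
    (hdisj : ∀ k k', k ≠ k' → Disjoint (r k) (r k')) (hne : ∀ k, (r k).Nonempty)
    (hrB : ∀ k, ∀ w ∈ r k, w ∉ Bad) (hr : ∀ k, KilledAt b sys Bad (r k)) (θ : FPlace F → ℂ)
    (hθ : ∀ k, ∀ w ∈ r k, θ w ≠ 0) :
    massAt b sys Bad θ = 0 := by
  by_cases hex : ∃ j₀, ∀ v ∉ Bad, (sys j₀).a v = θ v
  swap
  · refine (tsum_congr fun j => ?_).trans tsum_zero
    rw [if_neg fun h => hex ⟨j, h.1⟩]
  obtain ⟨j₀, h₀⟩ := hex
  let P : ℕ → κ → Prop := fun k j =>
    (∀ v ∉ Bad, (sys j).a v = if v ∈ r k then -θ v else θ v) ∧ ∀ w, (sys j).l w = 0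
  have hflip : ∀ k, massAt b sys Bad θ = ∑' j, (if P k j then b j else 0) := fun k =>
    massAt_flip hb hadm (hr k) (hrB k) (hne k).choose_spec θ (hθ k) h₀
  have huniq : ∀ j k k', P k j → P k' j → k = k' := by
    intro j k k' hk hk'
    by_contra hkk
    obtain ⟨w, hw⟩ := hne k
    have h1 := hk.1 w (hrB k w hw)
    have h2 := hk'.1 w (hrB k w hw)
    rw [if_pos hw] at h1
    rw [if_neg (Finset.disjoint_left.1 (hdisj k k' hkk) hw), h1] at h2
    exact hθ k w hw (by linear_combination -h2 / 2)
  have hite : ∀ (Q : κ → Prop) [DecidablePred Q],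
      Summable fun j => if Q j then ‖b j‖ else 0 := fun Q _ =>
    Summable.of_nonneg_of_le (fun j => by split_ifs <;> simp) (fun j => by split_ifs <;> simp) hb
  have hN : ∀ N : ℕ, (N : ℝ) * ‖massAt b sys Bad θ‖ ≤ ∑' j, ‖b j‖ := by
    intro N
    calc (N : ℝ) * ‖massAt b sys Bad θ‖
        = ∑ _k ∈ Finset.range N, ‖massAt b sys Bad θ‖ := by simp
      _ ≤ ∑ k ∈ Finset.range N, ∑' j, (if P k j then ‖b j‖ else 0) := by
        refine Finset.sum_le_sum fun k _ => ?_
        rw [hflip k]
        exact tsum_of_norm_bounded (hite (P k)).hasSum fun j => by split_ifs <;> simp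
      _ = ∑' j, ∑ k ∈ Finset.range N, (if P k j then ‖b j‖ else 0) :=
        (Summable.tsum_finsetSum fun k _ => hite (P k)).symm
      _ ≤ ∑' j, ‖b j‖ := by
        refine Summable.tsum_le_tsum (fun j => ?_) (summable_sum fun k _ => hite (P k)) hb
        rw [← Finset.sum_filter, Finset.sum_const, nsmul_eq_mul]
        refine mul_le_of_le_one_left (norm_nonneg _) ?_
        exact_mod_cast Finset.card_le_one.2 fun k hk k' hk' =>
          huniq j k k' (Finset.mem_filter.1 hk).2 (Finset.mem_filter.1 hk').2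
  by_contra h
  have hpos : 0 < ‖massAt b sys Bad θ‖ := norm_pos_iff.2 h
  obtain ⟨N, hN'⟩ := exists_nat_gt ((∑' j, ‖b j‖) / ‖massAt b sys Bad θ‖)
  rw [div_lt_iff₀ hpos] at hN'
  linarith [hN N]

end Fermat.Agent.ResidualThree
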