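import Fermat.Agent.ResidualThree.CubicDescent.Push
import Fermat.Agent.ResidualThree.CubicDescent.Separation
import Fermat.Agent.ResidualThree.Orbital.SplitMatch
import Fermat.Agent.ResidualThree.Orbital.Target
import Fermat.Agent.ResidualThree.Tree.TransferInert

/-!
# Matching pairs from a datum and its push forward

The local functions of a datum and of its push forward, with prescribed functions at the bad
places, form a matching pair with odd valuations of determinants at a chosen split place.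
-/

noncomputable section

open IsDedekindDomain NumberField
open scoped WithZero

namespace Fermat.Agent.ResidualThree

/-! ### Parity -/

/-- A spherical function with the signs changed at odd distances. -/
def altSign (f : ℕ →₀ ℂ) : ℕ →₀ ℂ :=
  Finsupp.onFinset f.support (fun n => (-1 : ℂ) ^ n * f n) fun _ hn =>
    Finsupp.mem_support_iff.2 (right_ne_zero_of_mul hn)

theorem sphereEigen_neg (Q : ℕ) (a : ℂ) :
    ∀ n, Tree.sphereEigen Q (-a) n = (-1 : ℂ) ^ n * Tree.sphereEigen Q a n
  | 0 => by simp [Tree.sphereEigen]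
  | 1 => by simp [Tree.sphereEigen]
  | 2 => by simp only [Tree.sphereEigen]; ring
  | n + 3 => by
    rw [Tree.sphereEigen, Tree.sphereEigen, sphereEigen_neg Q a (n + 2),
      sphereEigen_neg Q a (n + 1)]
    ring

theorem sphEval_neg (Q : ℕ) (a : ℂ) (f : ℕ →₀ ℂ) : sphEval Q (-a) f = sphEval Q a (altSign f) := by
  rw [sphEval, sphEval, altSign, Finsupp.onFinset_sum _ (fun n => by simp), Finsupp.sum]
  refine Finset.sum_congr rfl fun n _ => ?_
  rw [sphereEigen_neg]
  ring

/-- An odd value forces odd distances. -/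
theorem odd_of_sphEval_neg {Q : ℕ} (hQ : Q ≠ 0) {f : ℕ →₀ ℂ}
    (h : ∀ a, sphEval Q (-a) f = -sphEval Q a f) {n : ℕ} (hn : f n ≠ 0) : Odd n := by
  have hneg : altSign f = -f := eq_of_sphEval hQ fun a => by
    rw [← sphEval_neg, h, sphEval, sphEval, Finsupp.sum_neg_index (fun _ => zero_mul _),
      Finsupp.sum, Finsupp.sum, ← Finset.sum_neg_distrib]
    exact Finset.sum_congr rfl fun m _ => (neg_mul _ _).symm
  by_contra hodd
  have := congrArg (fun g : ℕ →₀ ℂ => g n) hneg
  simp only [altSign, Finsupp.onFinset_apply, Finsupp.neg_apply,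
    (Nat.not_odd_iff_even.1 hodd).neg_one_pow, one_mul] at this
  exact hn (CharZero.eq_neg_self_iff.1 this)

theorem parity_cartan {F : Type*} [Field F] {v : Valuation F ℤᵐ⁰} (g : GL (Fin 2) F) :
    (Odd (cartan v g) ↔
      Odd (WithZero.log (v (g : Matrix (Fin 2) (Fin 2) F).det))) := by
  rw [← Int.odd_coe_nat, Tree.coe_cartan, Tree.cartanInt_eq, Int.odd_iff, Int.odd_iff]
  omega

variable {K L : Type} [Field K] [NumberField K] [Field L] [NumberField L] [Algebra K L]

/-- Odd total parity above gives odd parity below. -/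
theorem odd_of_pushLoc (d : GoodDatum L) {r : FPlace K} (hr3 : Nat.card (Orbital.Over L r) = 3)
    (hodd : OddAt (Orbital.overFinset L {r}) d.loc) {n : ℕ} (hn : pushLoc d r n ≠ 0) : Odd n := by
  classical
  refine odd_of_sphEval_neg (absNorm_fplace_ne_zero r) (fun a => ?_) hn
  rw [sphEval_pushLoc, sphEval_pushLoc, bcEigen, bcEigen, if_pos hr3, if_pos hr3]
  simp only [sphEval, Finsupp.sum]
  rw [Finset.prod_univ_sum, Finset.prod_univ_sum, ← Finset.sum_neg_distrib]
  refine Finset.sum_congr rfl fun x hx => ?_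
  rw [Fintype.mem_piFinset] at hx
  simp only [sphereEigen_neg]
  rw [show (∏ u : Orbital.Over L r, d.loc u.1 (x u) * ((-1 : ℂ) ^ x u *
      Tree.sphereEigen (Ideal.absNorm u.1.asIdeal) a (x u))) = (-1 : ℂ) ^ (∑ u, x u) *
      ∏ u : Orbital.Over L r, d.loc u.1 (x u) * Tree.sphereEigen (Ideal.absNorm u.1.asIdeal) a (x u)
    from by
      rw [← Finset.prod_pow_eq_pow_sum, ← Finset.prod_mul_distrib]
      exact Finset.prod_congr rfl fun u _ => by ring]
  have hsum : Odd (∑ u, x u) := by
    let m : FPlace L → ℕ := fun w => if h : Orbital.below K w = r then x ⟨w, h⟩ else 0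
    have h1 := hodd m fun w hw => by
      rw [Orbital.mem_overFinset, Finset.mem_singleton] at hw
      simp only [m, dif_pos hw]
      exact Finsupp.mem_support_iff.1 (hx _)
    have e : ∑ w ∈ Orbital.overFinset L {r}, m w = ∑ u : Orbital.Over L r, x u := by
      simp only [Orbital.overFinset, Finset.singleton_biUnion,
        Finset.sum_image fun a _ b _ h => Subtype.ext h]
      exact Finset.sum_congr rfl fun u _ => by simp [m, u.2]
    rwa [e] at h1
  rw [hsum.neg_one_pow, neg_one_mul]

/-! ### Local matching -/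

namespace Orbital

variable (τ : CubicAut K L) {UL : Level L} {UK : Level K} {v : FPlace K}
  {fL fL' : ∀ w : FPlace L, GLv w → ℂ} {fK : GLv v → ℂ}

/-- Matching only depends on the functions at the places over `v`. -/
theorem LocalMatch.congr (hm : LocalMatch τ UL UK v fL fK)
    (h : ∀ w : Over L v, fL w.1 = fL' w.1) : LocalMatch τ UL UK v fL' fK := by
  intro γ hγ
  obtain ⟨h1, h2⟩ := hm γ hγ
  refine ⟨fun δ hδ htr => ?_, h2⟩
  obtain ⟨P⟩ := h1 δ hδ htr
  have e : ∀ X, twistTerm τ UL v fL' δ X = twistTerm τ UL v fL δ X := fun X =>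
    Finset.prod_congr rfl fun w _ => by rw [h w]
  exact ⟨{
    toLocalProj := P.toLocalProj
    projL := P.projL
    smulL := P.smulL
    nonemptyL := fun X hX => P.nonemptyL X (by rwa [← e])
    finiteL := fun q => (P.finiteL q).subset fun X hX => ⟨by rw [← e]; exact hX.1, hX.2⟩
    sum_eq := fun q => by simp only [e]; exact P.sum_eq q }⟩

end Orbital

/-- The push forward at a place with one place above is the base change. -/
theorem pushLoc_eq_sphericalBC (d : GoodDatum L) {v : FPlace K} (w₀ : Orbital.Over L v)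
    (huniq : ∀ w : Orbital.Over L v, w = w₀) (hdeg : Module.finrank K L = 3)
    (hram : Orbital.ram K w₀.1 = 1) :
    pushLoc d v = sphericalBC (Ideal.absNorm v.asIdeal) (d.loc w₀.1) := by
  refine eq_of_satakePoly (absNorm_fplace_ne_zero v) ?_
  have huniv : (Finset.univ : Finset (Orbital.Over L v)) = {w₀} :=
    Finset.eq_singleton_iff_unique_mem.2 ⟨Finset.mem_univ _, fun w _ => huniq w⟩
  have hcard : Nat.card (Orbital.Over L v) = 1 :=
    Nat.card_eq_one_iff_unique.2 ⟨⟨fun a b => (huniq a).trans (huniq b).symm⟩, ⟨w₀⟩⟩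
  rw [satakePoly_pushLoc, satakePoly_sphericalBC (absNorm_fplace_ne_zero v), fibPoly, huniv,
    Finset.prod_singleton, Tree.absNorm_eq_cube w₀ huniq hdeg hram]
  rw [fibHom, fibExp, hcard]
  rfl

/-- The good places with one place above match. -/
theorem localMatch_good_one (τ : Orbital.CubicAut K L) (A : Orbital.ArchFrame τ)
    (hdeg : Module.finrank K L = 3) (UL : Level L) (UK : Level K) {BadL : Finset (FPlace L)}
    {BadK : Finset (FPlace K)} (hBad : ∀ w, w ∈ BadL ↔ Orbital.below K w ∈ BadK)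
    (hUL : ∀ w ∉ BadL, UL.J w = maxSubgroup w) (hUK : ∀ v ∉ BadK, UK.J v = maxSubgroup v)
    (d : GoodDatum L) (fBL : ∀ w : FPlace L, GLv w → ℂ) (fBK : ∀ v : FPlace K, GLv v → ℂ)
    {v : FPlace K} (hv : v ∉ BadK) (h1 : Nat.card (Orbital.Over L v) = 1)
    (hram : ∀ w : Orbital.Over L v, Orbital.ram K w.1 = 1) :
    Orbital.LocalMatch τ UL UK v (d.finWith BadL fBL) ((d.push A).finWith BadK fBK v) := by
  obtain ⟨w₀⟩ := Orbital.nonempty_over L v
  have huniq := Orbital.eq_of_card_over_eq_one h1 w₀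
  have hw : w₀.1 ∉ BadL := fun h => hv (by rw [← w₀.2]; exact (hBad w₀.1).1 h)
  refine Tree.localMatch_inert τ hdeg w₀ huniq (hram w₀) UL UK (hUL _ hw) (hUK v hv) (d.loc w₀.1)
    _ _ (fun g => ?_) fun g => ?_
  · rw [GoodDatum.finWith, if_neg hw]
  · rw [GoodDatum.finWith, if_neg hv]
    show pushLoc d v _ = _
    rw [pushLoc_eq_sphericalBC d w₀ huniq hdeg (hram w₀)]

/-- With ramification index one the distances are those of the base. -/
theorem cartan_baseGL (w : FPlace L) {v : FPlace K} (hw : Orbital.below K w = v)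
    (hram : Orbital.ram K w = 1) (x : GLv v) :
    cartan (valv w) (Orbital.baseGL w hw x) = cartan (valv v) x := by
  have hval : ∀ z, valv w (Orbital.baseHom w hw z) = valv v z := fun z => by
    rw [Tree.valv_baseHom, hram, pow_one]
  have hent : ∀ i j,
      valv w ((Orbital.baseGL w hw x : Matrix (Fin 2) (Fin 2) (w.adicCompletion L)) i j) =
      valv v ((x : Matrix (Fin 2) (Fin 2) (v.adicCompletion K)) i j) := fun i j => hval _
  have hdet : valv w (Orbital.baseGL w hw x : Matrix (Fin 2) (Fin 2) (w.adicCompletion L)).det =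
      valv v (x : Matrix (Fin 2) (Fin 2) (v.adicCompletion K)).det := by
    rw [← hval, RingHom.map_det]
    rfl
  unfold cartan cartanInt
  rw [hdet]
  simp only [hent]

/-- The good places with three places above match. -/
theorem localMatch_good_split (τ : Orbital.CubicAut K L) (A : Orbital.ArchFrame τ)
    (hdeg : Module.finrank K L = 3) (UL : Level L) (UK : Level K) {BadL : Finset (FPlace L)}
    {BadK : Finset (FPlace K)} (hBad : ∀ w, w ∈ BadL ↔ Orbital.below K w ∈ BadK)
    (hUL : ∀ w ∉ BadL, UL.J w = maxSubgroup w) (hUK : ∀ v ∉ BadK, UK.J v = maxSubgroup v)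
    (d : GoodDatum L) (fBL : ∀ w : FPlace L, GLv w → ℂ) (fBK : ∀ v : FPlace K, GLv v → ℂ)
    {v : FPlace K} (hv : v ∉ BadK) (h3 : Nat.card (Orbital.Over L v) = 3) :
    Orbital.LocalMatch τ UL UK v (d.finWith BadL fBL) ((d.push A).finWith BadK fBK v) := by
  classical
  obtain ⟨w₀⟩ := Orbital.nonempty_over L v
  have hv1 : Nat.card (Orbital.Over L v) ≠ 1 := by omega
  have hw : ∀ w : Orbital.Over L v, w.1 ∉ BadL := fun w h =>
    hv (by rw [← w.2]; exact (hBad w.1).1 h)
  set Q := Ideal.absNorm v.asIdeal with hQdef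
  have hQ : Q ≠ 0 := absNorm_fplace_ne_zero v
  set g : Orbital.Over L v → GLv v → ℂ := fun w x => d.loc w.1 (cartan (valv v) x)
  have hbi : ∀ w, ∀ j₁ ∈ UK.J v, ∀ j₂ ∈ UK.J v, ∀ x, g w (j₁ * x * j₂) = g w x :=
    fun w j₁ h₁ j₂ h₂ x => Tree.cartan_biinvariant v (hUK v hv).le (d.loc w.1) h₁ h₂ x
  have hfin : ∀ w, {q : GLv v ⧸ UK.J v | g w q.out ≠ 0}.Finite := fun w =>
    Tree.finite_support_cartan v (hUK v hv) (d.loc w.1)
  have hf : ∀ w : Orbital.Over L v, ∀ x, d.finWith BadL fBL w.1 (Orbital.baseGL w.1 w.2 x) =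
    g w x :=
    fun w x => by
      rw [GoodDatum.finWith, if_neg (hw w),
        cartan_baseGL w.1 w.2 (Orbital.split_place hdeg h3 w).1]
  refine Orbital.localMatch_split τ UL UK _ _ h3 w₀ (g w₀) (g (Orbital.comapOver τ.σ w₀))
    (g (Orbital.comapOver τ.σ (Orbital.comapOver τ.σ w₀))) (fun w x => ?_) (hbi _) (hbi _) (hbi _)
    (hfin _) (hfin _) (hf _) (hf _) (hf _) fun x => ?_
  · rw [hUL _ (hw w), hUK v hv, Tree.maxSubgroup_eq, Tree.maxSubgroup_eq,
      ← Tree.cartan_eq_zero_iff, ← Tree.cartan_eq_zero_iff,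
      cartan_baseGL w.1 w.2 (Orbital.split_place hdeg h3 w).1]
  set w₁ := Orbital.comapOver τ.σ w₀
  set w₂ := Orbital.comapOver τ.σ w₁
  have hloc : pushLoc d v = sphMul Q (sphMul Q (d.loc w₀.1) (d.loc w₁.1)) (d.loc w₂.1) := by
    refine eq_of_satakePoly hQ ?_
    have hid : ∀ p : LaurentPolynomial ℂ,
        AddMonoidAlgebra.mapDomainRingHom ℂ (fibHom L v) p = p := fun p => by
      have : (fibHom L v) = AddMonoidHom.id ℤ := AddMonoidHom.ext fun n => by
        rw [fibHom, fibExp, if_pos h3]; simp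
      rw [this, AddMonoidAlgebra.mapDomainRingHom_id, RingHom.id_apply]
    rw [satakePoly_pushLoc, satakePoly_sphMul hQ, satakePoly_sphMul hQ, fibPoly,
      Orbital.prod_over_eq τ hv1 w₀, hid, hid, hid, (Orbital.split_place hdeg h3 w₀).2,
      (Orbital.split_place hdeg h3 w₁).2, (Orbital.split_place hdeg h3 w₂).2]
  rw [GoodDatum.finWith, if_neg hv]
  show pushLoc d v _ = _
  rw [hloc, ← finsum_cartan_mul_level (hUK v hv), Orbital.conv3]
  have hsupp : ((fun p : (GLv v ⧸ UK.J v) × (GLv v ⧸ UK.J v) =>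
      g w₀ p.2.out * g w₁ (p.2.out⁻¹ * p.1.out) * g w₂ (p.1.out⁻¹ * x)).support).Finite := by
    refine ((hfin w₀).biUnion fun a _ =>
      (Orbital.finite_translate (hbi w₁) (hfin w₁) a.out⁻¹).image fun b => (b, a)).subset ?_
    rintro ⟨b, a⟩ hp
    simp only [Function.mem_support, mul_ne_zero_iff] at hp
    simp only [Set.mem_iUnion, Set.mem_image]
    exact ⟨a, hp.1.1, b, hp.1.2, rfl⟩
  rw [← finsum_comp_equiv (Equiv.prodComm (GLv v ⧸ UK.J v) (GLv v ⧸ UK.J v))
    (f := fun p : (GLv v ⧸ UK.J v) × (GLv v ⧸ UK.J v) =>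
      g w₀ p.1.out * g w₁ (p.1.out⁻¹ * p.2.out) * g w₂ (p.2.out⁻¹ * x))]
  refine Eq.trans ?_ (finsum_curry _ hsupp).symm
  refine finsum_congr fun b => ?_
  rw [← finsum_cartan_mul_level (hUK v hv), ← smul_eq_mul, finsum_smul]
  rfl

variable {τ : Orbital.CubicAut K L} (A : Orbital.ArchFrame τ) (hdeg : Module.finrank K L = 3)
  {UL : Level L} {UK : Level K} {BadL : Finset (FPlace L)} {BadK : Finset (FPlace K)}
  (hBad : ∀ w, w ∈ BadL ↔ Orbital.below K w ∈ BadK)
  (hUL : ∀ w ∉ BadL, UL.J w = maxSubgroup w) (hUK : ∀ v ∉ BadK, UK.J v = maxSubgroup v)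
  (d : GoodDatum L) {fBL : ∀ w : FPlace L, GLv w → ℂ} {fBK : ∀ v : FPlace K, GLv v → ℂ}
  (hbiL : ∀ w ∈ BadL, ∀ j₁ ∈ UL.J w, ∀ j₂ ∈ UL.J w, ∀ x, fBL w (j₁ * x * j₂) = fBL w x)
  (hfinL : ∀ w ∈ BadL, {q : GLv w ⧸ UL.J w | fBL w q.out ≠ 0}.Finite)
  (hbiK : ∀ v ∈ BadK, ∀ j₁ ∈ UK.J v, ∀ j₂ ∈ UK.J v, ∀ x, fBK v (j₁ * x * j₂) = fBK v x)
  (hfinK : ∀ v ∈ BadK, {q : GLv v ⧸ UK.J v | fBK v q.out ≠ 0}.Finite)
  (hram : ∀ w ∉ BadL, Orbital.ram K w = 1)
  (hB : ∀ v ∈ BadK, Orbital.LocalMatch τ UL UK v fBL (fBK v))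
  {r : FPlace K} (hr : r ∉ BadK) (hr3 : Nat.card (Orbital.Over L r) = 3)
  (hodd : OddAt (Orbital.overFinset L {r}) d.loc)

include hdeg hBad hUL hUK hbiL hfinL hbiK hfinK hram hB hr hr3 hodd in
/-- The matching pair of a datum and its push forward. -/
def pushPair : Orbital.FinPair τ UL UK r where
  fL := d.finWith BadL fBL
  fK := (d.push A).finWith BadK fBK
  biL := (d.isLocalFamily_finWith hUL hbiL hfinL).bi
  biK := ((d.push A).isLocalFamily_finWith hUK hbiK hfinK).bi
  finL := (d.isLocalFamily_finWith hUL hbiL hfinL).fin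
  finK := ((d.push A).isLocalFamily_finWith hUK hbiK hfinK).fin
  unitL := (d.isLocalFamily_finWith hUL hbiL hfinL).unit
  unitK := ((d.push A).isLocalFamily_finWith hUK hbiK hfinK).unit
  matching v := by
    classical
    by_cases hv : v ∈ BadK
    · rw [show (d.push A).finWith BadK fBK v = fBK v from funext fun g => if_pos hv]
      exact (hB v hv).congr τ fun w => (funext fun g =>
        if_pos ((hBad w.1).2 (by rw [w.2]; exact hv))).symm
    · by_cases h1 : Nat.card (Orbital.Over L v) = 1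
      · exact localMatch_good_one τ A hdeg UL UK hBad hUL hUK d fBL fBK hv h1
          fun w => hram _ fun h => hv (by rw [← w.2]; exact (hBad w.1).1 h)
      · exact localMatch_good_split τ A hdeg UL UK hBad hUL hUK d fBL fBK hv
          (Orbital.card_over_eq_three τ h1)
  oddL g hg := by
    classical
    have hw : ∀ w : Orbital.Over L r, w.1 ∉ BadL := fun w h =>
      hr (by rw [← w.2]; exact (hBad w.1).1 h)
    let n : FPlace L → ℕ := fun w =>
      if h : Orbital.below K w = r then cartan (valv w) (g ⟨w, h⟩) else 0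
    have h1 := hodd n fun w hmem => by
      rw [Orbital.mem_overFinset, Finset.mem_singleton] at hmem
      have := hg ⟨w, hmem⟩
      rw [GoodDatum.finWith, if_neg (hw ⟨w, hmem⟩)] at this
      simpa [n, hmem] using this
    have e : ∑ w ∈ Orbital.overFinset L {r}, n w =
        ∑ u : Orbital.Over L r, cartan (valv u.1) (g u) := by
      simp only [Orbital.overFinset, Finset.singleton_biUnion,
        Finset.sum_image fun a _ b _ h => Subtype.ext h]
      exact Finset.sum_congr rfl fun u _ => by simp [n, u.2]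
    rw [e, Nat.odd_iff, Finset.sum_nat_mod] at h1
    rw [Int.odd_iff, Finset.sum_int_mod]
    have hpar : ∀ u : Orbital.Over L r, WithZero.log
        (valv u.1 (g u : Matrix (Fin 2) (Fin 2) (u.1.adicCompletion L)).det) % 2 =
          ((cartan (valv u.1) (g u) % 2 : ℕ) : ℤ) := fun u => by
      rcases Nat.even_or_odd (cartan (valv u.1) (g u)) with h | h
      · rw [Nat.even_iff.1 h, Int.even_iff.1
          (Int.not_odd_iff_even.1 fun ho => (Nat.not_odd_iff_even.2 h) ((parity_cartan _).2 ho))]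
        rfl
      · rw [Nat.odd_iff.1 h, Int.odd_iff.1 ((parity_cartan _).1 h)]
        rfl
    simp only [hpar]
    rw [← Nat.cast_sum]
    exact_mod_cast h1
  oddK g hg := by
    classical
    rw [GoodDatum.finWith, if_neg hr] at hg
    exact (parity_cartan g).1 (odd_of_pushLoc d hr3 hodd hg)

/-! ### The kernels at infinity -/

/-- The composition of the kernels along the three infinite places. -/
def pushKernel : ℝ → ℂ :=
  H3.compKernel
    (H3.compKernel (sphKernel (d.g (A.placeEquiv 0))) (sphKernel (d.g (A.placeEquiv 1))))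
    (sphKernel (d.g (A.placeEquiv 2)))

omit [NumberField K] in
theorem isArchTransfer_pushKernel :
    Orbital.IsArchTransfer τ (fun w => sphKernel (d.g w)) (pushKernel A d) :=
  ⟨A.φ, rfl⟩

theorem compKernel_congr {k k' l : ℝ → ℂ} (h : ∀ c, 1 ≤ c → k c = k' c) :
    H3.compKernel k l = H3.compKernel k' l := by
  funext c
  simp only [H3.compKernel, h _ (H3.one_le_coshDist _ _)]

theorem pushKernel_eq {c : ℝ} (hc : 1 ≤ c) (w : InfinitePlace K) :
    pushKernel A d c = sphKernel ((d.push A).g w) c := by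
  rw [pushKernel, compKernel_congr fun c hc => compKernel_sphKernel (d.test _) (d.test _) hc]
  exact compKernel_sphKernel ((d.test _).conv (d.test _)) (d.test _) hc

/-- The transform of the pushed kernel is the triple convolution. -/
theorem abelTransform_pushKernel (w : InfinitePlace K) :
    abelTransform (pushKernel A d) = (d.push A).g w := by
  rw [pushKernel, abelTransform_compKernel ((sphKernel_spec (d.test _)).1.comp
      (sphKernel_spec (d.test _)).1) (sphKernel_spec (d.test _)).1,
    abelTransform_compKernel (sphKernel_spec (d.test _)).1 (sphKernel_spec (d.test _)).1,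
    (sphKernel_spec (d.test _)).2.1, (sphKernel_spec (d.test _)).2.1,
    (sphKernel_spec (d.test _)).2.1]
  rfl

/-- The kernel of a push forward is a product kernel. -/
theorem kernel_push_eq_prodKernel (s t : Spc UK) :
    ((d.push A).monoWith hUK hbiK hfinK).kernel s t =
      Orbital.prodKernel ((d.push A).finWith BadK fBK) (fun _ => pushKernel A d) s t := by
  show _ * _ = _ * _
  exact congrArg _ (Finset.prod_congr rfl fun w _ =>
    (pushKernel_eq A d (H3.one_le_coshDist _ _) w).symm)

end Fermat.Agent.ResidualThree
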