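import Fermat.Agent.ResidualThree.CubicDescent.IdentityStatement
import Fermat.Agent.ResidualThree.CubicDescent.PushMul
import Fermat.Agent.ResidualThree.CubicDescent.PushPair
import Fermat.Agent.ResidualThree.Kernel.Diag
import Fermat.Agent.ResidualThree.Orbital.Main

/-!
# The comparison of the spectral sums of the two traces

For a datum with odd parity at a split place and a far infinite support the two integrals agree by
the twisted trace identity, so the difference of the masses is killed.
-/

noncomputable section

open IsDedekindDomain NumberField MeasureTheory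
open scoped WithZero ENNReal

namespace Fermat.Agent.ResidualThree

theorem kernel_map_eq_sum {F : Type} [Field F] [NumberField F] {U : Level F} {α : Type} (l : List α)
    (G : α → TestMonomial U) (s t : Spc U) :
    kernel (l.map G) s t = ∑ i : Fin l.length, (G l[i]).kernel s t := by
  rw [kernel, List.map_map, ← Fin.sum_univ_fun_getElem]
  rfl

variable {K L : Type} [Field K] [NumberField K] [Field L] [NumberField L] [Algebra K L]
  [IsTotallyComplex K] [IsTotallyComplex L]

namespace TraceSetting

variable {τ : Orbital.CubicAut K L} (D : TraceSetting τ)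

/-- The pairs of killing elements. -/
def pairs : List (GoodDatum L × GoodDatum L) := List.product D.E D.E

/-- The datum of a pair. -/
def pairDatum (a : GoodDatum L) (i : Fin D.pairs.length) : GoodDatum L :=
  (D.pairs[i].1.mul a).mul (D.pairs[i].2.mul D.u)

omit [IsTotallyComplex K] [IsTotallyComplex L] in
/-- The kernel of the test function over `L` as a sum over pairs. -/
theorem kernel_testL (a : GoodDatum L) (s t : Spc D.UL) :
    kernel (D.testL a) s t =
      ∑ i, ((D.pairDatum a i).monoWith D.maxL D.biL D.finL).kernel s t := by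
  rw [testL, kernel_square]
  exact kernel_map_eq_sum D.pairs _ s t

omit [IsTotallyComplex K] [IsTotallyComplex L] in
/-- The kernel of the test function over `K` as a sum over pairs. -/
theorem kernel_testK (a : GoodDatum L) (s t : Spc D.UK) :
    kernel (D.testK (a.push D.arch)) s t =
      ∑ i, (((D.pairDatum a i).push D.arch).monoWith D.maxK D.biK D.finK).kernel s t := by
  rw [testK, kernel_square, EK]
  have e : List.product (D.E.map (GoodDatum.push D.arch)) (D.E.map (GoodDatum.push D.arch)) =
      D.pairs.map fun p => (p.1.push D.arch, p.2.push D.arch) := by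
    simp [pairs, List.product, List.flatMap_map, List.map_flatMap, List.map_map, Function.comp_def]
  rw [e, List.map_map]
  refine (kernel_map_eq_sum D.pairs _ s t).trans (Finset.sum_congr rfl fun i _ => ?_)
  simp only [Function.comp_apply, pairDatum, GoodDatum.push_mul]

omit [IsTotallyComplex K] [IsTotallyComplex L] in
theorem loc_pairDatum_over {r : FPlace K}
    (hEr : ∀ d ∈ D.E, ∀ w : Orbital.Over L r, d.loc w.1 = Finsupp.single 0 1) (a : GoodDatum L)
    (i : Fin D.pairs.length) (w : Orbital.Over L r) : (D.pairDatum a i).loc w.1 = a.loc w.1 := by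
  have hm : D.pairs[i] ∈ D.pairs := List.getElem_mem _
  obtain ⟨h1, h2⟩ :=
    List.pair_mem_product.1 (show (D.pairs[i].1, D.pairs[i].2) ∈ List.product D.E D.E from hm)
  have hQ := absNorm_fplace_ne_zero w.1
  simp only [pairDatum, GoodDatum.mul, hEr _ h1 w, hEr _ h2 w, D.u_loc, sphMul_single_zero hQ,
    sphMul_single_zero_right hQ]

omit [IsTotallyComplex K] [IsTotallyComplex L] in
/-- Odd parity at a split triple passes to the data of the pairs. -/
theorem oddAt_pairDatum {r : FPlace K}
    (hEr : ∀ d ∈ D.E, ∀ w : Orbital.Over L r, d.loc w.1 = Finsupp.single 0 1) (a : GoodDatum L)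
    (hodd : OddAt (Orbital.overFinset L {r}) a.loc) (i : Fin D.pairs.length) :
    OddAt (Orbital.overFinset L {r}) (D.pairDatum a i).loc := by
  intro n hn
  refine hodd n fun w hw => ?_
  have hb : Orbital.below K w = r := Finset.mem_singleton.1 (Orbital.mem_overFinset.1 hw)
  rw [← D.loc_pairDatum_over hEr a i ⟨w, hb⟩]
  exact hn w hw

omit [IsTotallyComplex K] [IsTotallyComplex L] in
theorem ram_eq_one (hdeg : Module.finrank K L = 3) (w : FPlace L) (hw : w ∉ D.BadL) :
    Orbital.ram K w = 1 := by
  have hv : Orbital.below K w ∉ D.BadK := fun h => hw ((D.mem_bad w).2 h)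
  rcases D.unramified _ hv with h3 | ⟨w', huniq, hram⟩
  · exact (Orbital.split_place hdeg h3 ⟨w, rfl⟩).1
  · rw [show w = w'.1 from congrArg Subtype.val (huniq ⟨w, rfl⟩)]
    exact hram

omit [IsTotallyComplex K] [IsTotallyComplex L] in
/-- Moving the test function at one infinite place far out makes the pushed data of the pairs vanish
on a large interval around the origin. -/
theorem exists_vanish (loc : FPlace L → (ℕ →₀ ℂ))
    (g : InfinitePlace L → ℝ → ℂ) (hg : ∀ w, IsSphTest (g w)) (w₀ : InfinitePlace L)
    (i : Fin D.pairs.length) :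
    ∃ N : ℝ, ∀ (A : ℝ) (a : GoodDatum L) (w : InfinitePlace K), a.loc = loc →
      a.g w₀ = avgShift A (g w₀) → (∀ w', w' ≠ w₀ → a.g w' = g w') →
      VanishNear (((D.pairDatum a i).push D.arch).g w) (|A| - N) := by
  classical
  obtain ⟨j₀, hj₀⟩ := D.arch.placeEquiv.surjective w₀
  set p := D.pairs[i]
  have hrad : ∀ {f : ℝ → ℂ}, IsSphTest f → ∃ R : ℝ, ∀ x, R < |x| → f x = 0 := fun hf =>
    (exists_radius_of_isSphTest hf).imp fun _ h => h.2
  -- the factors not involving the moving one
  choose R₁ hR₁ using fun j => hrad (p.1.test (D.arch.placeEquiv j))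
  choose R₂ hR₂ using fun j =>
    hrad ((p.2.test (D.arch.placeEquiv j)).conv (D.u.test (D.arch.placeEquiv j)))
  choose R₃ hR₃ using fun j => hrad (((p.1.test (D.arch.placeEquiv j)).conv
    (hg (D.arch.placeEquiv j))).conv ((p.2.test (D.arch.placeEquiv j)).conv
      (D.u.test (D.arch.placeEquiv j))))
  obtain ⟨R₀, hR₀⟩ := hrad (hg w₀)
  obtain ⟨R₄, hR₄⟩ := hrad (((((p.1.test
    (D.arch.placeEquiv 0)).conv (hg (D.arch.placeEquiv 0))).conv
    ((p.2.test (D.arch.placeEquiv 0)).conv (D.u.test (D.arch.placeEquiv 0))))).conv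
    (((p.1.test (D.arch.placeEquiv 1)).conv (hg (D.arch.placeEquiv 1))).conv
      ((p.2.test (D.arch.placeEquiv 1)).conv (D.u.test (D.arch.placeEquiv 1)))))
  refine ⟨R₀ + R₁ j₀ + R₂ j₀ + |R₃ 0| + |R₃ 1| + |R₃ 2| + |R₄|, fun A a w ha hmove hrest => ?_⟩
  set G : Fin 3 → ℝ → ℂ := fun j =>
    convR (convR (p.1.g (D.arch.placeEquiv j)) (a.g (D.arch.placeEquiv j)))
      (convR (p.2.g (D.arch.placeEquiv j)) (D.u.g (D.arch.placeEquiv j))) with hG
  show VanishNear (conv3 G) _
  have hfar : VanishNear (G j₀) (|A| - (R₀ + R₁ j₀ + R₂ j₀)) := by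
    have h := ((vanishNear_avgShift hR₀ A).convR_right (hR₁ j₀)).convR_left (hR₂ j₀)
    rw [hG]
    simp only
    rw [hj₀, hmove]
    intro x hx
    rw [hj₀] at h
    exact h x (by linarith)
  have hnear : ∀ j, j ≠ j₀ → ∀ x, R₃ j < |x| → G j x = 0 := fun j hj => by
    rw [hG]
    simp only
    rw [hrest _ fun e => hj (D.arch.placeEquiv.injective (e.trans hj₀.symm))]
    exact hR₃ j
  have hmono : ∀ {f : ℝ → ℂ} {M N : ℝ}, VanishNear f M → N ≤ M → VanishNear f N :=
    fun h hle x hx => h x (hx.trans_le hle)
  have a0 := abs_nonneg (R₃ 0)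
  have a1 := abs_nonneg (R₃ 1)
  have a2 := abs_nonneg (R₃ 2)
  have a4 := abs_nonneg R₄
  have b0 := le_abs_self (R₃ 0)
  have b1 := le_abs_self (R₃ 1)
  have b2 := le_abs_self (R₃ 2)
  have b4 := le_abs_self R₄
  rw [conv3]
  fin_cases j₀
  · refine hmono ((hfar.convR_left (hnear 1 (by decide))).convR_left (hnear 2 (by decide))) ?_
    linarith
  · refine hmono ((hfar.convR_right (hnear 0 (by decide))).convR_left (hnear 2 (by decide))) ?_
    linarith
  · refine hmono (hfar.convR_right (R := R₄) fun x hx => ?_) ?_
    · have e0 : G 0 = _ := congrFun hG 0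
      have e1 : G 1 = _ := congrFun hG 1
      rw [e0, e1]
      rw [hrest _ fun e => absurd (D.arch.placeEquiv.injective (e.trans hj₀.symm)) (by decide),
        hrest _ fun e => absurd (D.arch.placeEquiv.injective (e.trans hj₀.symm)) (by decide)]
      exact hR₄ x hx
    · linarith

end TraceSetting

/-- **The comparison**: by the twisted trace identity the masses over `L` minus the pulled back
masses over `K` kill, at a split triple where the killing element is trivial, every datum of odd
parity moved far out. -/
theorem killed_of_spectral [IsPrincipalIdealRing (𝓞 K)] {τ : Orbital.CubicAut K L}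
    (hK2 : Module.finrank ℚ K = 2) (hL3 : Module.finrank K L = 3) (hnp : Orbital.NormPrinciple τ)
    (D : TraceSetting τ) {κ κ' : Type}
    (sysL : κ → EigenSystem L) (ML : κ → ℂ) (sysK : κ' → EigenSystem K) (MK : κ' → ℂ)
    (hL : D.IsSpectralL sysL ML) (hK : D.IsSpectralK sysK MK) :
    D.Killed sysL ML sysK MK := by
  classical
  intro r hr hr3 hEr loc hloc hodd g hg w₀
  let a : ℝ → GoodDatum L := fun A =>
    { loc := loc
      unit := hloc
      g := Function.update g w₀ (avgShift A (g w₀))
      test := fun w => by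
        rcases eq_or_ne w w₀ with rfl | hw
        · rw [Function.update_self]; exact (hg _).avgShift A
        · rw [Function.update_of_ne hw]; exact hg w }
  let P : Fin D.pairs.length → Orbital.FinPair τ D.UL D.UK r := fun i =>
    pushPair D.arch hL3 D.mem_bad D.maxL D.maxK (D.pairDatum (a 0) i) D.biL D.finL D.biK D.finK
      (D.ram_eq_one hL3) D.matching hr hr3
      (D.oddAt_pairDatum hEr (a 0) hodd i)
  obtain ⟨C, hC⟩ := Orbital.twistedTraceIdentity hK2 hL3 τ D.UL D.UK D.stable hnp r hr3
    (Fin D.pairs.length) P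
  choose N hN using fun i => D.exists_vanish loc g hg w₀ i
  refine ⟨|C| + 1 + ∑ i, |N i|, fun A hA => ?_⟩
  have hNi : ∀ i, |C| < |A| - N i := fun i => by
    have h1 := le_abs_self A
    have h2 := le_abs_self (N i)
    have h3 : |N i| ≤ ∑ j, |N j| :=
      Finset.single_le_sum (f := fun j => |N j|) (fun j _ => abs_nonneg _) (Finset.mem_univ i)
    linarith
  set d : Fin D.pairs.length → GoodDatum L := D.pairDatum (a A) with hd
  have hab : ∀ i s, |s| ≤ C → abelTransform (pushKernel D.arch (d i)) s = 0 := fun i s hs => by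
    rw [abelTransform_pushKernel D.arch (d i) D.arch.w₀]
    refine hN i A (a A) D.arch.w₀ rfl ?_ (fun w' hw' => ?_) s ?_
    · show Function.update g w₀ _ w₀ = _
      rw [Function.update_self]
    · show Function.update g w₀ _ w' = _
      rw [Function.update_of_ne hw']
    exact (hs.trans (le_abs_self C)).trans_lt (hNi i)
  have hkL : ∀ i (s t : Spc D.UL), ((d i).monoWith D.maxL D.biL D.finL).kernel s t =
      Orbital.prodKernel (P i).fL (fun w => sphKernel ((d i).g w)) s t := fun i s t => rfl
  have hkK : ∀ i (s t : Spc D.UK), (((d i).push D.arch).monoWith D.maxK D.biK D.finK).kernel s t =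
      Orbital.prodKernel (P i).fK (fun _ => pushKernel D.arch (d i)) s t := fun i s t => by
    -- the local functions only depend on `loc`, which is independent of `A`
    have hloc : pushLoc (K := K) (d i) = pushLoc (D.pairDatum (a 0) i) := by
      funext v
      simp only [pushLoc, fibPoly]
      rfl
    have hfK : (P i).fK = ((d i).push D.arch).finWith D.BadK D.fBK := by
      funext v x
      simp only [P, pushPair, GoodDatum.finWith, GoodDatum.push, hloc]
    rw [hfK]
    exact kernel_push_eq_prodKernel D.arch D.maxK (d i) D.biK D.finK s t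
  obtain ⟨hiL, hsL⟩ := hL (a A)
  obtain ⟨hiK, hsK⟩ := hK ((a A).push D.arch)
  have hL1 : ∀ s, autKernel (D.testL (a A)) s (Orbital.autSpc τ D.stable s) = ∑' δ : PGLF L,
      ∑ i, (1 : ℂ) * Orbital.prodKernel (P i).fL (fun w => sphKernel ((d i).g w)) s
        (δ • Orbital.autSpc τ D.stable s) := fun s =>
    tsum_congr fun δ => by
      rw [D.kernel_testL]
      exact Finset.sum_congr rfl fun i _ => by rw [one_mul, hkL]
  have hK1 : ∀ s, autKernel (D.testK ((a A).push D.arch)) s s = ∑' γ : PGLF K,
      ∑ i, (1 : ℂ) * Orbital.prodKernel (P i).fK (fun _ => pushKernel D.arch (d i)) s (γ • s) :=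
    fun s => tsum_congr fun γ => by
      rw [D.kernel_testK]
      exact Finset.sum_congr rfl fun i _ => by rw [one_mul, hkK]
  have hid := hC (fun _ => 1) (fun i w => sphKernel ((d i).g w)) (fun i => pushKernel D.arch (d i))
    (fun i w => (sphKernel_spec ((d i).test w)).1) (fun i => isArchTransfer_pushKernel D.arch (d i))
    hab D.WL D.WK
    (fun i T => by
      simpa only [hkL] using Kernel.lintegral_truncated_ne_top D.WL
        ((d i).monoWith D.maxL D.biL D.finL) (Orbital.measurable_autSpc τ D.stable)
        (Orbital.isTwist_autSpc τ D.stable) (Orbital.mapsBoxes_autSpc τ D.stable) T)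
    (fun i T => by
      simpa only [hkK, id_eq] using Kernel.lintegral_truncated_ne_top D.WK
        (((d i).push D.arch).monoWith D.maxK D.biK D.finK) measurable_id
        Kernel.isTwist_id Kernel.mapsBoxes_id T)
    (by simpa only [hL1] using (Kernel.integrable_weight_mul_iff D.WL _).2 hiL)
    (by simpa only [hK1] using (Kernel.integrable_weight_mul_iff D.WK _).2 hiK)
  have heq : ∫ s, autKernel (D.testL (a A)) s (Orbital.autSpc τ D.stable s) ∂Kernel.qMeas D.WL =
      ∫ s, autKernel (D.testK ((a A).push D.arch)) s s ∂Kernel.qMeas D.WK := by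
    rw [Kernel.integral_qMeas, Kernel.integral_qMeas]
    simpa only [hL1, hK1] using hid
  have hsK' : HasSum (fun k => -MK k * (a A).eval D.BadL (bcSys D.arch (sysK k)))
      (-∫ s, autKernel (D.testK ((a A).push D.arch)) s s ∂Kernel.qMeas D.WK) := by
    refine hsK.neg.congr_fun fun k => ?_
    rw [GoodDatum.eval_push D.arch (a A) D.mem_bad, neg_mul]
  have hsum := HasSum.sum (f := Sum.elim (fun j => ML j * (a A).eval D.BadL (sysL j))
    fun k => -MK k * (a A).eval D.BadL (bcSys D.arch (sysK k))) hsL hsK'
  rw [heq, add_neg_cancel] at hsum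
  refine (HasSum.tsum_eq (hsum.congr_fun fun j => ?_))
  cases j <;> rfl

end Fermat.Agent.ResidualThree
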