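import Fermat.Agent.ResidualThree.CubicDescent.Push
import Fermat.Agent.ResidualThree.CubicDescent.Separation

/-!
# Matched trace settings over the two fields

`TraceSetting` bundles matching levels, killing elements and test data over `L` and over `K`.
`TraceSetting.Killed` says: if the twisted trace over `L` and the trace over `K` of matching test
functions are sums of point masses, then the difference of the masses, pulled back to systems over
`L`, kills every good datum with odd parity at a split triple and far infinite support.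
-/

noncomputable section

open IsDedekindDomain NumberField MeasureTheory
open scoped WithZero

namespace Fermat.Agent.ResidualThree

variable {K L : Type} [Field K] [NumberField K] [Field L] [NumberField L] [Algebra K L]
  [IsTotallyComplex K] [IsTotallyComplex L]

/-- Matching levels, killing elements and test data on the two sides. -/
structure TraceSetting (τ : Orbital.CubicAut K L) : Type where
  /-- the infinite frame -/
  arch : Orbital.ArchFrame τ
  /-- the level over `L` -/
  UL : Level L
  /-- the level over `K` -/
  UK : Level K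
  stable : Orbital.IsStableLevel τ.σ.toRingEquiv UL
  /-- the bad places over `L` -/
  BadL : Finset (FPlace L)
  /-- the bad places over `K` -/
  BadK : Finset (FPlace K)
  mem_bad : ∀ w, w ∈ BadL ↔ Orbital.below K w ∈ BadK
  maxL : ∀ w ∉ BadL, UL.J w = maxSubgroup w
  maxK : ∀ v ∉ BadK, UK.J v = maxSubgroup v
  /-- the weight over `L` -/
  WL : QuotientWeight UL
  /-- the weight over `K` -/
  WK : QuotientWeight UK
  /-- the killing element -/
  E : List (GoodDatum L)
  /-- the unit datum -/
  u : GoodDatum L
  u_loc : ∀ w, u.loc w = Finsupp.single 0 1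
  /-- the functions at the bad places of `L` -/
  fBL : ∀ w : FPlace L, GLv w → ℂ
  /-- the functions at the bad places of `K` -/
  fBK : ∀ v : FPlace K, GLv v → ℂ
  biL : ∀ w ∈ BadL, ∀ j₁ ∈ UL.J w, ∀ j₂ ∈ UL.J w, ∀ x, fBL w (j₁ * x * j₂) = fBL w x
  biK : ∀ v ∈ BadK, ∀ j₁ ∈ UK.J v, ∀ j₂ ∈ UK.J v, ∀ x, fBK v (j₁ * x * j₂) = fBK v x
  finL : ∀ w ∈ BadL, {q : GLv w ⧸ UL.J w | fBL w q.out ≠ 0}.Finite
  finK : ∀ v ∈ BadK, {q : GLv v ⧸ UK.J v | fBK v q.out ≠ 0}.Finite
  matching : ∀ v ∈ BadK, Orbital.LocalMatch τ UL UK v fBL (fBK v)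
  unramified : ∀ v ∉ BadK, Nat.card (Orbital.Over L v) = 3 ∨
    ∃ w : Orbital.Over L v, (∀ w' : Orbital.Over L v, w' = w) ∧ Orbital.ram K w.1 = 1

namespace TraceSetting

variable {τ : Orbital.CubicAut K L} (D : TraceSetting τ)

/-- The test function over `L` of a datum. -/
def testL (a : GoodDatum L) : TestFun D.UL :=
  convFun (convFun (D.E.map fun d => d.mono D.maxL) [a.mono D.maxL])
    (convFun (D.E.map fun d => d.mono D.maxL) [D.u.monoWith D.maxL D.biL D.finL])

/-- The killing element over `K`. -/
def EK : List (GoodDatum K) := D.E.map (GoodDatum.push D.arch)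

/-- The test function over `K` of a datum. -/
def testK (a : GoodDatum K) : TestFun D.UK :=
  convFun (convFun (D.EK.map fun d => d.mono D.maxK) [a.mono D.maxK])
    (convFun (D.EK.map fun d => d.mono D.maxK)
      [(D.u.push D.arch).monoWith D.maxK D.biK D.finK])

/-- The twisted trace over `L` is a sum of point masses. -/
def IsSpectralL {κ : Type} (sys : κ → EigenSystem L) (M : κ → ℂ) : Prop :=
  ∀ a : GoodDatum L,
    Integrable (fun s => autKernel (D.testL a) s (Orbital.autSpc τ D.stable s))
      (Kernel.qMeas D.WL) ∧
    HasSum (fun j => M j * a.eval D.BadL (sys j))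
      (∫ s, autKernel (D.testL a) s (Orbital.autSpc τ D.stable s) ∂Kernel.qMeas D.WL)

/-- The trace over `K` is a sum of point masses. -/
def IsSpectralK {κ : Type} (sys : κ → EigenSystem K) (M : κ → ℂ) : Prop :=
  ∀ a : GoodDatum K,
    Integrable (fun s => autKernel (D.testK a) s s) (Kernel.qMeas D.WK) ∧
    HasSum (fun j => M j * a.eval D.BadK (sys j))
      (∫ s, autKernel (D.testK a) s s ∂Kernel.qMeas D.WK)

/-- The conclusion at a split place `r` where the killing element is trivial. -/
def Killed {κ κ' : Type} (sysL : κ → EigenSystem L) (ML : κ → ℂ) (sysK : κ' → EigenSystem K)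
    (MK : κ' → ℂ) : Prop :=
  ∀ r ∉ D.BadK, Nat.card (Orbital.Over L r) = 3 →
    (∀ d ∈ D.E, ∀ w : Orbital.Over L r, d.loc w.1 = Finsupp.single 0 1) →
    KilledAt (Sum.elim ML fun k => -MK k) (Sum.elim sysL fun k => bcSys D.arch (sysK k)) D.BadL
      (Orbital.overFinset L {r})

end TraceSetting

end Fermat.Agent.ResidualThree
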