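import Fermat.Agent.ResidualThree.CubicDescent.GoodAlgebra
import Fermat.Agent.ResidualThree.CubicDescent.Separation
import Fermat.Agent.ResidualThree.CubicDescent.ShiftSum
import Fermat.Agent.ResidualThree.CubicDescent.SpectralStatement

/-!
# The killing element

For the position `δ` of an element, the product over all sign vectors `ε` of `1 - T_{εδ}` is
invariant under changes of signs, hence a combination of data, one for each set of sign vectors.
Its transform is divisible by `1 - T_δ`, its kernel is symmetric and its values at parameter zero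
are products.
-/

noncomputable section

open IsDedekindDomain NumberField MeasureTheory
open scoped WithZero ComplexConjugate Classical

namespace Fermat.Agent.ResidualThree

namespace Killing

variable {F : Type} [Field F] [NumberField F] {P : Finset (FPlace F)}

/-- Sign vectors at the places of `P` and at the infinite places. -/
abbrev SignIx (P : Finset (FPlace F)) : Type := (↥P → Bool) × (InfinitePlace F → Bool)

/-- The sign of a bit. -/
def sgnInt (b : Bool) : ℤ := if b then 1 else -1

theorem sgnInt_beq (a b : Bool) : sgnInt (a == b) = sgnInt a * sgnInt b := by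
  cases a <;> cases b <;> simp [sgnInt]

/-- A change of signs. -/
def flipVec (η : SignIx P) (u : ShiftSpace P) : ShiftSpace P :=
  (fun v => sgnInt (η.1 v) * u.1 v, fun w => (sgnInt (η.2 w) : ℝ) * u.2 w)

/-- The sum of the changes of `δ` by a set of sign vectors. -/
def elemShift (δ : ShiftSpace P) (A : Finset (SignIx P)) : ShiftSpace P := ∑ ε ∈ A, flipVec ε δ

/-- Composition with a sign vector. -/
def flipPerm (η : SignIx P) : Equiv.Perm (SignIx P) :=
  Function.Involutive.toPerm
    (fun ε => ((fun v => η.1 v == ε.1 v), fun w => η.2 w == ε.2 w)) fun ε => by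
      refine Prod.ext (funext fun v => ?_) (funext fun w => ?_)
      · show (η.1 v == (η.1 v == ε.1 v)) = ε.1 v
        cases η.1 v <;> cases ε.1 v <;> rfl
      · show (η.2 w == (η.2 w == ε.2 w)) = ε.2 w
        cases η.2 w <;> cases ε.2 w <;> rfl

omit [NumberField F] in
theorem flipVec_flipPerm (η ε : SignIx P) (δ : ShiftSpace P) :
    flipVec (flipPerm η ε) δ = flipVec η (flipVec ε δ) := by
  refine Prod.ext (funext fun v => ?_) (funext fun w => ?_)
  · show sgnInt (η.1 v == ε.1 v) * δ.1 v = sgnInt (η.1 v) * (sgnInt (ε.1 v) * δ.1 v)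
    rw [sgnInt_beq, mul_assoc]
  · show (sgnInt (η.2 w == ε.2 w) : ℝ) * δ.2 w = (sgnInt (η.2 w) : ℝ) *
        ((sgnInt (ε.2 w) : ℝ) * δ.2 w)
    rw [sgnInt_beq, Int.cast_mul, mul_assoc]

omit [NumberField F] in
theorem flipVec_elemShift (η : SignIx P) (δ : ShiftSpace P) (A : Finset (SignIx P)) :
    flipVec η (elemShift δ A) = elemShift δ ((flipPerm η).finsetCongr A) := by
  rw [elemShift, elemShift, Equiv.finsetCongr_apply, Finset.sum_map]
  simp only [Equiv.coe_toEmbedding, flipVec_flipPerm]
  refine Prod.ext (funext fun v => ?_) (funext fun w => ?_) <;>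
    simp [flipVec, Prod.fst_sum, Prod.snd_sum, Finset.sum_apply, Finset.mul_sum]

/-- The alternating sum over sets of sign vectors is unchanged by a change of signs. -/
theorem altSum_flip (δ : ShiftSpace P) (f : ShiftSpace P → ℂ) (η : SignIx P) :
    ∑ A : Finset (SignIx P), (-1 : ℂ) ^ A.card * f (flipVec η (elemShift δ A)) =
      ∑ A : Finset (SignIx P), (-1 : ℂ) ^ A.card * f (elemShift δ A) := by
  conv_rhs => rw [← (flipPerm η).finsetCongr.sum_comp]
  exact Finset.sum_congr rfl fun A _ => by
    rw [flipVec_elemShift, Equiv.finsetCongr_apply, Finset.card_map]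

/-- The mean over the changes of signs. -/
def flipAvg (f : ShiftSpace P → ℂ) (u : ShiftSpace P) : ℂ :=
  (∑ η : SignIx P, f (flipVec η u)) / (2 ^ Fintype.card ↥P * 2 ^ Fintype.card (InfinitePlace F))

theorem altSum_flipAvg (δ : ShiftSpace P) (f : ShiftSpace P → ℂ) :
    ∑ A : Finset (SignIx P), (-1 : ℂ) ^ A.card * flipAvg f (elemShift δ A) =
      ∑ A : Finset (SignIx P), (-1 : ℂ) ^ A.card * f (elemShift δ A) := by
  have hc : Fintype.card (SignIx P) = 2 ^ Fintype.card ↥P * 2 ^ Fintype.card (InfinitePlace F) := by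
    simp
  simp only [flipAvg, ← mul_div_assoc, ← Finset.sum_div, Finset.mul_sum]
  rw [Finset.sum_comm, Finset.sum_congr rfl fun η _ => altSum_flip δ f η, Finset.sum_const,
    Finset.card_univ, hc, nsmul_eq_mul]
  push_cast
  rw [mul_div_cancel_left₀]
  exact mul_ne_zero (pow_ne_zero _ two_ne_zero) (pow_ne_zero _ two_ne_zero)

/-- A mean over changes of signs of a product is the product of the means. -/
theorem flipAvg_prod (f₁ : ↥P → ℤ → ℂ) (f₂ : InfinitePlace F → ℝ → ℂ) (u : ShiftSpace P) :
    flipAvg (fun z => (∏ v, f₁ v (z.1 v)) * ∏ w, f₂ w (z.2 w)) u =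
      (∏ v, (f₁ v (u.1 v) + f₁ v (-u.1 v)) / 2) * ∏ w, (f₂ w (u.2 w) + f₂ w (-u.2 w)) / 2 := by
  classical
  rw [flipAvg, Fintype.sum_prod_type]
  simp only [flipVec]
  rw [← Finset.sum_mul_sum, ← Fintype.prod_sum (fun v b => f₁ v (sgnInt b * u.1 v)),
    ← Fintype.prod_sum (fun w b => f₂ w ((sgnInt b : ℝ) * u.2 w))]
  simp only [Fintype.sum_bool, sgnInt, if_true, Bool.false_eq_true, if_false, one_mul, neg_mul,
    Int.cast_one, Int.cast_neg, Finset.prod_div_distrib, Finset.prod_const, Finset.card_univ]
  rw [div_mul_div_comm]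

/-- The symmetrised point mass. -/
def symDelta (n : ℤ) : ℕ →₀ ℂ := Finsupp.single n.natAbs (if n = 0 then 1 else 1 / 2)

theorem satakeInt_symDelta {Q : ℕ} (hQ : Q ≠ 0) (n x : ℤ) :
    satakeInt Q (invSatake Q (symDelta n)) x =
      ((if x = n then 1 else 0) + if x = -n then 1 else 0) / 2 := by
  rw [satakeInt, Tree.satake_invSatake hQ, symDelta, Finsupp.single_apply]
  simp only [eq_comm (a := n.natAbs), Int.natAbs_eq_natAbs_iff]
  by_cases hn : n = 0
  · subst hn
    by_cases hx : x = 0 <;> simp [hx]
  · simp only [if_neg hn]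
    by_cases h1 : x = n
    · subst h1
      rw [if_pos (Or.inl rfl), if_pos rfl, if_neg (by omega), add_zero]
    · by_cases h2 : x = -n
      · subst h2
        rw [if_pos (Or.inr rfl), if_pos rfl, if_neg h1, zero_add]
      · simp [h1, h2]

/-- The eigenvalue of a symmetrised point mass. -/
theorem sphEval_symDelta {Q : ℕ} (hQ : Q ≠ 0) {α : ℂ} (hα : α ≠ 0) (n : ℤ) :
    sphEval Q (α + α⁻¹) (invSatake Q (symDelta n)) = (α ^ n + α ^ (-n)) / 2 := by
  rw [sphEval, Tree.sum_sphereEigen hQ hα _
    (le_max_left (Tree.spBound (invSatake Q (symDelta n))) (n.natAbs + 1))]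
  simp only [Tree.satake_invSatake hQ, symDelta]
  rw [Finset.sum_eq_single n.natAbs (fun b _ hb => by simp [Ne.symm hb])
    (fun h => absurd (Finset.mem_range.mpr ((Nat.lt_succ_self _).trans_le (le_max_right _ _))) h),
    Finsupp.single_eq_same]
  rcases Int.natAbs_eq n with h | h <;> rw [Tree.charPow]
  · conv_rhs => rw [h, zpow_neg, zpow_natCast, ← inv_pow]
    by_cases hn : n = 0
    · subst hn; simp
    · rw [if_neg hn, if_neg (Int.natAbs_ne_zero.mpr hn)]; ring
  · conv_rhs => rw [h, neg_neg, zpow_neg, zpow_natCast, ← inv_pow]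
    by_cases hn : n = 0
    · subst hn; simp
    · rw [if_neg hn, if_neg (Int.natAbs_ne_zero.mpr hn)]; ring

theorem conj_invSatake {G : ℕ →₀ ℂ} (hG : ∀ n, conj (G n) = G n) (Q : ℕ) (n : ℕ) :
    conj (invSatake Q G n) = invSatake Q G n := by
  simp [invSatake, invSatakeFun, hG, map_sum, apply_ite conj]

/-- The kernel of a real test function is real on distances. -/
theorem sphKernel_real {g : ℝ → ℂ} (hg : IsSphTest g) (hr : ∀ s, conj (g s) = g s) {c : ℝ}
    (hc : 1 ≤ c) : conj (sphKernel g c) = sphKernel g c := by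
  conv_rhs => rw [← funext hr]
  exact (sphKernel_conj hg hc).symm

end Killing

/-- A datum with real coefficients and real test functions. -/
structure GoodDatum.IsReal {F : Type} [Field F] [NumberField F] (d : GoodDatum F) : Prop where
  loc : ∀ v n, conj (d.loc v n) = d.loc v n
  test : ∀ w s, conj (d.g w s) = d.g w s

/-- The kernel of a real datum is hermitian. -/
theorem GoodDatum.IsReal.kernel_symm {F : Type} [Field F] [NumberField F] {d : GoodDatum F}
    (hd : d.IsReal) {U : Level F} {Bad : Finset (FPlace F)}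
    (hU : ∀ v ∉ Bad, U.J v = maxSubgroup v) (s t : Spc U) :
    conj ((d.mono hU).kernel t s) = (d.mono hU).kernel s t := by
  classical
  have hfin : ∀ g : Gf F, conj (Orbital.globalFun (d.fin U Bad) g) =
      Orbital.globalFun (d.fin U Bad) g⁻¹ := fun g => by
    rw [Orbital.globalFun, Orbital.globalFun, map_finprod _
      ((d.isLocalFamily hU).hasFiniteMulSupport g)]
    refine finprod_congr fun v => ?_
    show conj (d.fin U Bad v (g.1 v)) = d.fin U Bad v (g.1 v)⁻¹
    simp only [GoodDatum.fin]
    by_cases hv : v ∈ Bad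
    · simp only [if_pos hv, apply_ite conj, map_one, map_zero, inv_mem_iff]
    · simp only [if_neg hv, hd.loc, Tree.cartan_inv]
  have harch : ∀ (w : InfinitePlace F) (p q : H3),
      conj (sphKernel (d.g w) (H3.coshDist p q)) = sphKernel (d.g w) (H3.coshDist q p) :=
    fun w p q => by
      rw [H3.coshDist_comm q p]
      exact Killing.sphKernel_real (d.test w) (hd.test w) (H3.one_le_coshDist _ _)
  show conj (Orbital.globalFun _ (t.1.out⁻¹ * s.1.out) * ∏ w, sphKernel _ _) =
    Orbital.globalFun _ (s.1.out⁻¹ * t.1.out) * ∏ w, sphKernel _ _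
  rw [map_mul, map_prod, hfin, mul_inv_rev, inv_inv, Finset.prod_congr rfl fun w _ => harch w _ _]

/-- A combination of real data has a symmetric kernel. -/
theorem kernel_adjFun_of_isReal {F : Type} [Field F] [NumberField F] {E : List (GoodDatum F)}
    (hE : ∀ d ∈ E, d.IsReal) {U : Level F} {Bad : Finset (FPlace F)}
    (hU : ∀ v ∉ Bad, U.J v = maxSubgroup v) (s t : Spc U) :
    kernel (adjFun (E.map fun d => d.mono hU)) s t = kernel (E.map fun d => d.mono hU) s t := by
  rw [kernel_adjFun]
  induction E with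
  | nil => simp [kernel_nil]
  | cons a E ih =>
    simp only [List.map_cons, kernel_cons, map_add, (hE a (List.mem_cons_self ..)).kernel_symm hU,
      ih fun d hd => hE d (List.mem_cons_of_mem _ hd)]

namespace Killing

variable {F : Type} [Field F] [NumberField F] {P : Finset (FPlace F)}

open Classical in
/-- One summand of the killing element. -/
def elemDatum (δ : ShiftSpace P) (g₀ : InfinitePlace F → ℝ → ℂ) (hg : ∀ w, IsSphTest (g₀ w))
    (A : Finset (SignIx P)) : GoodDatum F where
  loc v :=
    if h : v ∈ P then invSatake (Ideal.absNorm v.asIdeal) (symDelta ((elemShift δ A).1 ⟨v, h⟩))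
    else Finsupp.single 0 1
  unit := by
    filter_upwards [P.finite_toSet.compl_mem_cofinite] with v hv
    rw [dif_neg (by simpa using hv)]
  g w := fun s => (if w = Classical.arbitrary (InfinitePlace F) then (-1 : ℂ) ^ A.card else 1) *
    avgShift ((elemShift δ A).2 w) (g₀ w) s
  test w := ((hg w).avgShift _).smul _

variable (δ : ShiftSpace P) (g₀ : InfinitePlace F → ℝ → ℂ) (hg : ∀ w, IsSphTest (g₀ w))

theorem elemDatum_loc_outside (A : Finset (SignIx P)) {v : FPlace F} (hv : v ∉ P) :
    (elemDatum δ g₀ hg A).loc v = Finsupp.single 0 1 := by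
  simp [elemDatum, hv]

theorem elemDatum_loc (A : Finset (SignIx P)) (v : ↥P) :
    (elemDatum δ g₀ hg A).loc v =
      invSatake (Ideal.absNorm (v : FPlace F).asIdeal) (symDelta ((elemShift δ A).1 v)) := by
  simp [elemDatum]

theorem transform_elemDatum (A : Finset (SignIx P)) (x : ShiftSpace P) :
    (elemDatum δ g₀ hg A).transform P x =
      (-1 : ℂ) ^ A.card * flipAvg (fun u => shiftAtom g₀ u x) (elemShift δ A) := by
  classical
  have e : (fun u : ShiftSpace P => shiftAtom g₀ u x) = fun u =>
      (∏ v, if x.1 v = u.1 v then (1 : ℂ) else 0) * ∏ w, g₀ w (x.2 w - u.2 w) := by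
    funext u
    simp only [shiftAtom, Fintype.prod_boole, funext_iff, ite_mul, one_mul, zero_mul]
  rw [e, flipAvg_prod (fun v n => if x.1 v = n then (1 : ℂ) else 0)
    (fun w t => g₀ w (x.2 w - t)), GoodDatum.transform]
  simp only [elemDatum_loc, satakeInt_symDelta (absNorm_fplace_ne_zero _)]
  simp only [elemDatum, Finset.prod_mul_distrib, Finset.prod_ite_eq', Finset.mem_univ, if_true]
  rw [show ∏ w, avgShift ((elemShift δ A).2 w) (g₀ w) (x.2 w) = ∏ w,
    (g₀ w (x.2 w - (elemShift δ A).2 w) + g₀ w (x.2 w - -(elemShift δ A).2 w)) / 2 from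
      Finset.prod_congr rfl fun w _ => by rw [avgShift, sub_neg_eq_add, add_comm]]
  ring

open Classical in
/-- The killing element. -/
def killElem : List (GoodDatum F) :=
  (Finset.univ : Finset (Finset (SignIx P))).toList.map (elemDatum δ g₀ hg)

/-- The quotient of the transform by `1 - T_δ`. -/
def killCoeff : ShiftSpace P →₀ ℂ := open Classical in
  ∑ A ∈ ((Finset.univ : Finset (SignIx P)).erase (fun _ => true, fun _ => true)).powerset,
    Finsupp.single (elemShift δ A) ((-1 : ℂ) ^ A.card)

omit [NumberField F] in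
theorem flipVec_true : flipVec ((fun _ => true, fun _ => true) : SignIx P) δ = δ := by
  simp [flipVec, sgnInt]

/-- The transform of the killing element is divisible by `1 - T_δ`. -/
theorem transformList_killElem (x : ShiftSpace P) :
    transformList (killElem δ g₀ hg) P x =
      shiftSum g₀ (killCoeff δ - (killCoeff δ).mapDomain (· + δ)) x := by
  classical
  set ε₀ : SignIx P := (fun _ => true, fun _ => true)
  rw [transformList, killElem, List.map_map, Finset.sum_map_toList]
  simp only [Function.comp_apply, transform_elemDatum]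
  rw [altSum_flipAvg, ← Finset.powerset_univ, ← Finset.insert_erase (Finset.mem_univ ε₀),
    Finset.sum_powerset_insert (Finset.notMem_erase _ _), shiftSum_sub, shiftSum_mapDomain,
    killCoeff, shiftSum_finsetSum, shiftSum_finsetSum, sub_eq_add_neg, ← Finset.sum_neg_distrib]
  refine congrArg₂ (· + ·) (Finset.sum_congr rfl fun A _ => ?_)
    (Finset.sum_congr rfl fun A hA => ?_)
  · rw [shiftSum_single]
  · have hA' : ε₀ ∉ A := fun h => Finset.notMem_erase _ _ (Finset.mem_powerset.mp hA h)
    rw [shiftSum_single, Finset.card_insert_of_notMem hA', pow_succ,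
      show elemShift δ (insert ε₀ A) = elemShift δ A + δ by
        rw [elemShift, Finset.sum_insert hA', flipVec_true, add_comm]; rfl,
      shiftAtom_add]
    ring

theorem eval_elemDatum {Bad : Finset (FPlace F)} (hdisj : Disjoint P Bad) (s : EigenSystem F)
    (α : FPlace F → ℂ) (hα : ∀ v ∈ P, α v ≠ 0) (hs : ∀ v ∈ P, s.a v = α v + (α v)⁻¹)
    (hl : ∀ w, s.l w = 0) (A : Finset (SignIx P)) :
    (elemDatum δ g₀ hg A).eval Bad s =
      (-1 : ℂ) ^ A.card * flipAvg (fun u => ∏ v : ↥P, α v ^ u.1 v) (elemShift δ A) *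
        ∏ w, coshTransform (g₀ w) 0 := by
  classical
  have e : (fun u : ShiftSpace P => ∏ v : ↥P, α v ^ u.1 v) = fun u =>
      (∏ v : ↥P, α v ^ u.1 v) * ∏ w : InfinitePlace F, (fun (_ : InfinitePlace F) (_ : ℝ) =>
        (1 : ℂ)) w (u.2 w) := by
    funext u; simp
  rw [e, flipAvg_prod (fun v n => α v.1 ^ n) (fun _ _ => (1 : ℂ)), GoodDatum.eval,
    finprod_eq_prod_of_mulSupport_subset _ (s := P) fun v hv => by
      by_contra hP
      refine hv ?_
      show (if v ∈ Bad then (1 : ℂ) else _) = 1
      rw [elemDatum_loc_outside δ g₀ hg A hP, sphEval_single_zero, ite_self],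
    ← Finset.prod_coe_sort P]
  have h1 : ∀ v : ↥P, (if (v : FPlace F) ∈ Bad then (1 : ℂ) else
      sphEval (Ideal.absNorm (v : FPlace F).asIdeal) (s.a v) ((elemDatum δ g₀ hg A).loc v)) =
      (α v.1 ^ (elemShift δ A).1 v + α v.1 ^ (-(elemShift δ A).1 v)) / 2 := fun v => by
    rw [if_neg (Finset.disjoint_left.mp hdisj v.2), elemDatum_loc, hs v v.2,
      sphEval_symDelta (absNorm_fplace_ne_zero _) (hα v v.2)]
  have h2 : ∀ w, coshTransform ((elemDatum δ g₀ hg A).g w) (s.l w) =
      (if w = Classical.arbitrary (InfinitePlace F) then (-1 : ℂ) ^ A.card else 1) *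
        coshTransform (g₀ w) 0 := fun w => by
    have h3 : ∀ (k : ℂ) (g : ℝ → ℂ), coshTransform (fun t => k * g t) 0 = k * coshTransform g 0 :=
      fun k g => by simp only [coshTransform, mul_assoc, integral_const_mul]
    rw [hl]
    show coshTransform (fun t => _ * avgShift _ _ t) 0 = _
    rw [h3, coshTransform_avgShift (hg w), zero_mul, Complex.cosh_zero, one_mul]
  simp only [h1, h2, Finset.prod_mul_distrib, Finset.prod_ite_eq', Finset.mem_univ, if_true,
    add_self_div_two, Finset.prod_const_one, mul_one]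
  ring

/-- The value of the killing element. -/
theorem evalList_killElem {Bad : Finset (FPlace F)} (hdisj : Disjoint P Bad) (s : EigenSystem F)
    (α : FPlace F → ℂ) (hα : ∀ v ∈ P, α v ≠ 0) (hs : ∀ v ∈ P, s.a v = α v + (α v)⁻¹)
    (hl : ∀ w, s.l w = 0) :
    evalList (killElem δ g₀ hg) Bad s =
      (∏ ε : ↥P → Bool, (1 - ∏ v : ↥P, α v ^ (sgnInt (ε v) * δ.1 v))) ^
          (2 ^ Fintype.card (InfinitePlace F)) * ∏ w, coshTransform (g₀ w) 0 := by
  classical
  rw [evalList, killElem, List.map_map, Finset.sum_map_toList]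
  simp only [Function.comp_apply, eval_elemDatum δ g₀ hg hdisj s α hα hs hl, ← Finset.sum_mul]
  congr 1
  rw [altSum_flipAvg]
  have hchi : ∀ A : Finset (SignIx P), ∏ v : ↥P, α v ^ (elemShift δ A).1 v =
      ∏ ε ∈ A, ∏ v : ↥P, α v ^ (sgnInt (ε.1 v) * δ.1 v) := fun A => by
    rw [Finset.prod_comm]
    refine Finset.prod_congr rfl fun v _ => ?_
    induction A using Finset.induction_on with
    | empty => simp [elemShift]
    | @insert j A hj ih =>
      rw [Finset.prod_insert hj, ← ih, ← zpow_add₀ (hα v v.2), elemShift, elemShift,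
        Finset.sum_insert hj]
      rfl
  calc ∑ A : Finset (SignIx P), (-1 : ℂ) ^ A.card * ∏ v : ↥P, α v ^ (elemShift δ A).1 v
      = ∑ A : Finset (SignIx P), ∏ ε ∈ A, -∏ v : ↥P, α v ^ (sgnInt (ε.1 v) * δ.1 v) :=
        Finset.sum_congr rfl fun A _ => by rw [hchi, Finset.prod_neg]
    _ = ∏ ε : SignIx P, (1 - ∏ v : ↥P, α v ^ (sgnInt (ε.1 v) * δ.1 v)) := by
        simp only [sub_eq_add_neg, Finset.prod_one_add, Finset.powerset_univ]
    _ = _ := by
        rw [Fintype.prod_prod_type, ← Finset.prod_pow]
        refine Finset.prod_congr rfl fun ε _ => ?_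
        simp only [Finset.prod_const, Finset.card_univ, Fintype.card_fun, Fintype.card_bool]

theorem isReal_elemDatum (hr : ∀ w s, conj (g₀ w s) = g₀ w s) (A : Finset (SignIx P)) :
    (elemDatum δ g₀ hg A).IsReal := by
  classical
  refine ⟨fun v n => ?_, fun w x => ?_⟩
  · by_cases hv : v ∈ P
    · rw [show v = ((⟨v, hv⟩ : ↥P) : FPlace F) from rfl, elemDatum_loc]
      refine conj_invSatake (fun k => ?_) _ _
      simp [symDelta, Finsupp.single_apply, apply_ite conj, map_ofNat]
    · rw [elemDatum_loc_outside δ g₀ hg A hv, Finsupp.single_apply]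
      split_ifs <;> simp
  · show conj ((if w = _ then (-1 : ℂ) ^ A.card else 1) * avgShift _ _ x) = _
    simp [elemDatum, avgShift, hr, apply_ite conj, map_ofNat, map_div₀]

end Killing

open Killing in
/-- **The killing element** of an element `a₀` and a finite set `P` of places. If `P` has an odd
number of places and `a₀` has order two at them, it does not vanish at parameter zero and
eigenvalue zero. -/
theorem exists_killElem {F : Type} [Field F] [NumberField F] (P : Finset (FPlace F)) (a₀ : F)
    (g₀ : InfinitePlace F → ℝ → ℂ) (hg : ∀ w, IsSphTest (g₀ w))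
    (hr : ∀ w s, conj (g₀ w s) = g₀ w s) :
    ∃ (E : List (GoodDatum F)) (c : ShiftSpace P →₀ ℂ),
      (∀ d ∈ E, ∀ v ∉ P, d.loc v = Finsupp.single 0 1) ∧
      (∀ d ∈ E, d.IsReal) ∧
      (∀ x, transformList E P x =
        shiftSum g₀ (c - c.mapDomain (· + shiftVec P a₀)) x) ∧
      (Odd P.card → (∀ v ∈ P, v.valuation F a₀ = WithZero.exp (-2 : ℤ)) →
        (∀ w, coshTransform (g₀ w) 0 ≠ 0) → ∀ (Bad : Finset (FPlace F)), Disjoint P Bad →
          ∀ s : EigenSystem F, (∀ v ∈ P, s.a v = 0) → (∀ w, s.l w = 0) →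
            evalList E Bad s ≠ 0) := by
  refine ⟨killElem (shiftVec P a₀) g₀ hg, killCoeff (shiftVec P a₀), fun d hd v hv => ?_,
    fun d hd => ?_, transformList_killElem _ g₀ hg,
    fun hodd hord hg₀ Bad hdisj s ha hl => ?_⟩
  · classical
    obtain ⟨A, -, rfl⟩ := List.mem_map.mp hd
    exact elemDatum_loc_outside _ g₀ hg A hv
  · classical
    obtain ⟨A, -, rfl⟩ := List.mem_map.mp hd
    exact isReal_elemDatum _ g₀ hg hr A
  rw [evalList_killElem _ g₀ hg hdisj s (fun _ => Complex.I) (fun v _ => Complex.I_ne_zero)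
    (fun v hv => by rw [ha v hv, Complex.inv_I, add_neg_cancel]) hl]
  refine mul_ne_zero (pow_ne_zero _ (Finset.prod_ne_zero_iff.mpr fun ε _ => ?_))
    (Finset.prod_ne_zero_iff.mpr fun w _ => hg₀ w)
  have h : ∀ v : ↥P, Complex.I ^ (sgnInt (ε v) * (shiftVec P a₀).1 v) = -1 := fun v => by
    simp only [shiftVec]
    rw [hord v v.2, WithZero.log_exp, sgnInt]
    split <;> simp [zpow_ofNat]
  rw [Finset.prod_congr rfl fun v _ => h v, Finset.prod_const, Finset.card_univ, Fintype.card_coe,
    hodd.neg_one_pow]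
  norm_num

end Fermat.Agent.ResidualThree
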