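import Fermat.Agent.ResidualThree.Automorphic.Irreducible
import Fermat.Agent.ResidualThree.Orbital.AutHeight
import Fermat.Agent.ResidualThree.Orbital.Coord
import Fermat.Agent.ResidualThree.Tree.Action

/-!
# The operator of an automorphism of the field on functions

`sigmaFn f` composes a function with the automorphism of the space; it preserves the spaces of
eigenforms with invariant eigenvalues at invariant levels.
-/

noncomputable section

open IsDedekindDomain NumberField MeasureTheory
open scoped WithZero ComplexConjugate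

namespace Fermat.Agent.ResidualThree

open Orbital (comapPlace autGf autHyp autΩ localAutGL localAut coord conjH3 IsStableLevel)

variable {L : Type} [Field L] [NumberField L] (f : L ≃+* L)

/-- Composition with the automorphism. -/
def sigmaFn : Module.End ℂ (Gf L → Hyp L → ℂ) where
  toFun φ x p := φ (autGf f x) (autHyp f p)
  map_add' _ _ := rfl
  map_smul' _ _ := rfl

theorem sigmaFn_apply (φ : Gf L → Hyp L → ℂ) (x : Gf L) (p : Hyp L) :
    sigmaFn f φ x p = φ (autGf f x) (autHyp f p) := rfl

/-- Translations are moved by the automorphism. -/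
theorem sigmaFn_rightTr (g : Gf L) (φ : Gf L → Hyp L → ℂ) :
    sigmaFn f (rightTr (autGf f g) φ) = rightTr g (sigmaFn f φ) := by
  funext x p
  show φ (autGf f x * autGf f g) _ = φ (autGf f (x * g)) _
  rw [map_mul]

theorem autGf_single (w : FPlace L) (g : GLv (comapPlace f w)) :
    autGf f (single (comapPlace f w) g) = single w (localAutGL f w g) := by
  classical
  refine Subtype.ext (funext fun u => ?_)
  show localAutGL f u (Pi.mulSingle (comapPlace f w) g (comapPlace f u)) =
    Pi.mulSingle w (localAutGL f w g) u
  by_cases h : u = w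
  · subst h; rw [Pi.mulSingle_eq_same, Pi.mulSingle_eq_same]
  · rw [Pi.mulSingle_eq_of_ne h,
      Pi.mulSingle_eq_of_ne (fun e => h (Orbital.comapPlace_injective f e)), map_one]

/-- The automorphism on the vertices of a place. -/
def autVert (w : FPlace L) : Tree.Vert (valv (comapPlace f w)) → Tree.Vert (valv w) :=
  Tree.mapVert (localAut f w) (Orbital.valv_localAut f w)

theorem vdist_autVert (w : FPlace L) (x y : Tree.Vert (valv (comapPlace f w))) :
    Tree.vdist (autVert f w x) (autVert f w y) = Tree.vdist x y :=
  Tree.vdist_mapVert _ _ x y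

theorem autVert_baseVert (w : FPlace L) : autVert f w (baseVert (comapPlace f w)) = baseVert w :=
  congrArg QuotientGroup.mk (map_one (Matrix.GeneralLinearGroup.map (localAut f w)))

theorem autVert_injective (w : FPlace L) : Function.Injective (autVert f w) :=
  Tree.mapVert_injective _ _

variable [IsTotallyComplex L]

omit [NumberField L] [IsTotallyComplex L] in
theorem comap_comap_symm (z : InfinitePlace L) :
    (z.comap (f.symm : L →+* L)).comap (f : L →+* L) = z := by
  rw [← InfinitePlace.comap_comp,
    show (f.symm : L →+* L).comp (f : L →+* L) = RingHom.id L from RingHom.ext f.symm_apply_apply,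
    InfinitePlace.comap_id]

omit [NumberField L] [IsTotallyComplex L] in
theorem comap_symm_comap (z : InfinitePlace L) :
    (z.comap (f : L →+* L)).comap (f.symm : L →+* L) = z :=
  comap_comap_symm f.symm z

omit [NumberField L] [IsTotallyComplex L] in
theorem autHyp_update [DecidableEq (InfinitePlace L)] (p : Hyp L) (w : InfinitePlace L) (q : H3) :
    autHyp f (Function.update p (w.comap (f : L →+* L)) q) =
      Function.update (autHyp f p) w
        (coord (w.embedding.comp (f : L →+* L))
          (Function.update p (w.comap (f : L →+* L)) q)) := by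
  funext u
  by_cases h : u = w
  · subst h; rw [Function.update_self]; rfl
  · rw [Function.update_of_ne h]
    show coord _ _ = coord _ p
    have hne : InfinitePlace.mk (u.embedding.comp (f : L →+* L)) ≠ w.comap (f : L →+* L) := by
      rw [← InfinitePlace.comap_mk, InfinitePlace.mk_embedding]
      intro e
      have e' := congrArg (fun z : InfinitePlace L => z.comap (f.symm : L →+* L)) e
      simp only [comap_symm_comap] at e'
      exact h e'
    simp only [coord, Function.update_of_ne hne]

omit [IsTotallyComplex L] in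
theorem isAutomorphic_sigmaFn {U : Level L} (hU : IsStableLevel f U) {φ : Gf L → Hyp L → ℂ}
    (hφ : IsAutomorphic U φ) : IsAutomorphic U (sigmaFn f φ) where
  left γ x y hxy p := by
    rw [sigmaFn_apply, sigmaFn_apply, Orbital.autHyp_smul]
    refine hφ.left _ _ _ (fun v => ?_) _
    have e : y = diag L γ * x := Subtype.ext (funext fun w => hxy w)
    rw [e, map_mul, Orbital.autGf_diag]
    rfl
  right x j hj := by
    funext p
    rw [sigmaFn_apply, sigmaFn_apply, map_mul,
      hφ.right (autGf f x) (autGf f j) fun w => hU w _ (hj _)]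
  continuous x := (hφ.continuous _).comp (Orbital.continuous_autHyp f)

omit [IsTotallyComplex L] in
theorem isBoundedFn_sigmaFn {φ : Gf L → Hyp L → ℂ} (hφ : ∃ C, ∀ x p, ‖φ x p‖ ≤ C) :
    ∃ C, ∀ x p, ‖sigmaFn f φ x p‖ ≤ C :=
  ⟨_, fun _ _ => hφ.choose_spec _ _⟩

omit [IsTotallyComplex L] in
/-- The automorphism moves the eigenvalues along the places. -/
theorem hasEigenvalue_sigmaFn {φ : Gf L → Hyp L → ℂ} {a : ℂ} (u : FPlace L)
    (hs : IsSphericalAt u φ) (h : HasEigenvalue u a φ) :
    HasEigenvalue (comapPlace f u) a (sigmaFn f φ) := by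
  classical
  set v := comapPlace f u
  have hsph : Finset.image (autVert f u) (baseSphere v 1) = baseSphere u 1 := by
    refine Finset.eq_of_subset_of_card_le (fun y hy => ?_) ?_
    · obtain ⟨x, hx, rfl⟩ := Finset.mem_image.1 hy
      rw [mem_baseSphere, ← autVert_baseVert f u, vdist_autVert]
      exact mem_baseSphere.1 hx
    · rw [Finset.card_image_of_injective _ (autVert_injective f u)]
      have hn : ∀ z : FPlace L, (baseSphere z 1).card = Ideal.absNorm z.asIdeal + 1 := fun z => by
        rw [← (placeTree z).card_nbhd' (baseVert z)]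
        congr 1
        ext y
        rw [mem_baseSphere, (placeTree z).mem_nbhd]
      rw [hn, hn, show v = comapPlace f u from rfl, Orbital.absNorm_comapPlace]
  funext x p
  have h1 := congrFun (congrFun h (autGf f x)) (autHyp f p)
  rw [heckeOp_eq_sum, ← hsph,
    Finset.sum_image fun a _ b _ e => autVert_injective f u e] at h1
  rw [heckeOp_eq_sum]
  simp only [sigmaFn_apply]
  rw [show v = comapPlace f u from rfl, Orbital.absNorm_comapPlace]
  refine Eq.trans (Finset.sum_congr rfl fun y _ => ?_) h1
  rw [map_mul, autGf_single]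
  have e : (QuotientGroup.mk (localAutGL f u y.out) : Tree.Vert (valv u)) = autVert f u y := by
    conv_rhs => rw [← QuotientGroup.out_eq' y]
    rfl
  have e' := congrFun (congrFun (vertFun_mk hs (localAutGL f u y.out)) (autGf f x)) (autHyp f p)
  rw [e] at e'
  exact e'.symm

omit [NumberField L] [IsTotallyComplex L] in
open Classical in
theorem autHyp_horoShift (b : InfinitePlace L → ℂ) (p : Hyp L) (b' : InfinitePlace L → ℂ)
    (hb : ∀ w : InfinitePlace L, b' w =
      if (InfinitePlace.mk (w.embedding.comp (f : L →+* L))).embedding =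
          w.embedding.comp (f : L →+* L)
      then b (InfinitePlace.mk (w.embedding.comp (f : L →+* L)))
      else conj (b (InfinitePlace.mk (w.embedding.comp (f : L →+* L))))) :
    autHyp f (horoShift b p) = horoShift b' (autHyp f p) := by
  funext w
  show coord _ (horoShift b p) = (⟨(coord _ p).z + b' w, (coord _ p).y, _⟩ : H3)
  rw [hb]
  unfold coord
  split_ifs with h
  · rfl
  · exact H3.ext (map_add (starRingEnd ℂ) _ _) rfl

omit [IsTotallyComplex L] in
theorem autHyp_boxShift (c : BasisIx L → L) (t : BasisIx L → ℝ) (p : Hyp L) :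
    autHyp f (horoShift (fun w => ∑ i, (t i : ℂ) * w.embedding (c i)) p) =
      horoShift (fun w => ∑ i, (t i : ℂ) * w.embedding (f (c i))) (autHyp f p) := by
  refine autHyp_horoShift f _ p _ fun w => ?_
  split_ifs with h
  · exact Finset.sum_congr rfl fun i _ => by rw [h]; rfl
  · have hc : ComplexEmbedding.conjugate
        (InfinitePlace.mk (w.embedding.comp (f : L →+* L))).embedding =
        w.embedding.comp (f : L →+* L) := by
      rcases InfinitePlace.embedding_mk_eq (w.embedding.comp (f : L →+* L)) with h' | h'
      · exact absurd h' h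
      · rw [h']; exact star_star _
    rw [map_sum]
    refine Finset.sum_congr rfl fun i _ => ?_
    rw [map_mul, Complex.conj_ofReal]
    exact congrArg _ (RingHom.congr_fun hc (c i)).symm

/-- The automorphism preserves cuspidal functions. -/
theorem isCuspidal_sigmaFn {U : Level L} (hU : IsStableLevel f U) {φ : Gf L → Hyp L → ℂ}
    (hφ : IsAutomorphic U φ) (hc : IsCuspidal φ) : IsCuspidal (sigmaFn f φ) := by
  classical
  refine (isCuspidal_iff (isAutomorphic_sigmaFn f hU hφ)).2 fun x p => ?_
  obtain ⟨m, hm⟩ := (isAutomorphic_sigmaFn f hU hφ).exists_commonPeriod 0 x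
  obtain ⟨k, hk⟩ := hφ.exists_commonPeriod 0 (autGf f x)
  have hmk : HasCommonPeriod (sigmaFn f φ) 0 x (m * k) :=
    ⟨Nat.mul_pos hm.1 hk.1, hm.2.1.mul k, hm.2.2.mul k⟩
  have hkm : HasCommonPeriod φ 0 (autGf f x) (m * k) := by
    rw [mul_comm]; exact ⟨Nat.mul_pos hk.1 hm.1, hk.2.1.mul m, hk.2.2.mul m⟩
  rw [fourierCoeff_eq ((isAutomorphic_sigmaFn f hU hφ).continuous x) p hmk]
  set e := RingOfIntegers.mapRingEquiv f
  let A : Matrix (BasisIx L) (BasisIx L) ℤ := fun i j =>
    (RingOfIntegers.basis L).repr (e (RingOfIntegers.basis L j)) i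
  let B : Matrix (BasisIx L) (BasisIx L) ℤ := fun i j =>
    (RingOfIntegers.basis L).repr (e.symm (RingOfIntegers.basis L j)) i
  have hA : A.det ≠ 0 := by
    have e1 : A = LinearMap.toMatrix (RingOfIntegers.basis L) (RingOfIntegers.basis L)
        (e.toAddEquiv.toIntLinearEquiv : 𝓞 L →ₗ[ℤ] 𝓞 L) :=
      Matrix.ext fun i j => by rw [LinearMap.toMatrix_apply]; rfl
    have hu := LinearEquiv.isUnit_det (e.toAddEquiv.toIntLinearEquiv : 𝓞 L ≃ₗ[ℤ] 𝓞 L)
      (RingOfIntegers.basis L) (RingOfIntegers.basis L)
    rw [e1]
    exact hu.ne_zero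
  rw [boxMean_change hkm.2.1 hkm.2.2 (hφ.continuous _) hA (ψ := φ) (y := autGf f x)
    (q := autHyp f p) (m' := m * k) fun t => ?_, ← fourierCoeff_eq (hφ.continuous _) _ hkm]
  · exact fourierCoeff_zero hφ hc _ _
  · simp only [boxFun, archExp_zero_left, map_one, mul_one, sigmaFn_apply]
    congr 1
    rw [show boxPt (F := L) (m * k) t = fun w => ∑ i, (t i : ℂ) *
        w.embedding (((m * k : ℕ) : L) * (RingOfIntegers.basis L i : L)) by
      funext w; simp [boxPt, map_mul],
      autHyp_boxShift]
    congr 1
    have hcol : ∀ j, (f (RingOfIntegers.basis L j : L)) =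
        ∑ i, (A i j : L) * (RingOfIntegers.basis L i : L) := fun j => by
      have h := congrArg (fun z : 𝓞 L => (z : L))
        ((RingOfIntegers.basis L).sum_repr (e (RingOfIntegers.basis L j)))
      simp only [map_sum, zsmul_eq_mul, map_mul, map_intCast] at h
      exact h.symm
    have hb := boxPt_matrix (m := m * k) (m' := m * k) A 1
    funext w
    simp only [boxPt, map_mul, map_natCast, hcol, map_sum, map_intCast, Matrix.mulVec, dotProduct,
      Matrix.map_apply, Int.coe_castRingHom, Complex.ofReal_sum, Complex.ofReal_mul,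
      Complex.ofReal_intCast, Finset.mul_sum, Finset.sum_mul]
    rw [Finset.sum_comm]
    exact Finset.sum_congr rfl fun i _ => Finset.sum_congr rfl fun j _ => by ring

omit [IsTotallyComplex L] in
open Classical in
/-- The automorphism preserves spectral parameter zero. -/
theorem isSpectralZero_sigmaFn {φ : Gf L → Hyp L → ℂ} (hφ : IsSpectralZero φ) :
    IsSpectralZero (sigmaFn f φ) := by
  intro x w k hk hk' p
  obtain ⟨u, rfl⟩ : ∃ u : InfinitePlace L, u.comap (f : L →+* L) = w :=
    ⟨_, comap_comap_symm f w⟩
  set ψ := u.embedding.comp (f : L →+* L)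
  have hmk : InfinitePlace.mk ψ = u.comap (f : L →+* L) := by
    rw [← InfinitePlace.comap_mk, InfinitePlace.mk_embedding]
  have h1 := hφ (autGf f x) u k hk hk' (autHyp f p)
  simp only [sigmaFn_apply, autHyp_update]
  by_cases hc : (InfinitePlace.mk ψ).embedding = ψ
  · have hcoord : ∀ q, coord ψ (Function.update p (u.comap (f : L →+* L)) q) = q := fun q => by
      rw [coord, if_pos hc, hmk, Function.update_self]
    have hp : autHyp f p u = p (u.comap (f : L →+* L)) := by
      show coord ψ p = _
      rw [coord, if_pos hc, hmk]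
    simp only [show u.embedding.comp (f : L →+* L) = ψ from rfl, hcoord]
    rw [← hp]
    exact h1
  · have hcoord : ∀ q, coord ψ (Function.update p (u.comap (f : L →+* L)) q) = conjH3 q :=
      fun q => by rw [coord, if_neg hc, hmk, Function.update_self]
    have hp : autHyp f p u = conjH3 (p (u.comap (f : L →+* L))) := by
      show coord ψ p = _
      rw [coord, if_neg hc, hmk]
    simp only [show u.embedding.comp (f : L →+* L) = ψ from rfl, hcoord]
    rw [← h1, hp]
    let G : H3 → ℂ := fun q => k (H3.coshDist (conjH3 (p (u.comap (f : L →+* L)))) q) *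
      φ (autGf f x) (Function.update (autHyp f p) u q)
    let E : H3 ≃ᵐ H3 := ⟨⟨conjH3, conjH3, Orbital.conjH3_conjH3, Orbital.conjH3_conjH3⟩,
      Orbital.continuous_conjH3.measurable, Orbital.continuous_conjH3.measurable⟩
    have := MeasureTheory.MeasurePreserving.integral_comp Orbital.measurePreserving_conjH3
      E.measurableEmbedding G
    rw [← this]
    refine integral_congr_ae (Filter.Eventually.of_forall fun q => ?_)
    simp only [G, Orbital.coshDist_conjH3]

/-- The automorphism preserves the eigenforms of an invariant system at an invariant level. -/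
theorem sigmaFn_mem_levelForms {S : Finset (FPlace L)} {a : FPlace L → ℂ} {U : Level L}
    (hU : IsStableLevel f U) (hS : ∀ w, comapPlace f w ∈ S ↔ w ∈ S)
    (hJ : ∀ w ∉ S, U.J w = maxSubgroup w) (ha : ∀ w, a (comapPlace f w) = a w)
    {φ : Gf L → Hyp L → ℂ} (hφ : φ ∈ levelForms S a U) : sigmaFn f φ ∈ levelForms S a U := by
  have haut := isAutomorphic_sigmaFn f hU hφ.2
  refine ⟨⟨⟨U, haut, fun w hw => hJ w hw⟩, isCuspidal_sigmaFn f hU hφ.2 hφ.1.cuspidal,
    isSpectralZero_sigmaFn f hφ.1.spectral, isBoundedFn_sigmaFn f hφ.1.bounded, fun w hw => ?_⟩,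
    haut⟩
  obtain ⟨u, rfl⟩ := Orbital.comapPlace_surjective f w
  have huS : u ∉ (S : Set (FPlace L)) := fun h => hw (Finset.mem_coe.2 ((hS u).2 h))
  rw [ha]
  exact hasEigenvalue_sigmaFn f u (hφ.2.sphericalAt (hJ u (by simpa using huS))) (hφ.1.eigen u huS)

end Fermat.Agent.ResidualThree
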